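import Mathlib
import Fermat.Prelude.Def_AlgebraicCurve_DivisorPushPull

/-!
# M37 (E1)(4): abstract descent of a place reduction map along a finite extension

`K ⊆ F ⊆ F'` on the generic side, `k ⊆ Fk ⊆ Fk'` on the special side, `[F':F] = [Fk':Fk]`, all
places of degree one, fundamental identity on both sides.  If `r'` (places of `F'` to places of
`Fk'`) is compatible with a map `r` (places of `F` to places of `Fk`) under restriction, then the
local push-forward property of `r'` for a pair `(f, ft)` of elements of `F`, `Fk` descends to `r`.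
-/

set_option autoImplicit false

open AlgebraicCurve

namespace Fermat.Agent.M37

section general

variable {K F F' : Type*} [Field K] [Field F] [Field F']
  [Algebra K F] [Algebra K F'] [Algebra F F'] [IsScalarTower K F F']
  [Algebra.IsIntegral F F'] [HasPrincipalDivisors K F']

/-- The value of `mapRestrict` at a place is the sum over the fibre. -/
theorem m37dsc_mapRestrict_apply (E : Divisor K F') (v : Place K F) :
    Divisor.mapRestrict F E v = ∑ w ∈ v.fiber F', E w := by
  classical
  induction E using Finsupp.induction_linear with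
  | zero => simp
  | add E₁ E₂ h₁ h₂ =>
    rw [map_add, Finsupp.add_apply, h₁, h₂, ← Finset.sum_add_distrib]
    rfl
  | single w n =>
    rw [Divisor.mapRestrict_single]
    by_cases hw : w.restrict F = v
    · subst hw
      rw [Finsupp.single_eq_same]
      rw [Finset.sum_eq_single_of_mem w (Place.restrict_mem_fiber w)]
      · exact Finsupp.single_eq_same.symm
      · intro b _ hb
        exact Finsupp.single_eq_of_ne hb
    · rw [Finsupp.single_eq_of_ne (Ne.symm hw)]
      symm
      refine Finset.sum_eq_zero fun b hb => ?_
      refine Finsupp.single_eq_of_ne ?_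
      rintro rfl
      exact hw (Place.mem_fiber.mp hb)

/-- Sum of the ramification indices over a fibre, when all places have degree one. -/
theorem m37dsc_sum_ramificationIndex [FundamentalIdentity K F F']
    (hdeg : ∀ v : Place K F, v.deg = 1) (hdeg' : ∀ w : Place K F', w.deg = 1)
    (v : Place K F) :
    ∑ w ∈ v.fiber F', (w.ramificationIndex F : ℤ) = (Module.finrank F F' : ℤ) := by
  have h := FundamentalIdentity.sum_ramificationIndex_mul_deg (K := K) (F := F) (F' := F') v
  rw [hdeg v, Nat.cast_one, mul_one] at h
  rw [← h]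
  refine Finset.sum_congr rfl fun w _ => ?_
  rw [hdeg' w, Nat.cast_one, mul_one]

/-- Every place has a place above it. -/
theorem m37dsc_fiber_nonempty [FundamentalIdentity K F F']
    (hdeg : ∀ v : Place K F, v.deg = 1) (hdeg' : ∀ w : Place K F', w.deg = 1)
    (hd0 : 0 < Module.finrank F F') (v : Place K F) :
    (v.fiber F').Nonempty := by
  by_contra h
  rw [Finset.not_nonempty_iff_eq_empty] at h
  have h1 := m37dsc_sum_ramificationIndex hdeg hdeg' v
  rw [h, Finset.sum_empty] at h1
  have : (0 : ℤ) < (Module.finrank F F' : ℤ) := by exact_mod_cast hd0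
  omega

/-- `mapRestrict ∘ pullback` is multiplication by the degree. -/
theorem m37dsc_mapRestrict_pullback [FundamentalIdentity K F F']
    (hdeg : ∀ v : Place K F, v.deg = 1) (hdeg' : ∀ w : Place K F', w.deg = 1)
    (D : Divisor K F) :
    Divisor.mapRestrict F (Divisor.pullback F' D) = (Module.finrank F F' : ℤ) • D := by
  classical
  ext v
  rw [m37dsc_mapRestrict_apply, Finsupp.smul_apply, smul_eq_mul,
    ← m37dsc_sum_ramificationIndex hdeg hdeg' v, Finset.sum_mul]
  refine Finset.sum_congr rfl fun w hw => ?_
  rw [Divisor.pullback_apply, Place.mem_fiber.mp hw]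

end general

section descent

variable {K F F' : Type*} [Field K] [Field F] [Field F']
  [Algebra K F] [Algebra K F'] [Algebra F F'] [IsScalarTower K F F']
  [Algebra.IsIntegral F F'] [HasPrincipalDivisors K F'] [FundamentalIdentity K F F']
variable {k Fk Fk' : Type*} [Field k] [Field Fk] [Field Fk']
  [Algebra k Fk] [Algebra k Fk'] [Algebra Fk Fk'] [IsScalarTower k Fk Fk']
  [Algebra.IsIntegral Fk Fk'] [HasPrincipalDivisors k Fk'] [FundamentalIdentity k Fk Fk']

omit [HasPrincipalDivisors K F'] [FundamentalIdentity K F F'] [HasPrincipalDivisors k Fk']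
  [FundamentalIdentity k Fk Fk'] in
/-- Compatibility of `r'` and `r` with restriction, on divisors. -/
theorem m37dsc_mapDomain_mapRestrict
    (r' : Place K F' → Place k Fk') (r : Place K F → Place k Fk)
    (hC : ∀ P' : Place K F', r (P'.restrict F) = (r' P').restrict Fk)
    (D' : Divisor K F') :
    Finsupp.mapDomain r (Divisor.mapRestrict F D')
      = Divisor.mapRestrict Fk (Finsupp.mapDomain r' D') := by
  classical
  induction D' using Finsupp.induction_linear with
  | zero => simp
  | add E₁ E₂ h₁ h₂ =>
    rw [map_add, Finsupp.mapDomain_add, Finsupp.mapDomain_add, map_add, h₁, h₂]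
  | single w n =>
    rw [Divisor.mapRestrict_single, Finsupp.mapDomain_single, Finsupp.mapDomain_single,
      Divisor.mapRestrict_single, hC]

/-- **Descent of the local push-forward property.**  If `r'` and `r` are compatible with
restriction, `[F':F] = [Fk':Fk]`, and the push-forward by `r'` of the divisor of `f` (seen in
`F'`) is the divisor of `ft` (seen in `Fk'`), then the push-forward by `r` of the divisor of `f`
is the divisor of `ft`. -/
theorem m37dsc_hloc
    (hdeg : ∀ v : Place K F, v.deg = 1) (hdeg' : ∀ w : Place K F', w.deg = 1)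
    (hdegk : ∀ v : Place k Fk, v.deg = 1) (hdegk' : ∀ w : Place k Fk', w.deg = 1)
    (hd : Module.finrank F F' = Module.finrank Fk Fk') (hd0 : 0 < Module.finrank F F')
    (r' : Place K F' → Place k Fk') (r : Place K F → Place k Fk)
    (hC : ∀ P' : Place K F', r (P'.restrict F) = (r' P').restrict Fk)
    (f : F) (ft : Fk)
    (hloc' : ∀ D' : Divisor K F', (∀ P', D' P' = P'.ord (algebraMap F F' f)) →
      ∀ Q', Finsupp.mapDomain r' D' Q' = Q'.ord (algebraMap Fk Fk' ft))
    (D : Divisor K F) (hD : ∀ P, D P = P.ord f) (Q : Place k Fk) :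
    Finsupp.mapDomain r D Q = Q.ord ft := by
  classical
  have h1 : Finsupp.mapDomain r ((Module.finrank F F' : ℤ) • D) Q
      = (Module.finrank Fk Fk' : ℤ) * Q.ord ft := by
    rw [← m37dsc_mapRestrict_pullback hdeg hdeg' D, m37dsc_mapDomain_mapRestrict r' r hC,
      m37dsc_mapRestrict_apply, ← m37dsc_sum_ramificationIndex hdegk hdegk' Q, Finset.sum_mul]
    refine Finset.sum_congr rfl fun Q' hQ' => ?_
    rw [hloc' _ (fun P' => Divisor.pullback_apply_eq_ord hD P') Q', Place.ord_restrict,
      Place.mem_fiber.mp hQ']
  rw [Finsupp.mapDomain_smul, Finsupp.smul_apply, smul_eq_mul, hd] at h1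
  have hd0' : (Module.finrank Fk Fk' : ℤ) ≠ 0 := by
    rw [← hd]
    exact_mod_cast hd0.ne'
  exact mul_left_cancel₀ hd0' h1

omit [HasPrincipalDivisors k Fk'] [FundamentalIdentity k Fk Fk'] in
/-- Existence of the descended map: if the restriction of `r' P'` only depends on the restriction
of `P'`, there is `r` compatible with `r'`. -/
theorem m37dsc_exists_r
    (hdeg : ∀ v : Place K F, v.deg = 1) (hdeg' : ∀ w : Place K F', w.deg = 1)
    (hd0 : 0 < Module.finrank F F')
    (r' : Place K F' → Place k Fk')
    (hC : ∀ P₁ P₂ : Place K F', P₁.restrict F = P₂.restrict F →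
      (r' P₁).restrict Fk = (r' P₂).restrict Fk) :
    ∃ r : Place K F → Place k Fk, ∀ P' : Place K F', r (P'.restrict F) = (r' P').restrict Fk := by
  classical
  have hne : ∀ v : Place K F, ∃ w : Place K F', w.restrict F = v := fun v => by
    obtain ⟨w, hw⟩ := m37dsc_fiber_nonempty (F' := F') hdeg hdeg' hd0 v
    exact ⟨w, Place.mem_fiber.mp hw⟩
  choose s hs using hne
  exact ⟨fun v => (r' (s v)).restrict Fk, fun P' => hC _ _ (hs _)⟩

end descent

end Fermat.Agent.M37
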