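import Fermat.Agent.M18.N1Inst
import Fermat.Agent.M18.Sq3Lvl
import Fermat.Agent.M18.VLift2
import Fermat.Agent.M18.NrmRed
import Fermat.Agent.M18.NrpPlace

/-!
# M37 (E1)(4): lifting of powers of integral elements at level `N`, by norms from level `N'`

`N ∣ N'`, `N'` divisible by `4` or `9` and prime to `ℓ`.  For `b ∈ F~_N` integral over `k[j~]`
there is a Gauss-integral `y ∈ F_N`, integral over `Qbar[j]`, with reduction `b ^ d`,
`d = [F_{N'} : F_N]` (the norm of a lift of `b` at level `N'`).  Twin for the chart `1/j`.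
-/

set_option autoImplicit false
set_option linter.deprecated false
set_option linter.unusedSectionVars false
set_option linter.unusedVariables false
set_option linter.style.haveILetI false
set_option synthInstance.maxHeartbeats 400000
set_option maxHeartbeats 1600000

noncomputable section

namespace Fermat.Agent.M37

open AlgebraicCurve ModularCurve IntermediateField Module
open Fermat.Agent.M18 Fermat.Agent.S24

section abs

variable {F F' κ κ' : Type*} [Field F] [Field F'] [Algebra F F'] [Field κ] [Field κ']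
  [Algebra κ κ']
variable {O : ValuationSubring F} {red : O →+* κ} {O' : Subring F'} {red' : O' →+* κ'}

/-- the norm of an element of `O'` is in `O` and reduces to the norm of the reduction. -/
theorem m37dsc_norm_ext (hS : m18nrm_Setup O red O' red')
    [FiniteDimensional κ κ'] (hsurj' : Function.Surjective red')
    (hdd : finrank F F' = finrank κ κ') (b : O') :
    ∃ n : O, Algebra.norm F (b : F') = (n : F) ∧ Algebra.norm κ (red' b) = red n := by
  classical
  set bt := Module.finBasis κ κ' with hbt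
  have hex : ∀ i, ∃ w : O', red' w = bt i := fun i => hsurj' (bt i)
  choose ω hω using hex
  have hd' : finrank F F' = Fintype.card (Fin (finrank κ κ')) := by
    rw [Fintype.card_fin]
    exact hdd
  exact m18nrm_norm hS bt ω hω hd' b

end abs

section concrete

variable {A : ValuationSubring m18v_K} {ℓ : ℕ} [Fact ℓ.Prime] {N N' : ℕ} [NeZero N] [NeZero N']

/-- **(N-lift)**, both charts, in terms of the two lifting properties at level `N'`. -/
theorem m37dsc_nlift_of (hA : A.LiesOverPrime ℓ) (hNN' : N ∣ N') (hℓ : ¬ ℓ ∣ N')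
    (hℓN : ¬ ℓ ∣ N) :
    letI := m18n1_algBar hNN'
    letI := m18n1_alg (m18v_k A) hNN'
    ∀ (x : m18v_F N) (xt : m18v_Ft A N),
      m18v_LiftProp (K := m18v_K) (k := m18v_k A) x xt (m18v_Int A N')
        (m18sq_red (m18sq_dec hA hℓ)) →
      ∀ b : m18v_Ft A N,
        IsIntegral (Algebra.adjoin (m18v_k A) ({xt} : Set (m18v_Ft A N))) b →
        ∃ y : m18v_F N, m18v_Int A N y ∧
          IsIntegral (Algebra.adjoin m18v_K ({x} : Set (m18v_F N))) y ∧
          m18sq_red (m18sq_dec hA hℓN) y = b ^ (finrank (m18v_F N) (m18v_F N')) := by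
  letI := m18n1_algBar hNN'
  letI := m18n1_alg (m18v_k A) hNN'
  haveI := m18n1_bar_tower hNN'
  haveI := m18n1_tower (m18v_k A) hNN'
  haveI := m18n1_fd_res hA hNN' hℓ
  intro x xt hlift b hb
  have hb' : IsIntegral (Algebra.adjoin (m18v_k A) ({xt} : Set (m18v_Ft A N)))
      (algebraMap (m18v_Ft A N) (m18v_Ft A N') b) := hb.algebraMap
  obtain ⟨y', hI', hint', hred'⟩ := hlift _ hb'
  have hS := m18sq3_setup_lvl' (m18sq_dec hA hℓN) hNN' (m18sq_dec hA hℓ)
    (m18n1_bar_coe hNN') (m18n1_coe (m18v_k A) hNN')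
  have hsurj' : Function.Surjective (m18sq3_red (A := A) (M := N') (m18sq_dec hA hℓ)) :=
    m18sq3_red_surjective _
  obtain ⟨n, hn1, hn2⟩ := m37dsc_norm_ext hS hsurj' (m18n1_finrank hA hNN' hℓ)
    (⟨y', hI'⟩ : m18sq3_O A N')
  refine ⟨(n : m18v_F N), n.2, ?_, ?_⟩
  · rw [← hn1]
    exact m18nrp_isIntegral_norm (K := m18v_K) x hint'
  · have h1 : m18sq3_red (m18sq_dec hA hℓ) (⟨y', hI'⟩ : m18sq3_O A N')
        = algebraMap (m18v_Ft A N) (m18v_Ft A N') b := hred'
    rw [h1, Algebra.norm_algebraMap] at hn2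
    rw [m18n1_finrank hA hNN' hℓ, hn2]
    rfl

/-- **(N-lift)**, chart `j`. -/
theorem m37dsc_nlift (hA : A.LiesOverPrime ℓ) (hNN' : N ∣ N') (hN' : 4 ∣ N' ∨ 9 ∣ N')
    (hℓ : ¬ ℓ ∣ N') (hℓN : ¬ ℓ ∣ N) :
    letI := m18n1_algBar hNN'
    ∀ b : m18v_Ft A N,
      IsIntegral (Algebra.adjoin (m18v_k A) ({m18sq_jt A N} : Set (m18v_Ft A N))) b →
      ∃ y : m18v_F N, m18v_Int A N y ∧
        IsIntegral (Algebra.adjoin m18v_K ({s24j N} : Set (m18v_F N))) y ∧
        m18sq_red (m18sq_dec hA hℓN) y = b ^ (finrank (m18v_F N) (m18v_F N')) := by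
  letI := m18n1_algBar hNN'
  letI := m18n1_alg (m18v_k A) hNN'
  haveI := m18n1_bar_tower hNN'
  haveI := m18n1_tower (m18v_k A) hNN'
  exact m37dsc_nlift_of hA hNN' hℓ hℓN (s24j N) (m18sq_jt A N)
    (m18v_hlift (N := N) hA N' hN' hℓ (m18n1_map_sj hNN') (m18n1_map_jt A hNN'))

/-- **(N-lift)**, chart `1/j`. -/
theorem m37dsc_nlift_inv (hA : A.LiesOverPrime ℓ) (hNN' : N ∣ N') (hN' : 4 ∣ N' ∨ 9 ∣ N')
    (hℓ : ¬ ℓ ∣ N') (hℓN : ¬ ℓ ∣ N) :
    letI := m18n1_algBar hNN'
    ∀ b : m18v_Ft A N,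
      IsIntegral (Algebra.adjoin (m18v_k A) ({(m18sq_jt A N)⁻¹} : Set (m18v_Ft A N))) b →
      ∃ y : m18v_F N, m18v_Int A N y ∧
        IsIntegral (Algebra.adjoin m18v_K ({(s24j N)⁻¹} : Set (m18v_F N))) y ∧
        m18sq_red (m18sq_dec hA hℓN) y = b ^ (finrank (m18v_F N) (m18v_F N')) := by
  letI := m18n1_algBar hNN'
  letI := m18n1_alg (m18v_k A) hNN'
  haveI := m18n1_bar_tower hNN'
  haveI := m18n1_tower (m18v_k A) hNN'
  exact m37dsc_nlift_of hA hNN' hℓ hℓN (s24j N)⁻¹ (m18sq_jt A N)⁻¹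
    (m18v_hlifti (N := N) hA N' hN' hℓ (m18n1_map_sj hNN') (m18n1_map_jt A hNN'))

end concrete

end Fermat.Agent.M37
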