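import Fermat.Agent.M18.NrpPlace
import Fermat.Agent.M18.DifPlace

/-!
# M37 (E1)(4): separating two places by an integral function

`K` algebraically closed, `F / K(x)` finite separable.  Two distinct places at which `x` is
regular are separated by an element integral over `K[x]`: it vanishes at the first place and is a
unit at the second one.
-/

set_option autoImplicit false
set_option linter.deprecated false
set_option linter.unusedSectionVars false
set_option linter.unusedVariables false
set_option linter.style.haveILetI false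

noncomputable section

namespace Fermat.Agent.M37

open AlgebraicCurve IsDedekindDomain IntermediateField Fermat.Agent.M18 Fermat.Agent.S24
open scoped IntermediateField.algebraAdjoinAdjoin

variable {K F : Type*} [Field K] [Field F] [Algebra K F] [IsAlgClosed K]

theorem m37dsc_sep (x : F) (hx : Transcendental K x) [FiniteDimensional K⟮x⟯ F]
    [Algebra.IsSeparable K⟮x⟯ F] (Q₁ Q₂ : Place K F) (hne : Q₁ ≠ Q₂)
    (h1 : 0 ≤ Q₁.ord x) (h2 : 0 ≤ Q₂.ord x) :
    ∃ b : F, IsIntegral (Algebra.adjoin K ({x} : Set F)) b ∧ 0 < Q₁.ord b ∧ Q₂.ord b = 0 := by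
  classical
  have hDed : IsDedekindDomain (Algebra.adjoin K ({x} : Set F)) := algaz_isDedekindDomain x hx
  have hDedR : IsDedekindDomain (integralClosure (Algebra.adjoin K ({x} : Set F)) F) :=
    integralClosure.isDedekindDomain (Algebra.adjoin K ({x} : Set F)) K⟮x⟯ F
  have hFracR : IsFractionRing (integralClosure (Algebra.adjoin K ({x} : Set F)) F) F :=
    integralClosure.isFractionRing_of_finite_extension K⟮x⟯ F
  have hFinR : Module.Finite (Algebra.adjoin K ({x} : Set F))
      (integralClosure (Algebra.adjoin K ({x} : Set F)) F) :=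
    IsIntegralClosure.finite (Algebra.adjoin K ({x} : Set F)) K⟮x⟯ F
      (integralClosure (Algebra.adjoin K ({x} : Set F)) F)
  have hQR : ∀ Q : Place K F, 0 ≤ Q.ord x →
      ∀ r : integralClosure (Algebra.adjoin K ({x} : Set F)) F,
      algebraMap (integralClosure (Algebra.adjoin K ({x} : Set F)) F) F r
        ∈ Q.toValuationSubring := fun Q hQ r =>
    algad_integral_mem (K := K) (F := F) (A := Algebra.adjoin K ({x} : Set F))
      (B := integralClosure (Algebra.adjoin K ({x} : Set F)) F) Q
      (fun a => m18nrp_adjoin_mem x Q hQ a.2) r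
  obtain ⟨w₁, hw₁, hw₁'⟩ := algad_exists_heightOneSpectrum (K := K) (F := F)
    (R := integralClosure (Algebra.adjoin K ({x} : Set F)) F) Q₁ (hQR Q₁ h1)
  obtain ⟨w₂, hw₂, hw₂'⟩ := algad_exists_heightOneSpectrum (K := K) (F := F)
    (R := integralClosure (Algebra.adjoin K ({x} : Set F)) F) Q₂ (hQR Q₂ h2)
  have hw : ¬ w₁.asIdeal ≤ w₂.asIdeal := by
    intro hle
    apply hne
    have hmax : w₁.asIdeal.IsMaximal := w₁.isMaximal
    have heq : w₁.asIdeal = w₂.asIdeal := hmax.eq_of_le w₂.isPrime.ne_top hle
    have : w₁ = w₂ := HeightOneSpectrum.ext heq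
    rw [← hw₁, ← hw₂, this]
  rw [SetLike.not_le_iff_exists] at hw
  obtain ⟨b, hb1, hb2⟩ := hw
  have hb0 : b ≠ 0 := by
    rintro rfl
    exact hb2 (Ideal.zero_mem _)
  refine ⟨algebraMap (integralClosure (Algebra.adjoin K ({x} : Set F)) F) F b, b.2, ?_, ?_⟩
  · exact ((hw₁' b).mp hb1).resolve_left hb0
  · have h3 : ¬ 0 < Q₂.ord (algebraMap (integralClosure (Algebra.adjoin K ({x} : Set F)) F) F b) :=
      fun h => hb2 ((hw₂' b).mpr (Or.inr h))
    have h4 : 0 ≤ Q₂.ord (algebraMap (integralClosure (Algebra.adjoin K ({x} : Set F)) F) F b) :=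
      alga_ord_nonneg_of_mem Q₂ (hQR Q₂ h2 b)
    omega

end Fermat.Agent.M37
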