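import Fermat.Agent.M18.NrmAsm
import Fermat.Agent.M18.NrpPlace
import Fermat.Agent.M37.DscAbs

/-!
# M37 (E1)(4): well-definedness of the descended place reduction, one chart (abstract form)

`G : m18_Gauss A r'` a Gauss package for `F'`, `Fk'`; `F ⊆ F'`, `Fk ⊆ Fk'` subfields; `z : F` a
coordinate with reduction `zt : Fk` such that the poles of `z` specialise to poles of `zt`;
every element of `Fk` integral over `k[zt]` has a power which lifts to a Gauss-integral element
of `F` integral over `K[z]`.  Then two places of `F'` with the same restriction to `F`, whose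
specialisations are not poles of `zt`, have specialisations with the same restriction to `Fk`.
-/

set_option autoImplicit false
set_option linter.deprecated false
set_option linter.unusedSectionVars false
set_option linter.unusedVariables false
set_option linter.style.haveILetI false

noncomputable section

namespace Fermat.Agent.M37

open AlgebraicCurve Fermat.Agent.M18 Fermat.Agent.S24

section pos

variable {K F' Fk' : Type*} [Field K] [Field F'] [Algebra K F'] {A : ValuationSubring K}
  [Field Fk'] [Algebra (IsLocalRing.ResidueField A) Fk']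
  {r' : Place K F' → Place (IsLocalRing.ResidueField A) Fk'}
  [HasPrincipalDivisors K F']

/-- A zero of a Gauss unit specialises to a zero of its reduction, if the unit has no pole in
the tube. -/
theorem m37dsc_pos_of_hloc (G : m18_Gauss A r') (y : G.O) (hy : G.red y ≠ 0)
    (P' : Place K F') (hP' : 0 < P'.ord (y : F'))
    (hnn : ∀ P'', r' P'' = r' P' → 0 ≤ P''.ord (y : F')) :
    0 < (r' P').ord (G.red y) := by
  have hy0 : (y : F') ≠ 0 := by
    intro h0
    apply hy
    have : y = 0 := Subtype.ext h0
    rw [this, map_zero]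
  obtain ⟨D, hD, -⟩ := HasPrincipalDivisors.exists_divisor (K := K) (y : F') hy0
  have h1 := G.hloc y hy D hD (r' P')
  have h2 : 0 ≤ Finsupp.mapDomain r' D (r' P') :=
    m18nrm_mapDomain_nonneg r' D (r' P') (fun a ha => by rw [hD]; exact hnn a ha)
  rcases h2.lt_or_eq with h3 | h3
  · rw [h1] at h3
    exact h3
  · exfalso
    have h4 := m18nrm_eq_zero_of_mapDomain_eq_zero r' D (r' P')
      (fun a ha => by rw [hD]; exact hnn a ha) h3.symm P' rfl
    rw [hD] at h4
    omega

end pos

section ordmap

variable {K F F' : Type*} [Field K] [Field F] [Field F'] [Algebra K F] [Algebra K F']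
  [Algebra F F'] [IsScalarTower K F F'] [Algebra.IsIntegral F F']

/-- positivity of the order is inherited by a restriction. -/
theorem m37dsc_ord_map_pos (w : Place K F') {f : F} (h : 0 < (w.restrict F).ord f) :
    0 < w.ord (algebraMap F F' f) := by
  rw [Place.ord_restrict]
  have he : 0 < Place.ramificationIndex (F := F) w := w.ramificationIndex_pos (F := F)
  positivity

theorem m37dsc_ord_of_map_pos (w : Place K F') {f : F} (h : 0 < w.ord (algebraMap F F' f)) :
    0 < (w.restrict F).ord f := by
  rw [Place.ord_restrict] at h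
  have he : 0 < Place.ramificationIndex (F := F) w := w.ramificationIndex_pos (F := F)
  by_contra hcon
  rw [not_lt] at hcon
  have : (Place.ramificationIndex (F := F) w : ℤ) * (w.restrict F).ord f ≤ 0 :=
    mul_nonpos_of_nonneg_of_nonpos (by positivity) hcon
  omega

theorem m37dsc_ord_map_nonneg (w : Place K F') {f : F} (h : 0 ≤ (w.restrict F).ord f) :
    0 ≤ w.ord (algebraMap F F' f) := by
  rw [Place.ord_restrict]
  positivity

theorem m37dsc_ord_map_neg (w : Place K F') {f : F} (h : (w.restrict F).ord f < 0) :
    w.ord (algebraMap F F' f) < 0 := by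
  rw [Place.ord_restrict]
  have he : 0 < Place.ramificationIndex (F := F) w := w.ramificationIndex_pos (F := F)
  have : (Place.ramificationIndex (F := F) w : ℤ) * (w.restrict F).ord f < 0 :=
    mul_neg_of_pos_of_neg (by exact_mod_cast he) h
  exact this

theorem m37dsc_ord_map_zero (w : Place K F') {f : F} (h : (w.restrict F).ord f = 0) :
    w.ord (algebraMap F F' f) = 0 := by
  rw [Place.ord_restrict, h, mul_zero]

end ordmap

section chart

variable {K F' Fk' : Type*} [Field K] [Field F'] [Algebra K F'] {A : ValuationSubring K}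
  [Field Fk'] [Algebra (IsLocalRing.ResidueField A) Fk']
  {r' : Place K F' → Place (IsLocalRing.ResidueField A) Fk'}
  [HasPrincipalDivisors K F'] [IsAlgClosed K]
  {F Fk : Type*} [Field F] [Field Fk] [Algebra K F] [Algebra F F'] [IsScalarTower K F F']
  [Algebra.IsIntegral F F']
  [Algebra (IsLocalRing.ResidueField A) Fk] [Algebra Fk Fk']
  [IsScalarTower (IsLocalRing.ResidueField A) Fk Fk'] [Algebra.IsIntegral Fk Fk']


/-- **one chart**: two places of `F'` over the same place of `F`, whose specialisations are not
poles of `zt`, have specialisations over the same place of `Fk`. -/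
theorem m37dsc_chart (G : m18_Gauss A r')
    (z : F) (zt : Fk)
    (htube : ∀ P' : Place K F', P'.ord (algebraMap F F' z) < 0 →
      (r' P').ord (algebraMap Fk Fk' zt) < 0)
    (d : ℕ) (hd : 0 < d)
    (hlift : ∀ b : Fk, IsIntegral (Algebra.adjoin (IsLocalRing.ResidueField A) ({zt} : Set Fk)) b →
      ∃ (y : F) (hy : algebraMap F F' y ∈ G.O), IsIntegral (Algebra.adjoin K ({z} : Set F)) y ∧
        G.red ⟨algebraMap F F' y, hy⟩ = algebraMap Fk Fk' (b ^ d))
    (hsep : ∀ Q₁ Q₂ : Place (IsLocalRing.ResidueField A) Fk, Q₁ ≠ Q₂ → 0 ≤ Q₁.ord zt →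
      0 ≤ Q₂.ord zt →
      ∃ b : Fk, IsIntegral (Algebra.adjoin (IsLocalRing.ResidueField A) ({zt} : Set Fk)) b ∧
        0 < Q₁.ord b ∧ Q₂.ord b = 0)
    (hval : ∀ (P : Place K F) (y : F), 0 ≤ P.ord y →
      ∃ c : K, y = algebraMap K F c ∨ 0 < P.ord (y - algebraMap K F c))
    (P₁ P₂ : Place K F') (hP : P₁.restrict F = P₂.restrict F)
    (h1 : 0 ≤ ((r' P₁).restrict Fk).ord zt) (h2 : 0 ≤ ((r' P₂).restrict Fk).ord zt) :
    (r' P₁).restrict Fk = (r' P₂).restrict Fk := by
  classical
  by_contra hne
  obtain ⟨b, hb, hb1, hb2⟩ := hsep _ _ hne h1 h2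
  obtain ⟨y, hyO, hyint, hyred⟩ := hlift b hb
  have hdz : (d : ℤ) ≠ 0 := by exact_mod_cast hd.ne'
  -- orders of `b ^ d`
  have hbd1 : 0 < ((r' P₁).restrict Fk).ord (b ^ d) := by
    have := ((r' P₁).restrict Fk).ord_zpow b (d : ℤ)
    rw [zpow_natCast] at this
    rw [this]
    positivity
  have hbd2 : ((r' P₂).restrict Fk).ord (b ^ d) = 0 := by
    have := ((r' P₂).restrict Fk).ord_zpow b (d : ℤ)
    rw [zpow_natCast] at this
    rw [this, hb2, mul_zero]
  -- the places in the tubes are not poles of `z`
  have hreg : ∀ i : Place K F', (i = P₁ ∨ i = P₂) → ∀ P'' : Place K F', r' P'' = r' i →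
      0 ≤ P''.ord (algebraMap F F' z) := by
    intro i hi P'' hP''
    by_contra hcon
    rw [not_le] at hcon
    have h3 := htube P'' hcon
    rw [hP''] at h3
    have h4 : 0 ≤ (r' i).ord (algebraMap Fk Fk' zt) := by
      rcases hi with rfl | rfl
      · exact m37dsc_ord_map_nonneg _ h1
      · exact m37dsc_ord_map_nonneg _ h2
    omega
  have hyint' : IsIntegral (Algebra.adjoin K ({z} : Set F)) (algebraMap F F' y) :=
    hyint.algebraMap
  have hyreg : ∀ i : Place K F', (i = P₁ ∨ i = P₂) → ∀ P'' : Place K F', r' P'' = r' i →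
      0 ≤ P''.ord (algebraMap F F' y) := fun i hi P'' hP'' =>
    m18nrp_ord_nonneg_of_isIntegral (K := K) z hyint' P'' (hreg i hi P'' hP'')
  -- `z`, `y` are regular at the common restriction
  have hzP : 0 ≤ (P₁.restrict F).ord z := by
    by_contra hcon
    rw [not_le] at hcon
    have := m37dsc_ord_map_neg P₁ hcon
    have := hreg P₁ (Or.inl rfl) P₁ rfl
    omega
  have hyP : 0 ≤ (P₁.restrict F).ord y :=
    m18nrp_ord_nonneg_of_isIntegral (K := K) (F := F) (F' := F) z hyint (P₁.restrict F) hzP
  obtain ⟨c, hc⟩ := hval (P₁.restrict F) y hyP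
  by_cases hcA : c ∈ A
  · -- the value is integral
    set Y : G.O := ⟨algebraMap F F' y, hyO⟩ - ⟨algebraMap K F' c, G.const_mem ⟨c, hcA⟩⟩ with hY
    have hYcoe : (Y : F') = algebraMap F F' (y - algebraMap K F c) := by
      rw [map_sub, ← IsScalarTower.algebraMap_apply]
      rfl
    have hYred : G.red Y = algebraMap Fk Fk' (b ^ d - algebraMap (IsLocalRing.ResidueField A) Fk
        (IsLocalRing.residue A ⟨c, hcA⟩)) := by
      have hrc : G.red ⟨algebraMap K F' c, G.const_mem ⟨c, hcA⟩⟩ =
          algebraMap (IsLocalRing.ResidueField A) Fk' (IsLocalRing.residue A ⟨c, hcA⟩) :=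
        G.red_const ⟨c, hcA⟩
      rw [hY, map_sub, hyred, hrc, map_sub, ← IsScalarTower.algebraMap_apply]
    by_cases hY0 : G.red Y = 0
    · rw [hYred] at hY0
      have h3 : b ^ d - algebraMap (IsLocalRing.ResidueField A) Fk
          (IsLocalRing.residue A ⟨c, hcA⟩) = 0 :=
        (map_eq_zero (algebraMap Fk Fk')).mp hY0
      rw [sub_eq_zero] at h3
      rw [h3, alga_ord_algebraMap] at hbd1
      omega
    · have hyc : y ≠ algebraMap K F c := by
        intro h0
        apply hY0
        have : Y = 0 := by
          apply Subtype.ext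
          rw [hYcoe, h0, sub_self, map_zero]
          rfl
        rw [this, map_zero]
      have hpos : 0 < (P₁.restrict F).ord (y - algebraMap K F c) := hc.resolve_left hyc
      have hnn : ∀ i : Place K F', (i = P₁ ∨ i = P₂) → ∀ P'' : Place K F', r' P'' = r' i →
          0 ≤ P''.ord (Y : F') := by
        intro i hi P'' hP''
        apply alga_ord_nonneg_of_mem
        exact sub_mem (alga_mem_of_ord_nonneg _ (hyreg i hi P'' hP'')) (P''.algebraMap_mem' c)
      have hp1 : 0 < (r' P₁).ord (G.red Y) := by
        apply m37dsc_pos_of_hloc G Y hY0 P₁ _ (hnn P₁ (Or.inl rfl))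
        rw [hYcoe]
        exact m37dsc_ord_map_pos P₁ hpos
      have hp2 : 0 < (r' P₂).ord (G.red Y) := by
        apply m37dsc_pos_of_hloc G Y hY0 P₂ _ (hnn P₂ (Or.inr rfl))
        rw [hYcoe]
        apply m37dsc_ord_map_pos P₂
        rw [← hP]
        exact hpos
      rw [hYred] at hp1 hp2
      have hq1 := m37dsc_ord_of_map_pos _ hp1
      have hq2 := m37dsc_ord_of_map_pos _ hp2
      -- the residue of `c` vanishes
      have hres : algebraMap (IsLocalRing.ResidueField A) Fk
          (IsLocalRing.residue A ⟨c, hcA⟩) = 0 := by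
        by_contra hr0
        have h5 : 0 < ((r' P₁).restrict Fk).ord
            (b ^ d + -(b ^ d - algebraMap (IsLocalRing.ResidueField A) Fk
              (IsLocalRing.residue A ⟨c, hcA⟩))) := by
          apply alga_ord_add_pos _ hbd1
          · have h6 : -(b ^ d - algebraMap (IsLocalRing.ResidueField A) Fk
                (IsLocalRing.residue A ⟨c, hcA⟩)) = (-1 : Fk) * (b ^ d -
                algebraMap (IsLocalRing.ResidueField A) Fk
                (IsLocalRing.residue A ⟨c, hcA⟩)) := by ring
            have h7 : b ^ d - algebraMap (IsLocalRing.ResidueField A) Fk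
                (IsLocalRing.residue A ⟨c, hcA⟩) ≠ 0 := by
              intro h0
              rw [h0, Place.ord_zero] at hq1
              omega
            have h8 : ((r' P₁).restrict Fk).ord (-1 : Fk) = 0 := by
              have := alga_ord_algebraMap ((r' P₁).restrict Fk)
                (-1 : IsLocalRing.ResidueField A)
              rwa [map_neg, map_one] at this
            rw [h6, Place.ord_mul _ (by norm_num) h7, h8, zero_add]
            exact hq1
          · intro h0
            apply hr0
            have : b ^ d + -(b ^ d - algebraMap (IsLocalRing.ResidueField A) Fk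
                (IsLocalRing.residue A ⟨c, hcA⟩)) = algebraMap (IsLocalRing.ResidueField A) Fk
                (IsLocalRing.residue A ⟨c, hcA⟩) := by ring
            rw [← this]
            exact h0
        have h9 : b ^ d + -(b ^ d - algebraMap (IsLocalRing.ResidueField A) Fk
            (IsLocalRing.residue A ⟨c, hcA⟩)) = algebraMap (IsLocalRing.ResidueField A) Fk
            (IsLocalRing.residue A ⟨c, hcA⟩) := by ring
        rw [h9, alga_ord_algebraMap] at h5
        omega
      rw [hres, sub_zero, hbd2] at hq2
      omega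
  · -- the value is not integral
    have hc0 : c ≠ 0 := by
      rintro rfl
      exact hcA (zero_mem _)
    have hcinv : c⁻¹ ∈ A := (A.mem_or_inv_mem c).resolve_left hcA
    have hnu : ¬ IsUnit (⟨c⁻¹, hcinv⟩ : A) := by
      intro hu
      obtain ⟨u, hu⟩ := hu
      apply hcA
      have h3 : c = ((u⁻¹ : Aˣ) : A) := by
        have h4 := congrArg Subtype.val (u.mul_inv)
        rw [hu] at h4
        have h5 : c⁻¹ * (((u⁻¹ : Aˣ) : A) : K) = 1 := h4
        field_simp at h5
        exact h5.symm
      rw [h3]
      exact Subtype.property _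
    have hres : IsLocalRing.residue A ⟨c⁻¹, hcinv⟩ = 0 := by
      rw [IsLocalRing.residue_eq_zero_iff]
      exact (IsLocalRing.mem_maximalIdeal _).mpr hnu
    set Y : G.O := ⟨algebraMap K F' c⁻¹, G.const_mem ⟨c⁻¹, hcinv⟩⟩ * ⟨algebraMap F F' y, hyO⟩ - 1
      with hY
    have hYcoe : (Y : F') = algebraMap F F' (algebraMap K F c⁻¹ * (y - algebraMap K F c)) := by
      rw [map_mul, map_sub, ← IsScalarTower.algebraMap_apply, ← IsScalarTower.algebraMap_apply,
        mul_sub, ← map_mul, inv_mul_cancel₀ hc0, map_one]
      rfl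
    have hYred : G.red Y = -1 := by
      have hrc : G.red ⟨algebraMap K F' c⁻¹, G.const_mem ⟨c⁻¹, hcinv⟩⟩ =
          algebraMap (IsLocalRing.ResidueField A) Fk' (IsLocalRing.residue A ⟨c⁻¹, hcinv⟩) :=
        G.red_const ⟨c⁻¹, hcinv⟩
      rw [hY, map_sub, map_mul, hrc, hres, map_zero, zero_mul, map_one, zero_sub]
    have hY0 : G.red Y ≠ 0 := by
      rw [hYred]
      norm_num
    have hyc : y ≠ algebraMap K F c := by
      intro h0
      apply hY0
      have : Y = 0 := by
        apply Subtype.ext
        rw [hYcoe, h0, sub_self, mul_zero, map_zero]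
        rfl
      rw [this, map_zero]
    have hpos : 0 < (P₁.restrict F).ord (y - algebraMap K F c) := hc.resolve_left hyc
    have hpos' : 0 < (P₁.restrict F).ord (algebraMap K F c⁻¹ * (y - algebraMap K F c)) := by
      rw [Place.ord_mul _ (by simpa using hc0) (sub_ne_zero.mpr hyc), alga_ord_algebraMap,
        zero_add]
      exact hpos
    have hnn : ∀ P'' : Place K F', r' P'' = r' P₁ → 0 ≤ P''.ord (Y : F') := by
      intro P'' hP''
      apply alga_ord_nonneg_of_mem
      exact sub_mem (mul_mem (P''.algebraMap_mem' c⁻¹)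
        (alga_mem_of_ord_nonneg _ (hyreg P₁ (Or.inl rfl) P'' hP''))) (one_mem _)
    have hp1 : 0 < (r' P₁).ord (G.red Y) := by
      apply m37dsc_pos_of_hloc G Y hY0 P₁ _ hnn
      rw [hYcoe]
      exact m37dsc_ord_map_pos P₁ hpos'
    rw [hYred] at hp1
    have h8 : (r' P₁).ord (-1 : Fk') = 0 := by
      have := alga_ord_algebraMap (r' P₁) (-1 : IsLocalRing.ResidueField A)
      rwa [map_neg, map_one] at this
    omega

end chart

end Fermat.Agent.M37
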