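import Fermat.Agent.M18.VTube
import Fermat.Agent.M37.DscChart

/-!
# M37 (E1)(4): tubes, complements to `M18/VTube.lean`

At a level `M` with `h : ReductionInputsModL A M`:

* `m37dsc_tube_zero` : zeros of `j` specialise to zeros of `j~`;
* `m37dsc_value_mem` : the value of `j` at a place specialising to a non-pole of `j~` is in `A`.
-/

set_option autoImplicit false
set_option linter.deprecated false
set_option linter.unusedSectionVars false
set_option linter.unusedVariables false
set_option linter.style.haveILetI false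
set_option synthInstance.maxHeartbeats 400000
set_option maxHeartbeats 1600000

noncomputable section

namespace Fermat.Agent.M37

open AlgebraicCurve ModularCurve IntermediateField Module
open Fermat.Agent.M18 Fermat.Agent.S24

variable {A : ValuationSubring m18v_K} {ℓ : ℕ} [Fact ℓ.Prime] {M : ℕ} [NeZero M]

/-- zeros of `j` specialise to zeros of `j~`. -/
theorem m37dsc_tube_zero (h : ReductionInputsModL A M) (hA : A.LiesOverPrime ℓ)
    (hℓ : ¬ ℓ ∣ M) (P : Place m18v_K (m18v_F M)) (hP : 0 < P.ord (s24j M)) :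
    0 < (placeReductionModL h P).ord (m18sq_jt A M) := by
  haveI := m18v_hasPrincipalDivisors M
  have hnp : 0 ≤ (placeReductionModL h P).ord (m18sq_jt A M) := by
    by_contra hcon
    rw [not_le] at hcon
    have h1 := m18v_tube_j_inf h hA hℓ P hcon 0
    have h2 : s24j M - algebraMap m18v_K (m18v_F M) ((0 : A) : m18v_K) = s24j M := by
      rw [ZeroMemClass.coe_zero, map_zero, sub_zero]
    rw [h2] at h1
    omega
  have hred : (m18v_gauss h).red ⟨s24j M, m18v_j_mem h⟩ ≠ 0 := by
    rw [m18v_red_j]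
    exact m18v_jt_ne_zero
  have h3 := m37dsc_pos_of_hloc (m18v_gauss h) ⟨s24j M, m18v_j_mem h⟩ hred P hP
    (fun P'' hP'' => m18v_tube_j h hA hℓ P'' (by rw [hP'']; exact hnp))
  rw [m18v_red_j] at h3
  exact h3

/-- the value of `j` at a place specialising to a non-pole of `j~` is integral. -/
theorem m37dsc_value_mem (h : ReductionInputsModL A M) (hA : A.LiesOverPrime ℓ)
    (hℓ : ¬ ℓ ∣ M) (P : Place m18v_K (m18v_F M))
    (hP : 0 ≤ (placeReductionModL h P).ord (m18sq_jt A M)) (c : m18v_K)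
    (hc : 0 < P.ord (s24j M - algebraMap m18v_K (m18v_F M) c)) : c ∈ A := by
  haveI := m18v_hasPrincipalDivisors M
  by_contra hcA
  have hc0 : c ≠ 0 := by
    rintro rfl
    exact hcA (zero_mem _)
  have hcinv : c⁻¹ ∈ A := (A.mem_or_inv_mem c).resolve_left hcA
  have hnu : ¬ IsUnit (⟨c⁻¹, hcinv⟩ : A) := by
    intro hu
    obtain ⟨u, hu⟩ := hu
    apply hcA
    have h3 : c = ((u⁻¹ : Aˣ) : A) := by
      have h4 := congrArg Subtype.val (u.mul_inv)
      rw [hu] at h4
      have h5 : c⁻¹ * (((u⁻¹ : Aˣ) : A) : m18v_K) = 1 := h4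
      field_simp at h5
      exact h5.symm
    rw [h3]
    exact Subtype.property _
  have hres : IsLocalRing.residue A ⟨c⁻¹, hcinv⟩ = 0 := by
    rw [IsLocalRing.residue_eq_zero_iff]
    exact (IsLocalRing.mem_maximalIdeal _).mpr hnu
  set G := m18v_gauss h with hG
  set Y : G.O := ⟨algebraMap m18v_K (m18v_F M) c⁻¹, G.const_mem ⟨c⁻¹, hcinv⟩⟩ *
    ⟨s24j M, m18v_j_mem h⟩ - 1 with hY
  have hYcoe : (Y : m18v_F M) = algebraMap m18v_K (m18v_F M) c⁻¹ *
      (s24j M - algebraMap m18v_K (m18v_F M) c) := by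
    rw [mul_sub, ← map_mul, inv_mul_cancel₀ hc0, map_one]
    rfl
  have hYred : G.red Y = -1 := by
    have hrc : G.red ⟨algebraMap m18v_K (m18v_F M) c⁻¹, G.const_mem ⟨c⁻¹, hcinv⟩⟩ =
        algebraMap (m18v_k A) (m18v_Ft A M) (IsLocalRing.residue A ⟨c⁻¹, hcinv⟩) :=
      G.red_const ⟨c⁻¹, hcinv⟩
    rw [hY, map_sub, map_mul, hrc, hres, map_zero, zero_mul, map_one, zero_sub]
  have hY0 : G.red Y ≠ 0 := by
    rw [hYred]
    norm_num
  have hjc : s24j M - algebraMap m18v_K (m18v_F M) c ≠ 0 := by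
    intro h0
    rw [h0, Place.ord_zero] at hc
    omega
  have hpos : 0 < P.ord (Y : m18v_F M) := by
    rw [hYcoe, Place.ord_mul _ (by simpa using hc0) hjc, alga_ord_algebraMap, zero_add]
    exact hc
  have hnn : ∀ P'' : Place m18v_K (m18v_F M),
      placeReductionModL h P'' = placeReductionModL h P → 0 ≤ P''.ord (Y : m18v_F M) := by
    intro P'' hP''
    have h1 : 0 ≤ P''.ord (s24j M) := m18v_tube_j h hA hℓ P'' (by rw [hP'']; exact hP)
    apply alga_ord_nonneg_of_mem
    show algebraMap m18v_K (m18v_F M) c⁻¹ * s24j M - 1 ∈ P''.toValuationSubring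
    exact sub_mem (mul_mem (P''.algebraMap_mem' c⁻¹) (alga_mem_of_ord_nonneg _ h1)) (one_mem _)
  have hp1 := m37dsc_pos_of_hloc G Y hY0 P hpos hnn
  rw [hYred] at hp1
  have h8 : (placeReductionModL h P).ord (-1 : m18v_Ft A M) = 0 := by
    have := alga_ord_algebraMap (placeReductionModL h P) (-1 : m18v_k A)
    rwa [map_neg, map_one] at this
  omega

end Fermat.Agent.M37
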