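import Fermat.Agent.M18.DifElts
import Fermat.Agent.M37.DscLift
import Fermat.Agent.M37.DscSep
import Fermat.Agent.M37.DscTube

/-!
# M37 (E1)(4): the place reduction at level `N'` is compatible with restriction to level `N`

`N ∣ N'`, `N'` divisible by `4` or `9` and prime to `ℓ`, `h' : ReductionInputsModL A N'`.
Two places of `F_{N'}` with the same restriction to `F_N` specialise to places of `F~_{N'}` with
the same restriction to `F~_N` (`m37dsc_compat`).
-/

set_option autoImplicit false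
set_option linter.deprecated false
set_option linter.unusedSectionVars false
set_option linter.unusedVariables false
set_option linter.style.haveILetI false
set_option synthInstance.maxHeartbeats 400000
set_option maxHeartbeats 1600000

noncomputable section

namespace Fermat.Agent.M37

open AlgebraicCurve ModularCurve IntermediateField Module
open Fermat.Agent.M18 Fermat.Agent.S24

variable {A : ValuationSubring m18v_K} {ℓ : ℕ} [Fact ℓ.Prime] {N N' : ℕ} [NeZero N] [NeZero N']

/-- level raising of Gauss-integral elements, in the language of `m18v_gauss h'`. -/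
theorem m37dsc_gauss_lvl (hA : A.LiesOverPrime ℓ) (hNN' : N ∣ N') (hℓ : ¬ ℓ ∣ N')
    (hℓN : ¬ ℓ ∣ N) (h' : ReductionInputsModL A N') :
    letI := m18n1_algBar hNN'
    letI := m18n1_alg (m18v_k A) hNN'
    ∀ (y : m18v_F N) (hy : m18v_Int A N y),
      ∃ hy' : algebraMap (m18v_F N) (m18v_F N') y ∈ (m18v_gauss h').O,
        (m18v_gauss h').red ⟨algebraMap (m18v_F N) (m18v_F N') y, hy'⟩ =
          algebraMap (m18v_Ft A N) (m18v_Ft A N') (m18sq_red (m18sq_dec hA hℓN) y) := by
  letI := m18n1_algBar hNN'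
  letI := m18n1_alg (m18v_k A) hNN'
  intro y hy
  have h1 := m18sq3_int_lvl (A := A) hNN' (m18n1_bar_coe hNN') hy
  refine ⟨h1.1, ?_⟩
  apply Subtype.ext
  rw [m18n1_coe (m18v_k A) hNN']
  exact h1.2


theorem m37dsc_isIntegral_bar (hNN' : N ∣ N') :
    letI := m18n1_algBar hNN'
    Algebra.IsIntegral (m18v_F N) (m18v_F N') := by
  letI := m18n1_algBar hNN'
  haveI := m18n1_fd_bar hNN'
  exact Algebra.IsIntegral.of_finite _ _

theorem m37dsc_isIntegral_res (hA : A.LiesOverPrime ℓ) (hNN' : N ∣ N') (hℓ : ¬ ℓ ∣ N') :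
    letI := m18n1_alg (m18v_k A) hNN'
    Algebra.IsIntegral (m18v_Ft A N) (m18v_Ft A N') := by
  letI := m18n1_alg (m18v_k A) hNN'
  haveI := m18n1_fd_res hA hNN' hℓ
  exact Algebra.IsIntegral.of_finite _ _

/-- the mixed case is impossible: two places over the same place cannot specialise to a
non-pole and to a pole of `j~`. -/
theorem m37dsc_mixed (hA : A.LiesOverPrime ℓ) (hNN' : N ∣ N') (hℓ : ¬ ℓ ∣ N')
    (h' : ReductionInputsModL A N') :
    letI := m18n1_algBar hNN'
    letI := m18n1_alg (m18v_k A) hNN'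
    haveI := m18n1_bar_tower hNN'
    haveI := m18n1_tower (m18v_k A) hNN'
    haveI := m37dsc_isIntegral_bar hNN'
    haveI := m37dsc_isIntegral_res hA hNN' hℓ
    ∀ P₁ P₂ : Place m18v_K (m18v_F N'), P₁.restrict (m18v_F N) = P₂.restrict (m18v_F N) →
      0 ≤ ((placeReductionModL h' P₁).restrict (m18v_Ft A N)).ord (m18sq_jt A N) →
      ((placeReductionModL h' P₂).restrict (m18v_Ft A N)).ord (m18sq_jt A N) < 0 → False := by
  letI := m18n1_algBar hNN'
  letI := m18n1_alg (m18v_k A) hNN'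
  haveI := m18n1_bar_tower hNN'
  haveI := m18n1_tower (m18v_k A) hNN'
  haveI := m37dsc_isIntegral_bar hNN'
  haveI := m37dsc_isIntegral_res hA hNN' hℓ
  haveI := ana_finiteDimensional N
  intro P₁ P₂ hP h1 h2
  have hq1 : 0 ≤ (placeReductionModL h' P₁).ord (m18sq_jt A N') := by
    rw [← m18n1_map_jt A hNN']
    exact m37dsc_ord_map_nonneg _ h1
  have hq2 : (placeReductionModL h' P₂).ord (m18sq_jt A N') < 0 := by
    rw [← m18n1_map_jt A hNN']
    exact m37dsc_ord_map_neg _ h2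
  have hp1 : 0 ≤ P₁.ord (s24j N') := m18v_tube_j h' hA hℓ P₁ hq1
  have hpP : 0 ≤ (P₁.restrict (m18v_F N)).ord (s24j N) := by
    by_contra hcon
    rw [not_le] at hcon
    have := m37dsc_ord_map_neg P₁ hcon
    rw [m18n1_map_sj hNN'] at this
    omega
  obtain ⟨c, hc⟩ := alga_exists_sub_mem (s24j N) (P₁.restrict (m18v_F N))
    (alga_mem_of_ord_nonneg _ hpP)
  have hc' : 0 < (P₁.restrict (m18v_F N)).ord (s24j N - algebraMap m18v_K (m18v_F N) c) := by
    rcases hc with hc | hc
    · exact absurd (hc ▸ isAlgebraic_algebraMap c) (ana_transcendental N)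
    · exact hc
  have hmap : algebraMap (m18v_F N) (m18v_F N') (s24j N - algebraMap m18v_K (m18v_F N) c)
      = s24j N' - algebraMap m18v_K (m18v_F N') c := by
    rw [map_sub, m18n1_map_sj hNN', ← IsScalarTower.algebraMap_apply]
  have hP1 : 0 < P₁.ord (s24j N' - algebraMap m18v_K (m18v_F N') c) := by
    rw [← hmap]
    exact m37dsc_ord_map_pos P₁ hc'
  have hP2 : 0 < P₂.ord (s24j N' - algebraMap m18v_K (m18v_F N') c) := by
    rw [← hmap]
    apply m37dsc_ord_map_pos P₂
    rw [← hP]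
    exact hc'
  have hcA : c ∈ A := m37dsc_value_mem h' hA hℓ P₁ hq1 c hP1
  have h9 : P₂.ord (s24j N' - algebraMap m18v_K (m18v_F N') c) ≤ 0 :=
    m18v_tube_j_inf h' hA hℓ P₂ hq2 ⟨c, hcA⟩
  omega

/-- **(C)** the place reduction at level `N'` is compatible with restriction to level `N`. -/
theorem m37dsc_compat (hA : A.LiesOverPrime ℓ) (hNN' : N ∣ N') (hN' : 4 ∣ N' ∨ 9 ∣ N')
    (hℓ : ¬ ℓ ∣ N') (h' : ReductionInputsModL A N') :
    letI := m18n1_algBar hNN'
    letI := m18n1_alg (m18v_k A) hNN'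
    haveI := m18n1_bar_tower hNN'
    haveI := m18n1_tower (m18v_k A) hNN'
    haveI := m37dsc_isIntegral_bar hNN'
    haveI := m37dsc_isIntegral_res hA hNN' hℓ
    ∀ P₁ P₂ : Place m18v_K (m18v_F N'), P₁.restrict (m18v_F N) = P₂.restrict (m18v_F N) →
      (placeReductionModL h' P₁).restrict (m18v_Ft A N) =
        (placeReductionModL h' P₂).restrict (m18v_Ft A N) := by
  letI := m18n1_algBar hNN'
  letI := m18n1_alg (m18v_k A) hNN'
  haveI := m18n1_bar_tower hNN'
  haveI := m18n1_tower (m18v_k A) hNN'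
  haveI := m37dsc_isIntegral_bar hNN'
  haveI := m37dsc_isIntegral_res hA hNN' hℓ
  haveI := ana_finiteDimensional N
  haveI := m18n1_fd_bar hNN'
  haveI := m18v_hasPrincipalDivisors N'
  haveI : IsAlgClosed (m18v_k A) := m18sq_isAlgClosed A
  have hℓN : ¬ ℓ ∣ N := fun h => hℓ (h.trans hNN')
  haveI := (m18sq_finrank_res hA hℓN).1
  haveI := m18cusp_isSeparable_res hA hℓN
  haveI := m18rr_fd_inv (K := m18v_k A) (m18sq_jt A N)
  haveI := m18rr_sep_inv (K := m18v_k A) (m18sq_jt A N)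
  have hd : 0 < finrank (m18v_F N) (m18v_F N') := Module.finrank_pos
  have hval : ∀ (P : Place m18v_K (m18v_F N)) (y : m18v_F N), 0 ≤ P.ord y →
      ∃ c : m18v_K, y = algebraMap m18v_K (m18v_F N) c ∨
        0 < P.ord (y - algebraMap m18v_K (m18v_F N) c) := fun P y hy =>
    alga_exists_sub_mem (s24j N) P (alga_mem_of_ord_nonneg P hy)
  -- chart `j`
  have key0 := m37dsc_chart (F := m18v_F N) (Fk := m18v_Ft A N) (m18v_gauss h')
    (s24j N) (m18sq_jt A N)
    (fun P' hP' => by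
      rw [m18n1_map_jt A hNN']
      rw [m18n1_map_sj hNN'] at hP'
      exact m18v_tube_j_pole h' hA hℓ P' hP')
    (finrank (m18v_F N) (m18v_F N')) hd
    (fun b hb => by
      obtain ⟨y, hI, hint, hred⟩ := m37dsc_nlift hA hNN' hN' hℓ hℓN b hb
      obtain ⟨hy', hr⟩ := m37dsc_gauss_lvl hA hNN' hℓ hℓN h' y hI
      exact ⟨y, hy', hint, by rw [hr, hred]⟩)
    (fun Q₁ Q₂ hne h1 h2 =>
      m37dsc_sep (m18sq_jt A N) m18v_jt_transcendental Q₁ Q₂ hne h1 h2)
    hval
  -- chart `1/j`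
  have keyi := m37dsc_chart (F := m18v_F N) (Fk := m18v_Ft A N) (m18v_gauss h')
    (s24j N)⁻¹ (m18sq_jt A N)⁻¹
    (fun P' hP' => by
      rw [map_inv₀, m18n1_map_jt A hNN', Place.ord_inv]
      rw [map_inv₀, m18n1_map_sj hNN', Place.ord_inv] at hP'
      have := m37dsc_tube_zero h' hA hℓ P' (by omega)
      omega)
    (finrank (m18v_F N) (m18v_F N')) hd
    (fun b hb => by
      obtain ⟨y, hI, hint, hred⟩ := m37dsc_nlift_inv hA hNN' hN' hℓ hℓN b hb
      obtain ⟨hy', hr⟩ := m37dsc_gauss_lvl hA hNN' hℓ hℓN h' y hI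
      exact ⟨y, hy', hint, by rw [hr, hred]⟩)
    (fun Q₁ Q₂ hne h1 h2 =>
      m37dsc_sep (m18sq_jt A N)⁻¹ (algaz_transcendental_inv m18v_jt_transcendental)
        Q₁ Q₂ hne h1 h2)
    hval
  intro P₁ P₂ hP
  by_cases h1 : 0 ≤ ((placeReductionModL h' P₁).restrict (m18v_Ft A N)).ord (m18sq_jt A N)
  · by_cases h2 : 0 ≤ ((placeReductionModL h' P₂).restrict (m18v_Ft A N)).ord (m18sq_jt A N)
    · exact key0 P₁ P₂ hP h1 h2
    · exact (m37dsc_mixed hA hNN' hℓ h' P₁ P₂ hP h1 (not_le.mp h2)).elim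
  · by_cases h2 : 0 ≤ ((placeReductionModL h' P₂).restrict (m18v_Ft A N)).ord (m18sq_jt A N)
    · exact (m37dsc_mixed hA hNN' hℓ h' P₂ P₁ hP.symm h2 (not_le.mp h1)).elim
    · refine keyi P₁ P₂ hP ?_ ?_
      · rw [Place.ord_inv]
        omega
      · rw [Place.ord_inv]
        omega

end Fermat.Agent.M37
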