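import Fermat.Prelude.Def_AlgebraicCurve_Correspondence
import Fermat.Agent.S24.AlgADedekind
import Fermat.Agent.M18.RrBase

/-!
# M37 (E0): the fundamental identity for a finite separable extension, any characteristic

`K` algebraically closed, `K ⊆ F ⊆ F'` function fields of curves, `F' / F` finite separable.
Prefix `m37e0_`.

* `m37e0_core` : the Dedekind count of S24 (`algad_core`) with the zero set restricted to the
  places whose valuation ring contains `A`.
* `m37e0_sum_ramificationIndex_sep` : `∑_{w | v} e(w | v) = [F' : F]`.
* `m37e0_fundamental_sep` : `FundamentalIdentity K F F'`.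
-/

set_option autoImplicit false
set_option linter.deprecated false
set_option linter.style.haveILetI false
set_option linter.unusedSectionVars false
set_option linter.unusedVariables false

noncomputable section

namespace Fermat.Agent.M37

open Fermat.Agent.S24 Fermat.Agent.M18
open AlgebraicCurve IntermediateField Polynomial IsDedekindDomain Module

section core

/-- The places attached to the primes of `B` over `(t)`. -/
theorem m37e0_core {K F : Type*} [Field K] [Field F] [Algebra K F]
    {A : Type*} (L B : Type*) [CommRing A] [IsDedekindDomain A] [Field L] [Algebra A L]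
    [IsFractionRing A L] [Algebra L F] [Algebra A F] [IsScalarTower A L F]
    [CommRing B] [IsDedekindDomain B] [Algebra A B] [Module.IsTorsionFree A B] [Algebra B F]
    [IsFractionRing B F] [IsScalarTower A B F] [Module.Finite A B]
    [Algebra K A] [Algebra K B] [IsScalarTower K A B] [IsScalarTower K B F]
    [IsAlgClosed K] (x : F) [FiniteDimensional K⟮x⟯ F]
    (t : A) (ht0 : t ≠ 0) (htmax : (Ideal.span {t}).IsMaximal) :
    {v : Place K F | (∀ a : A, algebraMap A F a ∈ v.toValuationSubring) ∧
        0 < v.ord (algebraMap A F t)}.Finite ∧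
    ∑ᶠ v ∈ {v : Place K F | (∀ a : A, algebraMap A F a ∈ v.toValuationSubring) ∧
        0 < v.ord (algebraMap A F t)}, v.ord (algebraMap A F t)
      = (Module.finrank L F : ℤ) := by
  classical
  have hp0 : Ideal.span {t} ≠ ⊥ := by
    rw [ne_eq, Ideal.span_singleton_eq_bot]
    exact ht0
  set p : Ideal A := Ideal.span {t} with hp
  let vp : HeightOneSpectrum A := ⟨p, htmax.isPrime, hp0⟩
  have hvpz : vp.valuation L (algebraMap A L t) = WithZero.exp (-1 : ℤ) := by
    rw [HeightOneSpectrum.valuation_of_algebraMap]
    exact HeightOneSpectrum.intValuation_singleton vp ht0 rfl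
  have hsum := Ideal.sum_ramification_inertia B L F hp0
  -- primes over `p` and their places
  have hmem : ∀ P : Ideal B, P ∈ IsDedekindDomain.primesOverFinset p B →
        P.IsPrime ∧ P.LiesOver p := fun P hP =>
    (IsDedekindDomain.mem_primesOverFinset_iff hp0 _).mp hP
  let W : {P // P ∈ IsDedekindDomain.primesOverFinset p B} → HeightOneSpectrum B := fun P =>
    ⟨P.1, (hmem P.1 P.2).1,
      haveI := (hmem P.1 P.2).2; Ideal.ne_bot_of_liesOver_of_ne_bot hp0 P.1⟩
  let Φ : {P // P ∈ IsDedekindDomain.primesOverFinset p B} → Place K F := fun P =>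
    Place.ofHeightOneSpectrum (K := K) (F := F) (W P)
  have hord : ∀ P, (Φ P).ord (algebraMap A F t) = (Ideal.ramificationIdx' p P.1 : ℤ) := by
    intro P
    have : (W P).asIdeal.LiesOver vp.asIdeal := (hmem P.1 P.2).2
    have h1 := HeightOneSpectrum.valuation_liesOver F vp (W P) (algebraMap A L t)
    rw [hvpz, ← IsScalarTower.algebraMap_apply A L F] at h1
    show (Place.ofHeightOneSpectrum (K := K) (F := F) (W P)).ord _ = _
    rw [algad_ord_eq, ← h1, ← WithZero.exp_nsmul, WithZero.log_exp]
    simp only [nsmul_eq_mul, mul_neg, mul_one, neg_neg]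
    rfl
  have hram : ∀ P : {P // P ∈ IsDedekindDomain.primesOverFinset p B},
      Ideal.ramificationIdx' p P.1 ≠ 0 := by
    intro P
    have := (hmem P.1 P.2).1
    have := (hmem P.1 P.2).2
    exact Ideal.IsDedekindDomain.ramificationIdx'_ne_zero_of_liesOver P.1 hp0
  have hinertia : ∀ P : {P // P ∈ IsDedekindDomain.primesOverFinset p B},
      Ideal.inertiaDeg' p P.1 = 1 := by
    intro P
    have hPprime := (hmem P.1 P.2).1
    have hPover := (hmem P.1 P.2).2
    rw [Ideal.inertiaDeg'_algebraMap]
    letI : Field (A ⧸ p) := Ideal.Quotient.field p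
    rw [finrank_eq_one_iff_of_nonzero' (1 : B ⧸ P.1) one_ne_zero]
    intro y
    obtain ⟨b, rfl⟩ := Ideal.Quotient.mk_surjective y
    have hb : algebraMap B F b ∈ (Φ P).toValuationSubring := by
      show algebraMap B F b ∈ (Place.ofHeightOneSpectrum (K := K) (F := F) (W P)).toValuationSubring
      rw [algad_mem_iff]
      exact (W P).valuation_le_one b
    obtain ⟨c, hc⟩ := alga_exists_sub_mem x (Φ P) hb
    refine ⟨Ideal.Quotient.mk p (algebraMap K A c), ?_⟩
    rw [Algebra.smul_def, mul_one, Ideal.Quotient.algebraMap_mk_of_liesOver,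
      ← IsScalarTower.algebraMap_apply K A B, Ideal.Quotient.eq]
    have hmemP : ∀ b' : B, b' ∈ P.1 ↔ (W P).valuation F (algebraMap B F b') < 1 := fun b' =>
      ((W P).valuation_lt_one_iff_mem b').symm
    rw [hmemP, map_sub, ← IsScalarTower.algebraMap_apply K B F]
    rcases hc with hc | hc
    · rw [hc, sub_self, map_zero]
      exact zero_lt_one
    · have h1 : (Φ P).ord (algebraMap B F b - algebraMap K F c)
          = -WithZero.log ((W P).valuation F (algebraMap B F b - algebraMap K F c)) :=
        algad_ord_eq (K := K) (W P) _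
      rw [h1] at hc
      have hne : algebraMap B F b - algebraMap K F c ≠ 0 := by
        intro h0
        rw [h0, map_zero] at hc
        simp at hc
      have hne' : (W P).valuation F (algebraMap B F b - algebraMap K F c) ≠ 0 :=
        (Valuation.ne_zero_iff _).mpr hne
      rw [← Valuation.map_sub_swap, ← WithZero.exp_log hne', ← WithZero.exp_zero,
        WithZero.exp_lt_exp]
      omega
  -- injectivity of `Φ`
  have hΦinj : Function.Injective Φ := by
    intro P Q h
    have h1 : W P = W Q := algad_ofHeightOneSpectrum_injective (K := K) (F := F) h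
    apply Subtype.ext
    exact congrArg HeightOneSpectrum.asIdeal h1
  -- the set of zeros is the range of `Φ`
  have hrange : {v : Place K F | (∀ a : A, algebraMap A F a ∈ v.toValuationSubring) ∧
        0 < v.ord (algebraMap A F t)} = Set.range Φ := by
    ext v
    simp only [Set.mem_setOf_eq, Set.mem_range]
    constructor
    · rintro ⟨hAv, hv⟩
      have hBv : ∀ b : B, algebraMap B F b ∈ v.toValuationSubring :=
        algad_integral_mem (A := A) v hAv
      obtain ⟨w, hw, hwmem⟩ := algad_exists_heightOneSpectrum (R := B) v hBv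
      have hwover : w.asIdeal.LiesOver p := by
        constructor
        refine htmax.eq_of_le (Ideal.comap_ne_top _ w.isPrime.ne_top) ?_
        rw [hp, Ideal.span_singleton_le_iff_mem, Ideal.mem_comap, hwmem,
          ← IsScalarTower.algebraMap_apply A B F]
        exact Or.inr hv
      have hwP : w.asIdeal ∈ IsDedekindDomain.primesOverFinset p B :=
        (IsDedekindDomain.mem_primesOverFinset_iff hp0 _).mpr ⟨w.isPrime, hwover⟩
      refine ⟨⟨w.asIdeal, hwP⟩, ?_⟩
      show Place.ofHeightOneSpectrum (K := K) (F := F) (W ⟨w.asIdeal, hwP⟩) = v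
      have hWw : W ⟨w.asIdeal, hwP⟩ = w := HeightOneSpectrum.ext rfl
      rw [hWw, hw]
    · rintro ⟨P, rfl⟩
      refine ⟨fun a => ?_, ?_⟩
      · rw [IsScalarTower.algebraMap_apply A B F]
        show algebraMap B F (algebraMap A B a) ∈
          (Place.ofHeightOneSpectrum (K := K) (F := F) (W P)).toValuationSubring
        rw [algad_mem_iff]
        exact (W P).valuation_le_one _
      · rw [hord]
        exact_mod_cast Nat.pos_of_ne_zero (hram P)
  constructor
  · rw [hrange]
    exact Set.finite_range Φ
  · rw [hrange, finsum_mem_range hΦinj, finsum_eq_sum_of_fintype]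
    simp_rw [hord]
    rw [← hsum, ← Finset.sum_coe_sort (IsDedekindDomain.primesOverFinset p B)
      (fun P => Ideal.ramificationIdx' p P * Ideal.inertiaDeg' p P)]
    push_cast
    refine Finset.sum_congr rfl fun P _ => ?_
    rw [hinertia P, Nat.cast_one, mul_one]

end core

section sep

variable {K F F' : Type*} [Field K] [Field F] [Field F'] [Algebra K F] [Algebra K F']
  [Algebra F F'] [IsScalarTower K F F'] [Algebra.IsIntegral F F'] [HasPrincipalDivisors K F']
  [IsAlgClosed K] [FiniteDimensional F F'] [Algebra.IsSeparable F F']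

/-- the places of `F'` whose valuation ring contains `𝒪_v` are the places over `v`. -/
theorem m37e0_restrict_eq_of_le (v : Place K F) (w : Place K F')
    (h : ∀ a : v.toValuationSubring, algebraMap F F' (a : F) ∈ w.toValuationSubring) :
    w.restrict F = v := by
  apply Place.ext
  symm
  refine ValuationSubring.eq_of_le_of_ne_top _ ?_ (w.restrict F).ne_top'
  intro f hf
  exact h ⟨f, hf⟩

/-- the sum of the ramification indices over a place is the degree of the extension. -/
theorem m37e0_sum_ramificationIndex_sep (x' : F') [FiniteDimensional K⟮x'⟯ F'] (v : Place K F) :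
    ∑ w ∈ v.fiber F', (w.ramificationIndex F : ℤ) = (finrank F F' : ℤ) := by
  classical
  letI algAF' : Algebra ↥v.toValuationSubring F' :=
    ((algebraMap F F').comp v.toValuationSubring.subtype).toAlgebra
  haveI : IsScalarTower ↥v.toValuationSubring F F' :=
    IsScalarTower.of_algebraMap_eq (fun _ => rfl)
  haveI : IsScalarTower K ↥v.toValuationSubring F' :=
    IsScalarTower.of_algebraMap_eq (fun a => by
      rw [IsScalarTower.algebraMap_apply K F F']
      rfl)
  haveI : FaithfulSMul ↥v.toValuationSubring F' :=
    (faithfulSMul_iff_algebraMap_injective _ _).mpr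
      ((algebraMap F F').injective.comp Subtype.val_injective)
  haveI hDedB : IsDedekindDomain (integralClosure ↥v.toValuationSubring F') :=
    integralClosure.isDedekindDomain ↥v.toValuationSubring F F'
  haveI hFracB : IsFractionRing (integralClosure ↥v.toValuationSubring F') F' :=
    integralClosure.isFractionRing_of_finite_extension F F'
  haveI hFinB : Module.Finite ↥v.toValuationSubring (integralClosure ↥v.toValuationSubring F') :=
    IsIntegralClosure.finite ↥v.toValuationSubring F F'
      (integralClosure ↥v.toValuationSubring F')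
  obtain ⟨ϖ, hϖ⟩ := IsDiscreteValuationRing.exists_irreducible ↥v.toValuationSubring
  have hϖ0 : ϖ ≠ 0 := hϖ.ne_zero
  have hmax : (Ideal.span {ϖ}).IsMaximal := by
    rw [← (IsDiscreteValuationRing.irreducible_iff_uniformizer ϖ).1 hϖ]
    exact IsLocalRing.maximalIdeal.isMaximal _
  have hcore := m37e0_core (K := K) (F := F') F (integralClosure ↥v.toValuationSubring F') x'
    ϖ hϖ0 hmax
  have hord1 : v.ord (ϖ : F) = 1 := v.ord_coe_irreducible hϖ
  have hmap : algebraMap ↥v.toValuationSubring F' ϖ = algebraMap F F' (ϖ : F) := rfl
  have hset : {w : Place K F' | (∀ a : ↥v.toValuationSubring,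
        algebraMap ↥v.toValuationSubring F' a ∈ w.toValuationSubring) ∧
        0 < w.ord (algebraMap ↥v.toValuationSubring F' ϖ)} = ↑(v.fiber F') := by
    ext w
    simp only [Set.mem_setOf_eq, Finset.mem_coe, Place.mem_fiber]
    constructor
    · rintro ⟨hA, -⟩
      exact m37e0_restrict_eq_of_le v w hA
    · intro hw
      refine ⟨fun a => ?_, ?_⟩
      · show algebraMap F F' (a : F) ∈ w.toValuationSubring
        rw [← Place.mem_restrict_iff, hw]
        exact a.2
      · rw [hmap, Place.ord_restrict, hw, hord1, mul_one]
        exact_mod_cast w.ramificationIndex_pos (F := F)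
  rw [hset, finsum_mem_coe_finset] at hcore
  rw [← hcore.2]
  refine Finset.sum_congr rfl fun w hw => ?_
  rw [hmap, Place.ord_restrict, Place.mem_fiber.mp hw, hord1, mul_one]

/-- **the fundamental identity** for a finite separable extension `F ⊆ F'`. -/
theorem m37e0_fundamental_sep (x : F) [FiniteDimensional K⟮x⟯ F] (x' : F')
    [FiniteDimensional K⟮x'⟯ F'] : FundamentalIdentity K F F' := by
  refine ⟨fun v => ?_⟩
  have hdegv : v.deg = 1 := m18rr_deg_eq_one x v
  have hdegw : ∀ w : Place K F', w.deg = 1 := fun w => m18rr_deg_eq_one x' w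
  rw [hdegv]
  simp only [hdegw, Nat.cast_one, mul_one]
  exact m37e0_sum_ramificationIndex_sep x' v

end sep

end Fermat.Agent.M37

end
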