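import Fermat.Agent.M37.E0Fi
import Fermat.Agent.M37.E0FiSep
import Fermat.Agent.M18.N1Inst
import Fermat.Agent.S24.AlgA
import Fermat.Agent.M18.RrExtra

/-!
# M37 (E0): the fundamental identity for the two-level towers `F_N ⊆ F_N'`, `F~_N ⊆ F~_N'`

`N ∣ N'`; characteristic `0` : `F_N ⊆ F_N'` with `m18n1_algBar hNN'`;
characteristic `ℓ` (`ℓ ∤ N'`) : `F~_N ⊆ F~_N'` with `m18n1_alg (m18v_k A) hNN'`.
Prefix `m37e0_`.

* `m37e0_isIntegral_bar`, `m37e0_principal_bar`, `m37e0_fundamental_bar`.
* `m37e0_isIntegral_res`, `m37e0_principal_res`, `m37e0_fundamental_res`.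
-/

set_option autoImplicit false
set_option linter.style.haveILetI false
set_option linter.unusedSectionVars false
set_option synthInstance.maxHeartbeats 400000
set_option maxHeartbeats 400000

noncomputable section

namespace Fermat.Agent.M37

open Fermat.Agent.S24 Fermat.Agent.M18 Fermat.Agent.M28
open AlgebraicCurve ModularCurve IntermediateField Module

variable {A : ValuationSubring m18v_K} {N N' : ℕ} [NeZero N] [NeZero N']

section bar

variable (hNN' : N ∣ N')

/-- `F_N'` is integral over `F_N`. -/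
theorem m37e0_isIntegral_bar :
    letI := m18n1_algBar hNN'
    Algebra.IsIntegral (m18v_F N) (m18v_F N') := by
  letI := m18n1_algBar hNN'
  haveI := m18n1_fd_bar hNN'
  infer_instance

variable (N') in
/-- principal divisors have degree zero on `F_N'`. -/
theorem m37e0_principal_bar : HasPrincipalDivisors m18v_K (m18v_F N') := by
  haveI := deg_finiteDimensional N'
  exact alg_hasPrincipalDivisors (s24j N') (ana_transcendental N')

/-- **the fundamental identity for `F_N ⊆ F_N'`** (characteristic `0`). -/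
theorem m37e0_fundamental_bar :
    letI := m18n1_algBar hNN'
    haveI := m18n1_bar_tower hNN'
    ∀ [Algebra.IsIntegral (m18v_F N) (m18v_F N')] [HasPrincipalDivisors m18v_K (m18v_F N')],
      FundamentalIdentity m18v_K (m18v_F N) (m18v_F N') := by
  letI := m18n1_algBar hNN'
  haveI := m18n1_bar_tower hNN'
  intro _ _
  haveI := deg_finiteDimensional N
  haveI := deg_finiteDimensional N'
  exact m37e0_fundamental (s24j N) (ana_transcendental N) (s24j N')

end bar

section res

variable {ℓ : ℕ} [Fact ℓ.Prime] (hA : A.LiesOverPrime ℓ) (hNN' : N ∣ N') (hℓ : ¬ ℓ ∣ N')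

include hA hℓ in
/-- `F~_N'` is integral over `F~_N`. -/
theorem m37e0_isIntegral_res :
    letI := m18n1_alg (m18v_k A) hNN'
    Algebra.IsIntegral (m18v_Ft A N) (m18v_Ft A N') := by
  letI := m18n1_alg (m18v_k A) hNN'
  haveI := m18n1_fd_res hA hNN' hℓ
  infer_instance

include hA hℓ in
/-- principal divisors have degree zero on `F~_N'`. -/
theorem m37e0_principal_res : HasPrincipalDivisors (m18v_k A) (m18v_Ft A N') := by
  haveI : IsAlgClosed (m18v_k A) := m18sq_isAlgClosed A
  haveI := (m18sq_finrank_res hA hℓ).1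
  haveI := m18cusp_isSeparable_res hA hℓ
  exact m18rr_principal (m18sq_jt A N') m18sq_jt_transcendental

include hA hℓ in
/-- **the fundamental identity for `F~_N ⊆ F~_N'`** (characteristic `ℓ`). -/
theorem m37e0_fundamental_res :
    letI := m18n1_alg (m18v_k A) hNN'
    haveI := m18n1_tower (m18v_k A) hNN'
    ∀ [Algebra.IsIntegral (m18v_Ft A N) (m18v_Ft A N')]
      [HasPrincipalDivisors (m18v_k A) (m18v_Ft A N')],
      FundamentalIdentity (m18v_k A) (m18v_Ft A N) (m18v_Ft A N') := by
  letI := m18n1_alg (m18v_k A) hNN'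
  haveI := m18n1_tower (m18v_k A) hNN'
  intro _ _
  have hℓN : ¬ ℓ ∣ N := fun h => hℓ (h.trans hNN')
  haveI : IsAlgClosed (m18v_k A) := m18sq_isAlgClosed A
  haveI := (m18sq_finrank_res hA hℓN).1
  haveI := (m18sq_finrank_res hA hℓ).1
  haveI := m18n1_fd_res hA hNN' hℓ
  haveI := m18n1_sep_res hA hNN' hℓ
  exact m37e0_fundamental_sep (m18sq_jt A N) (m18sq_jt A N')

end res

end Fermat.Agent.M37

end
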