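import Fermat.Agent.M37.DscC
import Fermat.Agent.M37.E0FiInst

/-!
# M37 (E1)(4): descent of `ReductionInputsModL` from level `N'` to level `N`

* `m37dsc_hgen`    : `PrincipalGeneratedByIntegral` from the decomposition property `m18sq_Dec`;
* `m37dsc_descent` : for `N ∣ N'`, `N'` divisible by `4` or `9` and prime to `ℓ`:
  `ReductionInputsModL A N' → ReductionInputsModL A N`.
-/

set_option autoImplicit false
set_option linter.deprecated false
set_option linter.unusedSectionVars false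
set_option linter.unusedVariables false
set_option linter.style.haveILetI false
set_option synthInstance.maxHeartbeats 400000
set_option maxHeartbeats 1600000

noncomputable section

namespace Fermat.Agent.M37

open AlgebraicCurve ModularCurve IntermediateField Module
open Fermat.Agent.M18 Fermat.Agent.S24

variable {A : ValuationSubring m18v_K} {ℓ : ℕ} [Fact ℓ.Prime] {N N' : ℕ} [NeZero N] [NeZero N']

/-- `PrincipalGeneratedByIntegral` from the decomposition property. -/
theorem m37dsc_hgen (hdec : m18sq_Dec A N) :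
    PrincipalGeneratedByIntegral A (IsLocalRing.residue A) N := by
  haveI := m18v_hasPrincipalDivisors N
  intro D hD
  obtain ⟨f, hf, hDf⟩ := hD
  obtain ⟨c, u, w, hu, hw, hc, hfw⟩ := hdec f hf
  obtain ⟨Du, hDu, -⟩ := HasPrincipalDivisors.exists_divisor (K := m18v_K) (m18v_GF hu)
    (m18v_GF_ne_zero hu)
  obtain ⟨Dw, hDw, -⟩ := HasPrincipalDivisors.exists_divisor (K := m18v_K) (m18v_GF hw)
    (m18v_GF_ne_zero hw)
  have hDeq : D = Du - Dw := by
    ext v
    rw [Finsupp.sub_apply, hDf, hDu, hDw]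
    have h1 := congrArg v.ord hfw
    rw [Place.ord_mul _ hf (m18v_GF_ne_zero hw),
      Place.ord_mul _ (by simpa using hc) (m18v_GF_ne_zero hu), alga_ord_algebraMap] at h1
    omega
  rw [hDeq]
  refine AddSubgroup.sub_mem _ (AddSubgroup.subset_closure ?_) (AddSubgroup.subset_closure ?_)
  · exact ⟨u, hu.1, hu.2.1, hu.2.2, hDu⟩
  · exact ⟨w, hw.1, hw.2.1, hw.2.2, hDw⟩

/-- **descent**: the reduction inputs at level `N'` give the reduction inputs at level `N`. -/
theorem m37dsc_descent (hA : A.LiesOverPrime ℓ) (hNN' : N ∣ N') (hN' : 4 ∣ N' ∨ 9 ∣ N')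
    (hℓ : ¬ ℓ ∣ N') (h' : ReductionInputsModL A N') : ReductionInputsModL A N := by
  letI := m18n1_algBar hNN'
  letI := m18n1_alg (m18v_k A) hNN'
  haveI := m18n1_bar_tower hNN'
  haveI := m18n1_tower (m18v_k A) hNN'
  haveI := m37dsc_isIntegral_bar hNN'
  haveI := m37dsc_isIntegral_res hA hNN' hℓ
  haveI := ana_finiteDimensional N
  haveI := ana_finiteDimensional N'
  haveI := m18n1_fd_bar hNN'
  haveI := m18v_hasPrincipalDivisors N'
  haveI : IsAlgClosed (m18v_k A) := m18sq_isAlgClosed A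
  have hℓN : ¬ ℓ ∣ N := fun h => hℓ (h.trans hNN')
  haveI := (m18sq_finrank_res hA hℓN).1
  haveI := (m18sq_finrank_res hA hℓ).1
  haveI := m37e0_principal_res hA (N' := N') hℓ
  haveI := m37e0_fundamental_bar hNN'
  haveI := m37e0_fundamental_res hA hNN' hℓ
  have hd0 : 0 < finrank (m18v_F N) (m18v_F N') := Module.finrank_pos
  have hdeg : ∀ v : Place m18v_K (m18v_F N), v.deg = 1 := fun v => m18v_deg_eq_one v
  have hdeg' : ∀ v : Place m18v_K (m18v_F N'), v.deg = 1 := fun v => m18v_deg_eq_one v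
  have hdegk : ∀ v : Place (m18v_k A) (m18v_Ft A N), v.deg = 1 := fun v =>
    m18v_deg_eq_one_res v
  have hdegk' : ∀ v : Place (m18v_k A) (m18v_Ft A N'), v.deg = 1 := fun v =>
    m18v_deg_eq_one_res v
  obtain ⟨r, hr⟩ := m37dsc_exists_r (F := m18v_F N) (F' := m18v_F N') (Fk := m18v_Ft A N)
    (Fk' := m18v_Ft A N') hdeg hdeg' hd0 (placeReductionModL h')
    (m37dsc_compat hA hNN' hN' hℓ h')
  refine ⟨r, ⟨fun P => by rw [hdeg, hdegk], ?_⟩, m37dsc_hgen (m18sq_dec hA hℓN)⟩
  intro y hy hyk hne D hD Q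
  have hy' : coeffMap A.subtype y ∈ modularFunctionFieldBar N' := m18n1_bar_le hNN' hy
  have hyk' : coeffMap (IsLocalRing.residue A) y ∈ modularFunctionFieldFullC (m18v_k A) N' :=
    full_degeneracyC_le (m18v_k A) hNN' hyk
  have e1 : algebraMap (m18v_F N) (m18v_F N') (⟨coeffMap A.subtype y, hy⟩ : m18v_F N)
      = ⟨coeffMap A.subtype y, hy'⟩ := m18n1_bar_map_mk hNN' _ hy
  have e2 : algebraMap (m18v_Ft A N) (m18v_Ft A N')
      (⟨coeffMap (IsLocalRing.residue A) y, hyk⟩ : m18v_Ft A N)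
      = ⟨coeffMap (IsLocalRing.residue A) y, hyk'⟩ := m18n1_map_mk (m18v_k A) hNN' _ hyk
  refine m37dsc_hloc (F := m18v_F N) (F' := m18v_F N') (Fk := m18v_Ft A N)
    (Fk' := m18v_Ft A N') hdeg hdeg' hdegk hdegk' (m18n1_finrank hA hNN' hℓ) hd0
    (placeReductionModL h') r hr ⟨coeffMap A.subtype y, hy⟩
    ⟨coeffMap (IsLocalRing.residue A) y, hyk⟩ ?_ D hD Q
  intro D' hD' Q'
  rw [e2]
  rw [e1] at hD'
  exact (isPlaceReductionModL_placeReductionModL h').2 y hy' hyk' hne D' hD' Q'

end Fermat.Agent.M37
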