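import Fermat.Prelude.Def_AlgebraicCurve_Correspondence
import Fermat.Agent.M18.RrMain
import Fermat.Agent.M18.N1Gen

/-!
# M37 (E0), generic part: the fundamental identity `∑ e(w|v) deg w = [F' : F] deg v`

`K` algebraically closed of characteristic zero, `K ⊆ F ⊆ F'` function fields of curves
(`F / K(x)` and `F' / K(x')` finite).  Prefix `m37e0_`.

* `m37e0_sep` : separability over `K(x)` in characteristic zero.
* `m37e0_exists_pole_only` : a transcendental `y` whose only pole is at a given place.
* `m37e0_fundamental` : `FundamentalIdentity K F F'`.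
* `m37e0_fundamentalAlong` : the same in the form `FundamentalIdentityAlong K φ hφ`.
-/

set_option autoImplicit false

noncomputable section

namespace Fermat.Agent.M37

open Fermat.Agent.S20 Fermat.Agent.S24 Fermat.Agent.M18
open AlgebraicCurve IntermediateField Module Polynomial WithZero

section sep

variable {K F : Type*} [Field K] [Field F] [Algebra K F] [CharZero K]

/-- separability is automatic in characteristic zero. -/
theorem m37e0_sep (x : F) [FiniteDimensional K⟮x⟯ F] : Algebra.IsSeparable K⟮x⟯ F := by
  haveI : CharZero K⟮x⟯ := charZero_of_injective_algebraMap (algebraMap K K⟮x⟯).injective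
  infer_instance

end sep

section pole

variable {K F : Type*} [Field K] [Field F] [Algebra K F] [IsAlgClosed K] [CharZero K]

/-- a transcendental function whose only pole is at `v`. -/
theorem m37e0_exists_pole_only (x : F) (hx : Transcendental K x) [FiniteDimensional K⟮x⟯ F]
    (v : Place K F) :
    ∃ y : F, Transcendental K y ∧ v.ord y < 0 ∧ ∀ w : Place K F, w ≠ v → 0 ≤ w.ord y := by
  classical
  haveI : Algebra.IsSeparable K⟮x⟯ F := m37e0_sep x
  set g : ℕ := finrank K (riemannRochSpace (m18rr_W (K := K) x)) with hg
  set D : Divisor K F := Finsupp.single v ((g : ℤ) + 1) with hD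
  have hdeg : Divisor.degree D = (g : ℤ) + 1 := by
    rw [hD, Divisor.degree_single, m18rr_deg_eq_one x v]
    simp
  have hR := m18rr_riemann x hx D
  rw [hdeg] at hR
  have h2 : 2 ≤ finrank K (riemannRochSpace D) := by
    have : ((2 : ℕ) : ℤ) ≤ (finrank K (riemannRochSpace D) : ℤ) := by
      push_cast
      linarith
    exact_mod_cast this
  -- a non-constant element
  have hex : ∃ y : F, y ∈ riemannRochSpace D ∧ ¬ ∃ a : K, algebraMap K F a = y := by
    by_contra hcon
    push Not at hcon
    have hle : riemannRochSpace D ≤ riemannRochSpace (0 : Divisor K F) := by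
      intro y hy
      exact (m18rr_zero_mem_iff x hx y).2 (hcon y hy)
    haveI := m18rr_finite x hx (0 : Divisor K F)
    have := Submodule.finrank_mono hle
    rw [m18rr_finrank_zero x hx] at this
    omega
  obtain ⟨y, hyD, hyc⟩ := hex
  have hy : Transcendental K y := fun halg => hyc (alga_mem_range_of_isAlgebraic halg)
  have hy0 : y ≠ 0 := fun h0 => hyc ⟨0, by rw [map_zero, h0]⟩
  rw [mem_riemannRochSpace_iff] at hyD
  have hother : ∀ w : Place K F, w ≠ v → 0 ≤ w.ord y := by
    intro w hw
    rcases hyD w with h | h
    · exact absurd h hy0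
    · have hDw : D w = 0 := by
        rw [hD, Finsupp.single_apply, if_neg (Ne.symm hw)]
      rw [hDw, neg_zero] at h
      exact h
  haveI : FiniteDimensional K⟮y⟯ F := alga_finiteDimensional_of_transcendental x y hy
  haveI : Algebra.IsSeparable K⟮y⟯ F := m37e0_sep y
  obtain ⟨w, hw⟩ := m18rr_exists_pole y hy
  refine ⟨y, hy, ?_, hother⟩
  by_cases hwv : w = v
  · rw [← hwv]
    exact hw
  · exact absurd (hother w hwv) (not_le.mpr hw)

end pole

section fundamental

variable {K F F' : Type*} [Field K] [Field F] [Field F'] [Algebra K F] [Algebra K F']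
  [Algebra F F'] [IsScalarTower K F F'] [Algebra.IsIntegral F F'] [HasPrincipalDivisors K F']
  [IsAlgClosed K] [CharZero K]

/-- the sum of the ramification indices over a place is the degree of the extension. -/
theorem m37e0_sum_ramificationIndex (x : F) (hx : Transcendental K x)
    [FiniteDimensional K⟮x⟯ F] (x' : F') [FiniteDimensional K⟮x'⟯ F'] (v : Place K F) :
    ∑ w ∈ v.fiber F', (w.ramificationIndex F : ℤ) = (finrank F F' : ℤ) := by
  classical
  obtain ⟨y, hy, hyv, hyo⟩ := m37e0_exists_pole_only x hx v
  haveI : FiniteDimensional K⟮y⟯ F := alga_finiteDimensional_of_transcendental x y hy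
  haveI : Algebra.IsSeparable K⟮y⟯ F := m37e0_sep y
  have hy' : Transcendental K (algebraMap F F' y) :=
    (transcendental_algebraMap_iff (algebraMap F F').injective).2 hy
  haveI : FiniteDimensional K⟮algebraMap F F' y⟯ F' :=
    alga_finiteDimensional_of_transcendental x' _ hy'
  haveI : Algebra.IsSeparable K⟮algebraMap F F' y⟯ F' := m37e0_sep _
  have h1 := m18rr_sum_poles y hy
  have h2 := m18rr_sum_poles (algebraMap F F' y) hy'
  have hset1 : {w : Place K F | w.ord y < 0} = {v} := by
    ext w
    simp only [Set.mem_setOf_eq, Set.mem_singleton_iff]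
    constructor
    · intro hw
      by_contra hne
      exact absurd (hyo w hne) (not_le.mpr hw)
    · rintro rfl
      exact hyv
  have hset2 : {w : Place K F' | w.ord (algebraMap F F' y) < 0} = ↑(v.fiber F') := by
    ext w
    simp only [Set.mem_setOf_eq, Finset.mem_coe, Place.mem_fiber]
    have he : (0 : ℤ) < (w.ramificationIndex F : ℤ) := by
      exact_mod_cast w.ramificationIndex_pos (F := F)
    rw [Place.ord_restrict]
    constructor
    · intro hw
      by_contra hne
      have := hyo (w.restrict F) hne
      have : 0 ≤ (w.ramificationIndex F : ℤ) * (w.restrict F).ord y := mul_nonneg he.le this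
      omega
    · intro hw
      rw [hw]
      exact mul_neg_of_pos_of_neg he hyv
  rw [hset1, finsum_mem_singleton] at h1
  rw [hset2, finsum_mem_coe_finset] at h2
  have h3 : ∀ w ∈ v.fiber F',
      -w.ord (algebraMap F F' y) = (w.ramificationIndex F : ℤ) * (-v.ord y) := by
    intro w hw
    rw [Place.ord_restrict, Place.mem_fiber.mp hw]
    ring
  rw [Finset.sum_congr rfl h3, ← Finset.sum_mul] at h2
  have h4 := m18n1_finrank_mul (K := K) (F' := F') y
  have h5 : (finrank ↥K⟮algebraMap F F' y⟯ F' : ℤ)
      = (finrank ↥K⟮y⟯ F : ℤ) * (finrank F F' : ℤ) := by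
    rw [← h4]
    push_cast
    ring
  rw [h5, ← h1] at h2
  have hpos : (0 : ℤ) < -v.ord y := by omega
  have h6 : (∑ w ∈ v.fiber F', (w.ramificationIndex F : ℤ)) * (-v.ord y)
      = (finrank F F' : ℤ) * (-v.ord y) := by
    rw [h2]
    ring
  exact mul_right_cancel₀ hpos.ne' h6

/-- **the fundamental identity** for `F ⊆ F'`. -/
theorem m37e0_fundamental (x : F) (hx : Transcendental K x)
    [FiniteDimensional K⟮x⟯ F] (x' : F') [FiniteDimensional K⟮x'⟯ F'] :
    FundamentalIdentity K F F' := by
  refine ⟨fun v => ?_⟩
  have hdegv : v.deg = 1 := m18rr_deg_eq_one x v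
  have hdegw : ∀ w : Place K F', w.deg = 1 := fun w => m18rr_deg_eq_one x' w
  rw [hdegv]
  simp only [hdegw, Nat.cast_one, mul_one]
  exact m37e0_sum_ramificationIndex x hx x' v

end fundamental

section along

variable {K F F' : Type*} [Field K] [Field F] [Field F'] [Algebra K F] [Algebra K F']
  [IsAlgClosed K] [CharZero K]

/-- the fundamental identity along an algebra homomorphism. -/
theorem m37e0_fundamentalAlong (φ : F →ₐ[K] F') (hφ : φ.toRingHom.IsIntegral)
    [HasPrincipalDivisors K F'] (x : F) (hx : Transcendental K x)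
    [FiniteDimensional K⟮x⟯ F] (x' : F') [FiniteDimensional K⟮x'⟯ F'] :
    FundamentalIdentityAlong K φ hφ := by
  letI := algebraAlong φ
  haveI := isScalarTower_along φ
  haveI := isIntegral_along φ hφ
  exact m37e0_fundamental x hx x'

end along

end Fermat.Agent.M37

end
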