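import Fermat.Prelude.Def_ModularCurve_HeckeOperatorTotal
import Fermat.Agent.M37.E0Fi
import Fermat.Agent.S24.DegMain
import Fermat.Agent.S24.AlgA

/-!
# M37 (E0), plumbing: the Hecke correspondence inputs that do not involve the norm formula

`K = ℚ̄`, `F = F_N`, `F' = F_{Nℓ}`, `α = heckeAlphaBar`, `β = heckeBetaBar`.  Prefix `m37e0_`.

* generic: `m37e0_finiteAlong`, `m37e0_integral_of_finiteAlong`.
* `m37e0_principal` : `HasPrincipalDivisors` at level `N * ℓ`.
* `m37e0_alpha_j`, `m37e0_transcendental_beta_j`, `m37e0_fd_beta_j`.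
* `m37e0_finite_alpha`, `m37e0_finite_beta`, `m37e0_integral_alpha`, `m37e0_integral_beta`.
* `m37e0_fundamental_beta`, `m37e0_fundamental_alpha` : `FundamentalIdentityAlong`.
* `m37e0_heckeInputs_of_norm` : `HeckeInputsAlong` from the norm formula for `α`.
-/

set_option autoImplicit false
set_option linter.style.haveILetI false

noncomputable section

namespace Fermat.Agent.M37

open Fermat.Agent.S24 Fermat.Agent.M18
open AlgebraicCurve ModularCurve IntermediateField Module

section generic

variable {K F F' : Type*} [Field K] [Field F] [Field F'] [Algebra K F] [Algebra K F']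

/-- finiteness along `φ` from finiteness of `F'` over `K(φ x)`. -/
theorem m37e0_finiteAlong (φ : F →ₐ[K] F') (x : F) [FiniteDimensional K⟮φ x⟯ F'] :
    FiniteAlong K φ := by
  letI := algebraAlong φ
  haveI := isScalarTower_along φ
  have h : algebraMap F F' x = φ x := by
    rw [RingHom.algebraMap_toAlgebra]
    rfl
  exact m18n1_fd' (K := K) x (φ x) h

/-- integrality along `φ` from finiteness. -/
theorem m37e0_integral_of_finiteAlong (φ : F →ₐ[K] F') (h : FiniteAlong K φ) :
    φ.toRingHom.IsIntegral := by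
  letI := algebraAlong φ
  haveI : Module.Finite F F' := h
  have h1 : (algebraMap F F').IsIntegral := algebraMap_isIntegral_iff.mpr inferInstance
  rwa [RingHom.algebraMap_toAlgebra] at h1

end generic

section hecke

variable (N ℓ : ℕ) [NeZero N] [NeZero ℓ]

/-- principal divisors have degree zero at level `N * ℓ`. -/
theorem m37e0_principal :
    HasPrincipalDivisors (AlgebraicClosure ℚ)
      (laurentBaseChange (AlgebraicClosure ℚ) (modularFunctionFieldFull (N * ℓ))) := by
  haveI := deg_finiteDimensional (N * ℓ)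
  exact alg_hasPrincipalDivisors (s24j (N * ℓ)) (ana_transcendental (N * ℓ))

/-- `α` maps `j` to `j`. -/
theorem m37e0_alpha_j : heckeAlphaBar (AlgebraicClosure ℚ) N ℓ (s24j N) = s24j (N * ℓ) :=
  Subtype.ext (coe_heckeAlphaBar N ℓ (s24j N))

/-- `β j = j(q^ℓ)` is transcendental. -/
theorem m37e0_transcendental_beta_j :
    Transcendental (AlgebraicClosure ℚ) (heckeBetaBar (AlgebraicClosure ℚ) N ℓ (s24j N)) :=
  fun h => ana_transcendental N
    ((isAlgebraic_algHom_iff (heckeBetaBar (AlgebraicClosure ℚ) N ℓ)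
      (heckeBetaBar (AlgebraicClosure ℚ) N ℓ).injective).1 h)

/-- `F_{Nℓ}` is finite over `K(j(q^ℓ))`. -/
theorem m37e0_fd_beta_j :
    FiniteDimensional
      (AlgebraicClosure ℚ)⟮heckeBetaBar (AlgebraicClosure ℚ) N ℓ (s24j N)⟯
      (laurentBaseChange (AlgebraicClosure ℚ) (modularFunctionFieldFull (N * ℓ))) := by
  haveI := deg_finiteDimensional (N * ℓ)
  exact alga_finiteDimensional_of_transcendental (s24j (N * ℓ)) _
    (m37e0_transcendental_beta_j N ℓ)

theorem m37e0_finite_alpha : FiniteAlong (AlgebraicClosure ℚ) (heckeAlphaBar (AlgebraicClosure ℚ) N ℓ) := by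
  haveI : FiniteDimensional
      (AlgebraicClosure ℚ)⟮heckeAlphaBar (AlgebraicClosure ℚ) N ℓ (s24j N)⟯
      (laurentBaseChange (AlgebraicClosure ℚ) (modularFunctionFieldFull (N * ℓ))) := by
    rw [m37e0_alpha_j]
    exact deg_finiteDimensional (N * ℓ)
  exact m37e0_finiteAlong _ (s24j N)

theorem m37e0_finite_beta : FiniteAlong (AlgebraicClosure ℚ) (heckeBetaBar (AlgebraicClosure ℚ) N ℓ) := by
  haveI := m37e0_fd_beta_j N ℓ
  exact m37e0_finiteAlong _ (s24j N)

theorem m37e0_integral_alpha : HeckeAlphaBarIntegral (AlgebraicClosure ℚ) N ℓ :=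
  m37e0_integral_of_finiteAlong _ (m37e0_finite_alpha N ℓ)

theorem m37e0_integral_beta : HeckeBetaBarIntegral (AlgebraicClosure ℚ) N ℓ :=
  m37e0_integral_of_finiteAlong _ (m37e0_finite_beta N ℓ)

/-- **the fundamental identity along `β`.** -/
theorem m37e0_fundamental_beta
    [HasPrincipalDivisors (AlgebraicClosure ℚ)
      (laurentBaseChange (AlgebraicClosure ℚ) (modularFunctionFieldFull (N * ℓ)))]
    (hβ : HeckeBetaBarIntegral (AlgebraicClosure ℚ) N ℓ) :
    FundamentalIdentityAlong (AlgebraicClosure ℚ) (heckeBetaBar (AlgebraicClosure ℚ) N ℓ) hβ := by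
  haveI := deg_finiteDimensional N
  haveI := deg_finiteDimensional (N * ℓ)
  exact m37e0_fundamentalAlong _ hβ (s24j N) (ana_transcendental N) (s24j (N * ℓ))

/-- **the fundamental identity along `α`.** -/
theorem m37e0_fundamental_alpha
    [HasPrincipalDivisors (AlgebraicClosure ℚ)
      (laurentBaseChange (AlgebraicClosure ℚ) (modularFunctionFieldFull (N * ℓ)))]
    (hα : HeckeAlphaBarIntegral (AlgebraicClosure ℚ) N ℓ) :
    FundamentalIdentityAlong (AlgebraicClosure ℚ) (heckeAlphaBar (AlgebraicClosure ℚ) N ℓ) hα := by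
  haveI := deg_finiteDimensional N
  haveI := deg_finiteDimensional (N * ℓ)
  exact m37e0_fundamentalAlong _ hα (s24j N) (ana_transcendental N) (s24j (N * ℓ))

/-- `HeckeInputsAlong` from the norm formula for `α` (for the canonical finiteness proof). -/
theorem m37e0_heckeInputs_of_norm
    (hN : NormFormulaAlong (AlgebraicClosure ℚ) (heckeAlphaBar (AlgebraicClosure ℚ) N ℓ)
      (m37e0_finite_alpha N ℓ)) :
    HeckeInputsAlong (AlgebraicClosure ℚ) N ℓ :=
  ⟨m37e0_integral_alpha N ℓ, m37e0_integral_beta N ℓ, m37e0_principal N ℓ,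
    m37e0_finite_alpha N ℓ,
    (haveI := m37e0_principal N ℓ; m37e0_fundamental_beta N ℓ (m37e0_integral_beta N ℓ)), hN⟩

end hecke

end Fermat.Agent.M37

end
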