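import Fermat.Agent.M37.E0NormMain
import Fermat.Agent.M37.E0Plumb

/-!
# M37 / (E0), final: `HeckeInputsAlong ℚ̄ N ℓ`

* `m37e0n_normFormulaAlong` : the norm formula along an embedding `φ : F →ₐ[K] F'` of function
  fields over an algebraically closed field of characteristic zero;
* `m37e0n_norm_alpha` : the norm formula along `α = heckeAlphaBar`;
* `m37e0n_heckeInputs` : `HeckeInputsAlong ℚ̄ N ℓ` for all `N, ℓ ≠ 0`.
-/

set_option autoImplicit false
set_option linter.style.haveILetI false
set_option linter.unusedSectionVars false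
set_option linter.unusedVariables false
set_option linter.deprecated false

noncomputable section

namespace Fermat.Agent.M37

open Fermat.Agent.S24 Fermat.Agent.M18
open AlgebraicCurve ModularCurve IntermediateField Module

section generic

variable {K F F' : Type*} [Field K] [Field F] [Field F'] [Algebra K F] [Algebra K F']
  [IsAlgClosed K] [CharZero K]

/-- **the norm formula along `φ`** (characteristic zero). -/
theorem m37e0n_normFormulaAlong (φ : F →ₐ[K] F') (hfin : FiniteAlong K φ)
    [HasPrincipalDivisors K F'] (x : F) (hx : Transcendental K x) [FiniteDimensional K⟮x⟯ F]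
    (x' : F') [FiniteDimensional K⟮x'⟯ F'] : NormFormulaAlong K φ hfin := by
  letI := algebraAlong φ
  haveI := isScalarTower_along φ
  haveI : Module.Finite F F' := hfin
  haveI : Algebra.IsSeparable K⟮x⟯ F := m37e0_sep x
  haveI : CharZero F := charZero_of_injective_algebraMap (algebraMap K F).injective
  haveI : Algebra.IsSeparable F F' := inferInstance
  exact m37e0n_normFormula x hx x'

end generic

section hecke

variable (N ℓ : ℕ) [NeZero N] [NeZero ℓ]

/-- **the norm formula along `α`.** -/
theorem m37e0n_norm_alpha
    (hfin : FiniteAlong (AlgebraicClosure ℚ) (heckeAlphaBar (AlgebraicClosure ℚ) N ℓ)) :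
    NormFormulaAlong (AlgebraicClosure ℚ) (heckeAlphaBar (AlgebraicClosure ℚ) N ℓ) hfin := by
  haveI := deg_finiteDimensional N
  haveI := deg_finiteDimensional (N * ℓ)
  haveI := m37e0_principal N ℓ
  exact m37e0n_normFormulaAlong _ hfin (s24j N) (ana_transcendental N) (s24j (N * ℓ))

/-- **the norm formula along `β`.** -/
theorem m37e0n_norm_beta
    (hfin : FiniteAlong (AlgebraicClosure ℚ) (heckeBetaBar (AlgebraicClosure ℚ) N ℓ)) :
    NormFormulaAlong (AlgebraicClosure ℚ) (heckeBetaBar (AlgebraicClosure ℚ) N ℓ) hfin := by
  haveI := deg_finiteDimensional N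
  haveI := deg_finiteDimensional (N * ℓ)
  haveI := m37e0_principal N ℓ
  exact m37e0n_normFormulaAlong _ hfin (s24j N) (ana_transcendental N) (s24j (N * ℓ))

/-- **(E0): the Hecke correspondence inputs hold at every level and every `ℓ`.** -/
theorem m37e0n_heckeInputs : HeckeInputsAlong (AlgebraicClosure ℚ) N ℓ :=
  m37e0_heckeInputs_of_norm N ℓ (m37e0n_norm_alpha N ℓ _)

end hecke

end Fermat.Agent.M37
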