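import Fermat.Agent.M18.NrpCore

/-!
# M37 / (E0), norm formula, part 1: exponents of relative norms (pure Mathlib)

`R ⊆ S` Dedekind domains, `S` finite and torsion free over `R`, `p ≠ ⊥` a maximal ideal of `R`
such that every prime of `S` over `p` has residue degree one.  Then for every nonzero ideal `J`
of `S` the exponent of `p` in `relNorm J` is the sum of the exponents of the primes over `p`
in `J`.
-/

set_option autoImplicit false
set_option linter.style.haveILetI false
set_option linter.unusedSectionVars false
set_option linter.unusedVariables false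
set_option linter.deprecated false

open Ideal

noncomputable section

namespace Fermat.Agent.M37

open Fermat.Agent.M18

section core

variable (R : Type*) {S : Type*} [CommRing R] [CommRing S] [Algebra R S]
variable [IsDedekindDomain R] [IsDedekindDomain S]
  [Module.IsTorsionFree R S] [Module.Finite R S]

/-- distinct nonzero primes of a Dedekind domain do not divide each other. -/
theorem m37e0n_multiplicity_prime_ne {P Q : Ideal S} [P.IsPrime] (hQ : Prime Q) (hPQ : P ≠ Q)
    (hP0 : P ≠ ⊥) : multiplicity P Q = 0 := by
  rw [multiplicity_eq_zero]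
  intro hdvd
  rw [Ideal.dvd_iff_le] at hdvd
  haveI : Q.IsPrime := Ideal.isPrime_of_prime hQ
  haveI : Q.IsMaximal := Ideal.IsPrime.isMaximal inferInstance hQ.ne_zero
  exact hPQ (Ideal.IsMaximal.eq_of_le inferInstance (Ideal.IsPrime.ne_top inferInstance) hdvd).symm

/-- **exponent of `p` in a relative norm.** -/
theorem m37e0n_multiplicity_relNorm (p : Ideal R) [p.IsMaximal] (hp : p ≠ ⊥)
    (hres : ∀ P : Ideal S, P.IsPrime → P.LiesOver p → ∀ b : S, ∃ a : R, b - algebraMap R S a ∈ P)
    (J : Ideal S) (hJ : J ≠ ⊥) :
    multiplicity p (relNorm R J) = ∑ P ∈ (p.primesOver S).toFinset, multiplicity P J := by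
  classical
  have hpprime : Prime p := Ideal.prime_of_isPrime hp inferInstance
  revert hJ
  induction J using UniqueFactorizationMonoid.induction_on_prime with
  | h₁ => intro h; exact absurd rfl h
  | h₂ J hJu =>
    intro _
    rw [Ideal.isUnit_iff] at hJu
    rw [hJu, Ideal.relNorm_top]
    have h1 : multiplicity p (⊤ : Ideal R) = 0 := by
      rw [multiplicity_eq_zero, Ideal.dvd_iff_le, top_le_iff]
      exact Ideal.IsPrime.ne_top inferInstance
    rw [h1]
    symm
    apply Finset.sum_eq_zero
    intro P hP
    rw [Set.mem_toFinset] at hP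
    haveI : P.IsPrime := hP.1
    rw [multiplicity_eq_zero, Ideal.dvd_iff_le, top_le_iff]
    exact Ideal.IsPrime.ne_top inferInstance
  | h₃ J q hJ0 hq ih =>
    intro _
    have hq0 : q ≠ ⊥ := hq.ne_zero
    haveI hqprime : q.IsPrime := Ideal.isPrime_of_prime hq
    haveI hqmax : q.IsMaximal := Ideal.IsPrime.isMaximal inferInstance hq0
    have ih' := ih hJ0
    have hqJ0 : q * J ≠ ⊥ := mul_ne_zero hq0 hJ0
    have hrel0 : relNorm R (q * J) ≠ ⊥ := by
      rw [Ne, Ideal.relNorm_eq_bot_iff]
      exact hqJ0
    have hfin : FiniteMultiplicity p (relNorm R q * relNorm R J) := by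
      rw [← map_mul]
      exact FiniteMultiplicity.of_prime_left hpprime hrel0
    rw [map_mul, multiplicity_mul hpprime hfin, ih']
    have hsum : ∑ P ∈ (p.primesOver S).toFinset, multiplicity P (q * J)
        = ∑ P ∈ (p.primesOver S).toFinset, (multiplicity P q + multiplicity P J) := by
      refine Finset.sum_congr rfl fun P hP => ?_
      rw [Set.mem_toFinset] at hP
      haveI : P.IsPrime := hP.1
      haveI : P.LiesOver p := hP.2
      have hP0 : P ≠ ⊥ := Ideal.ne_bot_of_liesOver_of_ne_bot hp P
      have hPprime : Prime P := Ideal.prime_of_isPrime hP0 inferInstance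
      exact multiplicity_mul hPprime (FiniteMultiplicity.of_prime_left hPprime hqJ0)
    rw [hsum, Finset.sum_add_distrib]
    congr 1
    by_cases hqp : q.LiesOver p
    · -- `q` lies over `p`
      rw [m18nrp_relNorm_eq R p hp hres q, multiplicity_self]
      have hmem : q ∈ (p.primesOver S).toFinset := by
        rw [Set.mem_toFinset]
        exact ⟨hqprime, hqp⟩
      rw [Finset.sum_eq_single_of_mem q hmem, multiplicity_self]
      intro P hP hPq
      rw [Set.mem_toFinset] at hP
      haveI : P.IsPrime := hP.1
      haveI : P.LiesOver p := hP.2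
      exact m37e0n_multiplicity_prime_ne hq hPq (Ideal.ne_bot_of_liesOver_of_ne_bot hp P)
    · -- `q` does not lie over `p`
      have h1 : multiplicity p (relNorm R q) = 0 := by
        rw [multiplicity_eq_zero]
        apply m18nrp_not_dvd_relNorm R p hp q hq0
        intro P hP hPp hdvd
        rw [Ideal.dvd_iff_le] at hdvd
        have : q = P := Ideal.IsMaximal.eq_of_le inferInstance (Ideal.IsPrime.ne_top hP) hdvd
        exact hqp (this ▸ hPp)
      rw [h1]
      symm
      apply Finset.sum_eq_zero
      intro P hP
      rw [Set.mem_toFinset] at hP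
      haveI : P.IsPrime := hP.1
      haveI : P.LiesOver p := hP.2
      apply m37e0n_multiplicity_prime_ne hq _ (Ideal.ne_bot_of_liesOver_of_ne_bot hp P)
      rintro rfl
      exact hqp hP.2

/-- **exponent of `p` in the norm of an element.** -/
theorem m37e0n_multiplicity_intNorm (p : Ideal R) [p.IsMaximal] (hp : p ≠ ⊥)
    (hres : ∀ P : Ideal S, P.IsPrime → P.LiesOver p → ∀ b : S, ∃ a : R, b - algebraMap R S a ∈ P)
    (t : S) (ht : t ≠ 0) :
    multiplicity p (Ideal.span {Algebra.intNorm R S t})
      = ∑ P ∈ (p.primesOver S).toFinset, multiplicity P (Ideal.span {t}) := by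
  rw [← Ideal.relNorm_singleton]
  exact m37e0n_multiplicity_relNorm R p hp hres _ (by
    rw [Ne, Ideal.span_singleton_eq_bot]
    exact ht)

end core

end Fermat.Agent.M37
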