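import Fermat.Agent.M37.E0NormPlace
import Fermat.Agent.M18.NrpUnit
import Fermat.Agent.M18.RrBase

/-!
# M37 / (E0), norm formula, part 3: the push-forward norm formula for function fields

`K` algebraically closed, `F ⊆ F'` function fields over `K` (`x : F` transcendental, `F / K(x)`
and `F' / F` finite separable).  Then for every nonzero `f : F'` and every place `v` of `F`:
`∑_{w | v} ord_w f = ord_v (N_{F'/F} f)`, i.e. the prelude's `PushforwardNormFormula`.
-/

set_option autoImplicit false
set_option linter.style.haveILetI false
set_option linter.unusedSectionVars false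
set_option linter.unusedVariables false
set_option linter.deprecated false

noncomputable section

namespace Fermat.Agent.M37

open AlgebraicCurve IsDedekindDomain Fermat.Agent.S24 Fermat.Agent.M18

section concrete

open IntermediateField Polynomial
open scoped IntermediateField.algebraAdjoinAdjoin

variable {K F F' : Type*} [Field K] [Field F] [Field F'] [Algebra K F] [Algebra K F']
  [Algebra F F'] [IsScalarTower K F F'] [IsAlgClosed K]

/-- the norm formula at a place where `x` is regular. -/
theorem m37e0n_sum_fiber_chart (x : F) (hx : Transcendental K x) [FiniteDimensional K⟮x⟯ F]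
    [Algebra.IsSeparable K⟮x⟯ F] [FiniteDimensional F F'] [Algebra.IsSeparable F F']
    [HasPrincipalDivisors K F']
    (v : Place K F) (hv : 0 ≤ v.ord x) (f : F') (hf : f ≠ 0) :
    ∑ w ∈ v.fiber F', w.ord f = v.ord (Algebra.norm F f) := by
  classical
  have hDed : IsDedekindDomain (Algebra.adjoin K ({x} : Set F)) := algaz_isDedekindDomain x hx
  have hDedR : IsDedekindDomain (integralClosure (Algebra.adjoin K ({x} : Set F)) F) :=
    integralClosure.isDedekindDomain (Algebra.adjoin K ({x} : Set F)) K⟮x⟯ F
  have hFracR : IsFractionRing (integralClosure (Algebra.adjoin K ({x} : Set F)) F) F :=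
    integralClosure.isFractionRing_of_finite_extension K⟮x⟯ F
  have hFinR : Module.Finite (Algebra.adjoin K ({x} : Set F))
      (integralClosure (Algebra.adjoin K ({x} : Set F)) F) :=
    IsIntegralClosure.finite (Algebra.adjoin K ({x} : Set F)) K⟮x⟯ F
      (integralClosure (Algebra.adjoin K ({x} : Set F)) F)
  have hDedS : IsDedekindDomain
      (integralClosure (integralClosure (Algebra.adjoin K ({x} : Set F)) F) F') :=
    integralClosure.isDedekindDomain (integralClosure (Algebra.adjoin K ({x} : Set F)) F) F F'
  have hFracS : IsFractionRing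
      (integralClosure (integralClosure (Algebra.adjoin K ({x} : Set F)) F) F') F' :=
    integralClosure.isFractionRing_of_finite_extension F F'
  have hFinS : Module.Finite (integralClosure (Algebra.adjoin K ({x} : Set F)) F)
      (integralClosure (integralClosure (Algebra.adjoin K ({x} : Set F)) F) F') :=
    IsIntegralClosure.finite (integralClosure (Algebra.adjoin K ({x} : Set F)) F) F F'
      (integralClosure (integralClosure (Algebra.adjoin K ({x} : Set F)) F) F')
  have hFT0 : Algebra.FiniteType K (Algebra.adjoin K ({x} : Set F)) :=
    Algebra.FiniteType.adjoin_of_finite (Set.finite_singleton x)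
  have hFTR : Algebra.FiniteType K (integralClosure (Algebra.adjoin K ({x} : Set F)) F) :=
    Algebra.FiniteType.trans hFT0 inferInstance
  have hQR : ∀ r : integralClosure (Algebra.adjoin K ({x} : Set F)) F,
      algebraMap (integralClosure (Algebra.adjoin K ({x} : Set F)) F) F r
        ∈ v.toValuationSubring := fun r =>
    algad_integral_mem (K := K) (F := F) (A := Algebra.adjoin K ({x} : Set F))
      (B := integralClosure (Algebra.adjoin K ({x} : Set F)) F) v
      (fun a => m18nrp_adjoin_mem x v hv a.2) r
  obtain ⟨p, hp, -⟩ := algad_exists_heightOneSpectrum (K := K) (F := F)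
    (R := integralClosure (Algebra.adjoin K ({x} : Set F)) F) v hQR
  rw [← hp]
  exact m37e0n_sum_fiber_frac (K := K) (F := F) (F' := F')
    (R := integralClosure (Algebra.adjoin K ({x} : Set F)) F)
    (S := integralClosure (integralClosure (Algebra.adjoin K ({x} : Set F)) F) F') p f hf

/-- **the norm formula at every place**: `∑_{w | v} ord_w f = ord_v (N f)`. -/
theorem m37e0n_sum_fiber_place (x : F) (hx : Transcendental K x) [FiniteDimensional K⟮x⟯ F]
    [Algebra.IsSeparable K⟮x⟯ F] [FiniteDimensional F F'] [Algebra.IsSeparable F F']
    [HasPrincipalDivisors K F']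
    (v : Place K F) (f : F') (hf : f ≠ 0) :
    ∑ w ∈ v.fiber F', w.ord f = v.ord (Algebra.norm F f) := by
  rcases le_or_gt 0 (v.ord x) with hv | hv
  · exact m37e0n_sum_fiber_chart x hx v hv f hf
  · haveI : FiniteDimensional K⟮x⁻¹⟯ F := m18nrp_finiteDimensional_congr (algaz_adjoin_inv x)
    haveI : Algebra.IsSeparable K⟮x⁻¹⟯ F := m18nrp_isSeparable_congr (algaz_adjoin_inv x)
    have hx' : Transcendental K x⁻¹ := algaz_transcendental_inv hx
    refine m37e0n_sum_fiber_chart x⁻¹ hx' v ?_ f hf
    rw [Place.ord_inv]
    omega

/-- inertia degrees are one over an algebraically closed constant field. -/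
theorem m37e0n_inertiaDeg_eq_one (x : F) [FiniteDimensional K⟮x⟯ F]
    (x' : F') [FiniteDimensional K⟮x'⟯ F'] [Algebra.IsIntegral F F'] (w : Place K F') :
    w.inertiaDeg F = 1 := by
  have h := w.deg_restrict_mul_inertiaDeg (F := F)
  rw [m18rr_deg_eq_one (K := K) x (w.restrict F), m18rr_deg_eq_one (K := K) x' w, one_mul] at h
  exact h

/-- **the prelude's push-forward norm formula** for a finite separable extension of function
fields over an algebraically closed field. -/
theorem m37e0n_normFormula (x : F) (hx : Transcendental K x) [FiniteDimensional K⟮x⟯ F]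
    [Algebra.IsSeparable K⟮x⟯ F] [FiniteDimensional F F'] [Algebra.IsSeparable F F']
    [HasPrincipalDivisors K F'] (x' : F') [FiniteDimensional K⟮x'⟯ F'] :
    Divisor.PushforwardNormFormula K F F' := by
  classical
  intro f hf D hD v
  rw [Divisor.pushforward_apply, ← m37e0n_sum_fiber_place x hx v f hf]
  have h1 : ∀ w ∈ D.support, (if w.restrict F = v then D w * (w.inertiaDeg F : ℤ) else 0)
      = if w ∈ v.fiber F' then w.ord f else 0 := by
    intro w _
    rw [m37e0n_inertiaDeg_eq_one (K := K) x x' w, Nat.cast_one, mul_one, hD w]
    simp only [Place.mem_fiber]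
  rw [Finset.sum_congr rfl h1, ← Finset.sum_filter]
  apply Finset.sum_subset
  · intro w hw
    rw [Finset.mem_filter] at hw
    exact hw.2
  · intro w hw hw'
    by_contra hne
    apply hw'
    rw [Finset.mem_filter, Finsupp.mem_support_iff, hD w]
    exact ⟨hne, hw⟩

end concrete

end Fermat.Agent.M37
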