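import Fermat.Agent.M18.DifPlace
import Fermat.Agent.M18.NrpPlace
import Fermat.Agent.M37.E0NormCore
import Fermat.Prelude.Def_AlgebraicCurve_Correspondence

/-!
# M37 / (E0), norm formula, part 2: places over a place, Dedekind form

`R ⊆ S` Dedekind domains with fraction fields `F ⊆ F'`, containing the algebraically closed
constant field `K`; `p` a height one prime of `R` with place `v_p`.

* `m37e0n_restrict_eq` : the place of a prime `P` of `S` over `p` restricts to `v_p`;
* `m37e0n_exists_of_restrict` : every place of `F'` over `v_p` is the place of a prime over `p`;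
* `m37e0n_sum_fiber` : `∑_{w | v_p} ord_w t = ord_{v_p} (N t)` for `t ∈ S`, `t ≠ 0`.
-/

set_option autoImplicit false
set_option linter.style.haveILetI false
set_option linter.unusedSectionVars false
set_option linter.unusedVariables false
set_option linter.deprecated false

noncomputable section

namespace Fermat.Agent.M37

open AlgebraicCurve IsDedekindDomain Fermat.Agent.S24 Fermat.Agent.M18

section abs

variable {K F F' : Type*} [Field K] [Field F] [Field F'] [Algebra K F] [Algebra K F']
  [Algebra F F'] [IsScalarTower K F F'] [Algebra.IsIntegral F F']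
variable {R S : Type*} [CommRing R] [CommRing S] [IsDedekindDomain R] [IsDedekindDomain S]
  [Algebra R S] [Module.Finite R S] [Module.IsTorsionFree R S]
  [Algebra R F] [IsFractionRing R F] [Algebra S F'] [IsFractionRing S F']
  [Algebra R F'] [IsScalarTower R F F'] [IsScalarTower R S F']
  [Algebra K R] [IsScalarTower K R F] [Algebra K S] [IsScalarTower K S F']

/-- positivity of the order of `r ∈ R` at `w` and at its restriction. -/
theorem m37e0n_ord_pos_iff (w : Place K F') (r : R) :
    0 < (w.restrict F).ord (algebraMap R F r)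
      ↔ 0 < w.ord (algebraMap S F' (algebraMap R S r)) := by
  have h1 : algebraMap S F' (algebraMap R S r) = algebraMap F F' (algebraMap R F r) := by
    rw [← IsScalarTower.algebraMap_apply R S F', ← IsScalarTower.algebraMap_apply R F F']
  rw [h1, w.ord_restrict (F := F)]
  have he : 0 < Place.ramificationIndex (F := F) w := w.ramificationIndex_pos (F := F)
  constructor
  · intro h
    positivity
  · intro h
    by_contra hn
    rw [not_lt] at hn
    have : (Place.ramificationIndex (F := F) w : ℤ) * (w.restrict F).ord (algebraMap R F r) ≤ 0 :=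
      mul_nonpos_of_nonneg_of_nonpos (by positivity) hn
    omega

/-- `S ⊆ 𝒪_w` for the place `w` of a height one prime. -/
theorem m37e0n_algebraMap_mem (P : HeightOneSpectrum S) (s : S) :
    algebraMap S F' s ∈ (Place.ofHeightOneSpectrum (K := K) (F := F') P).toValuationSubring := by
  rw [algad_mem_iff (K := K)]
  exact P.valuation_le_one s

/-- the place of a prime over `p` restricts to the place of `p`. -/
theorem m37e0n_restrict_eq (P : HeightOneSpectrum S) (p : HeightOneSpectrum R)
    (h : P.asIdeal.LiesOver p.asIdeal) :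
    (Place.ofHeightOneSpectrum (K := K) (F := F') P).restrict F
      = Place.ofHeightOneSpectrum (K := K) (F := F) p := by
  set w := Place.ofHeightOneSpectrum (K := K) (F := F') P with hw
  have hR : ∀ r : R, algebraMap R F r ∈ (w.restrict F).toValuationSubring := by
    intro r
    rw [Place.mem_restrict_iff]
    have h1 : algebraMap F F' (algebraMap R F r) = algebraMap S F' (algebraMap R S r) := by
      rw [← IsScalarTower.algebraMap_apply R S F', ← IsScalarTower.algebraMap_apply R F F']
    rw [h1]
    exact m37e0n_algebraMap_mem P _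
  obtain ⟨p', hp', hp'mem⟩ := algad_exists_heightOneSpectrum (K := K) (F := F) (R := R)
    (w.restrict F) hR
  have hpp : p' = p := by
    apply HeightOneSpectrum.ext
    ext r
    rw [hp'mem r, m37e0n_ord_pos_iff (S := S) w r, h.over, Ideal.mem_comap,
      m18dif_mem_iff (K := K) (F := F') P]
    constructor
    · rintro (h0 | h1)
      · left
        rw [h0, map_zero]
      · exact Or.inr h1
    · rintro (h0 | h1)
      · left
        exact (FaithfulSMul.algebraMap_injective R S) (by rw [h0, map_zero])
      · exact Or.inr h1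
  rw [← hp', hpp]

/-- every place over the place of `p` is the place of a prime over `p`. -/
theorem m37e0n_exists_of_restrict (p : HeightOneSpectrum R) (w : Place K F')
    (hw : w.restrict F = Place.ofHeightOneSpectrum (K := K) (F := F) p) :
    ∃ P : HeightOneSpectrum S, Place.ofHeightOneSpectrum (K := K) (F := F') P = w ∧
      P.asIdeal.LiesOver p.asIdeal := by
  have hR : ∀ r : R, algebraMap R F' r ∈ w.toValuationSubring := by
    intro r
    rw [IsScalarTower.algebraMap_apply R F F', ← Place.mem_restrict_iff, hw,
      algad_mem_iff (K := K)]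
    exact p.valuation_le_one r
  have hS : ∀ s : S, algebraMap S F' s ∈ w.toValuationSubring := by
    intro s
    letI : Algebra R w.toValuationSubring :=
      RingHom.toAlgebra ((algebraMap R F').codRestrict w.toValuationSubring.toSubring hR)
    haveI : IsScalarTower R w.toValuationSubring F' := IsScalarTower.of_algebraMap_eq (fun _ => rfl)
    have h1 : IsIntegral R s := Algebra.IsIntegral.isIntegral s
    have h2 : IsIntegral R (algebraMap S F' s) := h1.algebraMap
    have h3 : IsIntegral w.toValuationSubring (algebraMap S F' s) := h2.tower_top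
    obtain ⟨y, hy⟩ := IsIntegrallyClosed.isIntegral_iff.mp h3
    rw [← hy]
    exact y.2
  obtain ⟨P, hP, hPmem⟩ := algad_exists_heightOneSpectrum (K := K) (F := F') (R := S) w hS
  refine ⟨P, hP, ⟨?_⟩⟩
  ext r
  rw [Ideal.under_def, Ideal.mem_comap, hPmem, ← m37e0n_ord_pos_iff (F := F) (S := S) w r, hw,
    m18dif_mem_iff (K := K) (F := F) p]
  constructor
  · rintro (h0 | h1)
    · left
      rw [h0, map_zero]
    · exact Or.inr h1
  · rintro (h0 | h1)
    · left
      exact (FaithfulSMul.algebraMap_injective R S) (by rw [h0, map_zero])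
    · exact Or.inr h1

/-- **the norm formula for elements of `S`**: `∑_{w | v_p} ord_w t = ord_{v_p} (N t)`. -/
theorem m37e0n_sum_fiber [IsAlgClosed K] [IsScalarTower K R S] [Algebra.FiniteType K R]
    [FiniteDimensional F F'] [IsIntegralClosure S R F'] [HasPrincipalDivisors K F']
    (p : HeightOneSpectrum R) (t : S) (ht : t ≠ 0) :
    ∑ w ∈ (Place.ofHeightOneSpectrum (K := K) (F := F) p).fiber F', w.ord (algebraMap S F' t)
      = (Place.ofHeightOneSpectrum (K := K) (F := F) p).ord
          (Algebra.norm F (algebraMap S F' t)) := by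
  classical
  haveI : p.asIdeal.IsMaximal := p.isMaximal
  have hres : ∀ P : Ideal S, P.IsPrime → P.LiesOver p.asIdeal →
      ∀ b : S, ∃ a : R, b - algebraMap R S a ∈ P := by
    intro P hP hPp
    haveI : P.IsMaximal := Ideal.IsMaximal.of_liesOver_isMaximal P p.asIdeal
    exact m18nrp_resdeg_one R K P
  have hN0 : Algebra.intNorm R S t ≠ 0 := by
    rw [Ne, Algebra.intNorm_eq_zero]
    exact ht
  rw [← Algebra.algebraMap_intNorm (A := R) (K := F) (L := F') (B := S),
    m18dif_ord_eq_multiplicity (K := K) p hN0,
    m37e0n_multiplicity_intNorm R p.asIdeal p.ne_bot hres t ht, Nat.cast_sum]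
  have hex : ∀ w ∈ (Place.ofHeightOneSpectrum (K := K) (F := F) p).fiber F',
      ∃ P : HeightOneSpectrum S, Place.ofHeightOneSpectrum (K := K) (F := F') P = w ∧
        P.asIdeal.LiesOver p.asIdeal := fun w hw =>
    m37e0n_exists_of_restrict p w (Place.mem_fiber.mp hw)
  refine Finset.sum_bij (fun w hw => (Classical.choose (hex w hw)).asIdeal) ?_ ?_ ?_ ?_
  · intro w hw
    rw [Set.mem_toFinset]
    exact ⟨(Classical.choose (hex w hw)).isPrime, (Classical.choose_spec (hex w hw)).2⟩
  · intro w₁ hw₁ w₂ hw₂ h12
    have h1 := (Classical.choose_spec (hex w₁ hw₁)).1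
    have h2 := (Classical.choose_spec (hex w₂ hw₂)).1
    have h3 : Classical.choose (hex w₁ hw₁) = Classical.choose (hex w₂ hw₂) :=
      HeightOneSpectrum.ext h12
    rw [← h1, ← h2, h3]
  · intro P hP
    rw [Set.mem_toFinset] at hP
    haveI : P.IsPrime := hP.1
    haveI : P.LiesOver p.asIdeal := hP.2
    have hP0 : P ≠ ⊥ := Ideal.ne_bot_of_liesOver_of_ne_bot p.ne_bot P
    set P' : HeightOneSpectrum S := ⟨P, hP.1, hP0⟩ with hP'
    have hw : Place.ofHeightOneSpectrum (K := K) (F := F') P'
        ∈ (Place.ofHeightOneSpectrum (K := K) (F := F) p).fiber F' := by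
      rw [Place.mem_fiber]
      exact m37e0n_restrict_eq P' p hP.2
    refine ⟨_, hw, ?_⟩
    have h1 := (Classical.choose_spec (hex _ hw)).1
    have h2 := algad_ofHeightOneSpectrum_injective (K := K) (F := F') h1
    show (Classical.choose (hex _ hw)).asIdeal = P
    rw [h2]
  · intro w hw
    have h1 := (Classical.choose_spec (hex w hw)).1
    conv_lhs => rw [← h1]
    exact m18dif_ord_eq_multiplicity (K := K) (F := F') _ ht

/-- **the norm formula at the place of `p`**, for every nonzero `f : F'`. -/
theorem m37e0n_sum_fiber_frac [IsAlgClosed K] [IsScalarTower K R S] [Algebra.FiniteType K R]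
    [FiniteDimensional F F'] [IsIntegralClosure S R F'] [HasPrincipalDivisors K F']
    (p : HeightOneSpectrum R) (f : F') (hf : f ≠ 0) :
    ∑ w ∈ (Place.ofHeightOneSpectrum (K := K) (F := F) p).fiber F', w.ord f
      = (Place.ofHeightOneSpectrum (K := K) (F := F) p).ord (Algebra.norm F f) := by
  obtain ⟨a, b, hb, hab⟩ := IsFractionRing.div_surjective (A := S) f
  have hb0 : b ≠ 0 := nonZeroDivisors.ne_zero hb
  have hb0' : algebraMap S F' b ≠ 0 := by
    rw [Ne, map_eq_zero_iff _ (IsFractionRing.injective S F')]
    exact hb0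
  have ha0' : algebraMap S F' a ≠ 0 := by
    intro h0
    rw [h0, zero_div] at hab
    exact hf hab.symm
  have ha0 : a ≠ 0 := by
    rintro rfl
    exact ha0' (map_zero _)
  have hinv0 : (algebraMap S F' b)⁻¹ ≠ 0 := inv_ne_zero hb0'
  have hord : ∀ w : Place K F', w.ord f
      = w.ord (algebraMap S F' a) - w.ord (algebraMap S F' b) := by
    intro w
    rw [← hab, div_eq_mul_inv, w.ord_mul ha0' hinv0, w.ord_inv]
    ring
  have hNa : Algebra.norm F (algebraMap S F' a) ≠ 0 := Algebra.norm_ne_zero_iff.mpr ha0'
  have hNb : Algebra.norm F (algebraMap S F' b) ≠ 0 := Algebra.norm_ne_zero_iff.mpr hb0'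
  have hNf : Algebra.norm F f ≠ 0 := Algebra.norm_ne_zero_iff.mpr hf
  have hmul : f * algebraMap S F' b = algebraMap S F' a := by
    rw [← hab, div_mul_cancel₀ _ hb0']
  have hN : Algebra.norm F f * Algebra.norm F (algebraMap S F' b)
      = Algebra.norm F (algebraMap S F' a) := by
    rw [← map_mul, hmul]
  have hN' := congrArg (Place.ofHeightOneSpectrum (K := K) (F := F) p).ord hN
  rw [Place.ord_mul _ hNf hNb] at hN'
  rw [Finset.sum_congr rfl (fun w _ => hord w), Finset.sum_sub_distrib,
    m37e0n_sum_fiber p a ha0, m37e0n_sum_fiber p b hb0]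
  omega

end abs

end Fermat.Agent.M37
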