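/-
M37 (S37 project), block (E2) (helper7), prefix `m37e2_`.

**Uniqueness of the specialisation map of places.**

* `m37e2_bounded`  : an additive functional on divisors which kills principal divisors and is
  bounded by a multiple of the degree on effective divisors vanishes on divisors of degree `0`
  (Riemann's inequality replaces divisibility of `Pic⁰`);
* `m37e2_mapDomain_le_degree` : fibre sums of an effective divisor are bounded by its degree;
* `m37e2_unique`   : two place reductions `r₁, r₂` (in the sense of `IsPlaceReductionAlong`)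
  coincide, as soon as principal divisors are generated by integral ones, Riemann's inequality
  holds, all places have degree one and one principal divisor has nonzero image.
-/
import Mathlib
import Fermat.Prelude.Def_ModularCurve_ReductionModL
import Fermat.Agent.M18.CoreBasic

set_option autoImplicit false
set_option linter.deprecated false
set_option linter.unusedSectionVars false
set_option linter.unusedVariables false
set_option linter.style.haveILetI false

noncomputable section

namespace Fermat.Agent.M37

open AlgebraicCurve ModularCurve Fermat.Agent.M18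

section bounded

variable {K F : Type*} [Field K] [Field F] [Algebra K F]

/-- an integer all of whose translates by multiples stay bounded is zero. -/
theorem m37e2_int_eq_zero {a b M : ℤ} (h : ∀ n : ℕ, |(n : ℤ) * a + b| ≤ M) : a = 0 := by
  by_contra ha
  have hM : 0 ≤ M := le_trans (abs_nonneg _) (h 0)
  have hb := abs_nonneg b
  have hb1 := le_abs_self b
  have hb2 := neg_abs_le b
  obtain ⟨n, hn⟩ : ∃ n : ℕ, (n : ℤ) = M + |b| + 1 :=
    ⟨(M + |b| + 1).toNat, Int.toNat_of_nonneg (by omega)⟩
  have h2 := abs_le.mp (h n)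
  have hn0 : (0 : ℤ) ≤ (n : ℤ) := Int.natCast_nonneg n
  rcases lt_or_gt_of_ne ha with h0 | h0
  · have h5 : (n : ℤ) * a ≤ (n : ℤ) * (-1) :=
      mul_le_mul_of_nonneg_left (by omega) hn0
    linarith [h2.1, h2.2]
  · have h5 : (n : ℤ) * 1 ≤ (n : ℤ) * a :=
      mul_le_mul_of_nonneg_left (by omega) hn0
    linarith [h2.1, h2.2]

/-- **boundedness**: an additive functional on divisors which kills principal divisors and is
bounded by `c * deg` on effective divisors vanishes on divisors of degree `0`. -/
theorem m37e2_bounded [HasPrincipalDivisors K F] (g : ℕ) (hR : m18_Riem K F g)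
    (hdeg : ∀ P : Place K F, P.deg = 1)
    (lam : Divisor K F →+ ℤ) (c : ℤ)
    (hprin : ∀ D ∈ Divisor.principal (K := K) (F := F), lam D = 0)
    (hbd : ∀ E : Divisor K F, (∀ P, 0 ≤ E P) → |lam E| ≤ c * Divisor.degree E)
    (D : Divisor K F) (hD : Divisor.degree D = 0) : lam D = 0 := by
  by_cases hne : Nonempty (Place K F)
  · obtain ⟨P₀⟩ := hne
    set B : Divisor K F := Finsupp.single P₀ (g : ℤ) with hB
    have hBdeg : Divisor.degree B = g := by
      rw [hB, Divisor.degree_single, hdeg]
      simp
    refine m37e2_int_eq_zero (b := lam B) (M := c * g) fun n => ?_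
    obtain ⟨E, hE⟩ : ∃ E : Divisor K F, E = (n : ℤ) • D + B := ⟨_, rfl⟩
    have hEdeg : Divisor.degree E = g := by
      rw [hE, map_add, map_zsmul, hD, hBdeg, smul_zero, zero_add]
    have hlamE : lam E = (n : ℤ) * lam D + lam B := by
      rw [hE, map_add, map_zsmul, smul_eq_mul]
    obtain ⟨f, hf, hfmem⟩ := hR E (le_of_eq hEdeg.symm)
    obtain ⟨D1, hD1, hD1deg⟩ := HasPrincipalDivisors.exists_divisor (K := K) f hf
    have hZnn : ∀ P, 0 ≤ (E + D1) P := by
      intro P
      have := (mem_riemannRochSpace_iff.1 hfmem P).resolve_left hf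
      rw [Finsupp.add_apply, hD1]
      linarith
    have h1 := hbd (E + D1) hZnn
    have hD1p : lam D1 = 0 := hprin D1 ⟨f, hf, hD1⟩
    have h2 : lam (E + D1) = (n : ℤ) * lam D + lam B := by
      rw [map_add, hD1p, add_zero, hlamE]
    have h3 : Divisor.degree (E + D1) = g := by
      rw [map_add, hEdeg, hD1deg, add_zero]
    rw [h2, h3] at h1
    exact h1
  · have : D = 0 := by
      ext P
      exact (hne ⟨P⟩).elim
    rw [this, map_zero]

end bounded

section fibre

variable {α β : Type*}

open scoped Classical in
/-- fibre sums of an effective finitely supported function are bounded by its total sum. -/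
theorem m37e2_mapDomain_le_sum (r : α → β) (D : α →₀ ℤ) (hD : ∀ P, 0 ≤ D P) (Q : β) :
    Finsupp.mapDomain r D Q ≤ ∑ P ∈ D.support, D P := by
  rw [m18c_mapDomain_apply]
  refine Finset.sum_le_sum fun P _ => ?_
  split_ifs
  · exact le_rfl
  · exact hD P

end fibre

section degree

variable {K F : Type*} [Field K] [Field F] [Algebra K F]

/-- the degree of a divisor when all places have degree one. -/
theorem m37e2_degree_eq_sum (hdeg : ∀ P : Place K F, P.deg = 1) (D : Divisor K F) :
    Divisor.degree D = ∑ P ∈ D.support, D P := by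
  unfold Divisor.degree
  rw [Finsupp.liftAddHom_apply, Finsupp.sum]
  refine Finset.sum_congr rfl fun P _ => ?_
  show D P * (P.deg : ℤ) = D P
  rw [hdeg, Nat.cast_one, mul_one]

variable {k Fk : Type*} [Field k] [Field Fk] [Algebra k Fk]

/-- fibre sums of an effective divisor are bounded by its degree. -/
theorem m37e2_mapDomain_le_degree (hdeg : ∀ P : Place K F, P.deg = 1)
    (r : Place K F → Place k Fk) (E : Divisor K F) (hE : ∀ P, 0 ≤ E P) (Q : Place k Fk) :
    Finsupp.mapDomain r E Q ≤ Divisor.degree E := by
  rw [m37e2_degree_eq_sum hdeg]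
  exact m37e2_mapDomain_le_sum r E hE Q

/-- the degree of an effective divisor is nonnegative. -/
theorem m37e2_degree_nonneg (hdeg : ∀ P : Place K F, P.deg = 1)
    (E : Divisor K F) (hE : ∀ P, 0 ≤ E P) : 0 ≤ Divisor.degree E := by
  rw [m37e2_degree_eq_sum hdeg]
  exact Finset.sum_nonneg fun P _ => hE P

/-- **abstract uniqueness**: two maps of places whose push-forwards agree on principal divisors
agree on all divisors of degree `0`. -/
theorem m37e2_push_eq_of_degree_zero [HasPrincipalDivisors K F] (g : ℕ) (hR : m18_Riem K F g)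
    (hdeg : ∀ P : Place K F, P.deg = 1)
    (r₁ r₂ : Place K F → Place k Fk)
    (hprin : ∀ D ∈ Divisor.principal (K := K) (F := F),
      Finsupp.mapDomain r₁ D = Finsupp.mapDomain r₂ D)
    (D : Divisor K F) (hD : Divisor.degree D = 0) :
    Finsupp.mapDomain r₁ D = Finsupp.mapDomain r₂ D := by
  ext Q
  obtain ⟨lam, hlamapp⟩ : ∃ lam : Divisor K F →+ ℤ,
      ∀ E, lam E = Finsupp.mapDomain r₁ E Q - Finsupp.mapDomain r₂ E Q :=
    ⟨(Finsupp.applyAddHom Q).comp
      (Finsupp.mapDomain.addMonoidHom r₁ - Finsupp.mapDomain.addMonoidHom r₂), fun E => rfl⟩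
  have h := m37e2_bounded g hR hdeg lam 1 (fun E hE => by rw [hlamapp, hprin E hE, sub_self])
    (fun E hE => by
      rw [hlamapp, one_mul, abs_le]
      have h1 := m37e2_mapDomain_le_degree hdeg r₁ E hE Q
      have h2 := m37e2_mapDomain_le_degree hdeg r₂ E hE Q
      have h3 := m18c_mapDomain_nonneg r₁ E hE Q
      have h4 := m18c_mapDomain_nonneg r₂ E hE Q
      constructor <;> linarith) D hD
  rw [hlamapp] at h
  linarith

/-- **abstract uniqueness of maps of places.** -/
theorem m37e2_eq_of_push_eq [HasPrincipalDivisors K F] (g : ℕ) (hR : m18_Riem K F g)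
    (hdeg : ∀ P : Place K F, P.deg = 1)
    (r₁ r₂ : Place K F → Place k Fk)
    (hprin : ∀ D ∈ Divisor.principal (K := K) (F := F),
      Finsupp.mapDomain r₁ D = Finsupp.mapDomain r₂ D)
    (hnc : ∃ D ∈ Divisor.principal (K := K) (F := F), Finsupp.mapDomain r₁ D ≠ 0) :
    r₁ = r₂ := by
  classical
  have hδ := m37e2_push_eq_of_degree_zero g hR hdeg r₁ r₂ hprin
  have hconst : ∀ P Q : Place K F,
      Finsupp.single (r₁ P) (1 : ℤ) - Finsupp.single (r₂ P) 1 =
        Finsupp.single (r₁ Q) 1 - Finsupp.single (r₂ Q) 1 := by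
    intro P Q
    have hPQ : Divisor.degree (Finsupp.single P (1 : ℤ) - Finsupp.single Q 1 : Divisor K F) = 0 := by
      rw [map_sub, Divisor.degree_single, Divisor.degree_single, hdeg, hdeg, sub_self]
    have h := hδ _ hPQ
    rw [Finsupp.mapDomain_sub, Finsupp.mapDomain_sub, Finsupp.mapDomain_single,
      Finsupp.mapDomain_single, Finsupp.mapDomain_single, Finsupp.mapDomain_single] at h
    exact sub_eq_sub_iff_sub_eq_sub.mp h
  by_contra hne
  obtain ⟨P₀, hP₀⟩ : ∃ P₀, r₁ P₀ ≠ r₂ P₀ := by
    by_contra hall
    push Not at hall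
    exact hne (funext hall)
  have hr₁const : ∀ Q, r₁ Q = r₁ P₀ := by
    intro Q
    have h := congrArg (fun E => E (r₁ P₀)) (hconst Q P₀)
    simp only [Finsupp.sub_apply, Finsupp.single_apply, if_neg (Ne.symm hP₀)] at h
    by_contra hQ
    rw [if_neg hQ] at h
    split_ifs at h <;> omega
  obtain ⟨D, hDprin, hDne⟩ := hnc
  apply hDne
  have hmapconst : ∀ D : Divisor K F,
      Finsupp.mapDomain r₁ D = Finsupp.single (r₁ P₀) (Divisor.degree D) := by
    intro D
    induction D using Finsupp.induction with
    | zero => simp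
    | single_add P n D _ _ ih =>
      rw [Finsupp.mapDomain_add, ih, Finsupp.mapDomain_single, hr₁const P, map_add,
        Divisor.degree_single, hdeg, Nat.cast_one, mul_one, ← Finsupp.single_add]
  have hD0 : Divisor.degree D = 0 := by
    obtain ⟨f, hf, hDf⟩ := hDprin
    obtain ⟨D1, hD1, hD1deg⟩ := HasPrincipalDivisors.exists_divisor (K := K) f hf
    have : D = D1 := by
      ext v
      rw [hDf, hD1]
    rw [this, hD1deg]
  rw [hmapconst D, hD0, Finsupp.single_zero]

end degree

section modular

variable {L : Type*} [Field L] [Algebra ℚ L] {A : ValuationSubring L}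
variable {k : Type*} [Field k] {π : A →+* k} {N : ℕ}

/-- **uniqueness of the place reduction.** -/
theorem m37e2_unique
    {r₁ r₂ : Place L (laurentBaseChange L (modularFunctionFieldFull N)) →
      Place k (modularFunctionFieldFullC k N)}
    (hr₁ : IsPlaceReductionAlong A π N r₁) (hr₂ : IsPlaceReductionAlong A π N r₂)
    (hgen : PrincipalGeneratedByIntegral A π N)
    [HasPrincipalDivisors L (laurentBaseChange L (modularFunctionFieldFull N))]
    (g : ℕ) (hR : m18_Riem L (laurentBaseChange L (modularFunctionFieldFull N)) g)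
    (hdeg : ∀ P : Place L (laurentBaseChange L (modularFunctionFieldFull N)), P.deg = 1)
    (hnc : ∃ D ∈ Divisor.principal (K := L) (F := laurentBaseChange L (modularFunctionFieldFull N)),
      Finsupp.mapDomain r₁ D ≠ 0) :
    r₁ = r₂ := by
  have hagree : ∀ D ∈ integralPrincipalDivisors A π N,
      Finsupp.mapDomain r₁ D = Finsupp.mapDomain r₂ D := by
    rintro D ⟨y, hy, hyk, hne, hDy⟩
    ext Q
    rw [hr₁.2 y hy hyk hne D hDy Q, hr₂.2 y hy hyk hne D hDy Q]
  have hprin : ∀ D ∈ Divisor.principal (K := L)
      (F := laurentBaseChange L (modularFunctionFieldFull N)),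
      Finsupp.mapDomain.addMonoidHom r₁ D = Finsupp.mapDomain.addMonoidHom r₂ D := by
    intro D hD
    have hD' := hgen hD
    clear hD
    induction hD' using AddSubgroup.closure_induction with
    | mem E hE => exact hagree E hE
    | zero => rw [map_zero, map_zero]
    | add E E' _ _ hE hE' => rw [map_add, map_add, hE, hE']
    | neg E _ hE => rw [map_neg, map_neg, hE]
  exact m37e2_eq_of_push_eq g hR hdeg r₁ r₂ (fun D hD => hprin D hD) hnc

end modular

end Fermat.Agent.M37

end
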