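/-
M37 (S37 project), block (E2) (helper7), prefix `m37e2_`.

**The coefficientwise action on `F~_N` and the twist of a place reduction.**

* `m37e2_coeffMap_mem` : `F~_N = modularFunctionFieldFullC k N` is stable under the coefficientwise
  action of every ring endomorphism of `k` (its generators have coefficients in the prime ring);
* `m37e2_ringAut`, `m37e2_aut` : the semilinear automorphism of `F~_N` attached to a ring
  automorphism `τ` of `k`;
* `m37e2_twist` : if `r` is a place reduction (`IsPlaceReductionAlong`), `σ` an automorphism of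
  `L` preserving `A` and inducing `τ` on the residue field, then `P ↦ τ⁻¹ • r (σ • P)` is a place
  reduction as well;
* `m37e2_place_smul_of_unique` : hence `r (σ • P) = τ • r P`, by uniqueness.
-/
import Mathlib
import Fermat.Prelude.Def_ModularCurve_ReductionModL
import Fermat.Agent.M37.E2Uniq

set_option autoImplicit false
set_option linter.deprecated false
set_option linter.unusedSectionVars false
set_option linter.unusedVariables false
set_option linter.style.haveILetI false

noncomputable section

namespace Fermat.Agent.M37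

open AlgebraicCurve ModularCurve HahnSeries IntermediateField Fermat.Agent.M18

section action

variable {k : Type*} [Field k] (N : ℕ) [NeZero N]

/-- `F~_N` is stable under the coefficientwise action of ring endomorphisms of `k`. -/
theorem m37e2_coeffMap_mem (τ : k →+* k) {x : LaurentSeries k}
    (hx : x ∈ modularFunctionFieldFullC k N) : coeffMap τ x ∈ modularFunctionFieldFullC k N := by
  unfold modularFunctionFieldFullC at hx
  induction hx using IntermediateField.adjoin_induction with
  | mem x hx =>
    obtain ⟨d, hne, hd, rfl⟩ := hx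
    haveI := hne
    rw [coeffMap_qExpand, coeffMap_jqModC]
    exact jqModCd_mem_full k N hd
  | algebraMap c =>
    rw [coeffMap_algebraMap]
    exact (modularFunctionFieldFullC k N).algebraMap_mem _
  | add x y _ _ hx hy => rw [map_add]; exact add_mem hx hy
  | inv x _ hx => rw [map_inv₀]; exact inv_mem hx
  | mul x y _ _ hx hy => rw [map_mul]; exact mul_mem hx hy

/-- the coefficientwise ring automorphism of `F~_N` attached to a ring automorphism of `k`. -/
def m37e2_ringAut (τ : k ≃+* k) :
    ↥(modularFunctionFieldFullC k N) ≃+* ↥(modularFunctionFieldFullC k N) where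
  toFun x := ⟨coeffMap (τ : k →+* k) (x : LaurentSeries k), m37e2_coeffMap_mem N _ x.2⟩
  invFun x := ⟨coeffMap (τ.symm : k →+* k) (x : LaurentSeries k), m37e2_coeffMap_mem N _ x.2⟩
  left_inv x := Subtype.ext <| by
    show coeffMap (τ.symm : k →+* k) (coeffMap (τ : k →+* k) (x : LaurentSeries k))
      = (x : LaurentSeries k)
    rw [coeffMap_coeffMap,
      coeffMap_congr (g := RingHom.id k) (RingHom.ext fun a => τ.symm_apply_apply a)
        (x : LaurentSeries k),
      coeffMap_id]
  right_inv x := Subtype.ext <| by
    show coeffMap (τ : k →+* k) (coeffMap (τ.symm : k →+* k) (x : LaurentSeries k))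
      = (x : LaurentSeries k)
    rw [coeffMap_coeffMap,
      coeffMap_congr (g := RingHom.id k) (RingHom.ext fun a => τ.apply_symm_apply a)
        (x : LaurentSeries k),
      coeffMap_id]
  map_mul' x y :=
    Subtype.ext (map_mul (coeffMap (τ : k →+* k)) (x : LaurentSeries k) (y : LaurentSeries k))
  map_add' x y :=
    Subtype.ext (map_add (coeffMap (τ : k →+* k)) (x : LaurentSeries k) (y : LaurentSeries k))

@[simp]
theorem m37e2_coe_ringAut_apply (τ : k ≃+* k) (x : ↥(modularFunctionFieldFullC k N)) :
    (m37e2_ringAut N τ x : LaurentSeries k) = coeffMap (τ : k →+* k) (x : LaurentSeries k) :=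
  rfl

theorem m37e2_ringAut_algebraMap (τ : k ≃+* k) (a : k) :
    m37e2_ringAut N τ (algebraMap k ↥(modularFunctionFieldFullC k N) a)
      = algebraMap k ↥(modularFunctionFieldFullC k N) (τ a) :=
  Subtype.ext (coeffMap_algebraMap (τ : k →+* k) a)

/-- the semilinear automorphism of `F~_N` attached to a ring automorphism of `k`. -/
def m37e2_aut (τ : k ≃+* k) : SemilinearAut k ↥(modularFunctionFieldFullC k N) :=
  ⟨(m37e2_ringAut N τ, τ), fun a => m37e2_ringAut_algebraMap N τ a⟩

@[simp]
theorem m37e2_toRingAut_aut (τ : k ≃+* k) :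
    SemilinearAut.toRingAut (m37e2_aut N τ) = m37e2_ringAut N τ := rfl

@[simp]
theorem m37e2_baseAut_aut (τ : k ≃+* k) : SemilinearAut.baseAut (m37e2_aut N τ) = τ := rfl

theorem m37e2_coe_aut_smul (τ : k ≃+* k) (x : ↥(modularFunctionFieldFullC k N)) :
    ((m37e2_aut N τ • x : ↥(modularFunctionFieldFullC k N)) : LaurentSeries k)
      = coeffMap (τ : k →+* k) (x : LaurentSeries k) :=
  rfl

/-- the semilinear automorphism only depends on the values of `τ`. -/
theorem m37e2_aut_congr {τ τ' : k ≃+* k} (h : ∀ a, τ a = τ' a) :
    m37e2_aut N τ = m37e2_aut N τ' := by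
  have : τ = τ' := RingEquiv.ext h
  rw [this]

/-- the identity acts trivially. -/
theorem m37e2_aut_one : m37e2_aut N (1 : k ≃+* k) = 1 := by
  refine Subtype.ext (Prod.ext (RingEquiv.ext fun x => Subtype.ext ?_) rfl)
  show coeffMap ((1 : k ≃+* k) : k →+* k) (x : LaurentSeries k) = (x : LaurentSeries k)
  rw [show ((1 : k ≃+* k) : k →+* k) = RingHom.id k from RingHom.ext fun _ => rfl, coeffMap_id]

theorem m37e2_aut_refl : m37e2_aut N (RingEquiv.refl k) = 1 :=
  m37e2_aut_one N

end action

section twist

variable {L : Type*} [Field L] [Algebra ℚ L] {A : ValuationSubring L}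
variable {k : Type*} [Field k] {π : A →+* k} {N : ℕ} [NeZero N]

/-- **the twist of a place reduction is a place reduction.** -/
theorem m37e2_twist
    {r : Place L (laurentBaseChange L (modularFunctionFieldFull N)) →
      Place k (modularFunctionFieldFullC k N)}
    (hr : IsPlaceReductionAlong A π N r)
    (σ : L ≃ₐ[ℚ] L) (σA : A →+* A) (hσA : ∀ a : A, ((σA a : A) : L) = σ (a : L))
    (τ : k ≃+* k) (hτ : ∀ a : A, π (σA a) = τ (π a)) :
    IsPlaceReductionAlong A π N
      (fun P => (m37e2_aut N τ)⁻¹ • r (arithmeticGalois (modularFunctionFieldFull N) σ • P)) := by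
  obtain ⟨g, hg⟩ : ∃ g : SemilinearAut L ↥(laurentBaseChange L (modularFunctionFieldFull N)),
      g = arithmeticGalois (modularFunctionFieldFull N) σ := ⟨_, rfl⟩
  obtain ⟨gk, hgk⟩ : ∃ gk : SemilinearAut k ↥(modularFunctionFieldFullC k N),
      gk = m37e2_aut N τ := ⟨_, rfl⟩
  rw [← hg, ← hgk]
  refine ⟨fun P => ?_, ?_⟩
  · show (gk⁻¹ • r (g • P)).deg = P.deg
    rw [SemilinearAut.deg_smul, hr.1, SemilinearAut.deg_smul]
  · intro y hy hyk hne D hD Q
    have e1 : coeffMap A.subtype (coeffMap σA y)
        = coeffMap (σ : L →+* L) (coeffMap A.subtype y) := by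
      rw [coeffMap_coeffMap, coeffMap_coeffMap]
      exact coeffMap_congr (RingHom.ext fun a => hσA a) y
    have e2 : coeffMap π (coeffMap σA y) = coeffMap (τ : k →+* k) (coeffMap π y) := by
      rw [coeffMap_coeffMap, coeffMap_coeffMap]
      exact coeffMap_congr (RingHom.ext fun a => hτ a) y
    have hy' : coeffMap A.subtype (coeffMap σA y)
        ∈ laurentBaseChange L (modularFunctionFieldFull N) := by
      rw [e1]
      exact coeffMap_mem_laurentBaseChange σ hy
    have hyk' : coeffMap π (coeffMap σA y) ∈ modularFunctionFieldFullC k N := by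
      rw [e2]
      exact m37e2_coeffMap_mem N _ hyk
    have hgy : g • (⟨coeffMap A.subtype y, hy⟩ :
        ↥(laurentBaseChange L (modularFunctionFieldFull N)))
        = ⟨coeffMap A.subtype (coeffMap σA y), hy'⟩ := by
      rw [hg]
      exact Subtype.ext e1.symm
    have hgky : gk • (⟨coeffMap π y, hyk⟩ : ↥(modularFunctionFieldFullC k N))
        = ⟨coeffMap π (coeffMap σA y), hyk'⟩ := by
      rw [hgk]
      exact Subtype.ext e2.symm
    have hne' : coeffMap π (coeffMap σA y) ≠ 0 := by
      intro h0
      apply hne
      have h1 : gk • (⟨coeffMap π y, hyk⟩ : ↥(modularFunctionFieldFullC k N)) = 0 := by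
        rw [hgky]
        exact Subtype.ext h0
      have h2 := (smul_eq_zero_iff_eq gk).mp h1
      exact congrArg Subtype.val h2
    have hD' : ∀ P', (g • D) P' = P'.ord (⟨coeffMap A.subtype (coeffMap σA y), hy'⟩ :
        ↥(laurentBaseChange L (modularFunctionFieldFull N))) := by
      intro P'
      rw [SemilinearAut.divisor_smul_apply, hD, ← hgy]
      have := SemilinearAut.ord_smul g (g⁻¹ • P')
        (⟨coeffMap A.subtype y, hy⟩ : ↥(laurentBaseChange L (modularFunctionFieldFull N)))
      rw [smul_inv_smul] at this
      exact this.symm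
    have key := hr.2 (coeffMap σA y) hy' hyk' hne' (g • D) hD' (gk • Q)
    have hcomp : Finsupp.mapDomain (fun P => gk⁻¹ • r (g • P)) D
        = gk⁻¹ • Finsupp.mapDomain r (g • D) := by
      have h1 : (fun P => gk⁻¹ • r (g • P)) = (fun Q => gk⁻¹ • Q) ∘ r ∘ (fun P => g • P) := rfl
      rw [h1, Finsupp.mapDomain_comp, Finsupp.mapDomain_comp]
      rfl
    rw [hcomp, SemilinearAut.divisor_smul_apply, inv_inv, key, ← hgky]
    exact SemilinearAut.ord_smul gk Q _

/-- **equivariance of the place reduction**, from uniqueness. -/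
theorem m37e2_place_smul_of_unique
    {r : Place L (laurentBaseChange L (modularFunctionFieldFull N)) →
      Place k (modularFunctionFieldFullC k N)}
    (hr : IsPlaceReductionAlong A π N r)
    (hgen : PrincipalGeneratedByIntegral A π N)
    [HasPrincipalDivisors L (laurentBaseChange L (modularFunctionFieldFull N))]
    (g : ℕ) (hR : m18_Riem L (laurentBaseChange L (modularFunctionFieldFull N)) g)
    (hdeg : ∀ P : Place L (laurentBaseChange L (modularFunctionFieldFull N)), P.deg = 1)
    (hnc : ∃ D ∈ Divisor.principal (K := L) (F := laurentBaseChange L (modularFunctionFieldFull N)),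
      Finsupp.mapDomain r D ≠ 0)
    (σ : L ≃ₐ[ℚ] L) (σA : A →+* A) (hσA : ∀ a : A, ((σA a : A) : L) = σ (a : L))
    (τ : k ≃+* k) (hτ : ∀ a : A, π (σA a) = τ (π a))
    (P : Place L (laurentBaseChange L (modularFunctionFieldFull N))) :
    r (arithmeticGalois (modularFunctionFieldFull N) σ • P) = m37e2_aut N τ • r P := by
  have h := m37e2_unique hr (m37e2_twist hr σ σA hσA τ hτ) hgen g hR hdeg hnc
  have h1 : r P = (m37e2_aut N τ)⁻¹ • r (arithmeticGalois (modularFunctionFieldFull N) σ • P) :=
    congrFun h P
  rw [h1, smul_inv_smul]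

/-- the push-forward of divisors is equivariant. -/
theorem m37e2_mapDomain_smul
    {r : Place L (laurentBaseChange L (modularFunctionFieldFull N)) →
      Place k (modularFunctionFieldFullC k N)}
    (g : SemilinearAut L ↥(laurentBaseChange L (modularFunctionFieldFull N)))
    (gk : SemilinearAut k ↥(modularFunctionFieldFullC k N))
    (h : ∀ P, r (g • P) = gk • r P)
    (D : Divisor L (laurentBaseChange L (modularFunctionFieldFull N))) :
    Finsupp.mapDomain r (g • D) = gk • Finsupp.mapDomain r D := by
  rw [SemilinearAut.divisor_smul_def, SemilinearAut.divisor_smul_def, ← Finsupp.mapDomain_comp,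
    ← Finsupp.mapDomain_comp]
  congr 1
  funext P
  exact h P

end twist

end Fermat.Agent.M37

end
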