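import Fermat.Prelude.Def_ModularCurve_HeckeModule
import Fermat.Prelude.Def_ModularCurve_ReductionModL

/-!
# M37: the top-level reduction of S37 (Eichler–Shimura congruence relation, packaged form)

`m37top_result` proves the frozen statement of S37 from explicit hypotheses about the
prelude's reduction map `reductionModL A N`:

* (E1)  `ReductionInputsModL A N` holds for every `A` over a prime `ℓ ∤ N`;
* (S18) the reduction map is injective on torsion of order prime to `ℓ` (statement S18);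
* (E2i) the reduction map is invariant under inertia;
* (E2f) there is an additive endomorphism `Fr` of `J~` with `red (σ x) = Fr (red x)` for
  every Frobenius element `σ`;
* (E3)  `Fr (red (T_ℓ z)) = Fr (Fr (red z)) + ℓ • red z` (Eichler–Shimura).

The module `J'` is the "coinduced" module: additive maps `f : HeckeAlg →+ J~` satisfying the
Eichler–Shimura relation, with `(s • f) t = f (t * s)`; the specialization map is
`x ↦ (t ↦ red (t • x))`, and `F f = Fr ∘ f`.
-/

set_option autoImplicit false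
set_option linter.unusedSectionVars false
set_option linter.unusedVariables false
set_option linter.style.haveILetI false
set_option synthInstance.maxHeartbeats 400000

noncomputable section

namespace Fermat.Agent.M37

open ModularCurve AlgebraicCurve

section Coind

variable {J₀ : Type} [AddCommGroup J₀] (Fr : J₀ →+ J₀) (X : HeckeAlg) (ℓ : ℕ)

/-- the coinduced module: additive maps `HeckeAlg →+ J₀` satisfying the quadratic relation. -/
def m37top_sub : AddSubgroup (HeckeAlg →+ J₀) where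
  carrier := {f | ∀ t : HeckeAlg, Fr (Fr (f t)) - Fr (f (t * X)) + ℓ • f t = 0}
  zero_mem' := by
    intro t
    simp
  add_mem' := by
    intro f g hf hg t
    have h1 := hf t
    have h2 := hg t
    simp only [AddMonoidHom.add_apply, map_add, smul_add]
    rw [← add_zero (0 : J₀)]
    nth_rewrite 1 [← h1]
    rw [← h2]
    abel
  neg_mem' := by
    intro f hf t
    have h1 := hf t
    simp only [AddMonoidHom.neg_apply, map_neg, smul_neg]
    rw [← neg_zero (G := J₀), ← h1]
    abel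

theorem m37top_mem (f : HeckeAlg →+ J₀) :
    f ∈ m37top_sub Fr X ℓ ↔ ∀ t : HeckeAlg, Fr (Fr (f t)) - Fr (f (t * X)) + ℓ • f t = 0 :=
  Iff.rfl

/-- the Hecke action on the coinduced module. -/
def m37top_smul (s : HeckeAlg) (f : m37top_sub Fr X ℓ) : m37top_sub Fr X ℓ :=
  ⟨(f : HeckeAlg →+ J₀).comp (AddMonoidHom.mulRight s), by
    intro t
    have h := f.2 (t * s)
    show Fr (Fr ((f : HeckeAlg →+ J₀) (t * s))) - Fr ((f : HeckeAlg →+ J₀) (t * X * s))
      + ℓ • (f : HeckeAlg →+ J₀) (t * s) = 0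
    rw [show t * X * s = t * s * X by ring]
    exact h⟩

theorem m37top_smul_apply (s : HeckeAlg) (f : m37top_sub Fr X ℓ) (t : HeckeAlg) :
    ((m37top_smul Fr X ℓ s f : m37top_sub Fr X ℓ) : HeckeAlg →+ J₀) t
      = (f : HeckeAlg →+ J₀) (t * s) := rfl

@[implicit_reducible]
def m37top_module : Module HeckeAlg (m37top_sub Fr X ℓ) where
  smul := m37top_smul Fr X ℓ
  one_smul f := by
    apply Subtype.ext
    refine AddMonoidHom.ext fun t => ?_
    show (f : HeckeAlg →+ J₀) (t * 1) = (f : HeckeAlg →+ J₀) t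
    rw [mul_one]
  mul_smul a b f := by
    apply Subtype.ext
    refine AddMonoidHom.ext fun t => ?_
    show (f : HeckeAlg →+ J₀) (t * (a * b)) = (f : HeckeAlg →+ J₀) (t * a * b)
    rw [mul_assoc]
  smul_zero a := by
    apply Subtype.ext
    refine AddMonoidHom.ext fun t => ?_
    rfl
  smul_add a f g := by
    apply Subtype.ext
    refine AddMonoidHom.ext fun t => ?_
    rfl
  add_smul a b f := by
    apply Subtype.ext
    refine AddMonoidHom.ext fun t => ?_
    show (f : HeckeAlg →+ J₀) (t * (a + b))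
      = (f : HeckeAlg →+ J₀) (t * a) + (f : HeckeAlg →+ J₀) (t * b)
    rw [mul_add, map_add]
  zero_smul f := by
    apply Subtype.ext
    refine AddMonoidHom.ext fun t => ?_
    show (f : HeckeAlg →+ J₀) (t * 0) = 0
    rw [mul_zero, map_zero]

/-- the operator `F` on the coinduced module. -/
def m37top_F : m37top_sub Fr X ℓ →+ m37top_sub Fr X ℓ where
  toFun f := ⟨Fr.comp (f : HeckeAlg →+ J₀), by
    intro t
    have h := f.2 t
    show Fr (Fr (Fr ((f : HeckeAlg →+ J₀) t))) - Fr (Fr ((f : HeckeAlg →+ J₀) (t * X)))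
      + ℓ • Fr ((f : HeckeAlg →+ J₀) t) = 0
    rw [← map_sub, ← map_nsmul, ← map_add, h, map_zero]⟩
  map_zero' := by
    apply Subtype.ext
    refine AddMonoidHom.ext fun t => ?_
    show Fr 0 = 0
    rw [map_zero]
  map_add' f g := by
    apply Subtype.ext
    refine AddMonoidHom.ext fun t => ?_
    show Fr ((f : HeckeAlg →+ J₀) t + (g : HeckeAlg →+ J₀) t)
      = Fr ((f : HeckeAlg →+ J₀) t) + Fr ((g : HeckeAlg →+ J₀) t)
    rw [map_add]

theorem m37top_F_apply (f : m37top_sub Fr X ℓ) (t : HeckeAlg) :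
    ((m37top_F Fr X ℓ f : m37top_sub Fr X ℓ) : HeckeAlg →+ J₀) t
      = Fr ((f : HeckeAlg →+ J₀) t) := rfl

/-- the relation `F² - X F + ℓ = 0` on the coinduced module. -/
theorem m37top_relation (y : m37top_sub Fr X ℓ) :
    letI := m37top_module Fr X ℓ
    m37top_F Fr X ℓ (m37top_F Fr X ℓ y) - X • m37top_F Fr X ℓ y + ℓ • y = 0 := by
  letI := m37top_module Fr X ℓ
  apply Subtype.ext
  refine AddMonoidHom.ext fun t => ?_
  have h := y.2 t
  show Fr (Fr ((y : HeckeAlg →+ J₀) t)) - Fr ((y : HeckeAlg →+ J₀) (t * X))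
    + (((ℓ • y : m37top_sub Fr X ℓ) : HeckeAlg →+ J₀)) t = 0
  rw [AddSubgroup.coe_nsmul, AddMonoidHom.nsmul_apply]
  exact h

end Coind

section Main

variable {N : ℕ} [NeZero N]

/-- the specialization map into the coinduced module. -/
def m37top_sp (hcomm : HeckeOperatorsCommuteBar N) {J₀ : Type} [AddCommGroup J₀]
    (red : JZero N →+ J₀) (Fr : J₀ →+ J₀) (q : Nat.Primes)
    (hES : ∀ z : JZero N, Fr (red (heckeOperatorBar N q z)) = Fr (Fr (red z)) + (q : ℕ) • red z) :
    JZero N →+ m37top_sub Fr (heckeGen q) (q : ℕ) :=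
  letI := heckeModuleBar N
  { toFun := fun x =>
      ⟨{ toFun := fun t => red (t • x)
         map_zero' := (congrArg red (zero_smul HeckeAlg x)).trans (map_zero red)
         map_add' := fun t t' => (congrArg red (add_smul t t' x)).trans (map_add red _ _) }, by
        intro t
        show Fr (Fr (red (t • x))) - Fr (red ((t * heckeGen q) • x)) + (q : ℕ) • red (t • x) = 0
        rw [mul_comm t (heckeGen q), mul_smul, heckeModuleBar_heckeGen_smul hcomm, hES (t • x)]
        abel⟩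
    map_zero' := by
      apply Subtype.ext
      refine AddMonoidHom.ext fun t => ?_
      show red (t • (0 : JZero N)) = 0
      rw [smul_zero, map_zero]
    map_add' := fun x y => by
      apply Subtype.ext
      refine AddMonoidHom.ext fun t => ?_
      show red (t • (x + y)) = red (t • x) + red (t • y)
      rw [smul_add, map_add] }

theorem m37top_sp_apply (hcomm : HeckeOperatorsCommuteBar N) {J₀ : Type} [AddCommGroup J₀]
    (red : JZero N →+ J₀) (Fr : J₀ →+ J₀) (q : Nat.Primes)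
    (hES : ∀ z : JZero N, Fr (red (heckeOperatorBar N q z)) = Fr (Fr (red z)) + (q : ℕ) • red z)
    (x : JZero N) (t : HeckeAlg) :
    letI := heckeModuleBar N
    ((m37top_sp hcomm red Fr q hES x : m37top_sub Fr (heckeGen q) (q : ℕ)) : HeckeAlg →+ J₀) t
      = red (t • x) := rfl

/-- **S37 from abstract reduction data**: an additive map `red` out of `J₀(N)` which is
injective on `p`-power torsion, invariant under inertia, intertwines every Frobenius element
with `Fr`, and satisfies the Eichler–Shimura relation. -/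
theorem m37top_of_red (p : ℕ) (hcomm : HeckeOperatorsCommuteBar N)
    (hG : letI := heckeModuleBar N
      SMulCommClass (AlgebraicClosure ℚ ≃ₐ[ℚ] AlgebraicClosure ℚ) HeckeAlg (JZero N))
    {ℓ : ℕ} (hℓ : ℓ.Prime) (A : ValuationSubring (AlgebraicClosure ℚ))
    {J₀ : Type} [AddCommGroup J₀] (red : JZero N →+ J₀) (Fr : J₀ →+ J₀)
    (hinj : ∀ x : JZero N, (∃ n : ℕ, p ^ n • x = 0) → red x = 0 → x = 0)
    (hin : ∀ σ ∈ A.inertiaSubgroupIn ℚ, ∀ x : JZero N, red (σ • x) = red x)
    (hfr : ∀ σ : AlgebraicClosure ℚ ≃ₐ[ℚ] AlgebraicClosure ℚ, A.IsFrobeniusAt σ ℓ →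
      ∀ x : JZero N, red (σ • x) = Fr (red x))
    (hES : ∀ z : JZero N,
      Fr (red (heckeOperatorBar N ⟨ℓ, hℓ⟩ z)) = Fr (Fr (red z)) + ℓ • red z) :
    letI := heckeModuleBar N
    ∃ (J' : Type) (_ : AddCommGroup J') (_ : Module HeckeAlg J') (sp : JZero N →+ J')
      (F : J' →+ J'),
      IsSpecialization (K := ℚ) p (JZero N) J' A ℓ sp F ∧ SpecialFibreRelation J' ℓ hℓ F := by
  letI := heckeModuleBar N
  haveI := hG
  letI := m37top_module Fr (heckeGen ⟨ℓ, hℓ⟩) ℓ
  refine ⟨m37top_sub Fr (heckeGen ⟨ℓ, hℓ⟩) ℓ, inferInstance,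
    m37top_module Fr (heckeGen ⟨ℓ, hℓ⟩) ℓ,
    m37top_sp hcomm red Fr ⟨ℓ, hℓ⟩ hES, m37top_F Fr (heckeGen ⟨ℓ, hℓ⟩) ℓ, ?_, ?_⟩
  swap
  · intro y
    exact m37top_relation Fr (heckeGen ⟨ℓ, hℓ⟩) ℓ y
  refine ⟨?_, ?_, ?_, ?_⟩
  · intro T x
    apply Subtype.ext
    refine AddMonoidHom.ext fun t => ?_
    show red (t • T • x) = red ((t * T) • x)
    rw [mul_smul]
  · intro σ hσ x
    apply Subtype.ext
    refine AddMonoidHom.ext fun t => ?_
    show red (t • σ • x) = red (t • x)
    rw [← smul_comm σ t x, hin σ hσ]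
  · intro σ hσ x
    apply Subtype.ext
    refine AddMonoidHom.ext fun t => ?_
    show red (t • σ • x) = Fr (red (t • x))
    rw [← smul_comm σ t x, hfr σ hσ]
  · intro x hx h0
    apply hinj x hx
    have h1 := congrArg (fun f : m37top_sub Fr (heckeGen ⟨ℓ, hℓ⟩) ℓ => (f : HeckeAlg →+ J₀) 1) h0
    have h2 : red ((1 : HeckeAlg) • x) = 0 := h1
    rwa [one_smul] at h2

/-- **S37 from (E1), (S18), (E2i), (E2f)+(E3)**, all stated for the prelude's reduction map
`reductionModL A N`. -/
theorem m37top_result (N p : ℕ) [NeZero N] (hcomm : HeckeOperatorsCommuteBar N)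
    (E1 : ∀ ℓ : ℕ, ℓ.Prime → ¬ ℓ ∣ N → ∀ A : ValuationSubring (AlgebraicClosure ℚ),
      A.LiesOverPrime ℓ → ReductionInputsModL A N)
    (hS18 : ∀ ℓ : ℕ, ℓ.Prime → ¬ ℓ ∣ N → ∀ A : ValuationSubring (AlgebraicClosure ℚ),
      A.LiesOverPrime ℓ → ReductionInputsModL A N → ∀ m : ℕ, ¬ ℓ ∣ m → ∀ z : JZero N,
        m • z = 0 → reductionModL A N z = 0 → z = 0)
    (E2i : ∀ ℓ : ℕ, ℓ.Prime → ¬ ℓ ∣ N → ∀ A : ValuationSubring (AlgebraicClosure ℚ),
      A.LiesOverPrime ℓ → ReductionInputsModL A N →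
        ∀ σ ∈ A.inertiaSubgroupIn ℚ, ∀ x : JZero N,
          reductionModL A N (σ • x) = reductionModL A N x)
    (E23 : ∀ (ℓ : ℕ) (hℓ : ℓ.Prime), ¬ ℓ ∣ N → ∀ A : ValuationSubring (AlgebraicClosure ℚ),
      A.LiesOverPrime ℓ → ReductionInputsModL A N →
        ∃ Fr : JZeroC (IsLocalRing.ResidueField A) N →+ JZeroC (IsLocalRing.ResidueField A) N,
          (∀ σ : AlgebraicClosure ℚ ≃ₐ[ℚ] AlgebraicClosure ℚ, A.IsFrobeniusAt σ ℓ →
            ∀ x : JZero N, reductionModL A N (σ • x) = Fr (reductionModL A N x)) ∧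
          (∀ z : JZero N, Fr (reductionModL A N (heckeOperatorBar N ⟨ℓ, hℓ⟩ z))
            = Fr (Fr (reductionModL A N z)) + ℓ • reductionModL A N z)) :
    letI := heckeModuleBar N
    ∀ (_ : SMulCommClass (AlgebraicClosure ℚ ≃ₐ[ℚ] AlgebraicClosure ℚ) HeckeAlg (JZero N)),
      SpecializationExists (K := ℚ) (L := AlgebraicClosure ℚ) N p (JZero N) := by
  letI := heckeModuleBar N
  intro hG ℓ hℓ hdvd A hA
  have hℓN : ¬ ℓ ∣ N := fun h => hdvd (Dvd.dvd.mul_right h p)
  have hℓp : ¬ ℓ ∣ p := fun h => hdvd (Dvd.dvd.mul_left h N)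
  have h := E1 ℓ hℓ hℓN A hA
  obtain ⟨Fr, hfr, hES⟩ := E23 ℓ hℓ hℓN A hA h
  refine m37top_of_red p hcomm hG hℓ A (reductionModL A N) Fr ?_ (E2i ℓ hℓ hℓN A hA h) hfr hES
  rintro x ⟨n, hn⟩ hx
  exact hS18 ℓ hℓ hℓN A hA h (p ^ n) (fun hd => hℓp (hℓ.dvd_of_dvd_pow hd)) x hn hx

end Main

end Fermat.Agent.M37

end
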