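import Mathlib
import Fermat.Agent.M37.Top

/-!
# M37: the explicit Frobenius on `J~` and the place-level form of the leaves

* `m37fr_aut N φ`    : the `φ`-semilinear automorphism "apply `φ` to the coefficients" of the
  function field `modularFunctionFieldFullC k N` (any ring automorphism `φ` of `k`);
* `m37fr_resAut A σ hσ` : the automorphism of the residue field of `A` induced by an element
  `σ` of the decomposition group;
* `m37fr_phi k ℓ`    : the Frobenius automorphism `a ↦ a ^ ℓ` of `k` (if it is an automorphism);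
* `m37fr_Fr A N ℓ`   : the induced additive endomorphism of `J~ = JZeroC k N`;
* `m37fr_PlaceEquiv A N` : **leaf (E2')**, place-level Galois equivariance of the reduction of
  places;
* `m37fr_ES A N hℓ`  : **leaf (E3')**, the Eichler–Shimura relation for `reductionModL`;
* `m37fr_result`     : S37 from (E1), (S18), (E2'), (E3').
-/

set_option autoImplicit false
set_option linter.unusedSectionVars false
set_option linter.unusedVariables false
set_option linter.style.haveILetI false
set_option synthInstance.maxHeartbeats 400000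
set_option maxHeartbeats 1600000

noncomputable section

namespace Fermat.Agent.M37

open ModularCurve AlgebraicCurve HahnSeries IntermediateField

section CoeffAut

variable {k : Type*} [Field k] (N : ℕ)

theorem m37fr_mem_iff {x : LaurentSeries k} :
    x ∈ modularFunctionFieldFullC k N ↔
      x ∈ Subfield.closure
        (Set.range (algebraMap k (LaurentSeries k)) ∪ divisorExpansionsC k N) :=
  Iff.rfl

/-- the function field mod `ℓ` is stable under coefficientwise ring endomorphisms. -/
theorem m37fr_coeffMap_mem (φ : k →+* k) {x : LaurentSeries k}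
    (hx : x ∈ modularFunctionFieldFullC k N) :
    coeffMap φ x ∈ modularFunctionFieldFullC k N := by
  rw [m37fr_mem_iff] at hx
  induction hx using Subfield.closure_induction with
  | mem y hy =>
      rcases hy with ⟨a, rfl⟩ | ⟨d, hd, hdN, rfl⟩
      · rw [coeffMap_algebraMap]
        exact (modularFunctionFieldFullC k N).algebraMap_mem _
      · haveI := hd
        rw [coeffMap_qExpand, coeffMap_jqModC]
        exact jqModCd_mem_full k N hdN
  | one => simp
  | add x y _ _ hx hy => simpa using add_mem hx hy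
  | neg x _ hx => simpa using neg_mem hx
  | inv x _ hx => simpa using inv_mem hx
  | mul x y _ _ hx hy => simpa using mul_mem hx hy

/-- coefficientwise action of a ring automorphism of `k` on the function field mod `ℓ`. -/
def m37fr_ringAut (φ : k ≃+* k) :
    (modularFunctionFieldFullC k N) ≃+* (modularFunctionFieldFullC k N) where
  toFun x := ⟨coeffMap (φ : k →+* k) (x : LaurentSeries k), m37fr_coeffMap_mem N _ x.2⟩
  invFun x := ⟨coeffMap (φ.symm : k →+* k) (x : LaurentSeries k), m37fr_coeffMap_mem N _ x.2⟩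
  left_inv x := Subtype.ext <| by
    show coeffMap (φ.symm : k →+* k) (coeffMap (φ : k →+* k) (x : LaurentSeries k))
      = (x : LaurentSeries k)
    rw [coeffMap_coeffMap,
      coeffMap_congr (g := RingHom.id k) (RingHom.ext fun a => φ.symm_apply_apply a)
        (x : LaurentSeries k),
      coeffMap_id]
  right_inv x := Subtype.ext <| by
    show coeffMap (φ : k →+* k) (coeffMap (φ.symm : k →+* k) (x : LaurentSeries k))
      = (x : LaurentSeries k)
    rw [coeffMap_coeffMap,
      coeffMap_congr (g := RingHom.id k) (RingHom.ext fun a => φ.apply_symm_apply a)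
        (x : LaurentSeries k),
      coeffMap_id]
  map_mul' x y :=
    Subtype.ext (map_mul (coeffMap (φ : k →+* k)) (x : LaurentSeries k) (y : LaurentSeries k))
  map_add' x y :=
    Subtype.ext (map_add (coeffMap (φ : k →+* k)) (x : LaurentSeries k) (y : LaurentSeries k))

@[simp]
theorem m37fr_coe_ringAut_apply (φ : k ≃+* k) (x : modularFunctionFieldFullC k N) :
    (m37fr_ringAut N φ x : LaurentSeries k) = coeffMap (φ : k →+* k) (x : LaurentSeries k) :=
  rfl

theorem m37fr_ringAut_algebraMap (φ : k ≃+* k) (a : k) :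
    m37fr_ringAut N φ (algebraMap k (modularFunctionFieldFullC k N) a)
      = algebraMap k (modularFunctionFieldFullC k N) (φ a) :=
  Subtype.ext (coeffMap_algebraMap (φ : k →+* k) a)

/-- the semilinear automorphism "apply `φ` to the coefficients". -/
def m37fr_aut (φ : k ≃+* k) : SemilinearAut k (modularFunctionFieldFullC k N) :=
  ⟨(m37fr_ringAut N φ, φ), fun a => m37fr_ringAut_algebraMap N φ a⟩

@[simp]
theorem m37fr_toRingAut_aut (φ : k ≃+* k) :
    SemilinearAut.toRingAut (m37fr_aut N φ) = m37fr_ringAut N φ := rfl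

@[simp]
theorem m37fr_baseAut_aut (φ : k ≃+* k) :
    SemilinearAut.baseAut (m37fr_aut N φ) = φ := rfl

theorem m37fr_coe_aut_smul (φ : k ≃+* k) (x : modularFunctionFieldFullC k N) :
    ((m37fr_aut N φ • x : modularFunctionFieldFullC k N) : LaurentSeries k)
      = coeffMap (φ : k →+* k) (x : LaurentSeries k) :=
  rfl

theorem m37fr_aut_one : m37fr_aut (k := k) N (1 : RingAut k) = 1 := by
  refine Subtype.ext (Prod.ext (RingEquiv.ext fun x => Subtype.ext ?_) rfl)
  show coeffMap (((1 : RingAut k) : k ≃+* k) : k →+* k) (x : LaurentSeries k)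
    = (x : LaurentSeries k)
  rw [show (((1 : RingAut k) : k ≃+* k) : k →+* k) = RingHom.id k from RingHom.ext fun _ => rfl,
    coeffMap_id]

theorem m37fr_aut_mul (φ ψ : RingAut k) :
    m37fr_aut (k := k) N (φ * ψ) = m37fr_aut N φ * m37fr_aut N ψ := by
  refine Subtype.ext (Prod.ext (RingEquiv.ext fun x => Subtype.ext ?_) rfl)
  show coeffMap (((φ * ψ : RingAut k) : k ≃+* k) : k →+* k) (x : LaurentSeries k)
    = coeffMap ((φ : k ≃+* k) : k →+* k) (coeffMap ((ψ : k ≃+* k) : k →+* k) (x : LaurentSeries k))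
  rw [coeffMap_coeffMap]
  exact coeffMap_congr (RingHom.ext fun _ => rfl) _

end CoeffAut

section Frobenius

variable (k : Type*) [Field k] (ℓ : ℕ)

open Classical in
/-- the Frobenius automorphism `a ↦ a ^ ℓ` of `k`, if it is an automorphism (else the
identity). -/
def m37fr_phi : k ≃+* k :=
  if h : ∃ φ : k ≃+* k, ∀ a : k, φ a = a ^ ℓ then h.choose else RingEquiv.refl k

variable {k ℓ}

theorem m37fr_phi_eq (φ : k ≃+* k) (hφ : ∀ a : k, φ a = a ^ ℓ) : m37fr_phi k ℓ = φ := by
  have h : ∃ φ : k ≃+* k, ∀ a : k, φ a = a ^ ℓ := ⟨φ, hφ⟩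
  rw [m37fr_phi, dif_pos h]
  exact RingEquiv.ext fun a => (h.choose_spec a).trans (hφ a).symm

theorem m37fr_phi_apply (h : ∃ φ : k ≃+* k, ∀ a : k, φ a = a ^ ℓ) (a : k) :
    m37fr_phi k ℓ a = a ^ ℓ := by
  obtain ⟨φ, hφ⟩ := h
  rw [m37fr_phi_eq φ hφ, hφ]

end Frobenius

section Leaves

variable (A : ValuationSubring (AlgebraicClosure ℚ)) (N : ℕ) [NeZero N]

/-- the automorphism of the residue field induced by an element of the decomposition group. -/
def m37fr_resAut (σ : AlgebraicClosure ℚ ≃ₐ[ℚ] AlgebraicClosure ℚ)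
    (hσ : σ ∈ A.decompositionSubgroup ℚ) : RingAut (IsLocalRing.ResidueField A) :=
  MulSemiringAction.toRingAut (A.decompositionSubgroup ℚ) (IsLocalRing.ResidueField A) ⟨σ, hσ⟩

theorem m37fr_resAut_apply (σ : AlgebraicClosure ℚ ≃ₐ[ℚ] AlgebraicClosure ℚ)
    (hσ : σ ∈ A.decompositionSubgroup ℚ) (a : IsLocalRing.ResidueField A) :
    m37fr_resAut A σ hσ a = (⟨σ, hσ⟩ : A.decompositionSubgroup ℚ) • a := rfl

/-- the Frobenius endomorphism of `J~`. -/
def m37fr_Fr (ℓ : ℕ) :
    JZeroC (IsLocalRing.ResidueField A) N →+ JZeroC (IsLocalRing.ResidueField A) N :=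
  DistribSMul.toAddMonoidHom (JZeroC (IsLocalRing.ResidueField A) N)
    (m37fr_aut N (m37fr_phi (IsLocalRing.ResidueField A) ℓ))

theorem m37fr_Fr_apply (ℓ : ℕ) (y : JZeroC (IsLocalRing.ResidueField A) N) :
    m37fr_Fr A N ℓ y = m37fr_aut N (m37fr_phi (IsLocalRing.ResidueField A) ℓ) • y := rfl

/-- **leaf (E2')**: the reduction of places is equivariant for the decomposition group,
for EVERY place reduction map `r` satisfying the prelude's specification. -/
def m37fr_PlaceEquiv : Prop :=
  ∀ r : Place (AlgebraicClosure ℚ) (modularFunctionFieldBar N) →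
      Place (IsLocalRing.ResidueField A)
        (modularFunctionFieldFullC (IsLocalRing.ResidueField A) N),
    IsPlaceReductionModL A N r →
    ∀ (σ : AlgebraicClosure ℚ ≃ₐ[ℚ] AlgebraicClosure ℚ) (hσ : σ ∈ A.decompositionSubgroup ℚ)
      (P : Place (AlgebraicClosure ℚ) (modularFunctionFieldBar N)),
      r (arithmeticGalois (modularFunctionFieldFull N) σ • P)
        = m37fr_aut N (m37fr_resAut A σ hσ) • r P

/-- **leaf (E3')**: the Eichler–Shimura relation for the prelude's reduction map. -/
def m37fr_ES {ℓ : ℕ} (hℓ : ℓ.Prime) : Prop :=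
  ReductionInputsModL A N → ∀ z : JZero N,
    m37fr_Fr A N ℓ (reductionModL A N (heckeOperatorBar N ⟨ℓ, hℓ⟩ z))
      = m37fr_Fr A N ℓ (m37fr_Fr A N ℓ (reductionModL A N z)) + ℓ • reductionModL A N z

end Leaves

section Wiring

variable {A : ValuationSubring (AlgebraicClosure ℚ)} {N : ℕ} [NeZero N]

/-- place-level equivariance implies equivariance of the push-forward of divisors. -/
theorem m37fr_red_smul_div
    (r : Place (AlgebraicClosure ℚ) (modularFunctionFieldBar N) →
      Place (IsLocalRing.ResidueField A)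
        (modularFunctionFieldFullC (IsLocalRing.ResidueField A) N))
    (g' : SemilinearAut (AlgebraicClosure ℚ) (modularFunctionFieldBar N))
    (g : SemilinearAut (IsLocalRing.ResidueField A)
      (modularFunctionFieldFullC (IsLocalRing.ResidueField A) N))
    (hg : ∀ P : Place (AlgebraicClosure ℚ) (modularFunctionFieldBar N),
      r (g' • P) = g • r P)
    (D : Divisor (AlgebraicClosure ℚ) (modularFunctionFieldBar N)) :
    Finsupp.mapDomain r (g' • D) = g • Finsupp.mapDomain r D := by
  rw [SemilinearAut.divisor_smul_def, SemilinearAut.divisor_smul_def,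
    ← Finsupp.mapDomain_comp, ← Finsupp.mapDomain_comp]
  congr 1
  funext P
  exact hg P

/-- place-level equivariance implies equivariance of the reduction map on `Pic⁰`. -/
theorem m37fr_red_smul (h : ReductionInputsModL A N)
    (g' : SemilinearAut (AlgebraicClosure ℚ) (modularFunctionFieldBar N))
    (g : SemilinearAut (IsLocalRing.ResidueField A)
      (modularFunctionFieldFullC (IsLocalRing.ResidueField A) N))
    (hg : ∀ P : Place (AlgebraicClosure ℚ) (modularFunctionFieldBar N),
      placeReductionModL h (g' • P) = g • placeReductionModL h P)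
    (x : JZero N) :
    reductionModL A N (g' • x) = g • reductionModL A N x := by
  obtain ⟨D, rfl⟩ := Pic0.mk_surjective x
  have e1 : g' • Pic0.mk D = Pic0.mk (SemilinearAut.degZeroSMulHom g' D) :=
    SemilinearAut.pic0_smul_mk g' D
  rw [e1]
  have e2 := reductionModL_mk h (SemilinearAut.degZeroSMulHom g' D)
  have e3 := reductionModL_mk h D
  rw [e2, e3]
  have e4 := SemilinearAut.pic0_smul_mk g (reductionDegZeroAlong (placeReductionModL h)
        (isPlaceReductionModL_placeReductionModL h).1 D)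
  rw [e4]
  refine congrArg Pic0.mk (Subtype.ext ?_)
  exact m37fr_red_smul_div (placeReductionModL h) g' g hg (D : Divisor _ _)

/-- (E2i) from the place-level leaf. -/
theorem m37fr_E2i (hE : m37fr_PlaceEquiv A N) (h : ReductionInputsModL A N)
    (σ : AlgebraicClosure ℚ ≃ₐ[ℚ] AlgebraicClosure ℚ) (hσ : σ ∈ A.inertiaSubgroupIn ℚ)
    (x : JZero N) : reductionModL A N (σ • x) = reductionModL A N x := by
  obtain ⟨τ, hτ, rfl⟩ := hσ
  have h1 : m37fr_resAut A (τ : AlgebraicClosure ℚ ≃ₐ[ℚ] AlgebraicClosure ℚ) τ.2 = 1 := hτ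
  have h2 := m37fr_red_smul h (arithmeticGalois (modularFunctionFieldFull N)
    (τ : AlgebraicClosure ℚ ≃ₐ[ℚ] AlgebraicClosure ℚ)) 1 (fun P => by
      rw [one_smul]
      have h3 := hE (placeReductionModL h) (isPlaceReductionModL_placeReductionModL h)
        (τ : AlgebraicClosure ℚ ≃ₐ[ℚ] AlgebraicClosure ℚ) τ.2 P
      rw [h1, m37fr_aut_one, one_smul] at h3
      exact h3) x
  rw [one_smul] at h2
  exact h2

/-- (E2f) from the place-level leaf. -/
theorem m37fr_E2f (hE : m37fr_PlaceEquiv A N) (h : ReductionInputsModL A N) {ℓ : ℕ}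
    (σ : AlgebraicClosure ℚ ≃ₐ[ℚ] AlgebraicClosure ℚ) (hσ : A.IsFrobeniusAt σ ℓ)
    (x : JZero N) : reductionModL A N (σ • x) = m37fr_Fr A N ℓ (reductionModL A N x) := by
  obtain ⟨hσD, hσF⟩ := hσ
  have h1 : m37fr_phi (IsLocalRing.ResidueField A) ℓ = m37fr_resAut A σ hσD :=
    m37fr_phi_eq _ (fun a => hσF a)
  rw [m37fr_Fr_apply, h1]
  exact m37fr_red_smul h (arithmeticGalois (modularFunctionFieldFull N) σ) _
    (fun P => hE (placeReductionModL h) (isPlaceReductionModL_placeReductionModL h) σ hσD P) x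

/-- **S37 from the leaves** (E1), (S18), (E2') and (E3'). -/
theorem m37fr_result (N p : ℕ) [NeZero N] (hcomm : HeckeOperatorsCommuteBar N)
    (E1 : ∀ ℓ : ℕ, ℓ.Prime → ¬ ℓ ∣ N → ∀ A : ValuationSubring (AlgebraicClosure ℚ),
      A.LiesOverPrime ℓ → ReductionInputsModL A N)
    (hS18 : ∀ ℓ : ℕ, ℓ.Prime → ¬ ℓ ∣ N → ∀ A : ValuationSubring (AlgebraicClosure ℚ),
      A.LiesOverPrime ℓ → ReductionInputsModL A N → ∀ m : ℕ, ¬ ℓ ∣ m → ∀ z : JZero N,
        m • z = 0 → reductionModL A N z = 0 → z = 0)
    (E2 : ∀ ℓ : ℕ, ℓ.Prime → ¬ ℓ ∣ N → ∀ A : ValuationSubring (AlgebraicClosure ℚ),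
      A.LiesOverPrime ℓ → m37fr_PlaceEquiv A N)
    (E3 : ∀ (ℓ : ℕ) (hℓ : ℓ.Prime), ¬ ℓ ∣ N → ∀ A : ValuationSubring (AlgebraicClosure ℚ),
      A.LiesOverPrime ℓ → m37fr_ES A N hℓ) :
    letI := heckeModuleBar N
    ∀ (_ : SMulCommClass (AlgebraicClosure ℚ ≃ₐ[ℚ] AlgebraicClosure ℚ) HeckeAlg (JZero N)),
      SpecializationExists (K := ℚ) (L := AlgebraicClosure ℚ) N p (JZero N) := by
  refine m37top_result N p hcomm E1 hS18 ?_ ?_
  · intro ℓ hℓ hℓN A hA h σ hσ x
    exact m37fr_E2i (E2 ℓ hℓ hℓN A hA) h σ hσ x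
  · intro ℓ hℓ hℓN A hA h
    exact ⟨m37fr_Fr A N ℓ, fun σ hσ x => m37fr_E2f (E2 ℓ hℓ hℓN A hA) h σ hσ x,
      E3 ℓ hℓ hℓN A hA h⟩

end Wiring

end Fermat.Agent.M37

end
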