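/-
M37 (S37 project), block (E2) (helper7), prefix `m37e2_`.

**Leaf (E2'): Galois equivariance of the reduction of places**, for every place reduction `r`
satisfying the specification `IsPlaceReductionModL A N`, at every level `N` prime to `ℓ`:
`r (σ • P) = σ̄ • r P` for `σ` in the decomposition group of `A`.

* `m37e2_hgen`       : principal divisors are generated by integral ones (from the decomposition
  property of level `N`);
* `m37e2_hnc`        : the push-forward of the divisor of `j` is not zero;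
* `m37e2_placeEquiv` : the leaf `m37fr_PlaceEquiv A N`;
* `m37e2_E2`         : the hypothesis (E2) of `m37fr_result`.
-/
import Mathlib
import Fermat.Agent.M37.E2Act
import Fermat.Agent.M37.Frob
import Fermat.Agent.M18.VTube
import Fermat.Agent.M18.RrMain
import Fermat.Agent.M18.RrExtra
import Fermat.Agent.M18.RrGb
import Fermat.Agent.M18.SqDeg
import Fermat.Agent.M18.SqRed
import Fermat.Agent.M18.CuspSepR
import Fermat.Agent.S24.DegMain
import Fermat.Agent.S24.AnaTrans

set_option autoImplicit false
set_option linter.deprecated false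
set_option linter.unusedSectionVars false
set_option linter.unusedVariables false
set_option linter.style.haveILetI false
set_option synthInstance.maxHeartbeats 400000
set_option maxHeartbeats 1600000

noncomputable section

namespace Fermat.Agent.M37

open AlgebraicCurve ModularCurve HahnSeries IntermediateField Fermat.Agent.M18 Fermat.Agent.S24

section

variable {A : ValuationSubring m18v_K} {N : ℕ} [NeZero N]

/-- principal divisors are generated by the divisors of good integral `q`-series. -/
theorem m37e2_hgen [HasPrincipalDivisors m18v_K (m18v_F N)] (hdec : m18sq_Dec A N) :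
    PrincipalGeneratedByIntegral A (IsLocalRing.residue A) N := by
  intro D hD
  obtain ⟨x, hx, hDx⟩ := hD
  obtain ⟨c, u, w, hu, hw, hc, hxw⟩ := hdec x hx
  obtain ⟨Du, hDu, -⟩ := HasPrincipalDivisors.exists_divisor (K := m18v_K) (m18v_GF hu)
    (m18v_GF_ne_zero hu)
  obtain ⟨Dw, hDw, -⟩ := HasPrincipalDivisors.exists_divisor (K := m18v_K) (m18v_GF hw)
    (m18v_GF_ne_zero hw)
  have hDu' : Du ∈ integralPrincipalDivisors A (IsLocalRing.residue A) N :=
    ⟨u, hu.1, hu.2.1, hu.2.2, fun P => hDu P⟩
  have hDw' : Dw ∈ integralPrincipalDivisors A (IsLocalRing.residue A) N :=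
    ⟨w, hw.1, hw.2.1, hw.2.2, fun P => hDw P⟩
  have hD' : D = Du - Dw := by
    ext P
    rw [Finsupp.sub_apply, hDx, hDu, hDw]
    have h1 := congrArg P.ord hxw
    rw [P.ord_mul hx (m18v_GF_ne_zero hw), m18c_ord_const_mul P hc] at h1
    linarith
  rw [hD']
  exact AddSubgroup.sub_mem _ (AddSubgroup.subset_closure hDu') (AddSubgroup.subset_closure hDw')

/-- the push-forward of the divisor of `j` is not zero. -/
theorem m37e2_hnc {ℓ : ℕ} [Fact ℓ.Prime] (hA : A.LiesOverPrime ℓ) (hℓN : ¬ ℓ ∣ N)
    [HasPrincipalDivisors m18v_K (m18v_F N)]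
    {r : Place m18v_K (m18v_F N) → Place (m18v_k A) (m18v_Ft A N)}
    (hr : IsPlaceReductionModL A N r) :
    ∃ D ∈ Divisor.principal (K := m18v_K) (F := m18v_F N), Finsupp.mapDomain r D ≠ 0 := by
  haveI : IsAlgClosed (m18v_k A) := m18sq_isAlgClosed A
  haveI := (m18sq_finrank_res (A := A) (M := N) hA hℓN).1
  haveI := m18cusp_isSeparable_res (A := A) (M := N) hA hℓN
  obtain ⟨Q, hQ⟩ := m18rr_exists_pole (K := m18v_k A) (m18sq_jt A N) m18sq_jt_transcendental
  have hj0 : s24j N ≠ 0 := by
    intro h0
    have := ana_transcendental N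
    rw [h0] at this
    exact this isAlgebraic_zero
  obtain ⟨D, hD, -⟩ := HasPrincipalDivisors.exists_divisor (K := m18v_K) (s24j N) hj0
  refine ⟨D, ⟨s24j N, hj0, hD⟩, fun h0 => ?_⟩
  have hy : coeffMap A.subtype (jqModC A) ∈ modularFunctionFieldBar N := by
    have h1 := (s24j N).2
    rw [m18v_coe_j (A := A) (N := N)] at h1
    exact h1
  have hyk : coeffMap (IsLocalRing.residue A) (jqModC A)
      ∈ modularFunctionFieldFullC (m18v_k A) N := by
    rw [coeffMap_jqModC]
    exact jqModC_mem_full _ N
  have hjt : (⟨coeffMap (IsLocalRing.residue A) (jqModC A), hyk⟩ : m18v_Ft A N)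
      = m18sq_jt A N := Subtype.ext (coeffMap_jqModC _)
  have hjL : (⟨coeffMap A.subtype (jqModC A), hy⟩ : m18v_F N) = s24j N :=
    Subtype.ext (m18v_coe_j (A := A) (N := N)).symm
  have hne : coeffMap (IsLocalRing.residue A) (jqModC A) ≠ 0 := by
    rw [coeffMap_jqModC]
    exact jqModC_ne_zero_of_nontrivial _
  have key := hr.2 (jqModC A) hy hyk hne D (fun P => by rw [hD, hjL]) Q
  rw [h0, Finsupp.zero_apply, hjt] at key
  omega

/-- the two families of coefficientwise automorphisms coincide. -/
theorem m37e2_aut_eq_fr {k : Type*} [Field k] (M : ℕ) [NeZero M] (τ : k ≃+* k) :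
    m37fr_aut M τ = m37e2_aut M τ := rfl

/-- **leaf (E2')**: the reduction of places is equivariant for the decomposition group. -/
theorem m37e2_placeEquiv {ℓ : ℕ} [Fact ℓ.Prime] (hA : A.LiesOverPrime ℓ) (hℓN : ¬ ℓ ∣ N) :
    m37fr_PlaceEquiv A N := by
  intro r hr σ hσ P
  haveI := deg_finiteDimensional N
  haveI : Algebra.IsSeparable s24K⟮s24j N⟯ (s24F N) := m18rr_isSeparable_of_charZero (s24j N)
  haveI : HasPrincipalDivisors m18v_K (m18v_F N) :=
    m18rr_principal (s24j N) (ana_transcendental N)
  have hgen : PrincipalGeneratedByIntegral A (IsLocalRing.residue A) N :=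
    m37e2_hgen (m18sq_dec hA hℓN)
  have hR := m18rr_Riem (K := m18v_K) (s24j N) (ana_transcendental N)
  have hdeg : ∀ P : Place m18v_K (m18v_F N), P.deg = 1 :=
    fun P => m18rr_deg_eq_one (s24j N) P
  have hnc := m37e2_hnc hA hℓN hr
  rw [m37e2_aut_eq_fr]
  exact m37e2_place_smul_of_unique hr hgen _ hR hdeg hnc σ
    (MulSemiringAction.toRingHom (A.decompositionSubgroup ℚ) A ⟨σ, hσ⟩) (fun a => rfl)
    (m37fr_resAut A σ hσ) (fun a => rfl) P

end

/-- **the hypothesis (E2) of `m37fr_result`.** -/
theorem m37e2_E2 (N : ℕ) [NeZero N] : ∀ ℓ : ℕ, ℓ.Prime → ¬ ℓ ∣ N →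
    ∀ A : ValuationSubring (AlgebraicClosure ℚ), A.LiesOverPrime ℓ → m37fr_PlaceEquiv A N :=
  fun ℓ hℓ hℓN A hA => by
    haveI : Fact ℓ.Prime := ⟨hℓ⟩
    exact m37e2_placeEquiv hA hℓN

end Fermat.Agent.M37

end
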