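import Fermat.Agent.M37.E3Bound
import Fermat.Agent.M18.CoreBasic
import Fermat.Prelude.Def_AlgebraicCurve_Correspondence

/-!
# M37 / (E3), part d (abstract form): the Eichler–Shimura congruence on divisors from the
Kronecker congruence on functions.

Setting: fields `K ⊆ F`, two embeddings `φ ψ : F →ₐ[K] F'` (the correspondence is
`ψ_* φ^*`), a valuation subring `A` of `K` with residue field `k`, a field `Fk ⊇ k`, a
specialisation map `r` of places with its Gauss package `G`, a semilinear automorphism `fr` of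
`Fk` and a number `ℓ`.

`m37e3_div_abs`: if for every Gauss unit `x` the norm (along `ψ`) of `φ x` is a Gauss unit with
reduction `(fr⁻¹ • red x) ^ ℓ * (fr • red x)`, then for every divisor `D` of degree `0`,
`r_* (ψ_* φ^* D) = fr • r_* D + ℓ • fr⁻¹ • r_* D`.
-/

set_option autoImplicit false
set_option linter.unusedSectionVars false
set_option linter.unusedVariables false
set_option linter.style.haveILetI false
set_option synthInstance.maxHeartbeats 400000
set_option maxHeartbeats 1600000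

noncomputable section

namespace Fermat.Agent.M37

open AlgebraicCurve Fermat.Agent.M18

section coeff

variable {k Fk : Type*} [Field k] [Field Fk] [Algebra k Fk]

theorem m37e3_degree_eq_sum (hdeg : ∀ Q : Place k Fk, Q.deg = 1) (D : Divisor k Fk) :
    Divisor.degree D = ∑ v ∈ D.support, D v := by
  rw [Divisor.degree, Finsupp.liftAddHom_apply, Finsupp.sum]
  refine Finset.sum_congr rfl fun v _ => ?_
  simp [hdeg v]

/-- an effective divisor has coefficients bounded by its degree. -/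
theorem m37e3_coeff_le_degree (hdeg : ∀ Q : Place k Fk, Q.deg = 1) (D : Divisor k Fk)
    (hD : ∀ Q, 0 ≤ D Q) (Q : Place k Fk) : D Q ≤ Divisor.degree D := by
  classical
  rw [m37e3_degree_eq_sum hdeg]
  by_cases hQ : Q ∈ D.support
  · exact Finset.single_le_sum (f := fun v => D v) (fun v _ => hD v) hQ
  · rw [Finsupp.notMem_support_iff.1 hQ]
    exact Finset.sum_nonneg fun v _ => hD v

theorem m37e3_degree_nonneg (hdeg : ∀ Q : Place k Fk, Q.deg = 1) (D : Divisor k Fk)
    (hD : ∀ Q, 0 ≤ D Q) : 0 ≤ Divisor.degree D := by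
  rw [m37e3_degree_eq_sum hdeg]
  exact Finset.sum_nonneg fun v _ => hD v

theorem m37e3_smul_nonneg (g : SemilinearAut k Fk) (D : Divisor k Fk)
    (hD : ∀ Q, 0 ≤ D Q) (Q : Place k Fk) : 0 ≤ (g • D) Q := by
  rw [SemilinearAut.divisor_smul_apply]
  exact hD _

/-- the divisor of `g • f` is `g •` the divisor of `f`. -/
theorem m37e3_ord_smul (g : SemilinearAut k Fk) (Q : Place k Fk) (f : Fk) :
    Q.ord (g • f) = (g⁻¹ • Q).ord f := by
  have h := SemilinearAut.ord_smul g (g⁻¹ • Q) f
  rwa [smul_inv_smul] at h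

theorem m37e3_ord_inv_smul (g : SemilinearAut k Fk) (Q : Place k Fk) (f : Fk) :
    Q.ord (g⁻¹ • f) = (g • Q).ord f := by
  have h := m37e3_ord_smul g⁻¹ Q f
  rwa [inv_inv] at h

end coeff

section along

variable {K F F' : Type*} [Field K] [Field F] [Field F'] [Algebra K F] [Algebra K F']

/-- the norm along an embedding. -/
def m37e3_normAlong (ψ : F →ₐ[K] F') (y : F') : F :=
  letI := algebraAlong ψ
  Algebra.norm F y

theorem m37e3_pushforwardAlong_norm (ψ : F →ₐ[K] F') (hψ : ψ.toRingHom.IsIntegral)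
    (hfin : FiniteAlong K ψ) (hN : NormFormulaAlong K ψ hfin) (f : F') (hf : f ≠ 0)
    (D : Divisor K F') (hD : ∀ w, D w = w.ord f) (v : Place K F) :
    Divisor.pushforwardAlong ψ hψ D v = v.ord (m37e3_normAlong ψ f) := by
  letI := algebraAlong ψ
  haveI := isScalarTower_along ψ
  haveI := isIntegral_along ψ hψ
  haveI : Module.Finite F F' := hfin
  exact hN f hf D hD v

theorem m37e3_pushforwardAlong_nonneg (ψ : F →ₐ[K] F') (hψ : ψ.toRingHom.IsIntegral)
    (D : Divisor K F') (hD : ∀ w, 0 ≤ D w) (v : Place K F) :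
    0 ≤ Divisor.pushforwardAlong ψ hψ D v := by
  classical
  letI := algebraAlong ψ
  haveI := isScalarTower_along ψ
  haveI := isIntegral_along ψ hψ
  show 0 ≤ Divisor.pushforward F D v
  rw [Divisor.pushforward_apply]
  refine Finset.sum_nonneg fun w _ => ?_
  split_ifs
  · exact mul_nonneg (hD w) (Nat.cast_nonneg _)
  · exact le_rfl

variable [HasPrincipalDivisors K F']

theorem m37e3_pullbackAlong_nonneg (φ : F →ₐ[K] F') (hφ : φ.toRingHom.IsIntegral)
    (D : Divisor K F) (hD : ∀ P, 0 ≤ D P) (w : Place K F') :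
    0 ≤ Divisor.pullbackAlong φ hφ D w := by
  rw [Divisor.pullbackAlong_apply]
  exact mul_nonneg (Nat.cast_nonneg _) (hD _)

theorem m37e3_pullbackAlong_ord (φ : F →ₐ[K] F') (hφ : φ.toRingHom.IsIntegral)
    (f : F) (D : Divisor K F) (hD : ∀ P, D P = P.ord f) (w : Place K F') :
    Divisor.pullbackAlong φ hφ D w = w.ord (φ f) := by
  rw [Divisor.pullbackAlong_apply, hD, ← Place.ord_restrictAlong]

theorem m37e3_correspondence_nonneg (φ ψ : F →ₐ[K] F') (hφ : φ.toRingHom.IsIntegral)
    (hψ : ψ.toRingHom.IsIntegral) (D : Divisor K F) (hD : ∀ P, 0 ≤ D P) (v : Place K F) :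
    0 ≤ Divisor.correspondence φ ψ hφ hψ D v :=
  m37e3_pushforwardAlong_nonneg ψ hψ _ (m37e3_pullbackAlong_nonneg φ hφ D hD) v

/-- the correspondence applied to a principal divisor. -/
theorem m37e3_correspondence_ord (φ ψ : F →ₐ[K] F') (hφ : φ.toRingHom.IsIntegral)
    (hψ : ψ.toRingHom.IsIntegral) (hfin : FiniteAlong K ψ) (hN : NormFormulaAlong K ψ hfin)
    (f : F) (hf : f ≠ 0) (D : Divisor K F) (hD : ∀ P, D P = P.ord f) (v : Place K F) :
    Divisor.correspondence φ ψ hφ hψ D v = v.ord (m37e3_normAlong ψ (φ f)) := by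
  rw [Divisor.correspondence_apply]
  exact m37e3_pushforwardAlong_norm ψ hψ hfin hN (φ f)
    (by simpa using hf) _ (m37e3_pullbackAlong_ord φ hφ f D hD) v

end along

section main

variable {K F F' Fk : Type*} [Field K] [Field F] [Field F'] [Algebra K F] [Algebra K F']
  (A : ValuationSubring K) [Field Fk] [Algebra (IsLocalRing.ResidueField A) Fk]
  [HasPrincipalDivisors K F] [HasPrincipalDivisors K F']

/-- the two sides of the congruence, as additive maps. -/
def m37e3_lhs (φ ψ : F →ₐ[K] F') (hφ : φ.toRingHom.IsIntegral) (hψ : ψ.toRingHom.IsIntegral)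
    (r : Place K F → Place (IsLocalRing.ResidueField A) Fk) :
    Divisor K F →+ Divisor (IsLocalRing.ResidueField A) Fk :=
  (Finsupp.mapDomain.addMonoidHom r).comp (Divisor.correspondence φ ψ hφ hψ)

def m37e3_rhs (r : Place K F → Place (IsLocalRing.ResidueField A) Fk)
    (fr : SemilinearAut (IsLocalRing.ResidueField A) Fk) (ℓ : ℕ) :
    Divisor K F →+ Divisor (IsLocalRing.ResidueField A) Fk :=
  (DistribSMul.toAddMonoidHom (Divisor (IsLocalRing.ResidueField A) Fk) fr
    + ℓ • DistribSMul.toAddMonoidHom (Divisor (IsLocalRing.ResidueField A) Fk) fr⁻¹).comp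
    (Finsupp.mapDomain.addMonoidHom r)

theorem m37e3_lhs_apply (φ ψ : F →ₐ[K] F') (hφ : φ.toRingHom.IsIntegral)
    (hψ : ψ.toRingHom.IsIntegral) (r : Place K F → Place (IsLocalRing.ResidueField A) Fk)
    (D : Divisor K F) :
    m37e3_lhs A φ ψ hφ hψ r D = Finsupp.mapDomain r (Divisor.correspondence φ ψ hφ hψ D) := rfl

theorem m37e3_rhs_apply (r : Place K F → Place (IsLocalRing.ResidueField A) Fk)
    (fr : SemilinearAut (IsLocalRing.ResidueField A) Fk) (ℓ : ℕ) (D : Divisor K F) :
    m37e3_rhs A r fr ℓ D = fr • Finsupp.mapDomain r D + ℓ • (fr⁻¹ • Finsupp.mapDomain r D) := rfl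

variable {A}

/-- **(E3-d), abstract form**: the Eichler–Shimura congruence on divisors of degree `0`. -/
theorem m37e3_div_abs {r : Place K F → Place (IsLocalRing.ResidueField A) Fk}
    (G : m18_Gauss A r)
    (φ ψ : F →ₐ[K] F') (hφ : φ.toRingHom.IsIntegral) (hψ : ψ.toRingHom.IsIntegral)
    (hFI : FundamentalIdentityAlong K φ hφ)
    (hfin : FiniteAlong K ψ) (hN : NormFormulaAlong K ψ hfin)
    (hdegK : ∀ P : Place K F, P.deg = 1)
    (hdegk : ∀ Q : Place (IsLocalRing.ResidueField A) Fk, Q.deg = 1)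
    (genus : ℕ) (hR : m18_Riem K F genus)
    (fr : SemilinearAut (IsLocalRing.ResidueField A) Fk) (ℓ : ℕ)
    (hK : ∀ x : G.O, G.red x ≠ 0 →
      ∃ hz : m37e3_normAlong ψ (φ (x : F)) ∈ G.O,
        G.red ⟨_, hz⟩ = (fr⁻¹ • G.red x) ^ ℓ * (fr • G.red x)) :
    ∀ D : Divisor K F, Divisor.degree D = 0 →
      Finsupp.mapDomain r (Divisor.correspondence φ ψ hφ hψ D)
        = fr • Finsupp.mapDomain r D + ℓ • (fr⁻¹ • Finsupp.mapDomain r D) := by
  intro D hD
  rcases isEmpty_or_nonempty (Place K F) with hemp | ⟨⟨P₀⟩⟩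
  · have hD0 : D = 0 := by
      ext P
      exact (hemp.false P).elim
    subst hD0
    simp
  have hdegr : ∀ E : Divisor K F, Divisor.degree (Finsupp.mapDomain r E) = Divisor.degree E := by
    intro E
    induction E using Finsupp.induction with
    | zero => simp
    | single_add P n E _ _ ih =>
      rw [Finsupp.mapDomain_add, map_add, map_add, ih, Finsupp.mapDomain_single,
        Divisor.degree_single, Divisor.degree_single, hdegK, hdegk]
  have hB : (genus : ℤ) ≤ Divisor.degree (Finsupp.single P₀ (genus : ℤ)) := by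
    rw [Divisor.degree_single, hdegK]
    simp
  have key := m37e3_bounded_div genus hR (Finsupp.single P₀ (genus : ℤ)) hB
    (m37e3_lhs A φ ψ hφ hψ r) (m37e3_rhs A r fr ℓ)
    ((finrankAlong K φ : ℤ) + ((ℓ : ℤ) + 1)) ?_ ?_ ?_ D hD
  · exact key
  · -- principal divisors
    rintro E ⟨f, hf, hE⟩
    obtain ⟨c, hc, hx, hred⟩ := G.scale f hf
    have hEx : ∀ P, E P = P.ord (algebraMap K F c * f) := fun P => by
      rw [hE]
      exact (m18c_ord_const_mul P hc f).symm
    have hx0 : algebraMap K F c * f ≠ 0 :=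
      mul_ne_zero (by simpa using hc) hf
    obtain ⟨hz, hzred⟩ := hK ⟨_, hx⟩ hred
    have hfr1 : fr⁻¹ • G.red ⟨_, hx⟩ ≠ 0 := by
      simpa using hred
    have hfr2 : fr • G.red ⟨_, hx⟩ ≠ 0 := by
      simpa using hred
    have hzred0 : G.red ⟨_, hz⟩ ≠ 0 := by
      rw [hzred]
      exact mul_ne_zero (pow_ne_zero _ hfr1) hfr2
    have hrE : ∀ Q, Finsupp.mapDomain r E Q = Q.ord (G.red ⟨_, hx⟩) :=
      G.hloc ⟨_, hx⟩ hred E hEx
    ext Q
    rw [m37e3_lhs_apply, m37e3_rhs_apply]
    have h1 : Finsupp.mapDomain r (Divisor.correspondence φ ψ hφ hψ E) Q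
        = Q.ord (G.red ⟨_, hz⟩) :=
      G.hloc ⟨_, hz⟩ hzred0 _
        (fun P => m37e3_correspondence_ord φ ψ hφ hψ hfin hN _ hx0 E hEx P) Q
    rw [h1, hzred, Q.ord_mul (pow_ne_zero _ hfr1) hfr2, m18c_ord_pow, m37e3_ord_inv_smul fr,
      m37e3_ord_smul fr, Finsupp.add_apply, Finsupp.smul_apply,
      SemilinearAut.divisor_smul_apply, SemilinearAut.divisor_smul_apply, inv_inv, hrE, hrE]
    simp only [nsmul_eq_mul]
    ring
  · -- bound for the left-hand side
    intro E hE Q
    have hE' : ∀ P, 0 ≤ E P := fun P => hE P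
    have h1 : ∀ P, 0 ≤ Divisor.correspondence φ ψ hφ hψ E P :=
      m37e3_correspondence_nonneg φ ψ hφ hψ E hE'
    have h2 : ∀ Q', 0 ≤ Finsupp.mapDomain r (Divisor.correspondence φ ψ hφ hψ E) Q' :=
      m18c_mapDomain_nonneg r _ h1
    have h3 := m37e3_coeff_le_degree hdegk _ h2 Q
    rw [hdegr, Divisor.degree_correspondence φ ψ hφ hψ hFI] at h3
    have h4 : 0 ≤ Divisor.degree E := m37e3_degree_nonneg hdegK E hE'
    rw [m37e3_lhs_apply]
    refine ⟨h2 Q, h3.trans ?_⟩
    nlinarith [Nat.cast_nonneg (α := ℤ) ℓ]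
  · -- bound for the right-hand side
    intro E hE Q
    have hE' : ∀ P, 0 ≤ E P := fun P => hE P
    have h1 : ∀ Q', 0 ≤ Finsupp.mapDomain r E Q' := m18c_mapDomain_nonneg r _ hE'
    have h2 : ∀ Q', 0 ≤ (fr • Finsupp.mapDomain r E + ℓ • (fr⁻¹ • Finsupp.mapDomain r E)) Q' := by
      intro Q'
      rw [Finsupp.add_apply, Finsupp.smul_apply]
      have ha := m37e3_smul_nonneg fr _ h1 Q'
      have hb := m37e3_smul_nonneg fr⁻¹ _ h1 Q'
      have hc : 0 ≤ ℓ • ((fr⁻¹ • Finsupp.mapDomain r E) Q') := by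
        rw [nsmul_eq_mul]
        exact mul_nonneg (Nat.cast_nonneg _) hb
      linarith
    have h3 := m37e3_coeff_le_degree hdegk _ h2 Q
    rw [map_add, map_nsmul, SemilinearAut.degree_smul, SemilinearAut.degree_smul, hdegr] at h3
    have h4 : 0 ≤ Divisor.degree E := m37e3_degree_nonneg hdegK E hE'
    rw [m37e3_rhs_apply]
    refine ⟨h2 Q, h3.trans ?_⟩
    rw [nsmul_eq_mul]
    nlinarith [Nat.cast_nonneg (α := ℤ) (finrankAlong K φ)]

end main

end Fermat.Agent.M37

end
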