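import Fermat.Agent.M18.Defs

/-!
# M37 / (E3), part a: the boundedness lemma.

An additive functional on the divisors of a function field which vanishes on principal divisors
and is bounded on effective divisors by a multiple of the degree vanishes on all divisors of
degree `0`.  Consequently two positive, degree-bounded additive maps between divisor groups
which agree on principal divisors agree on all divisors of degree `0`.
-/

set_option autoImplicit false

noncomputable section

namespace Fermat.Agent.M37

open AlgebraicCurve Fermat.Agent.M18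

section bounded

variable {K F : Type*} [Field K] [Field F] [Algebra K F]

/-- **(E3-a)** the boundedness lemma for a functional. -/
theorem m37e3_bounded [HasPrincipalDivisors K F]
    (g : ℕ) (hR : m18_Riem K F g) (B : Divisor K F) (hB : (g : ℤ) ≤ Divisor.degree B)
    (lam : Divisor K F →+ ℤ) (c : ℤ)
    (hprin : ∀ D : Divisor K F, Divisor.IsPrincipal D → lam D = 0)
    (hbd : ∀ E : Divisor K F, 0 ≤ E → |lam E| ≤ c * Divisor.degree E) :
    ∀ D : Divisor K F, Divisor.degree D = 0 → lam D = 0 := by
  intro D hD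
  have key : ∀ n : ℕ, |(n : ℤ) * lam D| ≤ c * Divisor.degree B + |lam B| := by
    intro n
    obtain ⟨f, hf, hfmem⟩ := hR (n • D + B) (by
      rw [map_add, map_nsmul, hD, smul_zero, zero_add]; exact hB)
    obtain ⟨D1, hD1, hD1deg⟩ := HasPrincipalDivisors.exists_divisor (K := K) f hf
    have hE0 : (0 : Divisor K F) ≤ D1 + (n • D + B) := by
      intro P
      have h1 := (mem_riemannRochSpace_iff.1 hfmem P).resolve_left hf
      rw [Finsupp.coe_zero, Pi.zero_apply, Finsupp.add_apply, hD1 P]
      linarith
    have h1 := hbd _ hE0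
    have hdegE : Divisor.degree (D1 + (n • D + B)) = Divisor.degree B := by
      rw [map_add, map_add, map_nsmul, hD1deg, hD, smul_zero, zero_add, zero_add]
    have hlamE : lam (D1 + (n • D + B)) = (n : ℤ) * lam D + lam B := by
      rw [map_add, map_add, map_nsmul, hprin D1 ⟨f, hf, hD1⟩, zero_add, nsmul_eq_mul]
    rw [hdegE, hlamE] at h1
    have h2 : |(n : ℤ) * lam D| ≤ |(n : ℤ) * lam D + lam B| + |lam B| := by
      have := abs_sub ((n : ℤ) * lam D + lam B) (lam B)
      simpa using this
    linarith
  by_contra hne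
  have h1 : 1 ≤ |lam D| := Int.one_le_abs hne
  set M : ℤ := c * Divisor.degree B + |lam B| with hM
  have h2 := key (M.toNat + 1)
  rw [abs_mul] at h2
  have h3 : M < ((M.toNat + 1 : ℕ) : ℤ) := by
    have := Int.self_le_toNat M
    push_cast
    linarith
  have h4 : |((M.toNat + 1 : ℕ) : ℤ)| = ((M.toNat + 1 : ℕ) : ℤ) := abs_of_nonneg (by positivity)
  rw [h4] at h2
  nlinarith

variable {k Fk : Type*} [Field k] [Field Fk] [Algebra k Fk]

/-- **(E3-a)** the boundedness lemma for maps of divisor groups. -/
theorem m37e3_bounded_div [HasPrincipalDivisors K F]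
    (g : ℕ) (hR : m18_Riem K F g) (B : Divisor K F) (hB : (g : ℤ) ≤ Divisor.degree B)
    (Φ Ψ : Divisor K F →+ Divisor k Fk) (c : ℤ)
    (hprin : ∀ D : Divisor K F, Divisor.IsPrincipal D → Φ D = Ψ D)
    (hΦ : ∀ E : Divisor K F, 0 ≤ E → ∀ Q, 0 ≤ Φ E Q ∧ Φ E Q ≤ c * Divisor.degree E)
    (hΨ : ∀ E : Divisor K F, 0 ≤ E → ∀ Q, 0 ≤ Ψ E Q ∧ Ψ E Q ≤ c * Divisor.degree E) :
    ∀ D : Divisor K F, Divisor.degree D = 0 → Φ D = Ψ D := by
  intro D hD
  ext Q
  have h := m37e3_bounded g hR B hB
    ((Finsupp.applyAddHom Q).comp (Φ - Ψ)) c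
    (fun D' hD' => by
      simp only [AddMonoidHom.comp_apply, AddMonoidHom.sub_apply, hprin D' hD', sub_self, map_zero])
    (fun E hE => by
      have h1 := hΦ E hE Q
      have h2 := hΨ E hE Q
      simp only [AddMonoidHom.comp_apply, AddMonoidHom.sub_apply, Finsupp.applyAddHom_apply,
        Finsupp.coe_sub, Pi.sub_apply]
      rw [abs_le]
      constructor <;> linarith [h1.1, h1.2, h2.1, h2.2])
    D hD
  simp only [AddMonoidHom.comp_apply, AddMonoidHom.sub_apply, Finsupp.applyAddHom_apply,
    Finsupp.coe_sub, Pi.sub_apply] at h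
  linarith

end bounded

end Fermat.Agent.M37

end
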