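import Mathlib
import Fermat.Prelude.Def_ModularCurve_LaurentCoeff
import Fermat.Prelude.Def_ModularCurve_X0
import Fermat.Prelude.Thm_ModularCurve_coeffMap_qExpand
import Fermat.Agent.S24.CuspFormal

/-!
# M37 (KC-F): formal lemmas for the Kronecker congruence

* `m37kc_pow_char`: in characteristic `ℓ`, `x ^ ℓ = qExpand ℓ (Frobenius on coefficients of x)`
  for Laurent series.
* `m37kc_prod_twist`: for a Laurent series `X` with coefficients in a valuation subring `A`
  of residue characteristic `ℓ` and a primitive `ℓ`-th root of unity `ζ`, the product of the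
  twists `X(ζ^b t)`, `b < ℓ`, is `P(t^ℓ)` with `P` integral, and `P` reduces to the Frobenius
  twist of the reduction of `X`.
-/

set_option autoImplicit false
set_option linter.unusedSectionVars false
set_option linter.unusedVariables false
set_option linter.style.haveILetI false

noncomputable section

namespace Fermat.Agent.M37

open ModularCurve

section powchar

variable (k : Type*) [Field k] (ℓ : ℕ) [Fact ℓ.Prime] [CharP k ℓ]

/-- power series case. -/
theorem m37kc_pow_char_ps (φ : PowerSeries k) :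
    (HahnSeries.ofPowerSeries ℤ k φ) ^ ℓ
      = qExpand k ℓ (coeffMap (frobenius k ℓ) (HahnSeries.ofPowerSeries ℤ k φ)) := by
  have hℓ0 : ℓ ≠ 0 := (Fact.out : ℓ.Prime).ne_zero
  have h1 : φ ^ ℓ = PowerSeries.map (frobenius k ℓ) (PowerSeries.expand ℓ hℓ0 φ) :=
    (MvPowerSeries.map_frobenius_expand ℓ hℓ0 (f := φ)).symm
  rw [← map_pow, h1]
  ext n
  by_cases hn : 0 ≤ n
  · obtain ⟨m, rfl⟩ := Int.eq_ofNat_of_zero_le hn
    rw [HahnSeries.ofPowerSeries_apply_coeff, PowerSeries.coeff_map, PowerSeries.coeff_expand]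
    by_cases hd : ℓ ∣ m
    · obtain ⟨c, rfl⟩ := hd
      rw [if_pos (dvd_mul_right ℓ c), Nat.mul_div_cancel_left _ (Nat.pos_of_ne_zero hℓ0)]
      have e : ((ℓ * c : ℕ) : ℤ) = (ℓ : ℤ) * (c : ℤ) := by push_cast; ring
      rw [e, qExpand_coeff_mul, coeffMap_coeff, HahnSeries.ofPowerSeries_apply_coeff]
    · rw [if_neg hd, map_zero, qExpand_coeff_of_not_dvd]
      intro h
      exact hd (Int.natCast_dvd_natCast.mp h)
  · have hn' : n < 0 := not_le.mp hn
    have hz : ∀ (ψ : PowerSeries k), (HahnSeries.ofPowerSeries ℤ k ψ).coeff n = 0 := by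
      intro ψ
      have := PowerSeries.coeff_coe (f := ψ) n
      rw [if_pos hn'] at this
      exact this
    rw [hz]
    by_cases hd : (ℓ : ℤ) ∣ n
    · obtain ⟨c, rfl⟩ := hd
      rw [qExpand_coeff_mul, coeffMap_coeff]
      have hc : c < 0 := by
        by_contra hc
        have : 0 ≤ (ℓ : ℤ) * c := mul_nonneg (by positivity) (not_lt.mp hc)
        omega
      have := PowerSeries.coeff_coe (f := φ) c
      rw [if_pos hc] at this
      rw [show (HahnSeries.ofPowerSeries ℤ k φ).coeff c = 0 from this, map_zero]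
    · rw [qExpand_coeff_of_not_dvd _ _ hd]

/-- **(KC-F)(a)**: the `ℓ`-th power of a Laurent series in characteristic `ℓ`. -/
theorem m37kc_pow_char (x : LaurentSeries k) :
    x ^ ℓ = ModularCurve.qExpand k ℓ (ModularCurve.coeffMap (frobenius k ℓ) x) := by
  have hx := LaurentSeries.single_order_mul_powerSeriesPart x
  conv_lhs => rw [← hx]
  conv_rhs => rw [← hx]
  rw [mul_pow, map_mul, map_mul, m37kc_pow_char_ps, coeffMap_single, qExpand_single]
  congr 1
  rw [HahnSeries.single_pow, map_one, one_pow]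
  congr 1
  try rw [nsmul_eq_mul]

/-- in a field of characteristic `ℓ` the only `ℓ`-th root of unity is `1`. -/
theorem m37kc_eq_one_of_pow_char {a : k} (h : a ^ ℓ = 1) : a = 1 := by
  have h1 : (a - 1) ^ ℓ = 0 := by
    rw [sub_pow_char, h, one_pow, sub_self]
  have h2 : a - 1 = 0 := pow_eq_zero_iff ((Fact.out : ℓ.Prime).ne_zero) |>.mp h1
  exact sub_eq_zero.mp h2

end powchar

section twist

variable {R : Type*} [CommRing R]

/-- the substitution `t ↦ v t` on Laurent series over a commutative ring (`v` a unit). -/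
def m37kc_tw (v : Rˣ) (X : LaurentSeries R) : LaurentSeries R where
  coeff n := ((v ^ n : Rˣ) : R) * X.coeff n
  isPWO_support' := X.isPWO_support.mono (fun n hn => by
    simp only [Function.mem_support, ne_eq] at hn ⊢
    intro h0
    exact hn (by rw [h0, mul_zero]))

@[simp] theorem m37kc_tw_coeff (v : Rˣ) (X : LaurentSeries R) (n : ℤ) :
    (m37kc_tw v X).coeff n = ((v ^ n : Rˣ) : R) * X.coeff n := rfl

/-- the contraction `P(t) = Y(t^{1/ℓ})` of a Laurent series. -/
def m37kc_contract (ℓ : ℕ) [NeZero ℓ] (Y : LaurentSeries R) : LaurentSeries R :=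
  HahnSeries.ofSuppBddBelow (fun k => Y.coeff ((ℓ : ℤ) * k))
    ⟨min Y.order 0, fun k hk => by
      by_contra hlt
      rw [not_le] at hlt
      have hk0 : k < 0 := lt_of_lt_of_le hlt (min_le_right _ _)
      have hkm : k < Y.order := lt_of_lt_of_le hlt (min_le_left _ _)
      have hpos : (1 : ℤ) ≤ (ℓ : ℤ) := by
        have := Nat.pos_of_ne_zero (NeZero.ne ℓ)
        exact_mod_cast this
      have h2 : (ℓ : ℤ) * k ≤ k := by nlinarith
      exact hk (HahnSeries.coeff_eq_zero_of_lt_order (lt_of_le_of_lt h2 hkm))⟩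

@[simp] theorem m37kc_contract_coeff (ℓ : ℕ) [NeZero ℓ] (Y : LaurentSeries R) (k : ℤ) :
    (m37kc_contract ℓ Y).coeff k = Y.coeff ((ℓ : ℤ) * k) := rfl

theorem m37kc_qExpand_contract (ℓ : ℕ) [NeZero ℓ] (Y : LaurentSeries R)
    (hY : ∀ n : ℤ, ¬ (ℓ : ℤ) ∣ n → Y.coeff n = 0) :
    qExpand R ℓ (m37kc_contract ℓ Y) = Y := by
  ext n
  by_cases hd : (ℓ : ℤ) ∣ n
  · obtain ⟨c, rfl⟩ := hd
    rw [qExpand_coeff_mul, m37kc_contract_coeff]
  · rw [qExpand_coeff_of_not_dvd _ _ hd, hY n hd]

end twist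

section prodtwist

open Fermat.Agent.S24

variable {K : Type*} [Field K]

/-- the product of all twists by the powers of a root of unity of order `ℓ` is invariant under
the twist. -/
theorem m37kc_twist_prod_invariant (ℓ : ℕ) (ζ : Kˣ) (hζ : ζ ^ ℓ = 1) (x : LaurentSeries K) :
    cf_twist ζ (∏ b ∈ Finset.range ℓ, cf_twist (ζ ^ b) x)
      = ∏ b ∈ Finset.range ℓ, cf_twist (ζ ^ b) x := by
  have hstep : ∀ b : ℕ, cf_twist ζ (cf_twist (ζ ^ b) x) = cf_twist (ζ ^ (b + 1)) x := by
    intro b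
    ext n
    show ((ζ ^ n : Kˣ) : K) * ((((ζ ^ b) ^ n : Kˣ) : K) * x.coeff n)
      = (((ζ ^ (b + 1)) ^ n : Kˣ) : K) * x.coeff n
    rw [← mul_assoc, ← Units.val_mul]
    congr 2
    rw [pow_succ, mul_zpow, mul_comm]
  rw [map_prod]
  simp only [hstep]
  have h1 := Finset.prod_range_succ' (fun b => cf_twist (ζ ^ b) x) ℓ
  have h2 := Finset.prod_range_succ (fun b => cf_twist (ζ ^ b) x) ℓ
  have h3 : cf_twist (ζ ^ ℓ) x = cf_twist (ζ ^ 0) x := by rw [hζ, pow_zero]
  rw [h1, h3] at h2
  by_cases hx : cf_twist (ζ ^ 0) x = 0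
  · -- then `x = 0`
    have hx0 : x = 0 := by
      have := (cf_twist (ζ ^ 0)).injective (hx.trans (map_zero _).symm)
      exact this
    subst hx0
    simp
  · exact mul_right_cancel₀ hx h2

/-- a Laurent series invariant under the twist by a primitive `ℓ`-th root of unity is supported
on the multiples of `ℓ`. -/
theorem m37kc_coeff_eq_zero_of_invariant (ℓ : ℕ) (ζ : Kˣ) (hζ : IsPrimitiveRoot ζ ℓ)
    (y : LaurentSeries K) (hy : cf_twist ζ y = y) (n : ℤ) (hn : ¬ (ℓ : ℤ) ∣ n) :
    y.coeff n = 0 := by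
  have h1 : (cf_twist ζ y).coeff n = y.coeff n := by rw [hy]
  have h2 : (cf_twist ζ y).coeff n = ((ζ ^ n : Kˣ) : K) * y.coeff n := rfl
  rw [h2] at h1
  have h3 : (((ζ ^ n : Kˣ) : K) - 1) * y.coeff n = 0 := by rw [sub_mul, h1, one_mul, sub_self]
  rcases mul_eq_zero.mp h3 with h | h
  · exfalso
    apply hn
    rw [← hζ.zpow_eq_one_iff_dvd]
    apply Units.ext
    rw [Units.val_one]
    exact sub_eq_zero.mp h
  · exact h

/-- **(KC-F)(b)**: the product of the twists of an integral Laurent series. -/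
theorem m37kc_prod_twist (A : ValuationSubring K) (ℓ : ℕ) [Fact ℓ.Prime]
    [CharP (IsLocalRing.ResidueField A) ℓ] (ζ : Kˣ) (hζ : IsPrimitiveRoot ζ ℓ)
    (X : LaurentSeries A) :
    ∃ P : LaurentSeries A,
      ModularCurve.qExpand K ℓ (ModularCurve.coeffMap A.subtype P)
        = ∏ b ∈ Finset.range ℓ,
            Fermat.Agent.S24.cf_twist (ζ ^ b) (ModularCurve.coeffMap A.subtype X)
      ∧ ModularCurve.coeffMap (IsLocalRing.residue A) P
        = ModularCurve.coeffMap (frobenius _ ℓ)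
            (ModularCurve.coeffMap (IsLocalRing.residue A) X) := by
  classical
  have hℓ0 : ℓ ≠ 0 := (Fact.out : ℓ.Prime).ne_zero
  have hℓpos : 0 < ℓ := Nat.pos_of_ne_zero hℓ0
  -- `ζ` lies in `A`
  have hint : IsIntegral A ((ζ : K) ^ ℓ) := by
    have : (ζ : K) ^ ℓ = 1 := by rw [← Units.val_pow_eq_pow_val, hζ.pow_eq_one, Units.val_one]
    rw [this]
    exact isIntegral_one
  obtain ⟨y, hy⟩ := IsIntegrallyClosed.exists_algebraMap_eq_of_isIntegral_pow (R := A) (K := K)
    hℓpos hint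
  have hyK : (y : K) = (ζ : K) := hy
  have hyℓ : y ^ ℓ = 1 := by
    apply Subtype.ext
    show A.subtype (y ^ ℓ) = 1
    rw [map_pow]
    show (y : K) ^ ℓ = 1
    rw [hyK, ← Units.val_pow_eq_pow_val, hζ.pow_eq_one, Units.val_one]
  have hymul : y * y ^ (ℓ - 1) = 1 := by
    rw [← pow_succ', Nat.sub_add_cancel hℓpos, hyℓ]
  let v : Aˣ := Units.mkOfMulEqOne y (y ^ (ℓ - 1)) hymul
  have hv : (v : A) = y := rfl
  have hvζ : Units.map (A.subtype : A →* K) v = ζ := by
    apply Units.ext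
    show ((v : A) : K) = ζ
    rw [hv, hyK]
  have hvK : ∀ (b : ℕ) (n : ℤ), ((((v ^ b) ^ n : Aˣ) : A) : K) = (((ζ ^ b) ^ n : Kˣ) : K) := by
    intro b n
    rw [← hvζ, ← map_pow, ← map_zpow]
    rfl
  -- the residue of `v` is `1`
  have hres : IsLocalRing.residue A (v : A) = 1 := by
    apply m37kc_eq_one_of_pow_char (IsLocalRing.ResidueField A) ℓ
    rw [← map_pow, hv, hyℓ, map_one]
  have hresu : Units.map (IsLocalRing.residue A : A →* IsLocalRing.ResidueField A) v = 1 := by
    apply Units.ext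
    exact hres
  have hvres : ∀ (b : ℕ) (n : ℤ), IsLocalRing.residue A ((((v ^ b) ^ n : Aˣ) : A)) = 1 := by
    intro b n
    have : IsLocalRing.residue A ((((v ^ b) ^ n : Aˣ) : A))
        = (((Units.map (IsLocalRing.residue A : A →* IsLocalRing.ResidueField A) v ^ b) ^ n :
            (IsLocalRing.ResidueField A)ˣ) : IsLocalRing.ResidueField A) := by
      rw [← map_pow, ← map_zpow]
      rfl
    rw [this, hresu, one_pow, one_zpow, Units.val_one]
  -- the product over `A`
  set Y : LaurentSeries A := ∏ b ∈ Finset.range ℓ, m37kc_tw (v ^ b) X with hY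
  have hYK : ModularCurve.coeffMap A.subtype Y
      = ∏ b ∈ Finset.range ℓ, cf_twist (ζ ^ b) (ModularCurve.coeffMap A.subtype X) := by
    rw [hY, map_prod]
    refine Finset.prod_congr rfl (fun b _ => ?_)
    ext n
    show ((((v ^ b) ^ n : Aˣ) : A) * X.coeff n : A) = (((ζ ^ b) ^ n : Kˣ) : K) * (X.coeff n : K)
    rw [MulMemClass.coe_mul, hvK]
  have hYres : ModularCurve.coeffMap (IsLocalRing.residue A) Y
      = (ModularCurve.coeffMap (IsLocalRing.residue A) X) ^ ℓ := by
    rw [hY, map_prod]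
    have : ∀ b ∈ Finset.range ℓ, ModularCurve.coeffMap (IsLocalRing.residue A) (m37kc_tw (v ^ b) X)
        = ModularCurve.coeffMap (IsLocalRing.residue A) X := by
      intro b _
      ext n
      show IsLocalRing.residue A ((((v ^ b) ^ n : Aˣ) : A) * X.coeff n)
        = IsLocalRing.residue A (X.coeff n)
      rw [map_mul, hvres, one_mul]
    rw [Finset.prod_congr rfl this, Finset.prod_const, Finset.card_range]
  have hYsupp : ∀ n : ℤ, ¬ (ℓ : ℤ) ∣ n → Y.coeff n = 0 := by
    intro n hn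
    have h1 := m37kc_coeff_eq_zero_of_invariant ℓ ζ hζ _
      (m37kc_twist_prod_invariant ℓ ζ hζ.pow_eq_one (ModularCurve.coeffMap A.subtype X)) n hn
    rw [← hYK] at h1
    apply Subtype.ext
    exact h1
  haveI : NeZero ℓ := ⟨hℓ0⟩
  refine ⟨m37kc_contract ℓ Y, ?_, ?_⟩
  · rw [← ModularCurve.coeffMap_qExpand, m37kc_qExpand_contract ℓ Y hYsupp, hYK]
  · apply ModularCurve.qExpand_injective (R := IsLocalRing.ResidueField A) ℓ
    rw [← ModularCurve.coeffMap_qExpand, m37kc_qExpand_contract ℓ Y hYsupp, hYres,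
      m37kc_pow_char]

end prodtwist

end Fermat.Agent.M37

end
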