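import Fermat.Agent.M37.E3Kron
import Fermat.Agent.M37.E0Hecke
import Fermat.Agent.M37.KcFrob

/-!
# M37 / (E3): the leaf (E3') from the Kronecker congruence for integral `q`-series alone.

`m37e3_ES_of_kc` : `m37fr_ES A N hℓ` from `m37e3_KronF A N ℓ` (the Kronecker congruence for the
elements of `F_N` with an integral `q`-expansion, stated with Mathlib's `frobenius`); the norm
formula along `α` is `m37e0n_norm_alpha` and the formula for `ℓ`-th powers is `m37kc_pow_char`.
-/

set_option autoImplicit false
set_option linter.deprecated false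
set_option linter.unusedSectionVars false
set_option linter.unusedVariables false
set_option linter.style.haveILetI false
set_option synthInstance.maxHeartbeats 400000
set_option maxHeartbeats 1600000

noncomputable section

namespace Fermat.Agent.M37

open AlgebraicCurve ModularCurve IntermediateField Module HahnSeries
open Fermat.Agent.S20 Fermat.Agent.S24 Fermat.Agent.M18

variable {A : ValuationSubring m18v_K} {N : ℕ} [NeZero N]

/-- **leaf (E3')** from the Kronecker congruence for integral `q`-series. -/
theorem m37e3_ES_of_kc {ℓ : ℕ} (hℓ : ℓ.Prime) (hℓN : ¬ ℓ ∣ N) (hA : A.LiesOverPrime ℓ)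
    (hF : haveI : NeZero ℓ := ⟨hℓ.ne_zero⟩
      haveI : Fact ℓ.Prime := ⟨hℓ⟩
      haveI : CharP (m18v_k A) ℓ := m18rf_charP A ℓ hA
      m37e3_KronF A N ℓ) :
    m37fr_ES A N hℓ := by
  haveI : NeZero ℓ := ⟨hℓ.ne_zero⟩
  haveI : Fact ℓ.Prime := ⟨hℓ⟩
  haveI : CharP (m18v_k A) ℓ := m18rf_charP A ℓ hA
  exact m37e3_ES_of_kronF hℓ hℓN hA (m37e0n_norm_alpha N ℓ _)
    (fun y => m37kc_pow_char (m18v_k A) ℓ y) hF

end Fermat.Agent.M37

end
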