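import Fermat.Agent.M37.E3Frob

/-!
# M37 / (E3): the Frobenius endomorphism `Fr` of `J~ = JZeroC k N` (the `Fr` of `M37/Top.lean`).

`m37e3_Fr hℓ hA N : JZeroC k N →+ JZeroC k N` is the action of the semilinear automorphism
`m37e3_frobA` (coefficientwise `ℓ`-th power on `q`-expansions) on `Pic⁰`.
-/

set_option autoImplicit false
set_option synthInstance.maxHeartbeats 400000

noncomputable section

open HahnSeries IntermediateField AlgebraicCurve ModularCurve

namespace Fermat.Agent.M37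

variable {A : ValuationSubring (AlgebraicClosure ℚ)} {ℓ : ℕ}

/-- the Frobenius as a semilinear automorphism, with the primality as an explicit argument. -/
def m37e3_frobS (hℓ : ℓ.Prime) (hA : A.LiesOverPrime ℓ) (N : ℕ) [NeZero N] :
    SemilinearAut (IsLocalRing.ResidueField A)
      (modularFunctionFieldFullC (IsLocalRing.ResidueField A) N) :=
  haveI : Fact ℓ.Prime := ⟨hℓ⟩
  m37e3_frobA A ℓ hA N

/-- **the Frobenius endomorphism of `J~`.** -/
def m37e3_Fr (hℓ : ℓ.Prime) (hA : A.LiesOverPrime ℓ) (N : ℕ) [NeZero N] :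
    JZeroC (IsLocalRing.ResidueField A) N →+ JZeroC (IsLocalRing.ResidueField A) N :=
  DistribSMul.toAddMonoidHom (JZeroC (IsLocalRing.ResidueField A) N) (m37e3_frobS hℓ hA N)

theorem m37e3_Fr_apply (hℓ : ℓ.Prime) (hA : A.LiesOverPrime ℓ) (N : ℕ) [NeZero N]
    (x : JZeroC (IsLocalRing.ResidueField A) N) :
    m37e3_Fr hℓ hA N x = m37e3_frobS hℓ hA N • x := rfl

theorem m37e3_Fr_mk (hℓ : ℓ.Prime) (hA : A.LiesOverPrime ℓ) (N : ℕ) [NeZero N]
    (D : Divisor.degZero (K := IsLocalRing.ResidueField A)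
      (F := modularFunctionFieldFullC (IsLocalRing.ResidueField A) N)) :
    m37e3_Fr hℓ hA N (Pic0.mk D) = Pic0.mk (SemilinearAut.degZeroSMulHom (m37e3_frobS hℓ hA N) D) :=
  rfl

theorem m37e3_frobS_coeff (hℓ : ℓ.Prime) (hA : A.LiesOverPrime ℓ) (N : ℕ) [NeZero N]
    (x : modularFunctionFieldFullC (IsLocalRing.ResidueField A) N) (n : ℤ) :
    ((m37e3_frobS hℓ hA N • x : modularFunctionFieldFullC (IsLocalRing.ResidueField A) N) :
        LaurentSeries (IsLocalRing.ResidueField A)).coeff n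
      = ((x : LaurentSeries (IsLocalRing.ResidueField A)).coeff n) ^ ℓ :=
  haveI : Fact ℓ.Prime := ⟨hℓ⟩
  m37e3_frobA_coeff A ℓ hA N x n

theorem m37e3_frobS_baseAut (hℓ : ℓ.Prime) (hA : A.LiesOverPrime ℓ) (N : ℕ) [NeZero N]
    (a : IsLocalRing.ResidueField A) :
    SemilinearAut.baseAut (m37e3_frobS hℓ hA N) a = a ^ ℓ :=
  haveI : Fact ℓ.Prime := ⟨hℓ⟩
  m37e3_frobA_baseAut A ℓ hA N a

end Fermat.Agent.M37

end
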