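import Mathlib
import Fermat.Prelude.Def_ModularCurve_X0ModL
import Fermat.Prelude.Def_AlgebraicCurve_BaseChangeGalois
import Fermat.Agent.M18.ResField

/-!
# M37 / (E3), part b: coefficientwise automorphisms of the function field of `X₀(N)` over a
field `k`, and the Frobenius.

* `m37e3_coeffAut N : (k ≃+* k) →* SemilinearAut k (modularFunctionFieldFullC k N)`:
  a ring automorphism of `k` acts coefficientwise on `q`-expansions; the function field is stable
  because its generators `j(q^d)` have coefficients in the prime ring.
* `m37e3_frobK`, `m37e3_frob`: the Frobenius of a perfect field of characteristic `ℓ`, and the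
  attached semilinear automorphism; `m37e3_frobA` the instance for the residue field of a
  valuation subring of the algebraic closure of `ℚ` lying over `ℓ`.
-/

set_option autoImplicit false
set_option synthInstance.maxHeartbeats 400000

noncomputable section

open HahnSeries IntermediateField AlgebraicCurve ModularCurve

namespace Fermat.Agent.M37

section coeffAut

variable {k : Type*} [Field k] (N : ℕ) [NeZero N]

omit [NeZero N] in
theorem m37e3_mem_fullC_iff {x : LaurentSeries k} :
    x ∈ modularFunctionFieldFullC k N ↔
      x ∈ Subfield.closure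
        (Set.range (algebraMap k (LaurentSeries k)) ∪ divisorExpansionsC k N) :=
  Iff.rfl

omit [NeZero N] in
/-- the function field of `X₀(N)` over `k` is stable under coefficientwise ring endomorphisms. -/
theorem m37e3_coeffMap_mem (e : k →+* k) {x : LaurentSeries k}
    (hx : x ∈ modularFunctionFieldFullC k N) :
    coeffMap e x ∈ modularFunctionFieldFullC k N := by
  rw [m37e3_mem_fullC_iff] at hx
  induction hx using Subfield.closure_induction with
  | mem y hy =>
      rcases hy with ⟨a, rfl⟩ | ⟨d, hd, hdvd, rfl⟩
      · rw [coeffMap_algebraMap]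
        exact (modularFunctionFieldFullC k N).algebraMap_mem _
      · haveI := hd
        rw [coeffMap_qExpand, coeffMap_jqModC]
        exact jqModCd_mem_full k N hdvd
  | one => simp
  | add x y _ _ hx hy => simpa using add_mem hx hy
  | neg x _ hx => simpa using neg_mem hx
  | inv x _ hx => simpa using inv_mem hx
  | mul x y _ _ hx hy => simpa using mul_mem hx hy

/-- the coefficientwise action of a ring automorphism of `k` on the function field. -/
def m37e3_ringAut (e : k ≃+* k) :
    (modularFunctionFieldFullC k N) ≃+* (modularFunctionFieldFullC k N) where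
  toFun x := ⟨coeffMap (e : k →+* k) (x : LaurentSeries k), m37e3_coeffMap_mem N _ x.2⟩
  invFun x := ⟨coeffMap (e.symm : k →+* k) (x : LaurentSeries k), m37e3_coeffMap_mem N _ x.2⟩
  left_inv x := Subtype.ext <| by
    show coeffMap (e.symm : k →+* k) (coeffMap (e : k →+* k) (x : LaurentSeries k))
      = (x : LaurentSeries k)
    rw [coeffMap_coeffMap,
      coeffMap_congr (g := RingHom.id k) (RingHom.ext fun a => e.symm_apply_apply a)
        (x : LaurentSeries k),
      coeffMap_id]
  right_inv x := Subtype.ext <| by
    show coeffMap (e : k →+* k) (coeffMap (e.symm : k →+* k) (x : LaurentSeries k))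
      = (x : LaurentSeries k)
    rw [coeffMap_coeffMap,
      coeffMap_congr (g := RingHom.id k) (RingHom.ext fun a => e.apply_symm_apply a)
        (x : LaurentSeries k),
      coeffMap_id]
  map_mul' x y :=
    Subtype.ext (map_mul (coeffMap (e : k →+* k)) (x : LaurentSeries k) (y : LaurentSeries k))
  map_add' x y :=
    Subtype.ext (map_add (coeffMap (e : k →+* k)) (x : LaurentSeries k) (y : LaurentSeries k))

@[simp]
theorem m37e3_coe_ringAut_apply (e : k ≃+* k) (x : modularFunctionFieldFullC k N) :
    (m37e3_ringAut N e x : LaurentSeries k) = coeffMap (e : k →+* k) (x : LaurentSeries k) :=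
  rfl

theorem m37e3_ringAut_algebraMap (e : k ≃+* k) (a : k) :
    m37e3_ringAut N e (algebraMap k (modularFunctionFieldFullC k N) a)
      = algebraMap k (modularFunctionFieldFullC k N) (e a) :=
  Subtype.ext (coeffMap_algebraMap (e : k →+* k) a)

/-- **(E3-b)** ring automorphisms of `k` act semilinearly on the function field of `X₀(N)` over
`k`, coefficientwise on `q`-expansions. -/
def m37e3_coeffAut : (k ≃+* k) →* SemilinearAut k (modularFunctionFieldFullC k N) where
  toFun e := ⟨(m37e3_ringAut N e, e), fun a => m37e3_ringAut_algebraMap N e a⟩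
  map_one' := by
    refine Subtype.ext (Prod.ext (RingEquiv.ext fun x => Subtype.ext ?_) rfl)
    show coeffMap (((1 : k ≃+* k) : k ≃+* k) : k →+* k) (x : LaurentSeries k)
      = (x : LaurentSeries k)
    rw [show (((1 : k ≃+* k) : k ≃+* k) : k →+* k) = RingHom.id k from RingHom.ext fun _ => rfl,
      coeffMap_id]
  map_mul' e f := by
    refine Subtype.ext (Prod.ext (RingEquiv.ext fun x => Subtype.ext ?_) rfl)
    show coeffMap ((e * f : k ≃+* k) : k →+* k) (x : LaurentSeries k)
      = coeffMap (e : k →+* k) (coeffMap (f : k →+* k) (x : LaurentSeries k))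
    rw [coeffMap_coeffMap]
    exact coeffMap_congr (RingHom.ext fun _ => rfl) _

@[simp]
theorem m37e3_toRingAut_coeffAut (e : k ≃+* k) :
    SemilinearAut.toRingAut (m37e3_coeffAut N e) = m37e3_ringAut N e :=
  rfl

@[simp]
theorem m37e3_baseAut_coeffAut (e : k ≃+* k) :
    SemilinearAut.baseAut (m37e3_coeffAut N e) = e :=
  rfl

theorem m37e3_coe_coeffAut_smul (e : k ≃+* k) (x : modularFunctionFieldFullC k N) :
    ((m37e3_coeffAut N e • x : modularFunctionFieldFullC k N) : LaurentSeries k)
      = coeffMap (e : k →+* k) (x : LaurentSeries k) :=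
  rfl

theorem m37e3_coeff_coeffAut_smul (e : k ≃+* k) (x : modularFunctionFieldFullC k N) (n : ℤ) :
    ((m37e3_coeffAut N e • x : modularFunctionFieldFullC k N) : LaurentSeries k).coeff n
      = e ((x : LaurentSeries k).coeff n) :=
  rfl

theorem m37e3_coe_coeffAut_inv_smul (e : k ≃+* k) (x : modularFunctionFieldFullC k N) :
    (((m37e3_coeffAut N e)⁻¹ • x : modularFunctionFieldFullC k N) : LaurentSeries k)
      = coeffMap (e.symm : k →+* k) (x : LaurentSeries k) :=
  rfl

end coeffAut

section frobenius

variable (k : Type*) [Field k] (ℓ : ℕ) [Fact ℓ.Prime] [CharP k ℓ] [PerfectRing k ℓ]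
  (N : ℕ) [NeZero N]

/-- the Frobenius of a perfect field of characteristic `ℓ`. -/
def m37e3_frobK : k ≃+* k := frobeniusEquiv k ℓ

@[simp]
theorem m37e3_frobK_apply (a : k) : m37e3_frobK k ℓ a = a ^ ℓ := by
  simp [m37e3_frobK, frobeniusEquiv_apply, frobenius_def]

/-- **(E3-b)** the Frobenius of the function field of `X₀(N)` over `k`. -/
def m37e3_frob : SemilinearAut k (modularFunctionFieldFullC k N) :=
  m37e3_coeffAut N (m37e3_frobK k ℓ)

theorem m37e3_frob_coeff (x : modularFunctionFieldFullC k N) (n : ℤ) :
    ((m37e3_frob k ℓ N • x : modularFunctionFieldFullC k N) : LaurentSeries k).coeff n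
      = ((x : LaurentSeries k).coeff n) ^ ℓ := by
  rw [m37e3_frob, m37e3_coeff_coeffAut_smul, m37e3_frobK_apply]

theorem m37e3_frob_baseAut (a : k) :
    SemilinearAut.baseAut (m37e3_frob k ℓ N) a = a ^ ℓ := by
  rw [m37e3_frob, m37e3_baseAut_coeffAut, m37e3_frobK_apply]

end frobenius

section residue

open Fermat.Agent.M18

variable (A : ValuationSubring (AlgebraicClosure ℚ)) (ℓ : ℕ) [Fact ℓ.Prime]
  (hA : A.LiesOverPrime ℓ) (N : ℕ) [NeZero N]

/-- **(E3-b)** the Frobenius on the function field of `X₀(N)` over the residue field of `A`. -/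
def m37e3_frobA : SemilinearAut (IsLocalRing.ResidueField A)
    (modularFunctionFieldFullC (IsLocalRing.ResidueField A) N) :=
  haveI : CharP (IsLocalRing.ResidueField A) ℓ := m18rf_charP A ℓ hA
  haveI : IsAlgClosed (IsLocalRing.ResidueField A) := m18rf_isAlgClosed A
  m37e3_frob (IsLocalRing.ResidueField A) ℓ N

theorem m37e3_frobA_coeff
    (x : modularFunctionFieldFullC (IsLocalRing.ResidueField A) N) (n : ℤ) :
    ((m37e3_frobA A ℓ hA N • x : modularFunctionFieldFullC (IsLocalRing.ResidueField A) N) :
        LaurentSeries (IsLocalRing.ResidueField A)).coeff n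
      = ((x : LaurentSeries (IsLocalRing.ResidueField A)).coeff n) ^ ℓ := by
  haveI : CharP (IsLocalRing.ResidueField A) ℓ := m18rf_charP A ℓ hA
  haveI : IsAlgClosed (IsLocalRing.ResidueField A) := m18rf_isAlgClosed A
  exact m37e3_frob_coeff (IsLocalRing.ResidueField A) ℓ N x n

theorem m37e3_frobA_baseAut (a : IsLocalRing.ResidueField A) :
    SemilinearAut.baseAut (m37e3_frobA A ℓ hA N) a = a ^ ℓ := by
  haveI : CharP (IsLocalRing.ResidueField A) ℓ := m18rf_charP A ℓ hA
  haveI : IsAlgClosed (IsLocalRing.ResidueField A) := m18rf_isAlgClosed A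
  exact m37e3_frob_baseAut (IsLocalRing.ResidueField A) ℓ N a

end residue

end Fermat.Agent.M37

end
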