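import Fermat.Agent.M37.E3Main

/-!
# M37 / (E3): from the Kronecker congruence for integral `q`-series to the Gauss form.

* `m37e3_KronQ A N ℓ` : the Kronecker congruence for the elements of `F_N` with an integral
  `q`-expansion `X`: the norm (along `α`) of `β x` has an integral `q`-expansion `Z` with
  `Z~ = X~(q^ℓ) · φ(X~)`, `φ` the coefficientwise Frobenius.
* `m37e3_kronG_of_kronQ` : the Gauss form `m37e3_KronG` (all Gauss units `x = X / w`) follows, by
  the multiplicativity of the norm.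
* `m37e3_ES_of_kronQ` : leaf (E3') from `m37e3_KronQ` and the norm formula along `α`.
-/

set_option autoImplicit false
set_option linter.deprecated false
set_option linter.unusedSectionVars false
set_option linter.unusedVariables false
set_option linter.style.haveILetI false
set_option synthInstance.maxHeartbeats 400000
set_option maxHeartbeats 1600000

noncomputable section

namespace Fermat.Agent.M37

open AlgebraicCurve ModularCurve IntermediateField Module HahnSeries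
open Fermat.Agent.S20 Fermat.Agent.S24 Fermat.Agent.M18

section norm

variable {K F F' : Type*} [Field K] [Field F] [Field F'] [Algebra K F] [Algebra K F']

theorem m37e3_normAlong_mul (ψ : F →ₐ[K] F') (a b : F') :
    m37e3_normAlong ψ (a * b) = m37e3_normAlong ψ a * m37e3_normAlong ψ b := by
  letI := algebraAlong ψ
  exact map_mul (Algebra.norm F) a b

end norm

variable {A : ValuationSubring m18v_K} {N : ℕ} [NeZero N]

/-- the Kronecker congruence for integral `q`-series. -/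
def m37e3_KronQ (A : ValuationSubring m18v_K) (N : ℕ) [NeZero N] (ℓ : ℕ) [NeZero ℓ] : Prop :=
  ∀ (x : m18v_F N) (X : LaurentSeries A), (x : LaurentSeries m18v_K) = m18v_incl A X →
    ∃ Z : LaurentSeries A,
      ((m37e3_normAlong (heckeAlphaBar m18v_K N ℓ) (heckeBetaBar m18v_K N ℓ x) : m18v_F N) :
        LaurentSeries m18v_K) = m18v_incl A Z ∧
      m18v_redq A Z = qExpand (m18v_k A) ℓ (m18v_redq A X)
        * coeffMap ((m37fr_phi (m18v_k A) ℓ : m18v_k A ≃+* m18v_k A) : m18v_k A →+* m18v_k A)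
            (m18v_redq A X)

theorem m37e3_coe_aut_inv_smul {k : Type*} [Field k] (M : ℕ) (φ : k ≃+* k)
    (x : modularFunctionFieldFullC k M) :
    (((m37fr_aut M φ)⁻¹ • x : modularFunctionFieldFullC k M) : LaurentSeries k)
      = coeffMap (φ.symm : k →+* k) (x : LaurentSeries k) :=
  rfl

/-- **the Gauss form of the Kronecker congruence from the `q`-series form.** -/
theorem m37e3_kronG_of_kronQ {ℓ : ℕ} [NeZero ℓ]
    (hpow : ∀ y : LaurentSeries (m18v_k A), y ^ ℓ = qExpand (m18v_k A) ℓ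
      (coeffMap ((m37fr_phi (m18v_k A) ℓ : m18v_k A ≃+* m18v_k A) : m18v_k A →+* m18v_k A) y))
    (hQ : m37e3_KronQ A N ℓ) :
    m37e3_KronG A N ℓ (m37fr_aut N (m37fr_phi (m18v_k A) ℓ)) := by
  intro h x hx
  have hgen : PrincipalGeneratedByIntegral A (IsLocalRing.residue A) N := h.choose_spec.2
  set φ : m18v_k A ≃+* m18v_k A := m37fr_phi (m18v_k A) ℓ with hφ
  obtain ⟨X, w, hw, hxw⟩ : m18v_Int A N (x : m18v_F N) := x.2
  have hXF : m18v_incl A X ∈ modularFunctionFieldBar N := by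
    rw [← hxw]
    exact mul_mem (x : m18v_F N).2 hw.1
  have hxw' : (x : m18v_F N) * (⟨m18v_incl A w, hw.1⟩ : m18v_F N)
      = (⟨m18v_incl A X, hXF⟩ : m18v_F N) := Subtype.ext hxw
  obtain ⟨ZX, hZX, hZXred⟩ := hQ ⟨m18v_incl A X, hXF⟩ X rfl
  obtain ⟨Zw, hZw, hZwred⟩ := hQ ⟨m18v_incl A w, hw.1⟩ w rfl
  rw [← hφ] at hZXred hZwred
  -- the reduction of `x`
  have hredx : m18v_redL A N (x : m18v_F N) = m18v_redq A X / m18v_redq A w :=
    m18v_redL_eq_div hw hxw
  have hredx0 : m18v_redL A N (x : m18v_F N) ≠ 0 := fun h0 => hx (Subtype.ext h0)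
  have hX0 : m18v_redq A X ≠ 0 := by
    intro h0
    apply hredx0
    rw [hredx, h0, zero_div]
  have hw0 : m18v_redq A w ≠ 0 := hw.2.2
  -- injectivity of the two operations
  have hqE : ∀ y : LaurentSeries (m18v_k A), y ≠ 0 → qExpand (m18v_k A) ℓ y ≠ 0 := by
    intro y hy h0
    exact hy ((map_eq_zero (qExpand (m18v_k A) ℓ)).1 h0)
  have hcm : ∀ y : LaurentSeries (m18v_k A), y ≠ 0 →
      coeffMap ((φ : m18v_k A ≃+* m18v_k A) : m18v_k A →+* m18v_k A) y ≠ 0 := by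
    intro y hy h0
    exact hy ((map_eq_zero (coeffMap ((φ : m18v_k A ≃+* m18v_k A) : m18v_k A →+* m18v_k A))).1 h0)
  have hZw0 : m18v_redq A Zw ≠ 0 := by
    rw [hZwred]
    exact mul_ne_zero (hqE _ hw0) (hcm _ hw0)
  -- multiplicativity of the norm
  have hmul : m37e3_normAlong (heckeAlphaBar m18v_K N ℓ)
        (heckeBetaBar m18v_K N ℓ (x : m18v_F N))
      * m37e3_normAlong (heckeAlphaBar m18v_K N ℓ)
        (heckeBetaBar m18v_K N ℓ (⟨m18v_incl A w, hw.1⟩ : m18v_F N))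
      = m37e3_normAlong (heckeAlphaBar m18v_K N ℓ)
        (heckeBetaBar m18v_K N ℓ (⟨m18v_incl A X, hXF⟩ : m18v_F N)) := by
    rw [← m37e3_normAlong_mul, ← map_mul, hxw']
  have hmulq : ((m37e3_normAlong (heckeAlphaBar m18v_K N ℓ)
        (heckeBetaBar m18v_K N ℓ (x : m18v_F N)) : m18v_F N) : LaurentSeries m18v_K)
      * m18v_incl A Zw = m18v_incl A ZX := by
    rw [← hZw, ← hZX, ← hmul]
    rfl
  have hZwF : m18v_incl A Zw ∈ modularFunctionFieldBar N := by
    rw [← hZw]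
    exact Subtype.property _
  have hGw : m18v_G A N Zw := m18v_G_of_primitive hgen hZwF hZw0
  have hz : m18v_Int A N (m37e3_normAlong (heckeAlphaBar m18v_K N ℓ)
      (heckeBetaBar m18v_K N ℓ (x : m18v_F N))) := ⟨ZX, Zw, hGw, hmulq⟩
  refine ⟨hz, Subtype.ext ?_⟩
  have hredz : m18v_redL A N (m37e3_normAlong (heckeAlphaBar m18v_K N ℓ)
      (heckeBetaBar m18v_K N ℓ (x : m18v_F N))) = m18v_redq A ZX / m18v_redq A Zw :=
    m18v_redL_eq_div hGw hmulq
  -- the left-hand side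
  have hL : (((m18v_gauss h).red ⟨_, hz⟩ : m18v_Ft A N) : LaurentSeries (m18v_k A))
      = m18v_redq A ZX / m18v_redq A Zw := hredz
  -- the right-hand side
  have hR1 : (((m18v_gauss h).red x : m18v_Ft A N) : LaurentSeries (m18v_k A))
      = m18v_redq A X / m18v_redq A w := hredx
  have hR : ((((m37fr_aut N φ)⁻¹ • (m18v_gauss h).red x) ^ ℓ
        * (m37fr_aut N φ • (m18v_gauss h).red x) : m18v_Ft A N) : LaurentSeries (m18v_k A))
      = (coeffMap ((φ.symm : m18v_k A ≃+* m18v_k A) : m18v_k A →+* m18v_k A)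
          (m18v_redq A X / m18v_redq A w)) ^ ℓ
        * coeffMap ((φ : m18v_k A ≃+* m18v_k A) : m18v_k A →+* m18v_k A)
          (m18v_redq A X / m18v_redq A w) := by
    rw [← hR1]
    rfl
  rw [hL, hR, hpow, coeffMap_coeffMap,
    coeffMap_congr (g := RingHom.id (m18v_k A)) (RingHom.ext fun a => φ.apply_symm_apply a),
    coeffMap_id, map_div₀, map_div₀, hZXred, hZwred]
  field_simp

/-- **leaf (E3')** from the Kronecker congruence for integral `q`-series and the norm formula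
along `α`. -/
theorem m37e3_ES_of_kronQ {ℓ : ℕ} (hℓ : ℓ.Prime) (hℓN : ¬ ℓ ∣ N) (hA : A.LiesOverPrime ℓ)
    (hNF : haveI : NeZero ℓ := ⟨hℓ.ne_zero⟩
      NormFormulaAlong m18v_K (heckeAlphaBar m18v_K N ℓ) (m37e0_finite_alpha N ℓ))
    (hpow : haveI : NeZero ℓ := ⟨hℓ.ne_zero⟩
      ∀ y : LaurentSeries (m18v_k A), y ^ ℓ = qExpand (m18v_k A) ℓ
      (coeffMap ((m37fr_phi (m18v_k A) ℓ : m18v_k A ≃+* m18v_k A) : m18v_k A →+* m18v_k A) y))
    (hQ : haveI : NeZero ℓ := ⟨hℓ.ne_zero⟩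
      m37e3_KronQ A N ℓ) :
    m37fr_ES A N hℓ :=
  haveI : NeZero ℓ := ⟨hℓ.ne_zero⟩
  m37e3_ES_of_kronG hℓ hℓN hA hNF (m37e3_kronG_of_kronQ hpow hQ)

section frobenius

/-- helper5's Frobenius `m37fr_phi` is the Frobenius of a perfect field of characteristic `ℓ`. -/
theorem m37e3_phi_eq_frobenius (k : Type*) [Field k] (ℓ : ℕ) [Fact ℓ.Prime] [CharP k ℓ]
    [PerfectRing k ℓ] :
    ((m37fr_phi k ℓ : k ≃+* k) : k →+* k) = frobenius k ℓ := by
  have h : m37fr_phi k ℓ = frobeniusEquiv k ℓ :=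
    m37fr_phi_eq (ℓ := ℓ) (frobeniusEquiv k ℓ)
      (fun a => by rw [frobeniusEquiv_apply, frobenius_def])
  rw [h]
  ext a
  simp [frobeniusEquiv_apply]

theorem m37e3_phi_eq_frobenius_res {ℓ : ℕ} [Fact ℓ.Prime] (hA : A.LiesOverPrime ℓ) :
    haveI : CharP (m18v_k A) ℓ := m18rf_charP A ℓ hA
    ((m37fr_phi (m18v_k A) ℓ : m18v_k A ≃+* m18v_k A) : m18v_k A →+* m18v_k A)
      = frobenius (m18v_k A) ℓ := by
  haveI : CharP (m18v_k A) ℓ := m18rf_charP A ℓ hA
  haveI : IsAlgClosed (m18v_k A) := m18rf_isAlgClosed A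
  exact m37e3_phi_eq_frobenius (m18v_k A) ℓ

/-- the Kronecker congruence for integral `q`-series, stated with Mathlib's `frobenius`. -/
def m37e3_KronF (A : ValuationSubring m18v_K) (N : ℕ) [NeZero N] (ℓ : ℕ) [NeZero ℓ]
    [Fact ℓ.Prime] [CharP (m18v_k A) ℓ] : Prop :=
  ∀ (x : m18v_F N) (X : LaurentSeries A), (x : LaurentSeries m18v_K) = m18v_incl A X →
    ∃ Z : LaurentSeries A,
      ((m37e3_normAlong (heckeAlphaBar m18v_K N ℓ) (heckeBetaBar m18v_K N ℓ x) : m18v_F N) :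
        LaurentSeries m18v_K) = m18v_incl A Z ∧
      m18v_redq A Z = qExpand (m18v_k A) ℓ (m18v_redq A X)
        * coeffMap (frobenius (m18v_k A) ℓ) (m18v_redq A X)

/-- **leaf (E3')** from the Kronecker congruence for integral `q`-series (with Mathlib's
`frobenius`), the formula `y ^ ℓ = y^φ (q^ℓ)` and the norm formula along `α`. -/
theorem m37e3_ES_of_kronF {ℓ : ℕ} (hℓ : ℓ.Prime) (hℓN : ¬ ℓ ∣ N) (hA : A.LiesOverPrime ℓ)
    (hNF : haveI : NeZero ℓ := ⟨hℓ.ne_zero⟩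
      NormFormulaAlong m18v_K (heckeAlphaBar m18v_K N ℓ) (m37e0_finite_alpha N ℓ))
    (hpow : haveI : NeZero ℓ := ⟨hℓ.ne_zero⟩
      haveI : Fact ℓ.Prime := ⟨hℓ⟩
      haveI : CharP (m18v_k A) ℓ := m18rf_charP A ℓ hA
      ∀ y : LaurentSeries (m18v_k A), y ^ ℓ = qExpand (m18v_k A) ℓ
        (coeffMap (frobenius (m18v_k A) ℓ) y))
    (hF : haveI : NeZero ℓ := ⟨hℓ.ne_zero⟩
      haveI : Fact ℓ.Prime := ⟨hℓ⟩
      haveI : CharP (m18v_k A) ℓ := m18rf_charP A ℓ hA
      m37e3_KronF A N ℓ) :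
    m37fr_ES A N hℓ := by
  haveI : NeZero ℓ := ⟨hℓ.ne_zero⟩
  haveI : Fact ℓ.Prime := ⟨hℓ⟩
  haveI : CharP (m18v_k A) ℓ := m18rf_charP A ℓ hA
  have hφ := m37e3_phi_eq_frobenius_res (A := A) hA
  refine m37e3_ES_of_kronQ hℓ hℓN hA hNF ?_ ?_
  · intro y
    rw [hφ]
    exact hpow y
  · intro x X hX
    obtain ⟨Z, hZ, hZred⟩ := hF x X hX
    refine ⟨Z, hZ, ?_⟩
    rw [hφ]
    exact hZred

end frobenius

end Fermat.Agent.M37

end
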