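import Fermat.Agent.M37.Frob
import Fermat.Agent.M37.E3Abs
import Fermat.Agent.M37.E0Plumb
import Fermat.Agent.M18.GenInst

/-!
# M37 / (E3), part d: the Eichler–Shimura relation `m37fr_ES` from the Kronecker congruence.

* `m37e3_KronG A N ℓ g` : the Kronecker congruence in Gauss form, for a semilinear automorphism
  `g` of the function field mod `ℓ`: for every Gauss unit `x` of `F_N`, the norm (along `α`) of
  `β x` is a Gauss unit with reduction `(g⁻¹ • red x) ^ ℓ * (g • red x)`.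
* `m37e3_div` : the congruence `r_* (T_ℓ D) = g • r_* D + ℓ • g⁻¹ • r_* D` on divisors of
  degree `0`.
* `m37e3_ES_of_kronG` : **leaf (E3')** `m37fr_ES A N hℓ` from `m37e3_KronG` for the Frobenius and
  the norm formula along `α`.
-/

set_option autoImplicit false
set_option linter.deprecated false
set_option linter.unusedSectionVars false
set_option linter.unusedVariables false
set_option linter.style.haveILetI false
set_option synthInstance.maxHeartbeats 400000
set_option maxHeartbeats 1600000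

noncomputable section

namespace Fermat.Agent.M37

open AlgebraicCurve ModularCurve IntermediateField Module
open Fermat.Agent.S20 Fermat.Agent.S24 Fermat.Agent.M18

variable {A : ValuationSubring m18v_K} {N : ℕ} [NeZero N]

/-- the Kronecker congruence in Gauss form. -/
def m37e3_KronG (A : ValuationSubring m18v_K) (N : ℕ) [NeZero N] (ℓ : ℕ) [NeZero ℓ]
    (g : SemilinearAut (m18v_k A) (m18v_Ft A N)) : Prop :=
  ∀ (h : ModularCurve.ReductionInputsModL A N) (x : (m18v_gauss h).O),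
    (m18v_gauss h).red x ≠ 0 →
    ∃ hz : m37e3_normAlong (heckeAlphaBar m18v_K N ℓ)
        (heckeBetaBar m18v_K N ℓ (x : m18v_F N)) ∈ (m18v_gauss h).O,
      (m18v_gauss h).red ⟨_, hz⟩ = (g⁻¹ • (m18v_gauss h).red x) ^ ℓ * (g • (m18v_gauss h).red x)

/-- **(E3-d)** the Eichler–Shimura congruence on divisors of degree `0`. -/
theorem m37e3_div {ℓ : ℕ} [Fact ℓ.Prime] [NeZero ℓ] (hℓN : ¬ ℓ ∣ N) (hA : A.LiesOverPrime ℓ)
    (h : ModularCurve.ReductionInputsModL A N)
    (hα : HeckeAlphaBarIntegral m18v_K N ℓ) (hβ : HeckeBetaBarIntegral m18v_K N ℓ)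
    [HasPrincipalDivisors m18v_K (m18v_F (N * ℓ))]
    (hFI : FundamentalIdentityAlong m18v_K (heckeBetaBar m18v_K N ℓ) hβ)
    (hfin : FiniteAlong m18v_K (heckeAlphaBar m18v_K N ℓ))
    (hNF : NormFormulaAlong m18v_K (heckeAlphaBar m18v_K N ℓ) hfin)
    (g : SemilinearAut (m18v_k A) (m18v_Ft A N)) (hK : m37e3_KronG A N ℓ g)
    (D : Divisor m18v_K (m18v_F N)) (hD : Divisor.degree D = 0) :
    Finsupp.mapDomain (ModularCurve.placeReductionModL h) (heckeDivBar hα hβ D)
      = g • Finsupp.mapDomain (ModularCurve.placeReductionModL h) D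
        + ℓ • (g⁻¹ • Finsupp.mapDomain (ModularCurve.placeReductionModL h) D) := by
  haveI : IsAlgClosed (m18v_k A) := m18sq_isAlgClosed A
  haveI := (m18sq_finrank_res hA hℓN).1
  haveI hfin0 : FiniteDimensional (IntermediateField.adjoin s24K {s24j N}) (s24F N) :=
    deg_finiteDimensional N
  haveI := m18rr_isSeparable_of_charZero (K := s24K) (s24j N)
  haveI : HasPrincipalDivisors m18v_K (m18v_F N) :=
    alg_hasPrincipalDivisors (s24j N) (ana_transcendental N)
  have hR : m18_Riem m18v_K (m18v_F N)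
      (finrank m18v_K (riemannRochSpace (m18rr_W (K := m18v_K) (s24j N)))) :=
    m18rr_Riem (s24j N) (ana_transcendental N)
  have hdegK : ∀ P : Place m18v_K (m18v_F N), P.deg = 1 :=
    fun P => m18rr_deg_eq_one (s24j N) P
  have hdegk : ∀ Q : Place (m18v_k A) (m18v_Ft A N), Q.deg = 1 :=
    fun Q => m18rr_deg_eq_one (m18sq_jt A N) Q
  exact m37e3_div_abs (m18v_gauss h) (heckeBetaBar m18v_K N ℓ) (heckeAlphaBar m18v_K N ℓ)
    hβ hα hFI hfin hNF hdegK hdegk _ hR g ℓ (hK h) D hD

/-- **leaf (E3')** from the Kronecker congruence (Gauss form) and the norm formula along `α`. -/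
theorem m37e3_ES_of_kronG {ℓ : ℕ} (hℓ : ℓ.Prime) (hℓN : ¬ ℓ ∣ N) (hA : A.LiesOverPrime ℓ)
    (hNF : haveI : NeZero ℓ := ⟨hℓ.ne_zero⟩
      NormFormulaAlong m18v_K (heckeAlphaBar m18v_K N ℓ) (m37e0_finite_alpha N ℓ))
    (hK : haveI : NeZero ℓ := ⟨hℓ.ne_zero⟩
      m37e3_KronG A N ℓ (m37fr_aut N (m37fr_phi (m18v_k A) ℓ))) :
    m37fr_ES A N hℓ := by
  haveI : NeZero ℓ := ⟨hℓ.ne_zero⟩
  haveI : Fact ℓ.Prime := ⟨hℓ⟩
  haveI hP : HasPrincipalDivisors m18v_K (m18v_F (N * ℓ)) := m37e0_principal N ℓ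
  intro h z
  obtain ⟨D, rfl⟩ := Pic0.mk_surjective z
  have hα := m37e0_integral_alpha N ℓ
  have hβ := m37e0_integral_beta N ℓ
  have hFI := m37e0_fundamental_beta N ℓ hβ
  have hfin := m37e0_finite_alpha N ℓ
  set g := m37fr_aut N (m37fr_phi (m18v_k A) ℓ) with hg
  have hT : heckeOperatorBar N ⟨ℓ, hℓ⟩ (Pic0.mk D)
      = Pic0.mk (Pic0.degZeroCorrespondence (heckeBetaBar m18v_K N ℓ) (heckeAlphaBar m18v_K N ℓ)
          hβ hα hFI D) := by
    rw [heckeOperatorBar_apply]
    show heckeOperatorAlong m18v_K N ℓ (Pic0.mk D) = _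
    rw [heckeOperatorAlong_eq hα hβ hFI hfin hNF]
    rfl
  have hdiv := m37e3_div hℓN hA h hα hβ hFI hfin hNF g hK (D : Divisor m18v_K (m18v_F N))
    (Divisor.mem_degZero.1 D.2)
  rw [hT, reductionModL_mk h, reductionModL_mk h, m37fr_Fr_apply, m37fr_Fr_apply, m37fr_Fr_apply,
    SemilinearAut.pic0_smul_mk, SemilinearAut.pic0_smul_mk, SemilinearAut.pic0_smul_mk]
  have hsum : ∀ (E : Divisor.degZero (K := m18v_k A) (F := m18v_Ft A N)) (n : ℕ),
      n • Pic0.mk E = Pic0.mk (n • E) := fun E n => rfl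
  rw [hsum, ← Pic0.mk_add]
  refine congrArg Pic0.mk (Subtype.ext ?_)
  show g • Finsupp.mapDomain (ModularCurve.placeReductionModL h) (heckeDivBar hα hβ
      (D : Divisor m18v_K (m18v_F N)))
    = g • (g • Finsupp.mapDomain (ModularCurve.placeReductionModL h)
        (D : Divisor m18v_K (m18v_F N)))
      + ℓ • Finsupp.mapDomain (ModularCurve.placeReductionModL h)
        (D : Divisor m18v_K (m18v_F N))
  rw [hdiv, smul_add, smul_comm g ℓ, smul_inv_smul]

end Fermat.Agent.M37

end
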