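import Fermat.Agent.M37.KcMain
import Fermat.Agent.M37.E3Final

/-!
# M37 (S37 project): leaf (E3) of `m37fr_result`, hypothesis-free

`m37kc_E3 N` : for every prime `ℓ ∤ N` and every valuation subring `A` of `ℚ̄` over `ℓ`, the
Eichler–Shimura congruence `m37fr_ES A N hℓ` holds (helper1's wiring `m37e3_ES_of_kc` fed with
the Kronecker congruence `m37kc_main`).
-/

set_option autoImplicit false
set_option linter.style.haveILetI false

noncomputable section

namespace Fermat.Agent.M37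

open Fermat.Agent.M18

/-- **leaf (E3)**: the Eichler–Shimura congruence, for every prime `ℓ ∤ N`. -/
theorem m37kc_E3 (N : ℕ) [NeZero N] :
    ∀ (ℓ : ℕ) (hℓ : ℓ.Prime), ¬ ℓ ∣ N → ∀ A : ValuationSubring (AlgebraicClosure ℚ),
      A.LiesOverPrime ℓ → m37fr_ES A N hℓ := by
  intro ℓ hℓ hℓN A hA
  haveI : NeZero ℓ := ⟨hℓ.ne_zero⟩
  haveI : Fact ℓ.Prime := ⟨hℓ⟩
  haveI : CharP (m18v_k A) ℓ := m18rf_charP A ℓ hA
  exact m37e3_ES_of_kc hℓ hℓN hA (m37kc_main hℓN)

end Fermat.Agent.M37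

end
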