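import Fermat.Agent.M37.Frob
import Fermat.Agent.M37.E2Main
import Fermat.Agent.M37.KcLeaf
import Fermat.Agent.M18.DifFinal

/-!
# M37: the statement of S37 from the single remaining leaf (E1)

`m37fin_of_E1`: S37 (`SpecializationExists` for `J₀(N)`) from (E1), the existence of the
reduction of places at every prime `ℓ ∤ N`.  The other inputs are on main:
(S18) `m18dif_S18_final`, (E2) `m37e2_E2`, (E3) `m37kc_E3` (which contains (E0)).
-/

set_option autoImplicit false

namespace Fermat.Agent.M37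

open ModularCurve

theorem m37fin_of_E1 (N p : ℕ) [NeZero N] (hcomm : ModularCurve.HeckeOperatorsCommuteBar N)
    (E1 : ∀ ℓ : ℕ, ℓ.Prime → ¬ ℓ ∣ N → ∀ A : ValuationSubring (AlgebraicClosure ℚ),
      A.LiesOverPrime ℓ → ReductionInputsModL A N) :
    letI := ModularCurve.heckeModuleBar N
    ∀ (_ : SMulCommClass (AlgebraicClosure ℚ ≃ₐ[ℚ] AlgebraicClosure ℚ) ModularCurve.HeckeAlg
        (ModularCurve.JZero N)),
      ModularCurve.SpecializationExists (K := ℚ) (L := AlgebraicClosure ℚ) N p
        (ModularCurve.JZero N) :=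
  m37fr_result N p hcomm E1
    (fun ℓ hℓ hℓN A hA h m hm z hmz hz =>
      haveI : Fact ℓ.Prime := ⟨hℓ⟩
      Fermat.Agent.M18.m18dif_S18_final hℓN hA h m hm z hmz hz)
    (m37e2_E2 N) (m37kc_E3 N)

end Fermat.Agent.M37
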