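import Mathlib
import Fermat.Agent.M37.Frob
import Fermat.Agent.M37.E3Frob

/-!
# M37: bridge between the two descriptions of the coefficientwise automorphisms

`M37/Frob.lean` (architect: `m37fr_aut`, `m37fr_phi`, `m37fr_Fr`, leaves `m37fr_PlaceEquiv`,
`m37fr_ES`) and `M37/E3Frob.lean` (`m37e3_coeffAut`, `m37e3_frobK`, `m37e3_frobA`) define the
same objects; this file identifies them, so that a leaf may be proved with either family.

* `m37fb_aut_eq`     : `m37fr_aut N φ = m37e3_coeffAut N φ`;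
* `m37fb_phi_eq`     : `m37fr_phi k ℓ = m37e3_frobK k ℓ`;
* `m37fb_frobA_eq`   : `m37fr_aut N (m37fr_phi k ℓ) = m37e3_frobA A ℓ hA N`;
* `m37fb_Fr_apply`   : `m37fr_Fr A N ℓ y = m37e3_frobA A ℓ hA N • y`;
* `m37fb_placeEquiv_of` : leaf (E2') from its `m37e3_coeffAut` form;
* `m37fb_ES_of`      : leaf (E3') from its `m37e3_frobA` form.
-/

set_option autoImplicit false
set_option linter.unusedSectionVars false
set_option linter.unusedVariables false
set_option linter.style.haveILetI false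
set_option synthInstance.maxHeartbeats 400000
set_option maxHeartbeats 1600000

noncomputable section

namespace Fermat.Agent.M37

open ModularCurve AlgebraicCurve HahnSeries IntermediateField Fermat.Agent.M18

section Generic

variable {k : Type*} [Field k] (N : ℕ) [NeZero N]

theorem m37fb_aut_eq (φ : k ≃+* k) : m37fr_aut N φ = m37e3_coeffAut N φ :=
  Subtype.ext (Prod.ext (RingEquiv.ext fun x => Subtype.ext rfl) rfl)

theorem m37fb_phi_eq (k : Type*) [Field k] (ℓ : ℕ) [Fact ℓ.Prime] [CharP k ℓ]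
    [PerfectRing k ℓ] : m37fr_phi k ℓ = m37e3_frobK k ℓ :=
  m37fr_phi_eq _ (fun a => m37e3_frobK_apply k ℓ a)

theorem m37fb_phi_apply (k : Type*) [Field k] (ℓ : ℕ) [Fact ℓ.Prime] [CharP k ℓ]
    [PerfectRing k ℓ] (a : k) : m37fr_phi k ℓ a = a ^ ℓ := by
  rw [m37fb_phi_eq, m37e3_frobK_apply]

end Generic

section Residue

variable (A : ValuationSubring (AlgebraicClosure ℚ)) (ℓ : ℕ) [Fact ℓ.Prime]
  (hA : A.LiesOverPrime ℓ) (N : ℕ) [NeZero N]

include hA in
theorem m37fb_phiA_apply (a : IsLocalRing.ResidueField A) :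
    m37fr_phi (IsLocalRing.ResidueField A) ℓ a = a ^ ℓ := by
  haveI : CharP (IsLocalRing.ResidueField A) ℓ := m18rf_charP A ℓ hA
  haveI : IsAlgClosed (IsLocalRing.ResidueField A) := m18rf_isAlgClosed A
  exact m37fb_phi_apply _ ℓ a

theorem m37fb_frobA_eq :
    m37fr_aut N (m37fr_phi (IsLocalRing.ResidueField A) ℓ) = m37e3_frobA A ℓ hA N := by
  haveI : CharP (IsLocalRing.ResidueField A) ℓ := m18rf_charP A ℓ hA
  haveI : IsAlgClosed (IsLocalRing.ResidueField A) := m18rf_isAlgClosed A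
  rw [m37fb_aut_eq, m37fb_phi_eq]
  rfl

theorem m37fb_Fr_apply (y : JZeroC (IsLocalRing.ResidueField A) N) :
    m37fr_Fr A N ℓ y = m37e3_frobA A ℓ hA N • y := by
  rw [m37fr_Fr_apply, m37fb_frobA_eq A ℓ hA N]

/-- leaf (E2') from its `m37e3_coeffAut` form. -/
theorem m37fb_placeEquiv_of
    (hE : ∀ r : Place (AlgebraicClosure ℚ) (modularFunctionFieldBar N) →
        Place (IsLocalRing.ResidueField A)
          (modularFunctionFieldFullC (IsLocalRing.ResidueField A) N),
      IsPlaceReductionModL A N r →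
      ∀ (σ : AlgebraicClosure ℚ ≃ₐ[ℚ] AlgebraicClosure ℚ)
        (hσ : σ ∈ A.decompositionSubgroup ℚ)
        (P : Place (AlgebraicClosure ℚ) (modularFunctionFieldBar N)),
        r (arithmeticGalois (modularFunctionFieldFull N) σ • P)
          = m37e3_coeffAut N (m37fr_resAut A σ hσ) • r P) :
    m37fr_PlaceEquiv A N := by
  intro r hr σ hσ P
  rw [m37fb_aut_eq]
  exact hE r hr σ hσ P

/-- leaf (E3') from its `m37e3_frobA` form. -/
theorem m37fb_ES_of (hℓ : ℓ.Prime)
    (hE : ReductionInputsModL A N → ∀ z : JZero N,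
      m37e3_frobA A ℓ hA N • reductionModL A N (heckeOperatorBar N ⟨ℓ, hℓ⟩ z)
        = m37e3_frobA A ℓ hA N • m37e3_frobA A ℓ hA N • reductionModL A N z
          + ℓ • reductionModL A N z) :
    m37fr_ES A N hℓ := by
  intro h z
  rw [m37fb_Fr_apply A ℓ hA N, m37fb_Fr_apply A ℓ hA N, m37fb_Fr_apply A ℓ hA N]
  exact hE h z

end Residue

end Fermat.Agent.M37

end
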