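import Fermat.Agent.M18.RrV

/-!
# M37 (E1), abstract step: (H-loc) from "poles specialise to poles" by a Riemann–Roch count

`K`, `k` algebraically closed, `F / K`, `Fk / k` function fields of curves with separating
elements `x`, `xt`, genus `g ≤ g~`; `I : F → Prop` ("Gauss-integral"), `red : F → Fk`,
`r : Place K F → Place k Fk`.  Prefix `m37hl_`.

* `m37hl_degree_mapDomain`, `m37hl_eq_zero_of_nonneg`, `m37hl_eq_of_rr_eq`.
* `m37hl_hloc` : `r_* div(y) = div(red y)` for `y` integral with `red y ≠ 0`.
-/

set_option autoImplicit false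
set_option linter.style.haveILetI false
set_option linter.unusedSectionVars false
set_option linter.unusedVariables false
set_option linter.deprecated false

noncomputable section

namespace Fermat.Agent.M37

open Fermat.Agent.S20 Fermat.Agent.S24 Fermat.Agent.M18
open AlgebraicCurve IntermediateField Module Polynomial WithZero

section one

variable {K F : Type*} [Field K] [Field F] [Algebra K F] [IsAlgClosed K]

/-- an effective divisor of degree zero is zero. -/
theorem m37hl_eq_zero_of_nonneg (x : F) [FiniteDimensional K⟮x⟯ F] (D : Divisor K F)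
    (h0 : ∀ v, 0 ≤ D v) (hdeg : Divisor.degree D = 0) : D = 0 := by
  rw [m18rr_degree_eq_sum x D] at hdeg
  ext v
  by_contra hv
  have hv' : D v ≠ 0 := hv
  have hmem : v ∈ D.support := Finsupp.mem_support_iff.2 hv'
  exact hv' ((Finset.sum_eq_zero_iff_of_nonneg (fun w _ => h0 w)).1 hdeg v hmem)

/-- two divisors of the same large degree with the same Riemann–Roch space are equal. -/
theorem m37hl_eq_of_rr_eq (x : F) (hx : Transcendental K x) [FiniteDimensional K⟮x⟯ F]
    [Algebra.IsSeparable K⟮x⟯ F] (E E' : Divisor K F)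
    (hdeg : Divisor.degree E = Divisor.degree E')
    (hlarge : 2 * (finrank K (riemannRochSpace (m18rr_W (K := K) x)) : ℤ) < Divisor.degree E)
    (hL : riemannRochSpace E = riemannRochSpace E') : E = E' := by
  classical
  by_contra hne
  have hex : ∃ Q₁, E' Q₁ < E Q₁ := by
    by_contra hcon
    push Not at hcon
    have h0 : E' - E = 0 := by
      refine m37hl_eq_zero_of_nonneg x (E' - E) (fun v => ?_) ?_
      · rw [Finsupp.sub_apply]
        have := hcon v
        omega
      · rw [map_sub, hdeg, sub_self]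
    exact hne (sub_eq_zero.1 h0).symm
  obtain ⟨Q₁, hQ₁⟩ := hex
  have hle : riemannRochSpace E ≤ riemannRochSpace (E - Finsupp.single Q₁ 1) := by
    intro f hf
    have hf' : f ∈ riemannRochSpace E' := hL ▸ hf
    rw [mem_riemannRochSpace_iff] at hf hf' ⊢
    intro v
    rcases eq_or_ne f 0 with h0 | h0
    · exact Or.inl h0
    right
    have h1 := (hf v).resolve_left h0
    have h2 := (hf' v).resolve_left h0
    rw [Finsupp.sub_apply, Finsupp.single_apply]
    by_cases hv : Q₁ = v
    · subst hv
      rw [if_pos rfl]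
      omega
    · rw [if_neg hv]
      omega
  haveI := m18rr_finite x hx (E - Finsupp.single Q₁ 1)
  have hfr := Submodule.finrank_mono hle
  have h1 := m18rr_finrank_of_large x hx E (by omega)
  have hdeg1 : Divisor.degree (E - Finsupp.single Q₁ 1) = Divisor.degree E - 1 := by
    rw [map_sub, Divisor.degree_single, m18rr_deg_eq_one x Q₁]
    simp
  have h2 := m18rr_finrank_of_large x hx (E - Finsupp.single Q₁ 1) (by rw [hdeg1]; omega)
  rw [hdeg1] at h2
  have hfr' : (finrank K (riemannRochSpace E) : ℤ)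
      ≤ (finrank K (riemannRochSpace (E - Finsupp.single Q₁ 1)) : ℤ) := by
    exact_mod_cast hfr
  omega

end one

section two

variable {K F k Fk : Type*} [Field K] [Field F] [Algebra K F] [IsAlgClosed K]
  [Field k] [Field Fk] [Algebra k Fk] [IsAlgClosed k]

/-- push-forward of divisors along a map of places preserves the degree. -/
theorem m37hl_degree_mapDomain (x : F) [FiniteDimensional K⟮x⟯ F] (xt : Fk)
    [FiniteDimensional k⟮xt⟯ Fk] (r : Place K F → Place k Fk) (D : Divisor K F) :
    Divisor.degree (Finsupp.mapDomain r D) = Divisor.degree D := by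
  induction D using Finsupp.induction with
  | zero => simp
  | single_add P n D _ _ ih =>
    rw [Finsupp.mapDomain_add, map_add, map_add, ih, Finsupp.mapDomain_single,
      Divisor.degree_single, Divisor.degree_single, m18rr_deg_eq_one x P,
      m18rr_deg_eq_one xt (r P)]

/-- push-forward of an effective divisor is effective. -/
theorem m37hl_mapDomain_nonneg (r : Place K F → Place k Fk) (D : Divisor K F)
    (hD : ∀ P, 0 ≤ D P) (Q : Place k Fk) : 0 ≤ Finsupp.mapDomain r D Q := by
  classical
  rw [Finsupp.mapDomain, Finsupp.sum_apply]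
  refine Finset.sum_nonneg fun P _ => ?_
  show 0 ≤ (Finsupp.single (r P) (D P) : Divisor k Fk) Q
  rw [Finsupp.single_apply]
  split_ifs
  · exact hD P
  · exact le_rfl

/-- **(H-loc) from (R1)** by the Riemann–Roch dimension count. -/
theorem m37hl_hloc
    (x : F) (hx : Transcendental K x) [FiniteDimensional K⟮x⟯ F] [Algebra.IsSeparable K⟮x⟯ F]
    (xt : Fk) (hxt : Transcendental k xt) [FiniteDimensional k⟮xt⟯ Fk]
    [Algebra.IsSeparable k⟮xt⟯ Fk]
    (hg : finrank K (riemannRochSpace (m18rr_W (K := K) x))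
      ≤ finrank k (riemannRochSpace (m18rr_W (K := k) xt)))
    (I : F → Prop) (red : F → Fk)
    (hmul : ∀ y z, I y → I z → I (y * z) ∧ red (y * z) = red y * red z)
    (r : Place K F → Place k Fk)
    (hR1 : ∀ D : Divisor K F, (∀ P, 0 ≤ D P) → ∀ f, I f → f ∈ riemannRochSpace D →
      red f ∈ riemannRochSpace (Finsupp.mapDomain r D))
    (hsurj : ∀ (V : Submodule K F) [FiniteDimensional K V] (Wt : Submodule k Fk)
      [FiniteDimensional k Wt],
      (∀ f ∈ V, I f → red f ∈ Wt) → finrank k Wt ≤ finrank K V →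
        ∀ b ∈ Wt, ∃ f ∈ V, I f ∧ red f = b)
    (y : F) (hy0 : y ≠ 0) (hy : I y) (hyt : red y ≠ 0) (D : Divisor K F)
    (hD : ∀ P, D P = P.ord y) (Q : Place k Fk) :
    Finsupp.mapDomain r D Q = Q.ord (red y) := by
  classical
  set g : ℕ := finrank K (riemannRochSpace (m18rr_W (K := K) x)) with hgdef
  set gt : ℕ := finrank k (riemannRochSpace (m18rr_W (K := k) xt)) with hgtdef
  -- the divisor of `red y`
  haveI hPk : HasPrincipalDivisors k Fk := m18rr_principal xt hxt
  obtain ⟨Dt, hDt, hDtdeg⟩ := hPk.exists_divisor (red y) hyt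
  -- `deg D = 0`
  have hDdeg : Divisor.degree D = 0 := m18rr_degree_div x hx D y hy0 hD
  -- the auxiliary divisor `D₀`
  obtain ⟨P₀, -⟩ := m18rr_exists_pole x hx
  set Dneg : Divisor K F := Finsupp.mapRange (fun n : ℤ => max (-n) 0) (by simp) D with hDneg
  have hDneg_apply : ∀ P, Dneg P = max (-(D P)) 0 := fun P => by
    rw [hDneg, Finsupp.mapRange_apply]
  set D₀ : Divisor K F := Dneg + Finsupp.single P₀ ((2 * gt + 1 : ℕ) : ℤ) with hD₀
  have hsingle_nonneg : ∀ P, 0 ≤ (Finsupp.single P₀ ((2 * gt + 1 : ℕ) : ℤ) : Divisor K F) P := by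
    intro P
    rw [Finsupp.single_apply]
    split_ifs
    · exact Int.natCast_nonneg _
    · exact le_rfl
  have hD₀nonneg : ∀ P, 0 ≤ D₀ P := by
    intro P
    rw [hD₀, Finsupp.add_apply, hDneg_apply]
    have := hsingle_nonneg P
    have := le_max_right (-(D P)) 0
    omega
  have hD₀'nonneg : ∀ P, 0 ≤ (D₀ + D) P := by
    intro P
    rw [Finsupp.add_apply, hD₀, Finsupp.add_apply, hDneg_apply]
    have := hsingle_nonneg P
    have := le_max_left (-(D P)) 0
    omega
  have hDnegdeg : 0 ≤ Divisor.degree Dneg := by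
    rw [m18rr_degree_eq_sum x Dneg]
    refine Finset.sum_nonneg fun P _ => ?_
    rw [hDneg_apply]
    exact le_max_right _ _
  have hD₀deg : (2 * gt + 1 : ℤ) ≤ Divisor.degree D₀ := by
    rw [hD₀, map_add, Divisor.degree_single, m18rr_deg_eq_one x P₀]
    push_cast
    linarith
  have hD₀'deg : Divisor.degree (D₀ + D) = Divisor.degree D₀ := by
    rw [map_add, hDdeg, add_zero]
  have hgle : (g : ℤ) ≤ gt := by exact_mod_cast hg
  -- the push-forwards
  set E : Divisor k Fk := Finsupp.mapDomain r D₀ with hE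
  set E' : Divisor k Fk := Finsupp.mapDomain r (D₀ + D) with hE'
  have hE'eq : E' = E + Finsupp.mapDomain r D := by
    rw [hE', hE, Finsupp.mapDomain_add]
  have hEdeg : Divisor.degree E = Divisor.degree D₀ := m37hl_degree_mapDomain x xt r D₀
  have hE'deg : Divisor.degree E' = Divisor.degree D₀ := by
    rw [hE', m37hl_degree_mapDomain x xt r (D₀ + D), hD₀'deg]
  have hE''deg : Divisor.degree (E + Dt) = Divisor.degree D₀ := by
    rw [map_add, hEdeg, hDtdeg, add_zero]
  -- dimensions
  have hℓD₀' := m18rr_finrank_of_large x hx (D₀ + D) (by rw [hD₀'deg]; omega)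
  have hℓE' := m18rr_finrank_of_large xt hxt E' (by rw [hE'deg]; omega)
  have hℓE'' := m18rr_finrank_of_large xt hxt (E + Dt) (by rw [hE''deg]; omega)
  rw [hD₀'deg] at hℓD₀'
  rw [hE'deg] at hℓE'
  rw [hE''deg] at hℓE''
  haveI := m18rr_finite x hx (D₀ + D)
  haveI := m18rr_finite xt hxt E'
  haveI := m18rr_finite xt hxt (E + Dt)
  have hle : finrank k (riemannRochSpace E') ≤ finrank K (riemannRochSpace (D₀ + D)) := by
    have : (finrank k (riemannRochSpace E') : ℤ)
        ≤ (finrank K (riemannRochSpace (D₀ + D)) : ℤ) := by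
      rw [hℓD₀', hℓE']
      omega
    exact_mod_cast this
  have hlift := hsurj (riemannRochSpace (D₀ + D)) (riemannRochSpace E')
    (fun f hf hI => hR1 (D₀ + D) hD₀'nonneg f hI hf) hle
  -- `L(E') ≤ L(E + div (red y))`
  have hsub : riemannRochSpace E' ≤ riemannRochSpace (E + Dt) := by
    intro b hb
    obtain ⟨f, hfV, hfI, hfb⟩ := hlift b hb
    have h1 : y * f ∈ riemannRochSpace D₀ := m18rr_mul_mem_rr hy0 hD hfV
    have h2 := hmul y f hy hfI
    have h3 := hR1 D₀ hD₀nonneg (y * f) h2.1 h1
    rw [h2.2, hfb] at h3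
    rw [mem_riemannRochSpace_iff] at h3 ⊢
    intro v
    rcases eq_or_ne b 0 with hb0 | hb0
    · exact Or.inl hb0
    right
    have h4 := (h3 v).resolve_left (mul_ne_zero hyt hb0)
    rw [v.ord_mul hyt hb0] at h4
    rw [Finsupp.add_apply, hDt v]
    show -(E v + v.ord (red y)) ≤ v.ord b
    have : -(Finsupp.mapDomain r D₀) v ≤ v.ord (red y) + v.ord b := h4
    rw [← hE] at this
    omega
  have hLeq : riemannRochSpace E' = riemannRochSpace (E + Dt) := by
    refine Submodule.eq_of_le_of_finrank_eq hsub ?_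
    have : (finrank k (riemannRochSpace E') : ℤ)
        = (finrank k (riemannRochSpace (E + Dt)) : ℤ) := by
      rw [hℓE', hℓE'']
    exact_mod_cast this
  have hEE : E' = E + Dt :=
    m37hl_eq_of_rr_eq xt hxt E' (E + Dt) (by rw [hE'deg, hE''deg]) (by rw [hE'deg]; omega) hLeq
  rw [hE'eq] at hEE
  have hfin : Finsupp.mapDomain r D = Dt := add_left_cancel hEE
  rw [hfin, hDt Q]

end two

end Fermat.Agent.M37

end
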