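import Mathlib
import Fermat.Agent.M28.PaX

/-!
# M37 (S37 project), block (E3-c) Kronecker congruence, part 1: expansions of `F (a τ / D)`

Owner helper2, prefix `m37kc_`.

For `F` holomorphic, `1`-periodic and bounded at `i∞` (`F ∈ qr_ring`) and a level `M = D c`:
the `q_M`-expansion of `τ ↦ F (a τ / D)` is `f (u ^ (a c))`, `f` the `q`-expansion of `F`
(`m37kc_laurent_aff`); the same for `J` (`m37kc_laurent_J_aff`).
-/

set_option autoImplicit false
set_option linter.unusedSectionVars false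
set_option linter.unusedVariables false

noncomputable section

namespace Fermat.Agent.M37

open UpperHalfPlane hiding I
open Filter Function Topology ModularForm Complex ModularCurve
open scoped Manifold MatrixGroups ModularForm Real
open Fermat.Agent.S23 Fermat.Agent.S24 Fermat.Agent.M28

local notation "𝕢" => Function.Periodic.qParam

variable (M : ℕ) [NeZero M]

/-- `q (a τ / D) = q_M ^ (a c)` when `M = D c`. -/
theorem m37kc_qParam_aff (a D : ℤ) (ha : 0 < a) (hD : 0 < D) (c : ℤ) (hc : (M : ℤ) = D * c)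
    (e : ℕ) (he : (e : ℤ) = a * c) (τ : ℍ) :
    𝕢 1 (pe_aff a 0 D ha hD τ : ℂ) = 𝕢 (M : ℝ) (τ : ℂ) ^ e := by
  rw [pe_aff_coe, Function.Periodic.qParam, Function.Periodic.qParam, ← Complex.exp_nat_mul]
  congr 1
  have hD0 : (D : ℂ) ≠ 0 := by exact_mod_cast hD.ne'
  have hM0 : (M : ℂ) ≠ 0 := by exact_mod_cast NeZero.ne M
  have hM : (M : ℂ) = (D : ℂ) * c := by exact_mod_cast hc
  have he' : (e : ℂ) = (a : ℂ) * c := by exact_mod_cast he
  have hc0 : (c : ℂ) ≠ 0 := by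
    rintro h0
    rw [h0, mul_zero] at hM
    exact hM0 hM
  push_cast
  rw [he', hM]
  field_simp
  ring

/-- translation by `M` of `a τ / D`. -/
theorem m37kc_aff_vadd (a D : ℤ) (ha : 0 < a) (hD : 0 < D) (c : ℤ) (hc : (M : ℤ) = D * c)
    (τ : ℍ) :
    pe_aff a 0 D ha hD ((M : ℝ) +ᵥ τ) = ((a * c : ℤ) : ℝ) +ᵥ pe_aff a 0 D ha hD τ :=
  ajd_aff_vadd a 0 D ha hD M c hc τ

/-- `τ ↦ F (a τ / D)` is holomorphic, `M`-periodic and bounded at `i∞`. -/
theorem m37kc_nice_aff {F : ℍ → ℂ} (hF : F ∈ qr_ring) (a D : ℤ) (ha : 0 < a) (hD : 0 < D)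
    (c : ℤ) (hc : (M : ℤ) = D * c) :
    ana_IsNice M (fun τ => F (pe_aff a 0 D ha hD τ)) := by
  refine ⟨m28pa_mdiff_aff hF.1 a 0 D ha hD, fun τ => ?_, ?_⟩
  · simp only
    rw [m37kc_aff_vadd M a D ha hD c hc, m28pa_vadd_int hF.2.1]
  · exact hF.2.2.comp_tendsto (pe_tendsto_aff a 0 D ha hD)

/-- the expansion of `τ ↦ F (a τ / D)` in `q_M`. -/
theorem m37kc_qExpansion_aff {F : ℍ → ℂ} (hF : F ∈ qr_ring) (a D : ℤ) (ha : 0 < a)
    (hD : 0 < D) (c : ℤ) (hc : (M : ℤ) = D * c) (e : ℕ) (he : (e : ℤ) = a * c)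
    (he0 : e ≠ 0) :
    qExpansion (M : ℝ) (fun τ => F (pe_aff a 0 D ha hD τ)) =
      PowerSeries.expand e he0 (qExpansion 1 F) := by
  have key : ∀ z : ℍ, HasSum (fun m : ℕ =>
      PowerSeries.coeff m (PowerSeries.expand e he0 (qExpansion 1 F)) •
      𝕢 (M : ℝ) z ^ m) (F (pe_aff a 0 D ha hD z)) := by
    intro z
    have h1 := qr_hasSum hF (pe_aff a 0 D ha hD z)
    rw [m37kc_qParam_aff M a D ha hD c hc e he z] at h1
    have hinj : Function.Injective (fun m : ℕ => e * m) := by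
      intro m m' hmm
      exact Nat.eq_of_mul_eq_mul_left (Nat.pos_of_ne_zero he0) hmm
    refine (hinj.hasSum_iff ?_).mp ?_
    · intro x hx
      have hx' : ¬ e ∣ x := by
        rintro ⟨m, rfl⟩
        exact hx ⟨m, rfl⟩
      rw [PowerSeries.coeff_expand_of_not_dvd e he0 _ hx', zero_smul]
    · have h2 : ((fun m : ℕ =>
          PowerSeries.coeff m (PowerSeries.expand e he0 (qExpansion 1 F)) •
          𝕢 (M : ℝ) (z : ℂ) ^ m) ∘ fun m : ℕ => e * m) =
          fun m : ℕ => (qExpansion 1 F).coeff m • (𝕢 (M : ℝ) (z : ℂ) ^ e) ^ m := by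
        funext m
        simp only [Function.comp_apply]
        rw [PowerSeries.coeff_expand_mul, pow_mul]
      rw [h2]
      exact h1
  ext n
  exact (br_qExpansion_coeff_unique' (Nat.cast_pos.mpr (NeZero.pos M))
    (m37kc_nice_aff M hF a D ha hD c hc).analyticAt key n).symm

/-- the `q_M`-expansion of `τ ↦ F (a τ / D)` is `f (u ^ e)`. -/
theorem m37kc_laurent_aff {F : ℍ → ℂ} (hF : F ∈ qr_ring) (a D : ℤ) (ha : 0 < a)
    (hD : 0 < D) (c : ℤ) (hc : (M : ℤ) = D * c) (e : ℕ) [NeZero e] (he : (e : ℤ) = a * c) :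
    ana_laurent M (fun τ => F (pe_aff a 0 D ha hD τ))
      = qExpand ℂ e (HahnSeries.ofPowerSeries ℤ ℂ (qExpansion 1 F)) := by
  rw [ana_laurent_of_nice (m37kc_nice_aff M hF a D ha hD c hc),
    m37kc_qExpansion_aff M hF a D ha hD c hc e he (NeZero.ne e),
    m28pf_qExpand_ofPowerSeries]

/-- the `q_M`-expansion of `J (a τ / D)` is `j (u ^ e)`. -/
theorem m37kc_laurent_J_aff (a D : ℤ) (ha : 0 < a) (hD : 0 < D) (c : ℤ)
    (hc : (M : ℤ) = D * c) (e : ℕ) [NeZero e] (he : (e : ℤ) = a * c)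
    (hmer : ana_IsMer M (fun τ => ord_J (pe_aff a 0 D ha hD τ))) :
    ana_laurent M (fun τ => ord_J (pe_aff a 0 D ha hD τ)) = qExpand ℂ e (jqModC ℂ) := by
  have hq := m37kc_laurent_aff M br_q_mem a D ha hD c hc e he
  have hqJ := m37kc_laurent_aff M br_qJ_mem a D ha hD c hc e he
  rw [br_qExpansion_q, m28pa_ofPowerSeries_X] at hq
  rw [br_qExpansion_qJ] at hqJ
  have hprod : (fun τ => br_qJ (pe_aff a 0 D ha hD τ))
      = (fun τ : ℍ => 𝕢 1 (pe_aff a 0 D ha hD τ : ℂ)) *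
        (fun τ => ord_J (pe_aff a 0 D ha hD τ)) := by
    funext τ
    rfl
  rw [hprod, ana_laurent_mul (m37kc_nice_aff M br_q_mem a D ha hD c hc).isMer hmer, hq] at hqJ
  have hinv : qExpand ℂ e (HahnSeries.single (-1 : ℤ) (1 : ℂ)) *
      qExpand ℂ e (HahnSeries.single (1 : ℤ) (1 : ℂ)) = 1 := by
    rw [← map_mul, HahnSeries.single_mul_single, mul_one, neg_add_cancel]
    exact map_one _
  calc ana_laurent M (fun τ => ord_J (pe_aff a 0 D ha hD τ))
      = (qExpand ℂ e (HahnSeries.single (-1 : ℤ) (1 : ℂ)) *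
          qExpand ℂ e (HahnSeries.single (1 : ℤ) (1 : ℂ))) *
          ana_laurent M (fun τ => ord_J (pe_aff a 0 D ha hD τ)) := by rw [hinv, one_mul]
    _ = qExpand ℂ e (HahnSeries.single (-1 : ℤ) (1 : ℂ)) *
          (qExpand ℂ e (HahnSeries.single (1 : ℤ) (1 : ℂ)) *
            ana_laurent M (fun τ => ord_J (pe_aff a 0 D ha hD τ))) := by ring
    _ = qExpand ℂ e (jqModC ℂ) := by
        rw [hqJ, ← map_mul, ← m28pa_jqModC_eq]

end Fermat.Agent.M37

end
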