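import Fermat.Agent.M37.E0Plumb
import Fermat.Agent.M18.N1Gen
import Fermat.Agent.S24.SymGen
import Fermat.Agent.S24.AnaEv
import Fermat.Agent.S24.DegMain
import Fermat.Agent.S24.MGCard

/-!
# M37 (KC-D): the degree of `F_{Nℓ}` over `α(F_N)` is `ℓ + 1`

* `m37kc_finrank_j`: `[F_M : ℚ̄(j)] = ψ(M)` for every level `M` (characteristic `0`).
* `m37kc_finrank`: `[F_{Nℓ} : α(F_N)] = ℓ + 1` for a prime `ℓ ∤ N`.
-/

set_option autoImplicit false
set_option linter.unusedSectionVars false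
set_option linter.unusedVariables false
set_option linter.style.haveILetI false
set_option synthInstance.maxHeartbeats 400000

noncomputable section

namespace Fermat.Agent.M37

open ModularCurve AlgebraicCurve IntermediateField Module
open Fermat.Agent.S24 Fermat.Agent.M18

/-- `[F_M : ℚ̄(j)] = ψ(M)`. -/
theorem m37kc_finrank_j (M : ℕ) [NeZero M] :
    Module.finrank ↥(s24K⟮s24j M⟯) (s24F M) = dedekindPsi M := by
  haveI := deg_finiteDimensional M
  rw [sym_finrank_eq (s24j M) (ana_rho M) (ana_rho_injective M) (ana_rho_x M) (ana_rho_K M)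
    (deg_finrank_le M), ← Nat.card_eq_fintype_card, mg_card]

/-- `ψ(N ℓ) = ψ(N) (ℓ + 1)` for a prime `ℓ ∤ N`. -/
theorem m37kc_psi_mul_prime (N ℓ : ℕ) (hℓ : ℓ.Prime) (hℓN : ¬ ℓ ∣ N) :
    dedekindPsi (N * ℓ) = dedekindPsi N * (ℓ + 1) := by
  have hcop : N.Coprime ℓ := (Nat.Prime.coprime_iff_not_dvd hℓ).2 hℓN |>.symm
  rw [mgc_psi_mul hcop]
  have h1 := mgc_psi_prime_pow hℓ (e := 1) Nat.one_pos
  simp only [pow_one, Nat.sub_self, pow_zero] at h1
  rw [h1]

/-- **(KC-D)** `[F_{Nℓ} : α(F_N)] = ℓ + 1`. -/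
theorem m37kc_finrank (N ℓ : ℕ) [NeZero N] [NeZero ℓ] (hℓ : ℓ.Prime) (hℓN : ¬ ℓ ∣ N) :
    AlgebraicCurve.finrankAlong s24K (ModularCurve.heckeAlphaBar s24K N ℓ) = ℓ + 1 := by
  letI := algebraAlong (heckeAlphaBar s24K N ℓ)
  haveI := isScalarTower_along (heckeAlphaBar s24K N ℓ)
  show Module.finrank (s24F N) (s24F (N * ℓ)) = ℓ + 1
  haveI := deg_finiteDimensional N
  haveI := deg_finiteDimensional (N * ℓ)
  have h1 := m18n1_finrank_mul' (K := s24K) (F := s24F N) (F' := s24F (N * ℓ)) (s24j N)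
    (s24j (N * ℓ)) (m37e0_alpha_j (N := N) (ℓ := ℓ))
  rw [m37kc_finrank_j N, m37kc_finrank_j (N * ℓ), m37kc_psi_mul_prime N ℓ hℓ hℓN] at h1
  have hpos : 0 < dedekindPsi N := by
    rw [← m37kc_finrank_j N]
    exact Module.finrank_pos
  exact Nat.eq_of_mul_eq_mul_left hpos h1

end Fermat.Agent.M37

end
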