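import Mathlib
import Fermat.Prelude.Def_ModularCurve_LaurentCoeff
import Fermat.Prelude.Def_ModularCurve_X0
import Fermat.Prelude.Thm_ModularCurve_coeffMap_qExpand
import Fermat.Agent.S24.CuspFormal

/-!
# M37 (KC-P): descent of the product formula from `ℂ((u))` to `K((t))`

`u = q^{1/(Nℓ)}`, `t = u^N = q^{1/ℓ}`.  If the product formula
`y(u^{Nℓ}) = x(u^{Nℓ²}) · ∏_{k<ℓ} x(ζ_M^k u^N)` holds in `ℂ((u))` (after an embedding
`ι : K → ℂ` of the coefficients), then `y(t^ℓ) = x(t^{ℓ²}) · ∏_{b<ℓ} x(ζ₁^b t)` holds in `K((t))`,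
where `ι ζ₁ = ζ_M^N`.
-/

set_option autoImplicit false
set_option linter.unusedSectionVars false
set_option linter.unusedVariables false
set_option linter.style.haveILetI false

noncomputable section

namespace Fermat.Agent.M37

open ModularCurve Fermat.Agent.S24

section descent

variable {K L : Type*} [Field K] [Field L] (ι : K →+* L)

theorem m37kcd_coeffMap_injective : Function.Injective (coeffMap ι) := by
  intro f g h
  ext n
  have := congrArg (fun z : LaurentSeries L => z.coeff n) h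
  simp only [coeffMap_coeff] at this
  exact ι.injective this

/-- the twist commutes with `qExpand N ∘ coeffMap ι`, up to an `N`-th root. -/
theorem m37kcd_twist_qExpand (N : ℕ) [NeZero N] (c : Kˣ) (c' : Lˣ)
    (hc : ι (c : K) = ((c' ^ N : Lˣ) : L)) (f : LaurentSeries K) :
    qExpand L N (coeffMap ι (cf_twist c f)) = cf_twist c' (qExpand L N (coeffMap ι f)) := by
  ext n
  by_cases hn : (N : ℤ) ∣ n
  · obtain ⟨m, rfl⟩ := hn
    rw [qExpand_coeff_mul, coeffMap_coeff, cf_twist_coeff, cf_twist_coeff, qExpand_coeff_mul,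
      coeffMap_coeff, map_mul]
    congr 1
    rw [Units.val_zpow_eq_zpow_val, map_zpow₀, hc, Units.val_zpow_eq_zpow_val,
      Units.val_pow_eq_pow_val, zpow_mul, zpow_natCast]
  · rw [qExpand_coeff_of_not_dvd _ _ hn, cf_twist_coeff, qExpand_coeff_of_not_dvd _ _ hn,
      mul_zero]

/-- **(KC-P)** descent of the product formula. -/
theorem m37kcd_descend (N ℓ : ℕ) [NeZero N] [NeZero ℓ]
    (ζ₁ : Kˣ) (ζM : Lˣ) (hζ : ι (ζ₁ : K) = ((ζM ^ N : Lˣ) : L))
    (y x : LaurentSeries K)
    (h : qExpand L (N * ℓ) (coeffMap ι y)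
        = qExpand L (N * ℓ) (coeffMap ι (qExpand K ℓ x))
          * ∏ k ∈ Finset.range ℓ, cf_twist (ζM ^ k) (qExpand L N (coeffMap ι x))) :
    qExpand K ℓ y
      = qExpand K ℓ (qExpand K ℓ x) * ∏ b ∈ Finset.range ℓ, cf_twist (ζ₁ ^ b) x := by
  apply m37kcd_coeffMap_injective ι
  apply qExpand_injective (R := L) N
  have e1 : qExpand L N (coeffMap ι (qExpand K ℓ y)) = qExpand L (N * ℓ) (coeffMap ι y) := by
    rw [coeffMap_qExpand, qExpand_qExpand]
  have e2 : qExpand L N (coeffMap ι (qExpand K ℓ (qExpand K ℓ x)))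
      = qExpand L (N * ℓ) (coeffMap ι (qExpand K ℓ x)) := by
    rw [coeffMap_qExpand, qExpand_qExpand]
  have e3 : qExpand L N (coeffMap ι (∏ b ∈ Finset.range ℓ, cf_twist (ζ₁ ^ b) x))
      = ∏ b ∈ Finset.range ℓ, cf_twist (ζM ^ b) (qExpand L N (coeffMap ι x)) := by
    rw [map_prod (coeffMap ι), map_prod (qExpand L N)]
    refine Finset.prod_congr rfl fun b _ => ?_
    refine m37kcd_twist_qExpand ι N (ζ₁ ^ b) (ζM ^ b) ?_ x
    rw [Units.val_pow_eq_pow_val, map_pow, hζ, Units.val_pow_eq_pow_val,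
      Units.val_pow_eq_pow_val, Units.val_pow_eq_pow_val, ← pow_mul, ← pow_mul, mul_comm]
  rw [e1, h, map_mul, map_mul, e2, e3]

end descent

end Fermat.Agent.M37

end
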