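import Mathlib
import Fermat.Agent.M37.KcAff
import Fermat.Prelude.Def_ModularCurve_HeckeOperator

/-!
# M37 (S37 project), block (E3-c) Kronecker congruence, part 2: the conjugate embedding `E₀`

Owner helper2, prefix `m37kc_`.

`M = N ℓ` with `ℓ` prime to `N`; `h₀ ∈ Γ₀(N)` with bottom row `(N, ℓ)`.  The ring homomorphism
`E₀ = q_M-expansion ∘ (f ↦ f ∘ h₀) ∘ ana_ev M : F_M → ℂ((u))` satisfies
* `m37kc_E0_alpha` : `E₀ (α y) = y (u ^ M)` for `y ∈ F_N` (so `E₀` is an `F_N`-embedding);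
* `m37kc_E0_beta`  : `E₀ (β x) = x (u ^ N)` for `x ∈ F_N` (`β x = x (q ^ ℓ)`).
-/

set_option autoImplicit false
set_option linter.unusedSectionVars false
set_option linter.unusedVariables false

noncomputable section

namespace Fermat.Agent.M37

open UpperHalfPlane hiding I
open Filter Function Topology ModularForm Complex ModularCurve
open scoped Manifold MatrixGroups ModularForm Real CongruenceSubgroup
open CongruenceSubgroup
open Fermat.Agent.S23 Fermat.Agent.S24 Fermat.Agent.M28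

local notation "𝕢" => Function.Periodic.qParam

/-- a matrix of `Γ₀(N)` with bottom row `(N, ℓ)`. -/
theorem m37kc_exists_h0 (N ℓ : ℕ) (h : Nat.Coprime ℓ N) :
    ∃ h₀ : SL(2, ℤ), h₀ 1 0 = (N : ℤ) ∧ h₀ 1 1 = (ℓ : ℤ) := by
  have hc : IsCoprime (ℓ : ℤ) (N : ℤ) := Nat.isCoprime_iff_coprime.mpr h
  obtain ⟨u, v, huv⟩ := hc
  refine ⟨⟨!![u, -v; (N : ℤ), (ℓ : ℤ)], ?_⟩, rfl, rfl⟩
  rw [Matrix.det_fin_two_of]
  linarith

theorem m37kc_h0_mem {N ℓ : ℕ} {h₀ : SL(2, ℤ)} (h10 : h₀ 1 0 = (N : ℤ)) :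
    h₀ ∈ Gamma0 N := by
  rw [Gamma0_mem, h10]
  simp

/-- the companion matrix `γ_d`. -/
theorem m37kc_exists_gamma {N ℓ : ℕ} {h₀ : SL(2, ℤ)} (h10 : h₀ 1 0 = (N : ℤ))
    (h11 : h₀ 1 1 = (ℓ : ℤ)) (d c : ℕ) (hdc : N = d * c) :
    ∃ γ : SL(2, ℤ), γ 0 0 = (ℓ : ℤ) * h₀ 0 0 ∧ γ 0 1 = (d : ℤ) * h₀ 0 1 ∧ γ 1 0 = (c : ℤ) ∧
      γ 1 1 = 1 := by
  have hdet : h₀ 0 0 * h₀ 1 1 - h₀ 0 1 * h₀ 1 0 = 1 := by
    have := h₀.det_coe
    rw [Matrix.det_fin_two] at this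
    exact this
  refine ⟨⟨!![(ℓ : ℤ) * h₀ 0 0, (d : ℤ) * h₀ 0 1; (c : ℤ), 1], ?_⟩, rfl, rfl, rfl, rfl⟩
  rw [Matrix.det_fin_two_of]
  rw [h10, h11] at hdet
  have hN : (N : ℤ) = d * c := by exact_mod_cast hdc
  rw [hN] at hdet
  linarith

/-- **the function identity** `J (d ℓ · h₀ τ) = J (d τ / ℓ)`. -/
theorem m37kc_J_h0 {N ℓ : ℕ} (hℓ : 0 < ℓ) {h₀ : SL(2, ℤ)} (h10 : h₀ 1 0 = (N : ℤ))
    (h11 : h₀ 1 1 = (ℓ : ℤ)) (d : ℕ) (hd0 : 0 < d) (hd : d ∣ N) (n : ℕ) (hn : n = ℓ * d)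
    (hn0 : 0 < n) (τ : ℍ) :
    ord_J (pe_mulN n hn0 (h₀ • τ)) =
      ord_J (pe_aff (d : ℤ) 0 (ℓ : ℤ) (by exact_mod_cast hd0) (by exact_mod_cast hℓ) τ) := by
  obtain ⟨c, hc⟩ := hd
  obtain ⟨γ, g00, g01, g10, g11⟩ := m37kc_exists_gamma h10 h11 d c hc
  have key := dist_JN_smul_eq n hn0 h₀ γ (d : ℤ) 0 (ℓ : ℤ) (by exact_mod_cast hd0)
    (by exact_mod_cast hℓ)
    (by rw [g00, hn]; push_cast; ring)
    (by rw [g00, g01, hn]; push_cast; ring)
    (by rw [g10, h10, hc]; push_cast; ring)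
    (by rw [g10, g11, h11]; ring) τ
  rw [distJN_apply] at key
  exact key

section E0

variable (N ℓ : ℕ) [NeZero N] [NeZero ℓ]

/-- the conjugate embedding attached to `h₀⁻¹`, in `q_M`-expansions. -/
def m37kc_E0 (h₀ : SL(2, ℤ)) : s24F (N * ℓ) →+* LaurentSeries ℂ :=
  (ana_qexpM (N * ℓ)).comp (ana_rhoG (N * ℓ) h₀⁻¹)

theorem m37kc_E0_apply (h₀ : SL(2, ℤ)) (y : s24F (N * ℓ)) :
    m37kc_E0 N ℓ h₀ y = ana_qexpM (N * ℓ) (ana_act (N * ℓ) h₀⁻¹ (ana_ev (N * ℓ) y)) := rfl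

theorem m37kc_E0_algebraMap (h₀ : SL(2, ℤ)) (c : s24K) :
    m37kc_E0 N ℓ h₀ (algebraMap s24K (s24F (N * ℓ)) c) = HahnSeries.C (ana_iota c) := by
  rw [m37kc_E0_apply, ana_ev_algebraMap, ana_act_algebraMap, ana_comp_const,
    ana_qexpM_algebraMap, ana_qexp_const]

theorem m37kc_E0_jd (h₀ : SL(2, ℤ)) (d : ℕ) [NeZero d] (hd : d ∣ N * ℓ) :
    m37kc_E0 N ℓ h₀ (eva_jd (N * ℓ) d hd) =
      ana_laurent (N * ℓ) (fun τ => ord_J (pe_mulN d (NeZero.pos d) (h₀ • τ))) := by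
  rw [m37kc_E0_apply, ana_ev_jd, ana_act_algebraMap, ana_qexpM_algebraMap, inv_inv,
    ana_qexp_apply]
  rfl

/-- `E₀ ∘ α` is the standard `q_M`-expansion. -/
theorem m37kc_E0_alpha {h₀ : SL(2, ℤ)} (h10 : h₀ 1 0 = (N : ℤ)) (y : s24F N) :
    m37kc_E0 N ℓ h₀ (heckeAlphaBar s24K N ℓ y) =
      qExpand ℂ (N * ℓ) (coeffMap ana_iota (y : LaurentSeries s24K)) := by
  have key : (m37kc_E0 N ℓ h₀).comp (heckeAlphaBar s24K N ℓ).toRingHom =
      ((qExpand ℂ (N * ℓ)).comp (coeffMap ana_iota)).comp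
        (algebraMap (s24F N) (LaurentSeries s24K)) := by
    apply ana_ringHom_ext_F
    · intro c
      simp only [RingHom.comp_apply]
      have h1 : (heckeAlphaBar s24K N ℓ).toRingHom (algebraMap s24K (s24F N) c) =
          algebraMap s24K (s24F (N * ℓ)) c := (heckeAlphaBar s24K N ℓ).commutes c
      rw [h1, m37kc_E0_algebraMap]
      have h2 : ((algebraMap (s24F N) (LaurentSeries s24K))
          (algebraMap s24K (s24F N) c) : LaurentSeries s24K) = HahnSeries.single 0 c := by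
        rw [← algebraMap_laurentSeries_eq_single]
        rfl
      rw [h2, coeffMap_single]
      exact (qExpand_C (N * ℓ) (ana_iota c)).symm
    · intro d _ hd
      simp only [RingHom.comp_apply]
      have hd' : d ∣ N * ℓ := hd.mul_right ℓ
      have h1 : (heckeAlphaBar s24K N ℓ).toRingHom (eva_jd N d hd) = eva_jd (N * ℓ) d hd' := by
        apply Subtype.ext
        show ((heckeAlphaBar s24K N ℓ (eva_jd N d hd) : s24F (N * ℓ)) : LaurentSeries s24K) = _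
        rw [coe_heckeAlphaBar]
        rfl
      rw [h1, m37kc_E0_jd]
      have h2 : (fun τ => ord_J (pe_mulN d (NeZero.pos d) (h₀ • τ))) =
          fun τ : ℍ => ord_J (pe_mulN d (NeZero.pos d) τ) := by
        funext τ
        exact ana_Jd_comp_Gamma0 N d hd (NeZero.pos d) (m37kc_h0_mem (ℓ := ℓ) h10) τ
      rw [h2]
      have h3 := ana_qexp_Jd (N * ℓ) d hd'
      rw [ana_qexp_apply] at h3
      rw [h3]
      show _ = qExpand ℂ (N * ℓ) (coeffMap ana_iota (coeffEmb s24K (qExpand ℚ d jq)))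
      rw [ana_coeffMap_iota_coeffEmb]
  exact congrArg (fun φ : s24F N →+* LaurentSeries ℂ => φ y) key

/-- `E₀ ∘ β` is the `q_M`-expansion `x (u ^ N)`: the conjugate `x (τ / ℓ)` of `x (ℓ τ)`. -/
theorem m37kc_E0_beta {h₀ : SL(2, ℤ)} (h10 : h₀ 1 0 = (N : ℤ)) (h11 : h₀ 1 1 = (ℓ : ℤ))
    (x : s24F N) :
    m37kc_E0 N ℓ h₀ (heckeBetaBar s24K N ℓ x) =
      qExpand ℂ N (coeffMap ana_iota (x : LaurentSeries s24K)) := by
  have key : (m37kc_E0 N ℓ h₀).comp (heckeBetaBar s24K N ℓ).toRingHom = ana_Phi N := by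
    apply ana_ringHom_ext_F
    · intro c
      simp only [RingHom.comp_apply]
      have h1 : (heckeBetaBar s24K N ℓ).toRingHom (algebraMap s24K (s24F N) c) =
          algebraMap s24K (s24F (N * ℓ)) c := (heckeBetaBar s24K N ℓ).commutes c
      rw [h1, m37kc_E0_algebraMap, ana_Phi_algebraMap]
    · intro d _ hd
      simp only [RingHom.comp_apply]
      haveI : NeZero (ℓ * d) := ⟨Nat.mul_ne_zero (NeZero.ne ℓ) (NeZero.ne d)⟩
      haveI : NeZero (d * N) := ⟨Nat.mul_ne_zero (NeZero.ne d) (NeZero.ne N)⟩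
      have hd' : ℓ * d ∣ N * ℓ := by
        rw [mul_comm N ℓ]
        exact Nat.mul_dvd_mul_left ℓ hd
      have h1 : (heckeBetaBar s24K N ℓ).toRingHom (eva_jd N d hd) =
          eva_jd (N * ℓ) (ℓ * d) hd' := by
        apply Subtype.ext
        show ((heckeBetaBar s24K N ℓ (eva_jd N d hd) : s24F (N * ℓ)) : LaurentSeries s24K) = _
        rw [coe_heckeBetaBar, eva_jd_coe, eva_jd_coe, coeffEmb, ← br_coeffMap_qExpand,
          qExpand_qExpand]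
      rw [h1, m37kc_E0_jd]
      have h2 : (fun τ => ord_J (pe_mulN (ℓ * d) (NeZero.pos (ℓ * d)) (h₀ • τ))) =
          fun τ : ℍ => ord_J (pe_aff (d : ℤ) 0 (ℓ : ℤ) (by exact_mod_cast NeZero.pos d)
            (by exact_mod_cast NeZero.pos ℓ) τ) := by
        funext τ
        exact m37kc_J_h0 (NeZero.pos ℓ) h10 h11 d (NeZero.pos d) hd (ℓ * d) rfl _ τ
      have hmer : ana_IsMer (N * ℓ)
          (fun τ => ord_J (pe_mulN (ℓ * d) (NeZero.pos (ℓ * d)) (h₀ • τ))) := by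
        have := ana_isMer_of_mem (ana_comp (N * ℓ) h₀ (ana_Jd (N * ℓ) (ℓ * d) hd')).2
        exact this
      rw [h2] at hmer ⊢
      rw [m37kc_laurent_J_aff (N * ℓ) (d : ℤ) (ℓ : ℤ) _ _ (N : ℤ) (by push_cast; ring)
        (d * N) (by push_cast; ring) hmer, ana_Phi_jd, coeffEmb, br_coeffMap_qExpand,
        qExpand_qExpand, ← coeffEmb, m28pa_coeffEmb_jq]
      exact qExpand_congr (mul_comm d N) _
  exact congrArg (fun φ : s24F N →+* LaurentSeries ℂ => φ x) key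

end E0

end Fermat.Agent.M37

end
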