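import Mathlib

/-!
# M37 (KC-N): the norm as a product over a full set of embeddings

`m37kc_norm_eq_prod`: if `σ i : L →+* E` (`i : ι`) are pairwise distinct ring homomorphisms
which all agree on `K`, and their number is `[L : K]` (`L / K` finite separable), then the
image of the norm of `x` is the product of the `σ i x`.
-/

set_option autoImplicit false
set_option linter.unusedSectionVars false
set_option linter.unusedVariables false
set_option linter.style.haveILetI false

noncomputable section

namespace Fermat.Agent.M37

open Module

theorem m37kc_norm_eq_prod {K L E : Type*} [Field K] [Field L] [Field E] [Algebra K L]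
    [FiniteDimensional K L] [Algebra.IsSeparable K L] {ι : Type*} [Fintype ι]
    (σ : ι → (L →+* E)) (hinj : Function.Injective σ)
    (hcard : Fintype.card ι = Module.finrank K L)
    (hK : ∀ i j (a : K), σ i (algebraMap K L a) = σ j (algebraMap K L a))
    (i₀ : ι) (x : L) :
    σ i₀ (algebraMap K L (Algebra.norm K x)) = ∏ i, σ i x := by
  classical
  -- `E` as a `K`-algebra through `σ i₀`
  letI algKE : Algebra K E := ((σ i₀).comp (algebraMap K L)).toAlgebra
  have halg : ∀ a : K, algebraMap K E a = σ i₀ (algebraMap K L a) := fun a => rfl
  -- the algebraic closure of `E`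
  let Ebar := AlgebraicClosure E
  -- the embeddings as `K`-algebra homomorphisms into `Ebar`
  let τ : ι → (L →ₐ[K] Ebar) := fun i =>
    { toRingHom := (algebraMap E Ebar).comp (σ i)
      commutes' := fun a => by
        show algebraMap E Ebar (σ i (algebraMap K L a)) = algebraMap K Ebar a
        rw [IsScalarTower.algebraMap_apply K E Ebar, halg, hK i i₀ a] }
  have hτ : ∀ i (y : L), τ i y = algebraMap E Ebar (σ i y) := fun i y => rfl
  have hτinj : Function.Injective τ := by
    intro i j hij
    apply hinj
    ext y
    have h1 : τ i y = τ j y := by rw [hij]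
    rw [hτ, hτ] at h1
    exact (algebraMap E Ebar).injective h1
  have hcard' : Fintype.card ι = Fintype.card (L →ₐ[K] Ebar) := by
    rw [hcard, AlgHom.card K L Ebar]
  have hτbij : Function.Bijective τ :=
    (Fintype.bijective_iff_injective_and_card τ).2 ⟨hτinj, hcard'⟩
  have h1 := Algebra.norm_eq_prod_embeddings K Ebar x
  have h2 : ∏ s : L →ₐ[K] Ebar, s x = ∏ i, τ i x :=
    (Fintype.prod_bijective τ hτbij (fun i => τ i x) (fun s => s x) (fun i => rfl)).symm
  rw [h2] at h1
  apply (algebraMap E Ebar).injective
  rw [map_prod]
  rw [IsScalarTower.algebraMap_apply K E Ebar, halg] at h1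
  exact h1.trans (Finset.prod_congr rfl (fun i _ => hτ i x))

end Fermat.Agent.M37

end
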