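import Mathlib
import Fermat.Agent.M37.KcEmb
import Fermat.Agent.M37.KcNorm
import Fermat.Agent.M37.E0Plumb
import Fermat.Agent.M37.E3Abs

/-!
# M37 (S37 project), block (E3-c) Kronecker congruence, part 3: the `ℓ + 1` conjugates and the
norm as a product of `q`-series

Owner helper2, prefix `m37kc_`.

`M = N ℓ`, `ℓ` a prime not dividing `N`.  The family
`σ : Option (Fin ℓ) → (F_M →+* ℂ((u)))`, `σ none = ana_Phi M` (the standard `q_M`-expansion),
`σ (some k) = cf_twist (ζ ^ k) ∘ E₀`, consists of `ℓ + 1 = [F_M : α F_N]` pairwise distinct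
ring homomorphisms which agree on `α F_N`.  Hence (`m37kc_norm_eq_prod`) the norm of `β x` is
the product of the `σ i (β x)`:
`(N (β x)) (q ^ ℓ) = x (q ^ (ℓ ^ 2)) * ∏_{b < ℓ} x (ζ_ℓ ^ b q)` (`m37kc_series`).
-/

set_option autoImplicit false
set_option linter.unusedSectionVars false
set_option linter.unusedVariables false
set_option linter.style.haveILetI false
set_option synthInstance.maxHeartbeats 400000
set_option maxHeartbeats 1600000

noncomputable section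

namespace Fermat.Agent.M37

open UpperHalfPlane hiding I
open Filter Function Topology ModularForm Complex ModularCurve AlgebraicCurve
open scoped Manifold MatrixGroups ModularForm Real CongruenceSubgroup
open CongruenceSubgroup
open Fermat.Agent.S23 Fermat.Agent.S24 Fermat.Agent.M28

section formal

variable {k : Type*} [Field k]

/-- twisting `y (t ^ e)` by `c` is twisting `y` by `c ^ e`. -/
theorem m37kc_twist_qExpand (e : ℕ) [NeZero e] (c : kˣ) (y : LaurentSeries k) :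
    cf_twist c (qExpand k e y) = qExpand k e (cf_twist (c ^ e) y) := by
  ext n
  rw [cf_twist_coeff]
  by_cases hn : (e : ℤ) ∣ n
  · obtain ⟨m, rfl⟩ := hn
    rw [qExpand_coeff_mul, qExpand_coeff_mul, cf_twist_coeff]
    congr 2
    rw [zpow_mul, zpow_natCast]
  · rw [qExpand_coeff_of_not_dvd e _ hn, qExpand_coeff_of_not_dvd e _ hn, mul_zero]

/-- twists commute with coefficientwise maps. -/
theorem m37kc_coeffMap_twist {k' : Type*} [Field k'] (f : k →+* k') (c : kˣ)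
    (y : LaurentSeries k) :
    coeffMap f (cf_twist c y) = cf_twist (Units.map (f : k →* k') c) (coeffMap f y) := by
  ext n
  rw [coeffMap_coeff, cf_twist_coeff, cf_twist_coeff, coeffMap_coeff, map_mul]
  congr 1
  rw [← map_zpow]
  rfl

end formal

section family

variable (N ℓ : ℕ) [NeZero N] [NeZero ℓ]

/-- the `ℓ + 1` conjugate embeddings over `α F_N`. -/
def m37kc_sigma (h₀ : SL(2, ℤ)) (ζ : ℂˣ) :
    Option (Fin ℓ) → (s24F (N * ℓ) →+* LaurentSeries ℂ)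
  | none => ana_Phi (N * ℓ)
  | some k => ((cf_twist (ζ ^ (k : ℕ)) : LaurentSeries ℂ ≃+* LaurentSeries ℂ) :
      LaurentSeries ℂ →+* LaurentSeries ℂ).comp (m37kc_E0 N ℓ h₀)

theorem m37kc_sigma_none (h₀ : SL(2, ℤ)) (ζ : ℂˣ) (y : s24F (N * ℓ)) :
    m37kc_sigma N ℓ h₀ ζ none y =
      qExpand ℂ (N * ℓ) (coeffMap ana_iota (y : LaurentSeries s24K)) := rfl

theorem m37kc_sigma_some (h₀ : SL(2, ℤ)) (ζ : ℂˣ) (k : Fin ℓ) (y : s24F (N * ℓ)) :
    m37kc_sigma N ℓ h₀ ζ (some k) y = cf_twist (ζ ^ (k : ℕ)) (m37kc_E0 N ℓ h₀ y) := rfl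

variable {N ℓ}

theorem m37kc_sigma_alpha {h₀ : SL(2, ℤ)} (h10 : h₀ 1 0 = (N : ℤ)) {ζ : ℂˣ}
    (hζ : ζ ^ ℓ = 1) (i : Option (Fin ℓ)) (y : s24F N) :
    m37kc_sigma N ℓ h₀ ζ i (heckeAlphaBar s24K N ℓ y) =
      qExpand ℂ (N * ℓ) (coeffMap ana_iota (y : LaurentSeries s24K)) := by
  cases i with
  | none => rw [m37kc_sigma_none, coe_heckeAlphaBar]
  | some k =>
    rw [m37kc_sigma_some, m37kc_E0_alpha N ℓ h10, cf_twist_qExpand]
    rw [← pow_mul, mul_comm (k : ℕ), mul_comm N ℓ, pow_mul, pow_mul, hζ, one_pow, one_pow]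

theorem m37kc_sigma_none_beta (h₀ : SL(2, ℤ)) (ζ : ℂˣ) (x : s24F N) :
    m37kc_sigma N ℓ h₀ ζ none (heckeBetaBar s24K N ℓ x) =
      qExpand ℂ N (qExpand ℂ ℓ (qExpand ℂ ℓ (coeffMap ana_iota (x : LaurentSeries s24K)))) := by
  rw [m37kc_sigma_none, coe_heckeBetaBar, br_coeffMap_qExpand,
    qExpand_qExpand ℓ N (qExpand ℂ ℓ (coeffMap ana_iota (x : LaurentSeries s24K)))]

theorem m37kc_sigma_some_beta {h₀ : SL(2, ℤ)} (h10 : h₀ 1 0 = (N : ℤ))
    (h11 : h₀ 1 1 = (ℓ : ℤ)) (ζ : ℂˣ) (k : Fin ℓ) (x : s24F N) :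
    m37kc_sigma N ℓ h₀ ζ (some k) (heckeBetaBar s24K N ℓ x) =
      qExpand ℂ N (cf_twist ((ζ ^ N) ^ (k : ℕ)) (coeffMap ana_iota (x : LaurentSeries s24K))) := by
  rw [m37kc_sigma_some, m37kc_E0_beta N ℓ h10 h11, m37kc_twist_qExpand]
  congr 2
  rw [← pow_mul, ← pow_mul, mul_comm]

end family

section inj

variable {N ℓ : ℕ} [NeZero N] [NeZero ℓ]

theorem m37kc_iota_j :
    coeffMap ana_iota ((s24j N : s24F N) : LaurentSeries s24K) = jqModC ℂ := by
  show coeffMap ana_iota (coeffEmb s24K jq) = _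
  rw [ana_coeffMap_iota_coeffEmb, m28pa_coeffEmb_jq]

theorem m37kc_sigma_none_coeff (hℓ : ℓ.Prime) (h₀ : SL(2, ℤ)) (ζ : ℂˣ) :
    (m37kc_sigma N ℓ h₀ ζ none (heckeBetaBar s24K N ℓ (s24j N))).coeff ((N : ℤ) * (-1)) = 0 := by
  rw [m37kc_sigma_none_beta, qExpand_coeff_mul]
  apply qExpand_coeff_of_not_dvd
  intro h
  have h1 : (ℓ : ℤ) ∣ 1 := (dvd_neg).1 h
  have h2 : ℓ ∣ 1 := by exact_mod_cast h1
  exact hℓ.one_lt.ne' (Nat.dvd_one.1 h2)

theorem m37kc_sigma_some_coeff {h₀ : SL(2, ℤ)} (h10 : h₀ 1 0 = (N : ℤ))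
    (h11 : h₀ 1 1 = (ℓ : ℤ)) (ζ : ℂˣ) (k : Fin ℓ) :
    (m37kc_sigma N ℓ h₀ ζ (some k) (heckeBetaBar s24K N ℓ (s24j N))).coeff ((N : ℤ) * (-1)) =
      ((((ζ ^ N) ^ (k : ℕ)) ^ (-1 : ℤ) : ℂˣ) : ℂ) := by
  rw [m37kc_sigma_some_beta h10 h11, qExpand_coeff_mul, cf_twist_coeff, m37kc_iota_j,
    coeff_jqModC_neg_one, mul_one]

/-- the `ℓ + 1` conjugates are pairwise distinct. -/
theorem m37kc_sigma_injective (hℓ : ℓ.Prime) {h₀ : SL(2, ℤ)} (h10 : h₀ 1 0 = (N : ℤ))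
    (h11 : h₀ 1 1 = (ℓ : ℤ)) {ζ : ℂˣ} (hζ : IsPrimitiveRoot (ζ ^ N) ℓ) :
    Function.Injective (m37kc_sigma N ℓ h₀ ζ) := by
  intro i i' h
  have hc : (m37kc_sigma N ℓ h₀ ζ i (heckeBetaBar s24K N ℓ (s24j N))).coeff ((N : ℤ) * (-1))
      = (m37kc_sigma N ℓ h₀ ζ i' (heckeBetaBar s24K N ℓ (s24j N))).coeff ((N : ℤ) * (-1)) := by
    rw [h]
  cases i with
  | none =>
    cases i' with
    | none => rfl
    | some k' =>
      rw [m37kc_sigma_none_coeff hℓ, m37kc_sigma_some_coeff h10 h11] at hc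
      exact absurd hc.symm (Units.ne_zero _)
  | some k =>
    cases i' with
    | none =>
      rw [m37kc_sigma_none_coeff hℓ, m37kc_sigma_some_coeff h10 h11] at hc
      exact absurd hc (Units.ne_zero _)
    | some k' =>
      rw [m37kc_sigma_some_coeff h10 h11, m37kc_sigma_some_coeff h10 h11] at hc
      have h1 : ((ζ ^ N) ^ (k : ℕ)) ^ (-1 : ℤ) = ((ζ ^ N) ^ (k' : ℕ)) ^ (-1 : ℤ) := Units.ext hc
      have h2 : (ζ ^ N) ^ (k : ℕ) = (ζ ^ N) ^ (k' : ℕ) := by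
        rw [zpow_neg_one, zpow_neg_one] at h1
        exact inv_injective h1
      have h3 := hζ.pow_inj k.2 k'.2 h2
      exact congrArg some (Fin.ext h3)

end inj

section main

variable {N ℓ : ℕ} [NeZero N] [NeZero ℓ]

theorem m37kc_coeffMap_injective {R S : Type*} [CommRing R] [CommRing S] (f : R →+* S)
    (hf : Function.Injective f) : Function.Injective (coeffMap f) := by
  intro x y h
  ext n
  apply hf
  have := congrArg (fun z : LaurentSeries S => z.coeff n) h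
  simpa only [coeffMap_coeff] using this

/-- **the norm as a product of `q`-series**, over `ℂ`. -/
theorem m37kc_series_C (hℓ : ℓ.Prime) (hℓN : ¬ ℓ ∣ N) {ζ : ℂˣ} (hζ1 : ζ ^ ℓ = 1)
    (hζ : IsPrimitiveRoot (ζ ^ N) ℓ)
    (hdeg : finrankAlong s24K (heckeAlphaBar s24K N ℓ) = ℓ + 1) (x : s24F N) :
    qExpand ℂ ℓ (coeffMap ana_iota
        ((m37e3_normAlong (heckeAlphaBar s24K N ℓ) (heckeBetaBar s24K N ℓ x) : s24F N) :
          LaurentSeries s24K))
      = qExpand ℂ ℓ (qExpand ℂ ℓ (coeffMap ana_iota (x : LaurentSeries s24K)))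
        * ∏ k : Fin ℓ, cf_twist ((ζ ^ N) ^ (k : ℕ)) (coeffMap ana_iota (x : LaurentSeries s24K)) := by
  obtain ⟨h₀, h10, h11⟩ := m37kc_exists_h0 N ℓ ((Nat.Prime.coprime_iff_not_dvd hℓ).2 hℓN)
  letI := algebraAlong (heckeAlphaBar s24K N ℓ)
  haveI : FiniteDimensional (s24F N) (s24F (N * ℓ)) := m37e0_finite_alpha N ℓ
  haveI : Algebra.IsSeparable (s24F N) (s24F (N * ℓ)) := Algebra.IsSeparable.of_integral _ _
  have hmap : ∀ a : s24F N, algebraMap (s24F N) (s24F (N * ℓ)) a = heckeAlphaBar s24K N ℓ a :=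
    fun a => rfl
  have key := m37kc_norm_eq_prod (K := s24F N) (L := s24F (N * ℓ)) (m37kc_sigma N ℓ h₀ ζ)
    (m37kc_sigma_injective hℓ h10 h11 hζ)
    (by rw [Fintype.card_option, Fintype.card_fin]; exact hdeg.symm)
    (fun i j a => by rw [hmap, m37kc_sigma_alpha h10 hζ1, m37kc_sigma_alpha h10 hζ1])
    none (heckeBetaBar s24K N ℓ x)
  rw [Fintype.prod_option, hmap, m37kc_sigma_alpha h10 hζ1, m37kc_sigma_none_beta] at key
  simp only [m37kc_sigma_some_beta h10 h11] at key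
  rw [← map_prod, ← map_mul,
    ← qExpand_qExpand ℓ N] at key
  exact qExpand_injective N key

/-- **(PF) the norm as a product of `q`-series**, over `ℚ̄`:
`(N (β x)) (q ^ ℓ) = x (q ^ (ℓ ^ 2)) * ∏_{b < ℓ} x (ζ_ℓ ^ b q)`. -/
theorem m37kc_series (hℓ : ℓ.Prime) (hℓN : ¬ ℓ ∣ N) (ζ₂ : s24Kˣ) (hζ₂ : IsPrimitiveRoot ζ₂ ℓ)
    (hdeg : finrankAlong s24K (heckeAlphaBar s24K N ℓ) = ℓ + 1) (x : s24F N) :
    qExpand s24K ℓ
        ((m37e3_normAlong (heckeAlphaBar s24K N ℓ) (heckeBetaBar s24K N ℓ x) : s24F N) :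
          LaurentSeries s24K)
      = qExpand s24K ℓ (qExpand s24K ℓ (x : LaurentSeries s24K))
        * ∏ b ∈ Finset.range ℓ, cf_twist ((ζ₂ ^ N) ^ b) (x : LaurentSeries s24K) := by
  apply m37kc_coeffMap_injective ana_iota ana_iota.injective
  have hζ1 : (Units.map (ana_iota : s24K →* ℂ) ζ₂) ^ ℓ = 1 := by
    rw [← map_pow, hζ₂.pow_eq_one, map_one]
  have hcop : Nat.Coprime N ℓ := ((Nat.Prime.coprime_iff_not_dvd hℓ).2 hℓN).symm
  have hζ : IsPrimitiveRoot ((Units.map (ana_iota : s24K →* ℂ) ζ₂) ^ N) ℓ := by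
    rw [← map_pow]
    exact (hζ₂.pow_of_coprime N hcop).map_of_injective
      (Units.map_injective ana_iota.injective)
  rw [br_coeffMap_qExpand, m37kc_series_C hℓ hℓN hζ1 hζ hdeg x, map_mul, br_coeffMap_qExpand,
    br_coeffMap_qExpand, map_prod, ← Fin.prod_univ_eq_prod_range
      (fun b => coeffMap ana_iota (cf_twist ((ζ₂ ^ N) ^ b) (x : LaurentSeries s24K))) ℓ]
  congr 1
  refine Finset.prod_congr rfl fun k _ => ?_
  rw [m37kc_coeffMap_twist, map_pow, map_pow]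

end main

end Fermat.Agent.M37

end
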