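import Fermat.Agent.M37.KcFormal
import Fermat.Agent.M37.E3Kron

/-!
# M37 (KC-Z): the Kronecker congruence `m37e3_KronF` from the product formula for the norm

`m37kc_kronF_of_series`: if for every `x : F_N` the `q`-expansion of the norm of `β x` along `α`
satisfies `z(t^ℓ) = x(t^{ℓ²}) · ∏_{b<ℓ} x(ζ^b t)`, then the Kronecker congruence in the form
`m37e3_KronF A N ℓ` holds.
-/

set_option autoImplicit false
set_option linter.unusedSectionVars false
set_option linter.unusedVariables false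
set_option linter.style.haveILetI false
set_option synthInstance.maxHeartbeats 400000

noncomputable section

namespace Fermat.Agent.M37

open ModularCurve AlgebraicCurve Fermat.Agent.S24 Fermat.Agent.M18

theorem m37kc_kronF_of_series (A : ValuationSubring m18v_K) (N ℓ : ℕ) [NeZero N] [NeZero ℓ]
    [Fact ℓ.Prime] [CharP (m18v_k A) ℓ]
    (ζ₁ : m18v_Kˣ) (hζ₁ : IsPrimitiveRoot ζ₁ ℓ)
    (hPF : ∀ x : m18v_F N,
      qExpand m18v_K ℓ
          ((m37e3_normAlong (heckeAlphaBar m18v_K N ℓ) (heckeBetaBar m18v_K N ℓ x) : m18v_F N) :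
            LaurentSeries m18v_K)
        = qExpand m18v_K ℓ (qExpand m18v_K ℓ (x : LaurentSeries m18v_K))
          * ∏ b ∈ Finset.range ℓ, cf_twist (ζ₁ ^ b) (x : LaurentSeries m18v_K)) :
    m37e3_KronF A N ℓ := by
  intro x X hX
  have h1 := hPF x
  rw [hX] at h1
  obtain ⟨Z, hZ1, hZ2⟩ := m37kc_formal A ℓ ζ₁ hζ₁ X _ h1
  exact ⟨Z, hZ1, hZ2⟩

end Fermat.Agent.M37

end
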