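import Fermat.Agent.M37.KcFrob

/-!
# M37 (KC): the formal part of the Kronecker congruence

`m37kc_formal`: if a Laurent series `z` over `K` satisfies
`z(t^ℓ) = x(t^{ℓ²}) · ∏_{b<ℓ} x(ζ^b t)` with `x` the image of an integral series `X`
(coefficients in the valuation subring `A`, residue characteristic `ℓ`), then `z` is the image
of an integral series `Z` whose reduction is `X~(q^ℓ) · Frob(X~)`.
-/

set_option autoImplicit false
set_option linter.unusedSectionVars false
set_option linter.unusedVariables false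
set_option linter.style.haveILetI false

noncomputable section

namespace Fermat.Agent.M37

open ModularCurve Fermat.Agent.S24

variable {K : Type*} [Field K]

/-- `qExpand` twice. -/
theorem m37kc_qExpand_qExpand {R : Type*} [CommRing R] (a b : ℕ) [NeZero a] [NeZero b]
    [NeZero (a * b)] (x : LaurentSeries R) :
    qExpand R a (qExpand R b x) = qExpand R (a * b) x := by
  ext n
  by_cases hd : ((a * b : ℕ) : ℤ) ∣ n
  · obtain ⟨c, rfl⟩ := hd
    rw [qExpand_coeff_mul]
    have e : ((a * b : ℕ) : ℤ) * c = (a : ℤ) * ((b : ℤ) * c) := by push_cast; ring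
    rw [e, qExpand_coeff_mul, qExpand_coeff_mul]
  · rw [qExpand_coeff_of_not_dvd _ _ hd]
    by_cases ha : (a : ℤ) ∣ n
    · obtain ⟨c, rfl⟩ := ha
      rw [qExpand_coeff_mul]
      apply qExpand_coeff_of_not_dvd
      intro hb
      apply hd
      obtain ⟨e, rfl⟩ := hb
      exact ⟨e, by push_cast; ring⟩
    · exact qExpand_coeff_of_not_dvd _ _ ha

/-- **formal Kronecker congruence** (nested form of the hypothesis). -/
theorem m37kc_formal (A : ValuationSubring K) (ℓ : ℕ) [Fact ℓ.Prime]
    [CharP (IsLocalRing.ResidueField A) ℓ] (ζ : Kˣ) (hζ : IsPrimitiveRoot ζ ℓ)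
    (X : LaurentSeries A) (z : LaurentSeries K)
    (hz : qExpand K ℓ z = qExpand K ℓ (qExpand K ℓ (coeffMap A.subtype X))
      * ∏ b ∈ Finset.range ℓ, cf_twist (ζ ^ b) (coeffMap A.subtype X)) :
    ∃ Z : LaurentSeries A, z = coeffMap A.subtype Z ∧
      coeffMap (IsLocalRing.residue A) Z
        = qExpand (IsLocalRing.ResidueField A) ℓ (coeffMap (IsLocalRing.residue A) X)
          * coeffMap (frobenius (IsLocalRing.ResidueField A) ℓ)
              (coeffMap (IsLocalRing.residue A) X) := by
  obtain ⟨P, hP1, hP2⟩ := m37kc_prod_twist A ℓ ζ hζ X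
  refine ⟨qExpand A ℓ X * P, ?_, ?_⟩
  · apply qExpand_injective (R := K) ℓ
    rw [hz, ← hP1, map_mul, map_mul, coeffMap_qExpand]
  · rw [map_mul, coeffMap_qExpand, hP2]

/-- **formal Kronecker congruence** (hypothesis with `qExpand (ℓ * ℓ)`). -/
theorem m37kc_formal' (A : ValuationSubring K) (ℓ : ℕ) [Fact ℓ.Prime]
    [CharP (IsLocalRing.ResidueField A) ℓ] [NeZero (ℓ * ℓ)] (ζ : Kˣ) (hζ : IsPrimitiveRoot ζ ℓ)
    (X : LaurentSeries A) (z : LaurentSeries K)
    (hz : qExpand K ℓ z = qExpand K (ℓ * ℓ) (coeffMap A.subtype X)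
      * ∏ b ∈ Finset.range ℓ, cf_twist (ζ ^ b) (coeffMap A.subtype X)) :
    ∃ Z : LaurentSeries A, z = coeffMap A.subtype Z ∧
      coeffMap (IsLocalRing.residue A) Z
        = qExpand (IsLocalRing.ResidueField A) ℓ (coeffMap (IsLocalRing.residue A) X)
          * coeffMap (frobenius (IsLocalRing.ResidueField A) ℓ)
              (coeffMap (IsLocalRing.residue A) X) := by
  apply m37kc_formal A ℓ ζ hζ X z
  rw [hz, m37kc_qExpand_qExpand]

end Fermat.Agent.M37

end
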