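import Mathlib
import Fermat.Agent.M37.KcFam
import Fermat.Agent.M37.KcFormal
import Fermat.Agent.M37.E3Kron
import Fermat.Agent.S24.SymGen
import Fermat.Agent.S24.DegMain
import Fermat.Agent.S24.MGCard
import Fermat.Agent.S24.AnaEv
import Fermat.Agent.M18.N1Gen

/-!
# M37 (S37 project), block (E3-c): the Kronecker congruence

Owner helper2, prefix `m37kc_`.

* `m37kc_psi` : `[F_M : ℚ̄(j)] = ψ(M)` for every level `M`;
* `m37kc_degree_alpha` : `[F_{Nℓ} : α F_N] = ℓ + 1` for a prime `ℓ ∤ N`;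
* `m37kc_main` : **the Kronecker congruence** `m37e3_KronF A N ℓ`: for `x ∈ F_N` with an integral
  `q`-expansion `X`, the norm of `β x = x (q ^ ℓ)` along `α` has an integral `q`-expansion `Z`
  with `Z~ = X~ (q ^ ℓ) * Frob (X~)`.
-/

set_option autoImplicit false
set_option linter.unusedSectionVars false
set_option linter.unusedVariables false
set_option linter.style.haveILetI false
set_option synthInstance.maxHeartbeats 400000
set_option maxHeartbeats 1600000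

noncomputable section

namespace Fermat.Agent.M37

open ModularCurve AlgebraicCurve IntermediateField
open Fermat.Agent.S24 Fermat.Agent.M18

/-- `[F_M : ℚ̄(j)] = ψ(M)`. -/
theorem m37kc_psi (M : ℕ) [NeZero M] :
    Module.finrank s24K⟮s24j M⟯ (s24F M) = dedekindPsi M := by
  haveI := deg_finiteDimensional M
  rw [sym_finrank_eq (s24j M) (ana_rho M) (ana_rho_injective M) (ana_rho_x M) (ana_rho_K M)
    (deg_finrank_le M), ← Nat.card_eq_fintype_card, mg_card]

/-- `[F_{Nℓ} : α F_N] = ℓ + 1`. -/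
theorem m37kc_degree_alpha (N ℓ : ℕ) [NeZero N] [NeZero ℓ] (hℓ : ℓ.Prime) (hℓN : ¬ ℓ ∣ N) :
    finrankAlong s24K (heckeAlphaBar s24K N ℓ) = ℓ + 1 := by
  letI := algebraAlong (heckeAlphaBar s24K N ℓ)
  haveI := isScalarTower_along (heckeAlphaBar s24K N ℓ)
  have h := m18n1_finrank_mul' (K := s24K) (s24j N) (s24j (N * ℓ)) (m37e0_alpha_j N ℓ)
  have hcop : Nat.Coprime N ℓ := ((Nat.Prime.coprime_iff_not_dvd hℓ).2 hℓN).symm
  have hψℓ : dedekindPsi ℓ = ℓ + 1 := by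
    have := mgc_psi_prime_pow hℓ (e := 1) one_pos
    simpa using this
  rw [m37kc_psi, m37kc_psi, mgc_psi_mul hcop, hψℓ] at h
  have hpos : 0 < dedekindPsi N := by
    rw [← m37kc_psi N]
    haveI := deg_finiteDimensional N
    exact Module.finrank_pos
  exact Nat.eq_of_mul_eq_mul_left hpos h

/-- the Kronecker congruence, from the degree. -/
theorem m37kc_main_of_deg {A : ValuationSubring m18v_K} {N ℓ : ℕ} [NeZero N] [NeZero ℓ]
    [Fact ℓ.Prime] [CharP (m18v_k A) ℓ] (hℓN : ¬ ℓ ∣ N)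
    (hdeg : finrankAlong s24K (heckeAlphaBar s24K N ℓ) = ℓ + 1) : m37e3_KronF A N ℓ := by
  intro x X hX
  have hℓ : ℓ.Prime := Fact.out
  obtain ⟨ζ, hζ⟩ := HasEnoughRootsOfUnity.exists_primitiveRoot s24K ℓ
  have hu : IsUnit ζ := hζ.isUnit hℓ.ne_zero
  obtain ⟨ζ₂, rfl⟩ := hu
  have hζ₂ : IsPrimitiveRoot ζ₂ ℓ := IsPrimitiveRoot.coe_units_iff.1 hζ
  have hcop : Nat.Coprime N ℓ := ((Nat.Prime.coprime_iff_not_dvd hℓ).2 hℓN).symm
  have hPF := m37kc_series hℓ hℓN ζ₂ hζ₂ hdeg x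
  rw [hX] at hPF
  exact m37kc_formal A ℓ (ζ₂ ^ N) (hζ₂.pow_of_coprime N hcop) X _ hPF

/-- **(E3-c) the Kronecker congruence.** -/
theorem m37kc_main {A : ValuationSubring m18v_K} {N ℓ : ℕ} [NeZero N] [NeZero ℓ]
    [Fact ℓ.Prime] [CharP (m18v_k A) ℓ] (hℓN : ¬ ℓ ∣ N) : m37e3_KronF A N ℓ :=
  m37kc_main_of_deg hℓN (m37kc_degree_alpha N ℓ Fact.out hℓN)

end Fermat.Agent.M37

end
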