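import Fermat.Agent.M37.RhoInt
import Fermat.Agent.M18.DifPlaceW

/-!
# M37 / (E1), part 5: the specialisation map on a chart

`P` a place of `F` in the chart of `x` (`x(P) ∈ A`).  The set
`𝔫_P = {red f | f ∈ B₀, f(P) ∈ 𝔪_A}` is a nonzero prime ideal of
`B~₀ = integral closure of k[red x]` in `Fk`; `m37r_rho0 R C P hP` is its place.

* `m37r_sq3` : `red B₀ ⊆ B~₀`;
* `m37r_ideal`, `m37r_mem_ideal_iff`, `m37r_ideal_isPrime`, `m37r_ideal_ne_bot`;
* `m37r_rho0`, `m37r_rho0_ord_nonneg`, `m37r_rho0_pos_iff` (evaluation commutes with reduction).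

Owner helper3, prefix `m37r_`.
-/

set_option autoImplicit false
set_option linter.deprecated false
set_option linter.style.haveILetI false
set_option linter.unusedSectionVars false
set_option linter.unusedVariables false
set_option linter.overlappingInstances false

noncomputable section

namespace Fermat.Agent.M37

open AlgebraicCurve IntermediateField Polynomial IsDedekindDomain
open Fermat.Agent.S24 Fermat.Agent.M18
open scoped IntermediateField.algebraAdjoinAdjoin

section chart

variable {K F Fk : Type*} [Field K] [Field F] [Algebra K F] [IsAlgClosed K]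
  {A : ValuationSubring K} [Field Fk] [Algebra (IsLocalRing.ResidueField A) Fk]
  [IsAlgClosed (IsLocalRing.ResidueField A)]
  {I : F → Prop} {red : F → Fk} (R : m37r_Red A I red) {x : F} (C : m37r_Chart A I red x)
  [FiniteDimensional K⟮x⟯ F] [Algebra.IsSeparable K⟮x⟯ F]
  [FiniteDimensional (IsLocalRing.ResidueField A)⟮red x⟯ Fk]
  [Algebra.IsSeparable (IsLocalRing.ResidueField A)⟮red x⟯ Fk]

/-- `P` lies in the chart of `x`: `x` is regular at `P` with value in `A`. -/
def m37r_InChart (A : ValuationSubring K) (x : F) [FiniteDimensional K⟮x⟯ F] (P : Place K F) :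
    Prop :=
  0 ≤ P.ord x ∧ A.valuation (m37r_ev x P x) ≤ 1

include R C in
/-- **(SQ3)**: `red B₀ ⊆ B~₀`. -/
theorem m37r_sq3 {f : F} (hI : I f) (hf : IsIntegral (Algebra.adjoin K ({x} : Set F)) f) :
    IsIntegral (Algebra.adjoin (IsLocalRing.ResidueField A) ({red x} : Set Fk)) (red f) :=
  m18sq_sq3_abs A (IsLocalRing.residue A) I red R.h1 R.h0 R.hadd R.hmul R.hconst R.hunit R.hA
    R.hcont x C.hxI C.hxt C.hx C.hcoef f hI hf

/-- the ideal `𝔫_P` of `B~₀`. -/
def m37r_ideal (P : Place K F) (hP : m37r_InChart A x P) :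
    Ideal (integralClosure (Algebra.adjoin (IsLocalRing.ResidueField A) ({red x} : Set Fk)) Fk)
    where
  carrier := {b | ∃ f, I f ∧ IsIntegral (Algebra.adjoin K ({x} : Set F)) f ∧ red f = (b : Fk) ∧
    A.valuation (m37r_ev x P f) < 1}
  add_mem' := by
    rintro b b' ⟨f, hI, hf, hfb, hv⟩ ⟨f', hI', hf', hfb', hv'⟩
    refine ⟨f + f', (R.hadd _ _ hI hI').1, hf.add hf', ?_, ?_⟩
    · rw [(R.hadd _ _ hI hI').2, hfb, hfb']
      rfl
    · rw [m37r_ev_add x P (m37r_mem_of_integral C hf P hP.1) (m37r_mem_of_integral C hf' P hP.1)]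
      exact lt_of_le_of_lt (Valuation.map_add _ _ _) (max_lt hv hv')
  zero_mem' := ⟨0, R.h0.1, isIntegral_zero, by rw [R.h0.2]; rfl, by
    rw [m37r_ev_zero, map_zero]; exact zero_lt_one⟩
  smul_mem' := by
    rintro c b ⟨f, hI, hf, hfb, hv⟩
    obtain ⟨g, hgI, hg, hgc⟩ := C.hsq7 (c : Fk) c.2
    refine ⟨g * f, (R.hmul _ _ hgI hI).1, hg.mul hf, ?_, ?_⟩
    · rw [(R.hmul _ _ hgI hI).2, hgc, hfb]
      rfl
    · rw [m37r_ev_mul x P (m37r_mem_of_integral C hg P hP.1) (m37r_mem_of_integral C hf P hP.1),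
        map_mul]
      have h2 := m37r_val_le_one R C hgI hg P hP.1 hP.2
      calc A.valuation (m37r_ev x P g) * A.valuation (m37r_ev x P f)
          ≤ 1 * A.valuation (m37r_ev x P f) := mul_le_mul_left h2 _
        _ = A.valuation (m37r_ev x P f) := one_mul _
        _ < 1 := hv

theorem m37r_mem_ideal (P : Place K F) (hP : m37r_InChart A x P)
    (b : integralClosure (Algebra.adjoin (IsLocalRing.ResidueField A) ({red x} : Set Fk)) Fk) :
    b ∈ m37r_ideal R C P hP ↔
      ∃ f, I f ∧ IsIntegral (Algebra.adjoin K ({x} : Set F)) f ∧ red f = (b : Fk) ∧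
        A.valuation (m37r_ev x P f) < 1 := Iff.rfl

/-- membership in `𝔫_P` can be tested on any lift. -/
theorem m37r_mem_ideal_iff (P : Place K F) (hP : m37r_InChart A x P)
    (b : integralClosure (Algebra.adjoin (IsLocalRing.ResidueField A) ({red x} : Set Fk)) Fk)
    {f : F} (hI : I f) (hf : IsIntegral (Algebra.adjoin K ({x} : Set F)) f)
    (hfb : red f = (b : Fk)) :
    b ∈ m37r_ideal R C P hP ↔ A.valuation (m37r_ev x P f) < 1 := by
  constructor
  · rintro ⟨f', hI', hf', hfb', hv'⟩
    exact m37r_val_lt_one_congr R C hI' hI hf' hf (hfb'.trans hfb.symm) P hP.1 hP.2 hv'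
  · intro hv
    exact ⟨f, hI, hf, hfb, hv⟩

theorem m37r_ideal_isPrime (P : Place K F) (hP : m37r_InChart A x P) :
    (m37r_ideal R C P hP).IsPrime := by
  refine ⟨?_, ?_⟩
  · rw [Ne, Ideal.eq_top_iff_one]
    intro h1
    have := (m37r_mem_ideal_iff R C P hP 1 R.h1.1 isIntegral_one (by rw [R.h1.2]; rfl)).1 h1
    rw [m37r_ev_one, map_one] at this
    exact lt_irrefl _ this
  · intro b b' hbb'
    obtain ⟨g, hgI, hg, hgb⟩ := C.hsq7 (b : Fk) b.2
    obtain ⟨g', hgI', hg', hgb'⟩ := C.hsq7 (b' : Fk) b'.2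
    have h := (m37r_mem_ideal_iff R C P hP (b * b') (R.hmul _ _ hgI hgI').1 (hg.mul hg')
      (by rw [(R.hmul _ _ hgI hgI').2, hgb, hgb']; rfl)).1 hbb'
    rw [m37r_ev_mul x P (m37r_mem_of_integral C hg P hP.1) (m37r_mem_of_integral C hg' P hP.1),
      map_mul] at h
    by_contra hcon
    push Not at hcon
    have h1 : ¬ A.valuation (m37r_ev x P g) < 1 := fun hv =>
      hcon.1 ((m37r_mem_ideal_iff R C P hP b hgI hg hgb).2 hv)
    have h2 : ¬ A.valuation (m37r_ev x P g') < 1 := fun hv =>
      hcon.2 ((m37r_mem_ideal_iff R C P hP b' hgI' hg' hgb').2 hv)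
    have e1 : A.valuation (m37r_ev x P g) = 1 :=
      le_antisymm (m37r_val_le_one R C hgI hg P hP.1 hP.2) (not_lt.mp h1)
    have e2 : A.valuation (m37r_ev x P g') = 1 :=
      le_antisymm (m37r_val_le_one R C hgI' hg' P hP.1 hP.2) (not_lt.mp h2)
    rw [e1, e2, one_mul] at h
    exact lt_irrefl _ h

theorem m37r_ideal_ne_bot (P : Place K F) (hP : m37r_InChart A x P) :
    m37r_ideal R C P hP ≠ ⊥ := by
  have haA : m37r_ev x P x ∈ A := (A.valuation_le_one_iff _).1 hP.2
  set a' : A := ⟨m37r_ev x P x, haA⟩ with ha'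
  have hxP : x ∈ P.toValuationSubring := alga_mem_of_ord_nonneg P hP.1
  have h1 := m37r_sub R C.hxI (R.hconst a').1
  have hint : IsIntegral (Algebra.adjoin K ({x} : Set F)) (x - algebraMap K F (a' : K)) :=
    (m37r_isIntegral_self x).sub (m37r_isIntegral_const x _)
  have hmem : (⟨red (x - algebraMap K F (a' : K)), m37r_sq3 R C h1.1 hint⟩ :
      integralClosure (Algebra.adjoin (IsLocalRing.ResidueField A) ({red x} : Set Fk)) Fk)
      ∈ m37r_ideal R C P hP := by
    refine ⟨x - algebraMap K F (a' : K), h1.1, hint, rfl, ?_⟩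
    rw [m37r_ev_sub x P hxP (P.algebraMap_mem' _), m37r_ev_const]
    show A.valuation (m37r_ev x P x - m37r_ev x P x) < 1
    rw [sub_self, map_zero]
    exact zero_lt_one
  intro hbot
  rw [hbot, Ideal.mem_bot] at hmem
  have h2 := congrArg Subtype.val hmem
  have h3 : red (x - algebraMap K F (a' : K)) = 0 := h2
  rw [h1.2, (R.hconst a').2, sub_eq_zero] at h3
  exact C.hxt (h3 ▸ isAlgebraic_algebraMap _)

/-- the height one prime `𝔫_P`. -/
def m37r_w (P : Place K F) (hP : m37r_InChart A x P) :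
    HeightOneSpectrum
      (integralClosure (Algebra.adjoin (IsLocalRing.ResidueField A) ({red x} : Set Fk)) Fk) :=
  ⟨m37r_ideal R C P hP, m37r_ideal_isPrime R C P hP, m37r_ideal_ne_bot R C P hP⟩

/-- **the specialisation of a place of the chart.** -/
def m37r_rho0 (P : Place K F) (hP : m37r_InChart A x P) :
    Place (IsLocalRing.ResidueField A) Fk :=
  haveI : IsDedekindDomain
      (integralClosure (Algebra.adjoin (IsLocalRing.ResidueField A) ({red x} : Set Fk)) Fk) :=
    (m18dif_inst (red x) C.hxt).2.1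
  haveI : IsFractionRing
      (integralClosure (Algebra.adjoin (IsLocalRing.ResidueField A) ({red x} : Set Fk)) Fk) Fk :=
    (m18dif_inst (red x) C.hxt).2.2.1
  Place.ofHeightOneSpectrum (K := IsLocalRing.ResidueField A) (F := Fk) (m37r_w R C P hP)

/-- elements of `B~₀` are regular at the specialisation. -/
theorem m37r_rho0_ord_nonneg (P : Place K F) (hP : m37r_InChart A x P) {b : Fk}
    (hb : IsIntegral (Algebra.adjoin (IsLocalRing.ResidueField A) ({red x} : Set Fk)) b) :
    0 ≤ (m37r_rho0 R C P hP).ord b := by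
  haveI : IsDedekindDomain
      (integralClosure (Algebra.adjoin (IsLocalRing.ResidueField A) ({red x} : Set Fk)) Fk) :=
    (m18dif_inst (red x) C.hxt).2.1
  haveI : IsFractionRing
      (integralClosure (Algebra.adjoin (IsLocalRing.ResidueField A) ({red x} : Set Fk)) Fk) Fk :=
    (m18dif_inst (red x) C.hxt).2.2.1
  exact m18dif_ord_nonneg (K := IsLocalRing.ResidueField A) (F := Fk) (m37r_w R C P hP)
    (⟨b, hb⟩ : integralClosure
      (Algebra.adjoin (IsLocalRing.ResidueField A) ({red x} : Set Fk)) Fk)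

/-- **evaluation commutes with reduction**: for `f ∈ B₀`, `red f` vanishes at the specialisation
of `P` iff `f(P) ∈ 𝔪_A`. -/
theorem m37r_rho0_pos_iff (P : Place K F) (hP : m37r_InChart A x P) {f : F} (hI : I f)
    (hf : IsIntegral (Algebra.adjoin K ({x} : Set F)) f) :
    (red f = 0 ∨ 0 < (m37r_rho0 R C P hP).ord (red f)) ↔ A.valuation (m37r_ev x P f) < 1 := by
  haveI : IsDedekindDomain
      (integralClosure (Algebra.adjoin (IsLocalRing.ResidueField A) ({red x} : Set Fk)) Fk) :=
    (m18dif_inst (red x) C.hxt).2.1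
  haveI : IsFractionRing
      (integralClosure (Algebra.adjoin (IsLocalRing.ResidueField A) ({red x} : Set Fk)) Fk) Fk :=
    (m18dif_inst (red x) C.hxt).2.2.1
  have hb := m37r_sq3 R C hI hf
  have h := m18dif_mem_iff (K := IsLocalRing.ResidueField A) (F := Fk) (m37r_w R C P hP)
    (⟨red f, hb⟩ : integralClosure
      (Algebra.adjoin (IsLocalRing.ResidueField A) ({red x} : Set Fk)) Fk)
  rw [← m37r_mem_ideal_iff R C P hP ⟨red f, hb⟩ hI hf rfl]
  have e : (⟨red f, hb⟩ : integralClosure
      (Algebra.adjoin (IsLocalRing.ResidueField A) ({red x} : Set Fk)) Fk) = 0 ↔ red f = 0 := by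
    constructor
    · intro h0
      exact congrArg Subtype.val h0
    · intro h0
      exact Subtype.ext h0
  rw [← e]
  exact h.symm

end chart

end Fermat.Agent.M37

end
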