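import Fermat.Agent.M37.RhoVal

/-!
# M37 / (E1), part 2: the total value function of a place

`m37r_ev x v f : K` is the value of `f` at the place `v` if `f` is regular at `v` (and `0`
otherwise); ring-homomorphism properties on the regular elements.

Owner helper3, prefix `m37r_`.
-/

set_option autoImplicit false
set_option linter.deprecated false
set_option linter.style.haveILetI false
set_option linter.unusedSectionVars false
set_option linter.unusedVariables false

noncomputable section

namespace Fermat.Agent.M37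

open AlgebraicCurve IntermediateField Polynomial Fermat.Agent.S24 Fermat.Agent.M18

section ev

variable {K F : Type*} [Field K] [Field F] [Algebra K F] [IsAlgClosed K]

open Classical in
/-- the value of `f` at `v` (`0` if `f` has a pole). -/
def m37r_ev (x : F) [FiniteDimensional K⟮x⟯ F] (v : Place K F) (f : F) : K :=
  if h : f ∈ v.toValuationSubring then m37r_val x v ⟨f, h⟩ else 0

variable (x : F) [FiniteDimensional K⟮x⟯ F] (v : Place K F)

theorem m37r_ev_of_mem {f : F} (h : f ∈ v.toValuationSubring) :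
    m37r_ev x v f = m37r_val x v ⟨f, h⟩ := by
  unfold m37r_ev
  rw [dif_pos h]

theorem m37r_ev_add {f g : F} (hf : f ∈ v.toValuationSubring) (hg : g ∈ v.toValuationSubring) :
    m37r_ev x v (f + g) = m37r_ev x v f + m37r_ev x v g := by
  rw [m37r_ev_of_mem x v hf, m37r_ev_of_mem x v hg,
    m37r_ev_of_mem x v (v.toValuationSubring.add_mem _ _ hf hg), ← map_add]
  rfl

theorem m37r_ev_mul {f g : F} (hf : f ∈ v.toValuationSubring) (hg : g ∈ v.toValuationSubring) :
    m37r_ev x v (f * g) = m37r_ev x v f * m37r_ev x v g := by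
  rw [m37r_ev_of_mem x v hf, m37r_ev_of_mem x v hg,
    m37r_ev_of_mem x v (v.toValuationSubring.mul_mem _ _ hf hg), ← map_mul]
  rfl

theorem m37r_ev_const (a : K) : m37r_ev x v (algebraMap K F a) = a := by
  rw [m37r_ev_of_mem x v (v.algebraMap_mem' a)]
  exact m37r_val_const x v a _

theorem m37r_ev_zero : m37r_ev x v (0 : F) = 0 := by
  have := m37r_ev_const x v (0 : K)
  rwa [map_zero] at this

theorem m37r_ev_one : m37r_ev x v (1 : F) = 1 := by
  have := m37r_ev_const x v (1 : K)
  rwa [map_one] at this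

theorem m37r_ev_neg {f : F} (hf : f ∈ v.toValuationSubring) :
    m37r_ev x v (-f) = -m37r_ev x v f := by
  have h1 : -f = algebraMap K F (-1) * f := by rw [map_neg, map_one, neg_one_mul]
  rw [h1, m37r_ev_mul x v (v.algebraMap_mem' _) hf, m37r_ev_const, neg_one_mul]

theorem m37r_ev_sub {f g : F} (hf : f ∈ v.toValuationSubring) (hg : g ∈ v.toValuationSubring) :
    m37r_ev x v (f - g) = m37r_ev x v f - m37r_ev x v g := by
  rw [sub_eq_add_neg, m37r_ev_add x v hf (v.toValuationSubring.neg_mem _ hg),
    m37r_ev_neg x v hg, sub_eq_add_neg]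

theorem m37r_ev_pow {f : F} (hf : f ∈ v.toValuationSubring) (n : ℕ) :
    m37r_ev x v (f ^ n) = m37r_ev x v f ^ n := by
  induction n with
  | zero => rw [pow_zero, pow_zero, m37r_ev_one]
  | succ n ih =>
    rw [pow_succ, pow_succ, m37r_ev_mul x v (v.toValuationSubring.pow_mem hf n) hf, ih]

theorem m37r_ev_sum {ι : Type*} (s : Finset ι) (f : ι → F)
    (hf : ∀ i ∈ s, f i ∈ v.toValuationSubring) :
    m37r_ev x v (∑ i ∈ s, f i) = ∑ i ∈ s, m37r_ev x v (f i) := by
  classical
  induction s using Finset.induction_on with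
  | empty => simp [m37r_ev_zero]
  | insert a s ha ih =>
    rw [Finset.sum_insert ha, Finset.sum_insert ha,
      m37r_ev_add x v (hf a (Finset.mem_insert_self a s))
        (v.toValuationSubring.sum_mem fun i hi => hf i (Finset.mem_insert_of_mem hi)),
      ih fun i hi => hf i (Finset.mem_insert_of_mem hi)]

theorem m37r_ev_prod {ι : Type*} (s : Finset ι) (f : ι → F)
    (hf : ∀ i ∈ s, f i ∈ v.toValuationSubring) :
    m37r_ev x v (∏ i ∈ s, f i) = ∏ i ∈ s, m37r_ev x v (f i) := by
  classical
  induction s using Finset.induction_on with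
  | empty => simp [m37r_ev_one]
  | insert a s ha ih =>
    rw [Finset.prod_insert ha, Finset.prod_insert ha,
      m37r_ev_mul x v (hf a (Finset.mem_insert_self a s))
        (v.toValuationSubring.prod_mem fun i hi => hf i (Finset.mem_insert_of_mem hi)),
      ih fun i hi => hf i (Finset.mem_insert_of_mem hi)]

/-- the value of `f` is `b` iff `f - b` vanishes at `v`. -/
theorem m37r_ev_eq_iff {f : F} (hf : f ∈ v.toValuationSubring) (b : K) :
    m37r_ev x v f = b ↔ f = algebraMap K F b ∨ 0 < v.ord (f - algebraMap K F b) := by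
  rw [m37r_ev_of_mem x v hf, m37r_val_eq_iff]

theorem m37r_ev_eq_zero_iff {f : F} (hf : f ∈ v.toValuationSubring) :
    m37r_ev x v f = 0 ↔ f = 0 ∨ 0 < v.ord f := by
  rw [m37r_ev_eq_iff x v hf, map_zero, sub_zero]

theorem m37r_ev_ne_zero_iff {f : F} (hf : f ∈ v.toValuationSubring) :
    m37r_ev x v f ≠ 0 ↔ f ≠ 0 ∧ v.ord f = 0 := by
  rw [m37r_ev_of_mem x v hf]
  exact m37r_val_ne_zero_iff x v ⟨f, hf⟩

/-- `f - f(v)` vanishes at `v`. -/
theorem m37r_ev_spec {f : F} (hf : f ∈ v.toValuationSubring) :
    f = algebraMap K F (m37r_ev x v f) ∨ 0 < v.ord (f - algebraMap K F (m37r_ev x v f)) :=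
  (m37r_ev_eq_iff x v hf _).1 rfl

/-- values of polynomials. -/
theorem m37r_ev_aeval {y : F} (hy : y ∈ v.toValuationSubring) (Q : K[X]) :
    aeval y Q ∈ v.toValuationSubring ∧ m37r_ev x v (aeval y Q) = aeval (m37r_ev x v y) Q := by
  induction Q using Polynomial.induction_on' with
  | add p q hp hq =>
    rw [map_add, map_add]
    exact ⟨v.toValuationSubring.add_mem _ _ hp.1 hq.1, by
      rw [m37r_ev_add x v hp.1 hq.1, hp.2, hq.2]⟩
  | monomial n a =>
    rw [aeval_monomial, aeval_monomial]
    have h1 := v.algebraMap_mem' a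
    have h2 := v.toValuationSubring.pow_mem hy n
    refine ⟨v.toValuationSubring.mul_mem _ _ h1 h2, ?_⟩
    rw [m37r_ev_mul x v h1 h2, m37r_ev_const, m37r_ev_pow x v hy]
    rfl

/-- a regular function with nonzero value has a regular inverse. -/
theorem m37r_inv_mem {f : F} (hf : f ∈ v.toValuationSubring) (h : m37r_ev x v f ≠ 0) :
    f⁻¹ ∈ v.toValuationSubring := by
  have h2 := (m37r_ev_ne_zero_iff x v hf).1 h
  apply alga_mem_of_ord_nonneg
  rw [Place.ord_inv, h2.2]
  simp

end ev

end Fermat.Agent.M37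

end
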