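import Fermat.Agent.M37.RhoInst
import Fermat.Agent.M37.HlocRR
import Fermat.Agent.M37.DscMain
import Fermat.Agent.M18.Sq6Main

/-!
# M37 / (E1): the reduction inputs of `X₀(N)` at a prime `ℓ ∤ N`

* `m37r_hloc_X0` : (H-loc) for the specialisation map `m37r_rhoX0` at a level `N'` divisible by
  `4` or `9` (Riemann–Roch dimension count `m37hl_hloc` + (R1) `m37r_R1_X0` + the lattice
  surjectivity `m18sq_orth_surj'` + the genus inequality `m18sq6_main`);
* `m37r_inputs_lvl` : `ReductionInputsModL A N'`;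
* `m37r_inputs` : `ReductionInputsModL A N` for every level `N` prime to `ℓ` (descent
  `m37dsc_descent`);
* `m37r_E1` : the leaf (E1) of `m37fr_result` / `m37top_result`.

Owner helper3, prefix `m37r_`.
-/

set_option autoImplicit false
set_option synthInstance.maxHeartbeats 400000
set_option maxHeartbeats 1600000
set_option linter.deprecated false
set_option linter.style.haveILetI false
set_option linter.unusedSectionVars false
set_option linter.unusedVariables false
set_option linter.overlappingInstances false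

noncomputable section

namespace Fermat.Agent.M37

open AlgebraicCurve IntermediateField Polynomial ModularCurve Module
open Fermat.Agent.S20 Fermat.Agent.S24 Fermat.Agent.M18

section level

variable {A : ValuationSubring m18v_K} {ℓ : ℕ} [Fact ℓ.Prime] {M : ℕ} [NeZero M]

/-- **(H-loc)** at a level divisible by `4` or `9`. -/
theorem m37r_hloc_X0 (hA : A.LiesOverPrime ℓ) (hM : 4 ∣ M ∨ 9 ∣ M) (hℓ : ¬ ℓ ∣ M)
    (y : s24F M) (hy : m18v_Int A M y) (hyt : m18sq_red (m18sq_dec hA hℓ) y ≠ 0)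
    (D : Divisor m18v_K (s24F M)) (hD : ∀ P, D P = P.ord y)
    (Q : Place (m18v_k A) (m18v_Ft A M)) :
    Finsupp.mapDomain (m37r_rhoX0 hA hM hℓ) D Q = Q.ord (m18sq_red (m18sq_dec hA hℓ) y) := by
  haveI : IsAlgClosed (m18v_k A) := m18sq_isAlgClosed A
  haveI := m37r_fd_bar M
  haveI := m37r_sep_bar M
  haveI := m18cusp_finiteDimensional_res (A := A) (M := M) hA hℓ
  haveI := m18cusp_isSeparable_res (A := A) (M := M) hA hℓ
  have hy0 : y ≠ 0 := by
    rintro rfl
    exact hyt (m18sq_red_zero _)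
  exact m37hl_hloc (s24j M) (ana_transcendental M) (m18sq_jt A M) m18sq_jt_transcendental
    (m18sq6_main A hA M hM hℓ) (m18v_Int A M) (m18sq_red (m18sq_dec hA hℓ))
    (fun y z hy hz => ⟨m18v_Int_mul hy hz, m18sq_red_mul _ hy hz⟩)
    (m37r_rhoX0 hA hM hℓ) (m37r_R1_X0 hA hM hℓ)
    (fun V _ Wt _ hred hle b hb => m37r_surj_X0 hA hℓ V Wt hred hle b hb)
    y hy0 hy hyt D hD Q

/-- the specialisation map of `X₀(N')` is a place reduction in the sense of the prelude. -/
theorem m37r_isPlaceReduction (hA : A.LiesOverPrime ℓ) (hM : 4 ∣ M ∨ 9 ∣ M) (hℓ : ¬ ℓ ∣ M) :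
    IsPlaceReductionModL A M (m37r_rhoX0 hA hM hℓ) := by
  haveI : IsAlgClosed (m18v_k A) := m18sq_isAlgClosed A
  haveI := m37r_fd_bar M
  haveI := m18cusp_finiteDimensional_res (A := A) (M := M) hA hℓ
  refine ⟨fun P => ?_, ?_⟩
  · rw [m18rr_deg_eq_one (K := m18v_k A) (m18sq_jt A M) _,
      m18rr_deg_eq_one (K := m18v_K) (s24j M) P]
  · intro y hy hyk hne D hD Q
    have hI : m18v_Int A M (⟨coeffMap A.subtype y, hy⟩ : s24F M) :=
      m18v_Int_of_incl (X := y) rfl
    have hred : m18sq_red (m18sq_dec hA hℓ) (⟨coeffMap A.subtype y, hy⟩ : s24F M)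
        = ⟨coeffMap (IsLocalRing.residue A) y, hyk⟩ :=
      Subtype.ext (m18v_redL_of_incl (X := y) rfl)
    have h := m37r_hloc_X0 hA hM hℓ (⟨coeffMap A.subtype y, hy⟩ : s24F M) hI (by
      rw [hred]
      intro h0
      exact hne (congrArg Subtype.val h0)) D hD Q
    rw [hred] at h
    exact h

/-- **the reduction inputs at a level divisible by `4` or `9`.** -/
theorem m37r_inputs_lvl (hA : A.LiesOverPrime ℓ) (hM : 4 ∣ M ∨ 9 ∣ M) (hℓ : ¬ ℓ ∣ M) :
    ReductionInputsModL A M :=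
  ⟨m37r_rhoX0 hA hM hℓ, m37r_isPlaceReduction hA hM hℓ, m37dsc_hgen (m18sq_dec hA hℓ)⟩

end level

/-- **(E1)** the reduction inputs of `X₀(N)` at every prime `ℓ ∤ N`. -/
theorem m37r_inputs (N : ℕ) [NeZero N] {ℓ : ℕ} [Fact ℓ.Prime] (hℓN : ¬ ℓ ∣ N)
    (A : ValuationSubring (AlgebraicClosure ℚ)) (hA : A.LiesOverPrime ℓ) :
    ModularCurve.ReductionInputsModL A N := by
  obtain ⟨N', hN'0, hNN', hℓ', hN'⟩ := m18sq6_exists_level ℓ N hℓN
  haveI : NeZero N' := ⟨hN'0⟩
  exact m37dsc_descent hA hNN' hN' hℓ' (m37r_inputs_lvl hA hN' hℓ')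

/-- **(E1)** in the shape of the hypothesis of `m37fr_result`. -/
theorem m37r_E1 (N : ℕ) [NeZero N] :
    ∀ ℓ : ℕ, ℓ.Prime → ¬ ℓ ∣ N → ∀ A : ValuationSubring (AlgebraicClosure ℚ),
      A.LiesOverPrime ℓ → ModularCurve.ReductionInputsModL A N := by
  intro ℓ hℓ hℓN A hA
  haveI : Fact ℓ.Prime := ⟨hℓ⟩
  exact m37r_inputs N hℓN A hA

end Fermat.Agent.M37

end
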