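import Fermat.Agent.M37.RhoTwo
import Fermat.Agent.M18.SqInt3
import Fermat.Agent.M18.VLift2
import Fermat.Agent.M18.SqLat3

/-!
# M37 / (E1), part 8: the instance at a level `N'` divisible by `4` or `9`

* `m37r_red_inst` : the Gauss reduction of `F_M` (any level `M` prime to `ℓ`) is an `m37r_Red`;
* `m37r_chart_j`, `m37r_chart_jinv` : the coordinates `j`, `j⁻¹` at a level `N'` divisible by `4`
  or `9` (SQ7 = `m18v_sq7`, `m18v_sq7_inv`);
* `m37r_rhoX0 hA N' hN' hℓ` : the specialisation map of `X₀(N')`;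
* `m37r_R1_X0` : poles specialise to poles.

Owner helper3, prefix `m37r_`.
-/

set_option autoImplicit false
set_option synthInstance.maxHeartbeats 400000
set_option maxHeartbeats 1600000
set_option linter.deprecated false
set_option linter.style.haveILetI false
set_option linter.unusedSectionVars false
set_option linter.unusedVariables false
set_option linter.overlappingInstances false

noncomputable section

namespace Fermat.Agent.M37

open AlgebraicCurve IntermediateField Polynomial ModularCurve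
open Fermat.Agent.S20 Fermat.Agent.S24 Fermat.Agent.M18
open scoped IntermediateField.algebraAdjoinAdjoin

variable {A : ValuationSubring m18v_K} {ℓ : ℕ} [Fact ℓ.Prime] {M : ℕ} [NeZero M]

/-- the Gauss reduction of `F_M` is an abstract Gauss reduction. -/
theorem m37r_red_inst (hA : A.LiesOverPrime ℓ) (hℓ : ¬ ℓ ∣ M) :
    m37r_Red A (m18v_Int A M) (m18sq_red (m18sq_dec hA hℓ)) := by
  have hdec := m18sq_dec hA hℓ
  refine ⟨⟨m18v_Int_one, m18sq_red_one _⟩, ⟨m18v_Int_zero, m18sq_red_zero _⟩,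
    fun y y' hy hy' => ⟨m18v_Int_add hy hy', m18sq_red_add _ hy hy'⟩,
    fun y y' hy hy' => ⟨m18v_Int_mul hy hy', m18sq_red_mul _ hy hy'⟩,
    fun a => ⟨m18v_Int_const a, m18sq_red_const _ a⟩,
    fun y hy hne => m18sq_Int_inv_of_red_ne_zero hdec hy (fun h0 => hne (Subtype.ext h0)),
    fun c hc => m18sq_const_mem hc, m18sq_content_one A, ?_⟩
  intro f hf
  obtain ⟨c, u, w, hu, hw, hc, h⟩ := hdec f hf
  have hW0 : m18v_GF hw ≠ 0 := m18v_GF_ne_zero hw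
  have hWI : m18v_Int A M (m18v_GF hw) := m18v_Int_GF hw
  have hUI : m18v_Int A M (m18v_GF hu) := m18v_Int_GF hu
  have hWr : m18v_redL A M (m18v_GF hw) ≠ 0 := by
    rw [m18v_redL_GF]
    exact hw.2.2
  have hUr : m18v_redL A M (m18v_GF hu) ≠ 0 := by
    rw [m18v_redL_GF]
    exact hu.2.2
  have hWiI := m18sq_Int_inv_of_red_ne_zero hdec hWI hWr
  have hWir : m18v_redL A M (m18v_GF hw)⁻¹ ≠ 0 := by
    rw [m18sq_redL_inv hdec hWI hWr]
    exact inv_ne_zero hWr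
  refine ⟨c, hc, m18v_GF hu * (m18v_GF hw)⁻¹, m18v_Int_mul hUI hWiI, ?_, ?_⟩
  · rw [m18sq_red_mul hdec hUI hWiI]
    refine mul_ne_zero (fun h0 => hUr ?_) (fun h0 => hWir ?_)
    · exact congrArg Subtype.val h0
    · exact congrArg Subtype.val h0
  · rw [← mul_assoc, ← h, mul_assoc, mul_inv_cancel₀ hW0, mul_one]

/-- the coordinate `j` at a level divisible by `4` or `9`. -/
theorem m37r_chart_j (hA : A.LiesOverPrime ℓ) (hM : 4 ∣ M ∨ 9 ∣ M) (hℓ : ¬ ℓ ∣ M) :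
    m37r_Chart A (m18v_Int A M) (m18sq_red (m18sq_dec hA hℓ)) (s24j M) := by
  have hdec := m18sq_dec hA hℓ
  refine ⟨m18sq_Int_j, ana_transcendental M, ?_,
    fun f hI _ n => m18sq_minpoly_coeff_int hA hℓ hI n, ?_⟩
  · rw [m18sq_red_j]
    exact m18sq_jt_transcendental
  · rw [m18sq_red_j]
    exact fun b hb => m18v_sq7 hA M hM hℓ b hb

/-- the coordinate `j⁻¹` at a level divisible by `4` or `9`. -/
theorem m37r_chart_jinv (hA : A.LiesOverPrime ℓ) (hM : 4 ∣ M ∨ 9 ∣ M) (hℓ : ¬ ℓ ∣ M) :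
    m37r_Chart A (m18v_Int A M) (m18sq_red (m18sq_dec hA hℓ)) (s24j M)⁻¹ := by
  have hdec := m18sq_dec hA hℓ
  have hK : s24K⟮(s24j M)⁻¹⟯ = s24K⟮s24j M⟯ := algaz_adjoin_inv (s24j M)
  refine ⟨m18sq_Int_j_inv hdec, algaz_transcendental_inv (ana_transcendental M), ?_,
    fun f hI _ n => ?_, ?_⟩
  · rw [m18sq_red_j_inv]
    exact algaz_transcendental_inv m18sq_jt_transcendental
  · rw [m18sq_minpoly_coeff_congr hK f n]
    exact m18sq_minpoly_coeff_int hA hℓ hI n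
  · rw [m18sq_red_j_inv]
    exact fun b hb => m18v_sq7_inv hA M hM hℓ b hb

/-! ### the instances -/

theorem m37r_fd_res (hA : A.LiesOverPrime ℓ) (hℓ : ¬ ℓ ∣ M) :
    FiniteDimensional ↥((m18v_k A)⟮m18sq_red (m18sq_dec hA hℓ) (s24j M)⟯) (m18v_Ft A M) := by
  rw [m18sq_red_j]
  exact m18cusp_finiteDimensional_res hA hℓ

theorem m37r_sep_res (hA : A.LiesOverPrime ℓ) (hℓ : ¬ ℓ ∣ M) :
    Algebra.IsSeparable ↥((m18v_k A)⟮m18sq_red (m18sq_dec hA hℓ) (s24j M)⟯) (m18v_Ft A M) := by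
  rw [m18sq_red_j]
  exact m18cusp_isSeparable_res hA hℓ

theorem m37r_fd_res_inv (hA : A.LiesOverPrime ℓ) (hℓ : ¬ ℓ ∣ M) :
    FiniteDimensional ↥((m18v_k A)⟮m18sq_red (m18sq_dec hA hℓ) (s24j M)⁻¹⟯) (m18v_Ft A M) := by
  rw [m18sq_red_j_inv]
  haveI := m18cusp_finiteDimensional_res (A := A) (M := M) hA hℓ
  exact m18rr_fd_inv (K := m18v_k A) (m18sq_jt A M)

theorem m37r_sep_res_inv (hA : A.LiesOverPrime ℓ) (hℓ : ¬ ℓ ∣ M) :
    Algebra.IsSeparable ↥((m18v_k A)⟮m18sq_red (m18sq_dec hA hℓ) (s24j M)⁻¹⟯) (m18v_Ft A M) := by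
  rw [m18sq_red_j_inv]
  haveI := m18cusp_isSeparable_res (A := A) (M := M) hA hℓ
  exact m18rr_sep_inv (K := m18v_k A) (m18sq_jt A M)

theorem m37r_fd_bar (M : ℕ) [NeZero M] : FiniteDimensional ↥(m18v_K⟮s24j M⟯) (s24F M) :=
  deg_finiteDimensional M

theorem m37r_sep_bar (M : ℕ) [NeZero M] : Algebra.IsSeparable ↥(m18v_K⟮s24j M⟯) (s24F M) :=
  haveI := m37r_fd_bar M
  m18rr_isSeparable_of_charZero (K := m18v_K) (s24j M)

theorem m37r_fd_bar_inv (M : ℕ) [NeZero M] :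
    FiniteDimensional ↥(m18v_K⟮(s24j M)⁻¹⟯) (s24F M) :=
  haveI := m37r_fd_bar M
  m18rr_fd_inv (K := m18v_K) (s24j M)

theorem m37r_sep_bar_inv (M : ℕ) [NeZero M] :
    Algebra.IsSeparable ↥(m18v_K⟮(s24j M)⁻¹⟯) (s24F M) :=
  haveI := m37r_sep_bar M
  m18rr_sep_inv (K := m18v_K) (s24j M)

/-- **the specialisation map of `X₀(N')`**, `N'` divisible by `4` or `9` and prime to `ℓ`. -/
def m37r_rhoX0 (hA : A.LiesOverPrime ℓ) (hM : 4 ∣ M ∨ 9 ∣ M) (hℓ : ¬ ℓ ∣ M) :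
    Place m18v_K (s24F M) → Place (m18v_k A) (m18v_Ft A M) :=
  haveI : IsAlgClosed (m18v_k A) := m18sq_isAlgClosed A
  haveI := m37r_fd_bar M
  haveI := m37r_sep_bar M
  haveI := m37r_fd_bar_inv M
  haveI := m37r_sep_bar_inv M
  haveI := m37r_fd_res (A := A) (M := M) hA hℓ
  haveI := m37r_sep_res (A := A) (M := M) hA hℓ
  haveI := m37r_fd_res_inv (A := A) (M := M) hA hℓ
  haveI := m37r_sep_res_inv (A := A) (M := M) hA hℓ
  m37r_rho (m37r_red_inst hA hℓ) (m37r_chart_j hA hM hℓ) (m37r_chart_jinv hA hM hℓ)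

/-- **(R1) for `X₀(N')`**: poles specialise to poles. -/
theorem m37r_R1_X0 (hA : A.LiesOverPrime ℓ) (hM : 4 ∣ M ∨ 9 ∣ M) (hℓ : ¬ ℓ ∣ M)
    (D : Divisor m18v_K (s24F M)) (hD : ∀ P, 0 ≤ D P) (f : s24F M) (hI : m18v_Int A M f)
    (hf : f ∈ riemannRochSpace D) :
    m18sq_red (m18sq_dec hA hℓ) f ∈
      riemannRochSpace (Finsupp.mapDomain (m37r_rhoX0 hA hM hℓ) D) := by
  haveI : IsAlgClosed (m18v_k A) := m18sq_isAlgClosed A
  haveI := m37r_fd_bar M
  haveI := m37r_sep_bar M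
  haveI := m37r_fd_bar_inv M
  haveI := m37r_sep_bar_inv M
  haveI := m37r_fd_res (A := A) (M := M) hA hℓ
  haveI := m37r_sep_res (A := A) (M := M) hA hℓ
  haveI := m37r_fd_res_inv (A := A) (M := M) hA hℓ
  haveI := m37r_sep_res_inv (A := A) (M := M) hA hℓ
  exact m37r_R1 (m37r_red_inst hA hℓ) (m37r_chart_j hA hM hℓ) (m37r_chart_jinv hA hM hℓ) D hD f
    hI hf

/-- the lattice surjectivity in the shape consumed by `m37rr_hloc`. -/
theorem m37r_surj_X0 (hA : A.LiesOverPrime ℓ) (hℓ : ¬ ℓ ∣ M)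
    (V : Submodule m18v_K (s24F M)) [FiniteDimensional m18v_K V]
    (Wt : Submodule (m18v_k A) (m18v_Ft A M)) [FiniteDimensional (m18v_k A) Wt]
    (hred : ∀ f ∈ V, m18v_Int A M f → m18sq_red (m18sq_dec hA hℓ) f ∈ Wt)
    (hle : Module.finrank (m18v_k A) Wt ≤ Module.finrank m18v_K V) (b : m18v_Ft A M)
    (hb : b ∈ Wt) : ∃ f ∈ V, m18v_Int A M f ∧ m18sq_red (m18sq_dec hA hℓ) f = b :=
  m18sq_orth_surj' hA hℓ V Wt hred hle b hb

end Fermat.Agent.M37

end
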