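import Fermat.Agent.M37.RhoRed
import Fermat.Agent.M18.RrDiff

/-!
# M37 / (E1), part 4: values of Gauss-integral elements of the chart ring

`B₀ = {f | I f ∧ f integral over K[x]}`; `P` a place of `F` with `x(P) ∈ A` ("`P` lies in the
chart").

* `m37r_mem_of_integral` : `B₀ ⊆ O_P`;
* `m37r_val_le_one` : `f(P) ∈ A` for `f ∈ B₀`;
* `m37r_val_sub_lt_one` : `f(P) ≡ f'(P) mod 𝔪_A` if `red f = red f'`;
* `m37r_val_lt_one_of_red_eq_zero`.

Owner helper3, prefix `m37r_`.
-/

set_option autoImplicit false
set_option linter.deprecated false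
set_option linter.style.haveILetI false
set_option linter.unusedSectionVars false
set_option linter.unusedVariables false

noncomputable section

namespace Fermat.Agent.M37

open AlgebraicCurve IntermediateField Polynomial Fermat.Agent.S24 Fermat.Agent.M18
open scoped IntermediateField.algebraAdjoinAdjoin

section valint

variable {K F Fk : Type*} [Field K] [Field F] [Algebra K F] [IsAlgClosed K]
  {A : ValuationSubring K} [Field Fk] [Algebra (IsLocalRing.ResidueField A) Fk]
  {I : F → Prop} {red : F → Fk} (R : m37r_Red A I red) {x : F} (C : m37r_Chart A I red x)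
  [FiniteDimensional K⟮x⟯ F] [Algebra.IsSeparable K⟮x⟯ F]

include C in
/-- elements integral over `K[x]` are regular at the finite places. -/
theorem m37r_mem_of_integral {f : F} (hf : IsIntegral (Algebra.adjoin K ({x} : Set F)) f)
    (P : Place K F) (hP : 0 ≤ P.ord x) : f ∈ P.toValuationSubring :=
  alga_mem_of_ord_nonneg P (m18rr_B_ord_nonneg x C.hx ⟨f, hf⟩ P hP)

theorem m37r_isIntegral_const (x : F) (c : K) :
    IsIntegral (Algebra.adjoin K ({x} : Set F)) (algebraMap K F c) := by
  have : algebraMap K F c = algebraMap (Algebra.adjoin K ({x} : Set F)) F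
      (algebraMap K (Algebra.adjoin K ({x} : Set F)) c) := rfl
  rw [this]
  exact isIntegral_algebraMap

theorem m37r_isIntegral_self (x : F) :
    IsIntegral (Algebra.adjoin K ({x} : Set F)) x := by
  have : x = algebraMap (Algebra.adjoin K ({x} : Set F)) F
      ⟨x, Algebra.self_mem_adjoin_singleton K x⟩ := rfl
  rw [this]
  exact isIntegral_algebraMap

include R C in
/-- **the values of the elements of `B₀` at a place of the chart lie in `A`.** -/
theorem m37r_val_le_one {f : F} (hI : I f)
    (hf : IsIntegral (Algebra.adjoin K ({x} : Set F)) f) (P : Place K F) (hP : 0 ≤ P.ord x)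
    (hxA : A.valuation (m37r_ev x P x) ≤ 1) : A.valuation (m37r_ev x P f) ≤ 1 := by
  classical
  set p := minpoly ↥(K⟮x⟯) f with hp
  have hfint : IsIntegral ↥(K⟮x⟯) f := m18sq_isIntegral_simple x f hf
  have hmonic : p.Monic := minpoly.monic hfint
  set d := p.natDegree with hd
  set c : ℕ → F := fun n => ((p.coeff n : ↥(K⟮x⟯)) : F) with hcdef
  have hcI : ∀ n, I (c n) := fun n => C.hcoef f hI hf n
  have hcmem : ∀ n, c n ∈ Algebra.adjoin K ({x} : Set F) :=
    fun n => m18sq_minpoly_coeff_mem x C.hx f hf n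
  have hex : ∀ n, ∃ Pn : Polynomial A, c n = Polynomial.aeval x (Pn.map A.subtype) := by
    intro n
    have h2 := hcmem n
    rw [Algebra.adjoin_singleton_eq_range_aeval] at h2
    obtain ⟨Q, hQ⟩ := h2
    have hQ' : (Polynomial.aeval x Q : F) = c n := hQ
    obtain ⟨Pn, hPn⟩ := m18sq_abs_lift A (IsLocalRing.residue A) I red R.h1 R.h0 R.hadd R.hmul
      R.hconst R.hunit R.hA R.hcont x C.hxI C.hxt Q (by rw [hQ']; exact hcI n)
    exact ⟨Pn, by rw [← hQ', hPn]⟩
  choose Pn hPn using hex
  have heq : ∑ n ∈ Finset.range (d + 1), c n * f ^ n = 0 := by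
    have h3 : Polynomial.aeval f p = 0 := minpoly.aeval _ _
    rw [Polynomial.aeval_eq_sum_range] at h3
    rw [← h3]
    refine Finset.sum_congr rfl fun n _ => ?_
    rfl
  have hlead : c d = 1 := by
    show ((p.coeff p.natDegree : ↥(K⟮x⟯)) : F) = 1
    rw [Polynomial.coeff_natDegree, hmonic.leadingCoeff]
    rfl
  have hxP : x ∈ P.toValuationSubring := alga_mem_of_ord_nonneg P hP
  have hfP : f ∈ P.toValuationSubring := m37r_mem_of_integral C hf P hP
  have hcP : ∀ n, c n ∈ P.toValuationSubring := fun n => by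
    rw [hPn n]
    exact (m37r_ev_aeval x P hxP _).1
  have haA : m37r_ev x P x ∈ A := (A.valuation_le_one_iff _).1 hxA
  set a' : A := ⟨m37r_ev x P x, haA⟩ with ha'
  have hevc : ∀ n, m37r_ev x P (c n) = algebraMap A K ((Pn n).eval a') := by
    intro n
    rw [hPn n, (m37r_ev_aeval x P hxP _).2]
    have h1 : (Pn n).map A.subtype = (Pn n).map (algebraMap A K) := rfl
    rw [h1, Polynomial.aeval_map_algebraMap]
    have h2 : m37r_ev x P x = algebraMap A K a' := rfl
    rw [h2, Polynomial.aeval_algebraMap_apply, Polynomial.coe_aeval_eq_eval]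
  have hev := m37r_ev_sum x P (Finset.range (d + 1)) (fun n => c n * f ^ n)
    (fun n _ => P.toValuationSubring.mul_mem _ _ (hcP n) (P.toValuationSubring.pow_mem hfP n))
  rw [heq, m37r_ev_zero] at hev
  have hfin : m37r_ev x P f ^ d + ∑ n ∈ Finset.range d,
      algebraMap A K ((Pn n).eval a') * m37r_ev x P f ^ n = 0 := by
    rw [Finset.sum_range_succ] at hev
    have e1 : m37r_ev x P (c d * f ^ d) = m37r_ev x P f ^ d := by
      rw [m37r_ev_mul x P (hcP d) (P.toValuationSubring.pow_mem hfP d), hlead, m37r_ev_one,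
        one_mul, m37r_ev_pow x P hfP]
    have e2 : ∑ n ∈ Finset.range d, m37r_ev x P (c n * f ^ n) = ∑ n ∈ Finset.range d,
        algebraMap A K ((Pn n).eval a') * m37r_ev x P f ^ n := by
      refine Finset.sum_congr rfl fun n _ => ?_
      rw [m37r_ev_mul x P (hcP n) (P.toValuationSubring.pow_mem hfP n), hevc n,
        m37r_ev_pow x P hfP]
    rw [e1, e2] at hev
    rw [add_comm]
    exact hev.symm
  have hint : IsIntegral A (m37r_ev x P f) := m18sq_isIntegral_of_eq _ d _ hfin
  obtain ⟨y, hy⟩ := (IsIntegrallyClosed.isIntegral_iff (R := A) (K := K)).mp hint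
  rw [A.valuation_le_one_iff, ← hy]
  exact y.2

include R C in
/-- the value of an element of `B₀` with reduction `0` lies in `𝔪_A`. -/
theorem m37r_val_lt_one_of_red_eq_zero {f : F} (hI : I f)
    (hf : IsIntegral (Algebra.adjoin K ({x} : Set F)) f) (hred : red f = 0)
    (P : Place K F) (hP : 0 ≤ P.ord x)
    (hxA : A.valuation (m37r_ev x P x) ≤ 1) : A.valuation (m37r_ev x P f) < 1 := by
  by_cases hf0 : f = 0
  · rw [hf0, m37r_ev_zero, map_zero]
    exact zero_lt_one
  obtain ⟨c, hc, hc0, g, hg, hfg⟩ := m37r_ker R hI hred hf0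
  have hgint : IsIntegral (Algebra.adjoin K ({x} : Set F)) g := by
    have : g = algebraMap K F ((c : K)⁻¹) * f := by
      rw [hfg, ← mul_assoc, ← map_mul, inv_mul_cancel₀ hc0, map_one, one_mul]
    rw [this]
    exact (m37r_isIntegral_const x _).mul hf
  have hgP := m37r_mem_of_integral C hgint P hP
  rw [hfg, m37r_ev_mul x P (P.algebraMap_mem' _) hgP, m37r_ev_const, map_mul]
  have h1 : A.valuation (c : K) < 1 := by
    rw [← A.valuation_lt_one_iff]
    exact (IsLocalRing.residue_eq_zero_iff c).mp hc
  have h2 := m37r_val_le_one R C hg hgint P hP hxA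
  calc A.valuation (c : K) * A.valuation (m37r_ev x P g)
      ≤ A.valuation (c : K) * 1 := mul_le_mul_right h2 _
    _ = A.valuation (c : K) := mul_one _
    _ < 1 := h1

include R C in
/-- **elements of `B₀` with the same reduction have congruent values.** -/
theorem m37r_val_sub_lt_one {f f' : F} (hI : I f) (hI' : I f')
    (hf : IsIntegral (Algebra.adjoin K ({x} : Set F)) f)
    (hf' : IsIntegral (Algebra.adjoin K ({x} : Set F)) f') (hred : red f = red f')
    (P : Place K F) (hP : 0 ≤ P.ord x)
    (hxA : A.valuation (m37r_ev x P x) ≤ 1) :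
    A.valuation (m37r_ev x P f - m37r_ev x P f') < 1 := by
  have h1 := m37r_sub R hI hI'
  have h2 := m37r_val_lt_one_of_red_eq_zero R C h1.1 (hf.sub hf')
    (by rw [h1.2, hred, sub_self]) P hP hxA
  rwa [m37r_ev_sub x P (m37r_mem_of_integral C hf P hP) (m37r_mem_of_integral C hf' P hP)] at h2

include R C in
/-- the value of one lift lies in `𝔪_A` iff the value of any other lift does. -/
theorem m37r_val_lt_one_congr {f f' : F} (hI : I f) (hI' : I f')
    (hf : IsIntegral (Algebra.adjoin K ({x} : Set F)) f)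
    (hf' : IsIntegral (Algebra.adjoin K ({x} : Set F)) f') (hred : red f = red f')
    (P : Place K F) (hP : 0 ≤ P.ord x)
    (hxA : A.valuation (m37r_ev x P x) ≤ 1) (h : A.valuation (m37r_ev x P f) < 1) :
    A.valuation (m37r_ev x P f') < 1 := by
  have h1 := m37r_val_sub_lt_one R C hI hI' hf hf' hred P hP hxA
  have h2 : m37r_ev x P f' = m37r_ev x P f - (m37r_ev x P f - m37r_ev x P f') := by ring
  rw [h2]
  exact lt_of_le_of_lt (Valuation.map_sub _ _ _) (max_lt h h1)

end valint

end Fermat.Agent.M37

end
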