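import Fermat.Agent.M37.RhoChart
import Fermat.Agent.M18.RrExtra
import Fermat.Agent.M18.NrpPlace
import Fermat.Agent.M18.CoreBasic

/-!
# M37 / (E1), part 6: poles specialise to poles (one chart)

Setting of `RhoChart.lean`; `Q` a place of `Fk` where `red x` is regular.

* `m37r_exists_zero` : for `t~ ∈ B~₀`, `t~ ≠ 0`, vanishing at the specialisation of `P`: a lift
  `b ∈ B₀` of `t~` vanishing at `P`;
* `m37r_exists_killer`, `m37r_exists_killer'` : for a finite place `P'` not specialising to `Q`:
  `b ∈ B₀` vanishing at `P'` with `red b` a unit at `Q`;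
* `m37r_regular` (B0) : a Gauss unit regular on the tube of `Q` has a reduction regular at `Q`;
* `m37r_pole` (B1) : `ord_Q (red f) + ∑_{P ↦ Q} n_P ≥ 0` if `ord_P f + n_P ≥ 0` on the tube.

Owner helper3, prefix `m37r_`.
-/

set_option autoImplicit false
set_option linter.deprecated false
set_option linter.style.haveILetI false
set_option linter.unusedSectionVars false
set_option linter.unusedVariables false
set_option linter.overlappingInstances false

noncomputable section

namespace Fermat.Agent.M37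

open AlgebraicCurve IntermediateField Polynomial IsDedekindDomain
open Fermat.Agent.S24 Fermat.Agent.M18
open scoped IntermediateField.algebraAdjoinAdjoin

section aux

variable {K F : Type*} [Field K] [Field F] [Algebra K F] [IsAlgClosed K]

/-- a function regular at the finite places is integral over `K[x]`. -/
theorem m37r_isIntegral_of_forall (x : F) (hx : Transcendental K x) [FiniteDimensional K⟮x⟯ F]
    [Algebra.IsSeparable K⟮x⟯ F] (f : F) (h : ∀ v : Place K F, 0 ≤ v.ord x → 0 ≤ v.ord f) :
    IsIntegral (Algebra.adjoin K ({x} : Set F)) f :=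
  m18nrp_isIntegral_of_forall (K := K) (F := F) (F' := F) x hx f (fun v hv => h v hv)

/-- integral elements are regular at the finite places. -/
theorem m37r_ord_nonneg_of_isIntegral (x : F) (hx : Transcendental K x)
    [FiniteDimensional K⟮x⟯ F] [Algebra.IsSeparable K⟮x⟯ F] {f : F}
    (hf : IsIntegral (Algebra.adjoin K ({x} : Set F)) f) (v : Place K F) (hv : 0 ≤ v.ord x) :
    0 ≤ v.ord f :=
  m18rr_B_ord_nonneg x hx ⟨f, hf⟩ v hv

theorem m37r_ord_mul_pow (v : Place K F) {g b : F} (hg : g ≠ 0) (hb : b ≠ 0) (n : ℕ) :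
    v.ord (g * b ^ n) = v.ord g + n * v.ord b := by
  rw [v.ord_mul hg (pow_ne_zero n hb), m18c_ord_pow]

end aux

section pole

variable {K F Fk : Type*} [Field K] [Field F] [Algebra K F] [IsAlgClosed K]
  {A : ValuationSubring K} [Field Fk] [Algebra (IsLocalRing.ResidueField A) Fk]
  [IsAlgClosed (IsLocalRing.ResidueField A)]
  {I : F → Prop} {red : F → Fk} (R : m37r_Red A I red) {x : F} (C : m37r_Chart A I red x)
  [FiniteDimensional K⟮x⟯ F] [Algebra.IsSeparable K⟮x⟯ F]
  [FiniteDimensional (IsLocalRing.ResidueField A)⟮red x⟯ Fk]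
  [Algebra.IsSeparable (IsLocalRing.ResidueField A)⟮red x⟯ Fk]

include R in
/-- a constant with valuation `< 1` is Gauss-integral with reduction `0`. -/
theorem m37r_const_lt_one {c : K} (hc : A.valuation c < 1) :
    I (algebraMap K F c) ∧ red (algebraMap K F c) = 0 := by
  have hcA : c ∈ A := (A.valuation_le_one_iff c).1 hc.le
  have h := R.hconst ⟨c, hcA⟩
  refine ⟨h.1, ?_⟩
  have h2 : (⟨c, hcA⟩ : A) ∈ IsLocalRing.maximalIdeal A := by
    rw [A.valuation_lt_one_iff]
    exact hc
  have h3 : IsLocalRing.residue A ⟨c, hcA⟩ = 0 := (IsLocalRing.residue_eq_zero_iff _).2 h2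
  have h4 := h.2
  rw [h3, map_zero] at h4
  exact h4

/-- a lift vanishing at `P` of an element of `B~₀` vanishing at the specialisation of `P`. -/
theorem m37r_exists_zero (P : Place K F) (hP : m37r_InChart A x P) {t : Fk}
    (ht : IsIntegral (Algebra.adjoin (IsLocalRing.ResidueField A) ({red x} : Set Fk)) t)
    (ht0 : t ≠ 0) (hpos : 0 < (m37r_rho0 R C P hP).ord t) :
    ∃ b, I b ∧ IsIntegral (Algebra.adjoin K ({x} : Set F)) b ∧ red b = t ∧ 0 < P.ord b := by
  obtain ⟨g, hgI, hg, hgt⟩ := C.hsq7 t ht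
  have hv : A.valuation (m37r_ev x P g) < 1 :=
    (m37r_rho0_pos_iff R C P hP hgI hg).1 (Or.inr (by rw [hgt]; exact hpos))
  have hc := m37r_const_lt_one R hv
  have hb := m37r_sub R hgI hc.1
  have hbt : red (g - algebraMap K F (m37r_ev x P g)) = t := by
    rw [hb.2, hc.2, sub_zero, hgt]
  refine ⟨g - algebraMap K F (m37r_ev x P g), hb.1, hg.sub (m37r_isIntegral_const x _), hbt, ?_⟩
  rcases m37r_ev_spec x P (m37r_mem_of_integral C hg P hP.1) with h | h
  · exfalso
    apply ht0
    rw [← hbt, sub_eq_zero.mpr h, R.h0.2]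
  · exact h

/-- a finite place of the chart not specialising to `Q` is the zero of an element of `B₀` whose
reduction is a unit at `Q`. -/
theorem m37r_exists_killer (Q : Place (IsLocalRing.ResidueField A) Fk)
    (hQ : 0 ≤ Q.ord (red x)) (P' : Place K F) (hP' : m37r_InChart A x P')
    (hne : m37r_rho0 R C P' hP' ≠ Q) :
    ∃ b, I b ∧ IsIntegral (Algebra.adjoin K ({x} : Set F)) b ∧ red b ≠ 0 ∧
      Q.ord (red b) = 0 ∧ 0 < P'.ord b := by
  classical
  have hQ' : 0 ≤ (m37r_rho0 R C P' hP').ord (red x) :=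
    m37r_rho0_ord_nonneg R C P' hP' (m37r_isIntegral_self (red x))
  obtain ⟨t, ht0, hT, hreg⟩ := m18rr_exists_exact (red x) C.hxt
    ({Q, m37r_rho0 R C P' hP'} : Finset (Place (IsLocalRing.ResidueField A) Fk))
    (fun v hv => by
      rw [Finset.mem_insert, Finset.mem_singleton] at hv
      rcases hv with rfl | rfl
      · exact hQ
      · exact hQ')
    (fun v => if v = Q then 0 else 1)
  have h1 : Q.ord t = 0 := by
    rw [hT Q (Finset.mem_insert_self _ _), if_pos rfl]
  have h2 : (m37r_rho0 R C P' hP').ord t = 1 := by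
    rw [hT _ (Finset.mem_insert_of_mem (Finset.mem_singleton_self _)), if_neg hne]
  have htint : IsIntegral (Algebra.adjoin (IsLocalRing.ResidueField A) ({red x} : Set Fk)) t := by
    refine m37r_isIntegral_of_forall (red x) C.hxt t fun v hv => ?_
    by_cases hvT : v ∈ ({Q, m37r_rho0 R C P' hP'} :
        Finset (Place (IsLocalRing.ResidueField A) Fk))
    · rw [hT v hvT]
      split_ifs <;> norm_num
    · exact hreg v hv hvT
  obtain ⟨b, hbI, hb, hbt, hbP⟩ := m37r_exists_zero R C P' hP' htint ht0 (by rw [h2]; norm_num)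
  exact ⟨b, hbI, hb, by rw [hbt]; exact ht0, by rw [hbt]; exact h1, hbP⟩

include R C in
/-- a finite place outside of the chart is the zero of an element of `B₀` with reduction `1`. -/
theorem m37r_exists_killer' (Q : Place (IsLocalRing.ResidueField A) Fk)
    (P' : Place K F) (hfin : 0 ≤ P'.ord x) (hP' : ¬ m37r_InChart A x P') :
    ∃ b, I b ∧ IsIntegral (Algebra.adjoin K ({x} : Set F)) b ∧ red b ≠ 0 ∧
      Q.ord (red b) = 0 ∧ 0 < P'.ord b := by
  have hxP : x ∈ P'.toValuationSubring := alga_mem_of_ord_nonneg P' hfin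
  have hv : 1 < A.valuation (m37r_ev x P' x) := by
    by_contra h
    exact hP' ⟨hfin, not_lt.mp h⟩
  have ha0 : m37r_ev x P' x ≠ 0 := by
    intro h0
    rw [h0, map_zero] at hv
    exact not_lt_of_ge zero_le_one hv
  have hvi : A.valuation (m37r_ev x P' x)⁻¹ < 1 := by
    rw [map_inv₀]
    exact inv_lt_one_of_one_lt₀ hv
  have hc := m37r_const_lt_one R hvi
  have hm := R.hmul _ _ hc.1 C.hxI
  have hb := m37r_sub R R.h1.1 hm.1
  have hbt : red (1 - algebraMap K F (m37r_ev x P' x)⁻¹ * x) = 1 := by
    rw [hb.2, hm.2, hc.2, zero_mul, sub_zero, R.h1.2]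
  have hbint : IsIntegral (Algebra.adjoin K ({x} : Set F))
      (1 - algebraMap K F (m37r_ev x P' x)⁻¹ * x) :=
    isIntegral_one.sub ((m37r_isIntegral_const x _).mul (m37r_isIntegral_self x))
  refine ⟨1 - algebraMap K F (m37r_ev x P' x)⁻¹ * x, hb.1, hbint, by rw [hbt]; exact one_ne_zero,
    by rw [hbt, Place.ord_one], ?_⟩
  have hbP : (1 - algebraMap K F (m37r_ev x P' x)⁻¹ * x) ∈ P'.toValuationSubring :=
    sub_mem (P'.toValuationSubring.one_mem)
      (P'.toValuationSubring.mul_mem _ _ (P'.algebraMap_mem' _) hxP)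
  have hev : m37r_ev x P' (1 - algebraMap K F (m37r_ev x P' x)⁻¹ * x) = 0 := by
    rw [m37r_ev_sub x P' (P'.toValuationSubring.one_mem)
      (P'.toValuationSubring.mul_mem _ _ (P'.algebraMap_mem' _) hxP), m37r_ev_one,
      m37r_ev_mul x P' (P'.algebraMap_mem' _) hxP, m37r_ev_const, inv_mul_cancel₀ ha0, sub_self]
  rcases (m37r_ev_eq_zero_iff x P' hbP).1 hev with h | h
  · exfalso
    have := hbt
    rw [h, R.h0.2] at this
    exact zero_ne_one this
  · exact h

/-- auxiliary induction for `m37r_regular`. -/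
theorem m37r_regular_aux (Q : Place (IsLocalRing.ResidueField A) Fk)
    (hQ : 0 ≤ Q.ord (red x)) (S : Finset (Place K F)) :
    ∀ g, I g → red g ≠ 0 → (∀ P, 0 ≤ P.ord x → P.ord g < 0 → P ∈ S) →
      (∀ P ∈ S, ∀ hP : m37r_InChart A x P, m37r_rho0 R C P hP ≠ Q) →
      0 ≤ Q.ord (red g) := by
  classical
  induction S using Finset.induction_on with
  | empty =>
    intro g hI hgt hS _
    have hint : IsIntegral (Algebra.adjoin K ({x} : Set F)) g := by
      refine m37r_isIntegral_of_forall x C.hx g fun v hv => ?_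
      by_contra hneg
      exact absurd (hS v hv (not_le.mp hneg)) (Finset.notMem_empty v)
    exact m37r_ord_nonneg_of_isIntegral (red x) C.hxt (m37r_sq3 R C hI hint) Q hQ
  | insert P' S hP'S ih =>
    intro g hI hgt hS hne
    have hg0 : g ≠ 0 := m37r_ne_zero R hgt
    by_cases hfin : 0 ≤ P'.ord x ∧ P'.ord g < 0
    · have hex : ∃ b, I b ∧ IsIntegral (Algebra.adjoin K ({x} : Set F)) b ∧ red b ≠ 0 ∧
          Q.ord (red b) = 0 ∧ 0 < P'.ord b := by
        by_cases hch : m37r_InChart A x P'
        · exact m37r_exists_killer R C Q hQ P' hch (hne P' (Finset.mem_insert_self _ _) hch)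
        · exact m37r_exists_killer' R C Q P' hfin.1 hch
      obtain ⟨b, hbI, hb, hbt, hbQ, hbP⟩ := hex
      have hb0 : b ≠ 0 := m37r_ne_zero R hbt
      set n : ℕ := (-P'.ord g).toNat with hn
      have hnval : (n : ℤ) = -P'.ord g := Int.toNat_of_nonneg (by omega)
      have hp := m37r_pow R hbI n
      have hm := R.hmul _ _ hI hp.1
      have hred : red (g * b ^ n) = red g * red b ^ n := by rw [hm.2, hp.2]
      have key := ih (g * b ^ n) hm.1 (by rw [hred]; exact mul_ne_zero hgt (pow_ne_zero n hbt))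
        (fun P hPfin hPneg => by
          have hbP' : 0 ≤ P.ord b := m37r_ord_nonneg_of_isIntegral x C.hx hb P hPfin
          rw [m37r_ord_mul_pow P hg0 hb0] at hPneg
          have hnb : (0 : ℤ) ≤ n * P.ord b := mul_nonneg (Int.natCast_nonneg n) hbP'
          have hgneg : P.ord g < 0 := by omega
          have hmem := hS P hPfin hgneg
          rw [Finset.mem_insert] at hmem
          rcases hmem with rfl | hmem
          · exfalso
            have : (n : ℤ) * 1 ≤ n * P.ord b :=
              mul_le_mul_of_nonneg_left (by omega) (Int.natCast_nonneg n)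
            omega
          · exact hmem)
        (fun P hPS hP => hne P (Finset.mem_insert_of_mem hPS) hP)
      rw [hred, Q.ord_mul hgt (pow_ne_zero n hbt), m18c_ord_pow, hbQ, mul_zero, add_zero] at key
      exact key
    · refine ih g hI hgt (fun P hPfin hPneg => ?_)
        (fun P hPS hP => hne P (Finset.mem_insert_of_mem hPS) hP)
      have hmem := hS P hPfin hPneg
      rw [Finset.mem_insert] at hmem
      rcases hmem with rfl | hmem
      · exact absurd ⟨hPfin, hPneg⟩ hfin
      · exact hmem

/-- **(B0)** a Gauss unit which is regular on the tube of `Q` has a reduction regular at `Q`. -/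
theorem m37r_regular (Q : Place (IsLocalRing.ResidueField A) Fk)
    (hQ : 0 ≤ Q.ord (red x)) {g : F} (hI : I g) (hgt : red g ≠ 0)
    (hreg : ∀ P (hP : m37r_InChart A x P), m37r_rho0 R C P hP = Q → 0 ≤ P.ord g) :
    0 ≤ Q.ord (red g) := by
  classical
  have hg0 : g ≠ 0 := m37r_ne_zero R hgt
  obtain ⟨D, hD, -⟩ := (m18rr_principal x C.hx).exists_divisor g hg0
  refine m37r_regular_aux R C Q hQ (D.support.filter fun P => P.ord g < 0) g hI hgt
    (fun P _ hPneg => ?_) (fun P hPS hP hPQ => ?_)
  · rw [Finset.mem_filter, Finsupp.mem_support_iff, hD P]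
    exact ⟨by omega, hPneg⟩
  · rw [Finset.mem_filter] at hPS
    have := hreg P hP hPQ
    omega

/-- auxiliary induction for `m37r_pole`. -/
theorem m37r_pole_aux (Q : Place (IsLocalRing.ResidueField A) Fk)
    (hQ : 0 ≤ Q.ord (red x)) (T : Finset (Place K F)) :
    ∀ f, I f → red f ≠ 0 → ∀ n : Place K F → ℕ,
      (∀ P ∈ T, ∃ hP : m37r_InChart A x P, m37r_rho0 R C P hP = Q) →
      (∀ P (hP : m37r_InChart A x P), m37r_rho0 R C P hP = Q → P ∈ T →
        0 ≤ P.ord f + n P) →
      (∀ P (hP : m37r_InChart A x P), m37r_rho0 R C P hP = Q → P ∉ T → 0 ≤ P.ord f) →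
      0 ≤ Q.ord (red f) + ∑ P ∈ T, (n P : ℤ) := by
  classical
  induction T using Finset.induction_on with
  | empty =>
    intro f hI hft n _ _ hreg
    rw [Finset.sum_empty, add_zero]
    exact m37r_regular R C Q hQ hI hft
      (fun P hP hPQ => hreg P hP hPQ (Finset.notMem_empty P))
  | insert P₀ T hP₀T ih =>
    intro f hI hft n hT hin hout
    have hf0 : f ≠ 0 := m37r_ne_zero R hft
    obtain ⟨hP₀, hP₀Q⟩ := hT P₀ (Finset.mem_insert_self _ _)
    -- a uniformiser at `Q` in `B~₀`
    obtain ⟨t, ht0, htT, htreg⟩ := m18rr_exists_exact (red x) C.hxt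
      ({Q} : Finset (Place (IsLocalRing.ResidueField A) Fk))
      (fun v hv => by
        rw [Finset.mem_singleton] at hv
        rw [hv]
        exact hQ)
      (fun _ => 1)
    have htQ : Q.ord t = 1 := htT Q (Finset.mem_singleton_self Q)
    have htint : IsIntegral
        (Algebra.adjoin (IsLocalRing.ResidueField A) ({red x} : Set Fk)) t := by
      refine m37r_isIntegral_of_forall (red x) C.hxt t fun v hv => ?_
      by_cases hvT : v ∈ ({Q} : Finset (Place (IsLocalRing.ResidueField A) Fk))
      · rw [htT v hvT]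
        norm_num
      · exact htreg v hv hvT
    obtain ⟨h, hhI, hh, hht, hhP⟩ := m37r_exists_zero R C P₀ hP₀ htint ht0
      (by rw [hP₀Q, htQ]; norm_num)
    have hh0 : h ≠ 0 := m37r_ne_zero R (by rw [hht]; exact ht0)
    have hp := m37r_pow R hhI (n P₀)
    have hm := R.hmul _ _ hI hp.1
    have hred : red (f * h ^ n P₀) = red f * t ^ n P₀ := by rw [hm.2, hp.2, hht]
    have key := ih (f * h ^ n P₀) hm.1
      (by rw [hred]; exact mul_ne_zero hft (pow_ne_zero _ ht0)) n
      (fun P hPT => hT P (Finset.mem_insert_of_mem hPT))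
      (fun P hP hPQ hPT => by
        have hhP' : 0 ≤ P.ord h := m37r_ord_nonneg_of_isIntegral x C.hx hh P hP.1
        rw [m37r_ord_mul_pow P hf0 hh0]
        have hnb : (0 : ℤ) ≤ (n P₀ : ℤ) * P.ord h := mul_nonneg (Int.natCast_nonneg _) hhP'
        have := hin P hP hPQ (Finset.mem_insert_of_mem hPT)
        omega)
      (fun P hP hPQ hPT => by
        have hhP' : 0 ≤ P.ord h := m37r_ord_nonneg_of_isIntegral x C.hx hh P hP.1
        rw [m37r_ord_mul_pow P hf0 hh0]
        have hnb : (0 : ℤ) ≤ (n P₀ : ℤ) * P.ord h := mul_nonneg (Int.natCast_nonneg _) hhP'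
        by_cases hPP₀ : P = P₀
        · subst hPP₀
          have h1 := hin P hP hPQ (Finset.mem_insert_self _ _)
          have h2 : (n P : ℤ) * 1 ≤ n P * P.ord h :=
            mul_le_mul_of_nonneg_left (by omega) (Int.natCast_nonneg _)
          omega
        · have := hout P hP hPQ (by
            rw [Finset.mem_insert]
            push Not
            exact ⟨hPP₀, hPT⟩)
          omega)
    rw [hred, Q.ord_mul hft (pow_ne_zero _ ht0), m18c_ord_pow, htQ, mul_one] at key
    rw [Finset.sum_insert hP₀T]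
    omega

/-- **(B1), one chart**: poles specialise to poles. -/
theorem m37r_pole (Q : Place (IsLocalRing.ResidueField A) Fk)
    (hQ : 0 ≤ Q.ord (red x)) {f : F} (hI : I f) (hft : red f ≠ 0) (D : Divisor K F)
    (hD : ∀ P, 0 ≤ D P) (hf : f ∈ riemannRochSpace D) (T : Finset (Place K F))
    (hT : ∀ P, P ∈ T ↔ (P ∈ D.support ∧ ∃ hP : m37r_InChart A x P, m37r_rho0 R C P hP = Q)) :
    0 ≤ Q.ord (red f) + ∑ P ∈ T, D P := by
  classical
  have hf0 : f ≠ 0 := m37r_ne_zero R hft
  have hmem := mem_riemannRochSpace_iff.1 hf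
  have key := m37r_pole_aux R C Q hQ T f hI hft (fun P => (D P).toNat)
    (fun P hPT => ((hT P).1 hPT).2)
    (fun P hP hPQ hPT => by
      have := (hmem P).resolve_left hf0
      rw [Int.toNat_of_nonneg (hD P)]
      omega)
    (fun P hP hPQ hPT => by
      have h1 := (hmem P).resolve_left hf0
      have h2 : D P = 0 := by
        by_contra hne
        exact hPT ((hT P).2 ⟨Finsupp.mem_support_iff.2 hne, hP, hPQ⟩)
      omega)
  have e : ∑ P ∈ T, (((D P).toNat : ℕ) : ℤ) = ∑ P ∈ T, D P :=
    Finset.sum_congr rfl fun P _ => Int.toNat_of_nonneg (hD P)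
  rw [e] at key
  exact key

end pole

end Fermat.Agent.M37

end
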