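import Fermat.Agent.M18.RrV

/-!
# M37 / (E1)(C)+(D): the abstract Riemann–Roch count `m37rr_hloc`

Given two function fields `F / K`, `Fk / k` of one variable over algebraically closed fields,
with genera `g ≤ g~`, a multiplicative "reduction" `red : F → Fk` defined on an integrality
predicate `I`, a map of places `r` such that poles specialise to poles (`hR1`) and such that
reduction is surjective on bounded pieces of equal dimension (`hsurj`), the divisor of `red y`
is the push-forward of the divisor of `y`.

* `m37rr_degree_mapDomain` : push-forward along a degree-preserving map of places preserves the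
  degree;
* `m37rr_eq_of_le` : `L(E) ⊆ L(E')`, `deg E = deg E' ≥ 2 g` imply `E = E'`;
* `m37rr_hloc` : the main statement.
-/

set_option autoImplicit false
set_option linter.style.haveILetI false
set_option linter.unusedSectionVars false
set_option linter.unusedVariables false
set_option linter.deprecated false
set_option maxHeartbeats 1600000
set_option synthInstance.maxHeartbeats 400000

noncomputable section

namespace Fermat.Agent.M37

open Fermat.Agent.S20 Fermat.Agent.S24 Fermat.Agent.M18
open AlgebraicCurve IntermediateField Module Polynomial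

section degree

variable {K F k Fk : Type*} [Field K] [Field F] [Algebra K F] [Field k] [Field Fk] [Algebra k Fk]

/-- push-forward along a degree-preserving map of places preserves the degree. -/
theorem m37rr_degree_mapDomain (r : Place K F → Place k Fk) (hdeg : ∀ P, (r P).deg = P.deg)
    (D : Divisor K F) : Divisor.degree (Finsupp.mapDomain r D) = Divisor.degree D := by
  induction D using Finsupp.induction with
  | zero => simp
  | single_add P n D _ _ ih =>
    rw [Finsupp.mapDomain_add, map_add, map_add, ih, Finsupp.mapDomain_single,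
      Divisor.degree_single, Divisor.degree_single, hdeg]

end degree

section one

variable {K F : Type*} [Field K] [Field F] [Algebra K F] [IsAlgClosed K]

/-- a divisor with non-negative coefficients has non-negative degree. -/
theorem m37rr_degree_nonneg (x : F) [FiniteDimensional K⟮x⟯ F] (D : Divisor K F)
    (hD : ∀ P, 0 ≤ D P) : 0 ≤ Divisor.degree D := by
  have h := m18rr_degree_ge x D ∅ (fun _ => 0) (fun v hv => absurd hv (Finset.notMem_empty v))
    (fun v _ => hD v)
  rwa [Finset.sum_empty] at h

/-- a non-zero divisor of degree `0` has a negative coefficient... in the form: a divisor with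
non-negative coefficients and degree `0` is `0`. -/
theorem m37rr_eq_zero_of_nonneg (x : F) [FiniteDimensional K⟮x⟯ F] (D : Divisor K F)
    (hD : ∀ P, 0 ≤ D P) (hdeg : Divisor.degree D = 0) : D = 0 := by
  classical
  ext P
  rw [Finsupp.zero_apply]
  by_contra hP
  have hpos : 1 ≤ D P := by
    have := hD P
    omega
  have h := m18rr_degree_ge x D {P} (fun _ => 1)
    (fun v hv => by rw [Finset.mem_singleton] at hv; rw [hv]; exact hpos) (fun v _ => hD v)
  rw [Finset.sum_singleton] at h
  omega

/-- **`L(E) ⊆ L(E')` with `deg E = deg E' ≥ 2 g` forces `E = E'`.** -/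
theorem m37rr_eq_of_le (x : F) (hx : Transcendental K x) [FiniteDimensional K⟮x⟯ F]
    [Algebra.IsSeparable K⟮x⟯ F] (E E' : Divisor K F)
    (hdeg : Divisor.degree E = Divisor.degree E')
    (hlarge : 2 * (finrank K (riemannRochSpace (m18rr_W (K := K) x)) : ℤ) ≤ Divisor.degree E)
    (hle : riemannRochSpace E ≤ riemannRochSpace E') : E = E' := by
  classical
  by_contra hne
  -- a place where `E' < E`
  have hex : ∃ Q, E' Q < E Q := by
    by_contra hno
    push_neg at hno
    have h0 : E' - E = 0 := by
      refine m37rr_eq_zero_of_nonneg x (E' - E) (fun P => ?_) ?_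
      · rw [Finsupp.sub_apply]
        have := hno P
        omega
      · rw [map_sub, hdeg, sub_self]
    exact hne (sub_eq_zero.1 h0).symm
  obtain ⟨Q, hQ⟩ := hex
  haveI := m18rr_finite x hx E
  haveI := m18rr_finite x hx (E - Finsupp.single Q 1)
  have hsub : riemannRochSpace E ≤ riemannRochSpace (E - Finsupp.single Q 1) := by
    intro f hf
    have hf' := hle hf
    rw [mem_riemannRochSpace_iff] at hf hf' ⊢
    intro v
    rcases eq_or_ne f 0 with h0 | h0
    · exact Or.inl h0
    right
    have h1 := (hf v).resolve_left h0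
    have h2 := (hf' v).resolve_left h0
    rw [Finsupp.sub_apply]
    by_cases hv : v = Q
    · subst hv
      rw [Finsupp.single_eq_same]
      omega
    · rw [Finsupp.single_eq_of_ne (fun h => hv h)]
      omega
  have hfr := Submodule.finrank_mono hsub
  have e1 := m18rr_finrank_of_large x hx E (by omega)
  have e2 := m18rr_finrank_of_large x hx (E - Finsupp.single Q 1) (by
    rw [map_sub, Divisor.degree_single, m18rr_deg_eq_one x Q]
    push_cast
    omega)
  rw [map_sub, Divisor.degree_single, m18rr_deg_eq_one x Q] at e2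
  push_cast at e2
  have : (finrank K (riemannRochSpace E) : ℤ)
      ≤ (finrank K (riemannRochSpace (E - Finsupp.single Q 1)) : ℤ) := by exact_mod_cast hfr
  omega

end one

section main

variable {K F k Fk : Type*} [Field K] [Field F] [Algebra K F] [IsAlgClosed K]
  [Field k] [Field Fk] [Algebra k Fk] [IsAlgClosed k]

/-- **the local compatibility (hloc) from the Riemann–Roch count.** -/
theorem m37rr_hloc
    (x : F) (hx : Transcendental K x) [FiniteDimensional K⟮x⟯ F] [Algebra.IsSeparable K⟮x⟯ F]
    (xt : Fk) (hxt : Transcendental k xt) [FiniteDimensional k⟮xt⟯ Fk]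
    [Algebra.IsSeparable k⟮xt⟯ Fk]
    (hg : finrank K (riemannRochSpace (m18rr_W (K := K) x))
      ≤ finrank k (riemannRochSpace (m18rr_W (K := k) xt)))
    (I : F → Prop) (red : F → Fk)
    (hmul : ∀ y z, I y → I z → I (y * z) ∧ red (y * z) = red y * red z)
    (r : Place K F → Place k Fk)
    (hR1 : ∀ D : Divisor K F, (∀ P, 0 ≤ D P) → ∀ f, I f → f ∈ riemannRochSpace D →
      red f ∈ riemannRochSpace (Finsupp.mapDomain r D))
    (hsurj : ∀ (V : Submodule K F) [FiniteDimensional K V] (Wt : Submodule k Fk)
      [FiniteDimensional k Wt],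
      (∀ f ∈ V, I f → red f ∈ Wt) → finrank k Wt ≤ finrank K V →
        ∀ b ∈ Wt, ∃ f ∈ V, I f ∧ red f = b)
    (y : F) (hy0 : y ≠ 0) (hy : I y) (hyt : red y ≠ 0) (D : Divisor K F)
    (hD : ∀ P, D P = P.ord y)
    (Q : Place k Fk) : Finsupp.mapDomain r D Q = Q.ord (red y) := by
  classical
  set g : ℕ := finrank K (riemannRochSpace (m18rr_W (K := K) x)) with hgdef
  set gt : ℕ := finrank k (riemannRochSpace (m18rr_W (K := k) xt)) with hgtdef
  -- the polar part of `D`
  set Dn : Divisor K F := Finsupp.mapRange (fun n : ℤ => max 0 (-n)) (by simp) D with hDn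
  have hDn_apply : ∀ P, Dn P = max 0 (-D P) := fun P => by
    rw [hDn, Finsupp.mapRange_apply]
  -- the auxiliary divisors
  set D₀ : Divisor K F := Dn + (2 * gt) • m18rr_polar (K := K) x with hD₀
  have hD₀_nonneg : ∀ P, 0 ≤ D₀ P := by
    intro P
    rw [hD₀, Finsupp.add_apply, Finsupp.smul_apply, hDn_apply]
    have h1 := m18rr_polar_nonneg x hx P
    have h2 : 0 ≤ (2 * gt) • m18rr_polar (K := K) x P := smul_nonneg (Nat.zero_le _) h1
    have h3 := le_max_left 0 (-D P)
    omega
  have hD₀'_nonneg : ∀ P, 0 ≤ (D₀ + D) P := by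
    intro P
    rw [Finsupp.add_apply, hD₀, Finsupp.add_apply, Finsupp.smul_apply, hDn_apply]
    have h1 := m18rr_polar_nonneg x hx P
    have h2 : 0 ≤ (2 * gt) • m18rr_polar (K := K) x P := smul_nonneg (Nat.zero_le _) h1
    have h3 := le_max_right 0 (-D P)
    omega
  -- degrees
  have hdegD : Divisor.degree D = 0 := m18rr_degree_div x hx D y hy0 hD
  have hn : 1 ≤ finrank K⟮x⟯ F := Nat.succ_le_of_lt finrank_pos
  have hdegDn : 0 ≤ Divisor.degree Dn := m37rr_degree_nonneg x Dn (fun P => by
    rw [hDn_apply]; exact le_max_left _ _)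
  have hdegD₀ : 2 * (gt : ℤ) ≤ Divisor.degree D₀ := by
    rw [hD₀, map_add, map_nsmul, m18rr_degree_polar x hx]
    have h1 : (2 * gt : ℤ) * 1 ≤ (2 * gt : ℤ) * (finrank K⟮x⟯ F : ℤ) :=
      mul_le_mul_of_nonneg_left (by exact_mod_cast hn) (by positivity)
    have h2 : ((2 * gt) • (finrank K⟮x⟯ F : ℤ)) = (2 * gt : ℤ) * (finrank K⟮x⟯ F : ℤ) := by
      rw [nsmul_eq_mul]; push_cast; ring
    rw [h2]
    linarith
  have hdegD₀' : Divisor.degree (D₀ + D) = Divisor.degree D₀ := by
    rw [map_add, hdegD, add_zero]
  have hrdeg : ∀ P, (r P).deg = P.deg := fun P => by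
    rw [m18rr_deg_eq_one x P, m18rr_deg_eq_one xt (r P)]
  -- the divisor of `red y`
  obtain ⟨Dt, hDt, hdegDt⟩ := (m18rr_principal xt hxt).exists_divisor (red y) hyt
  set E : Divisor k Fk := Finsupp.mapDomain r D₀ with hE
  have hdegE : Divisor.degree E = Divisor.degree D₀ := m37rr_degree_mapDomain r hrdeg D₀
  have hE' : Finsupp.mapDomain r (D₀ + D) = E + Finsupp.mapDomain r D := Finsupp.mapDomain_add
  have hdegE' : Divisor.degree (E + Finsupp.mapDomain r D) = Divisor.degree D₀ := by
    rw [← hE', m37rr_degree_mapDomain r hrdeg, hdegD₀']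
  have hgg : (g : ℤ) ≤ gt := by exact_mod_cast hg
  -- Riemann–Roch on both sides
  haveI hfinV : FiniteDimensional K (riemannRochSpace (D₀ + D)) := m18rr_finite x hx _
  haveI hfinW : FiniteDimensional k (riemannRochSpace (E + Finsupp.mapDomain r D)) :=
    m18rr_finite xt hxt _
  have e1 := m18rr_finrank_of_large x hx (D₀ + D) (by rw [hdegD₀']; omega)
  have e2 := m18rr_finrank_of_large xt hxt (E + Finsupp.mapDomain r D) (by rw [hdegE']; omega)
  rw [hdegD₀'] at e1
  rw [hdegE'] at e2
  have hfr : finrank k (riemannRochSpace (E + Finsupp.mapDomain r D))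
      ≤ finrank K (riemannRochSpace (D₀ + D)) := by
    have : (finrank k (riemannRochSpace (E + Finsupp.mapDomain r D)) : ℤ)
        ≤ (finrank K (riemannRochSpace (D₀ + D)) : ℤ) := by
      rw [e1, e2]
      omega
    exact_mod_cast this
  -- the lift
  have hlift := hsurj (riemannRochSpace (D₀ + D)) (riemannRochSpace (E + Finsupp.mapDomain r D))
    (fun f hf hI => by
      have := hR1 (D₀ + D) hD₀'_nonneg f hI hf
      rwa [hE'] at this) hfr
  -- the inclusion of Riemann–Roch spaces
  have hle : riemannRochSpace (E + Finsupp.mapDomain r D) ≤ riemannRochSpace (E + Dt) := by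
    intro b hb
    obtain ⟨h, hh, hIh, rfl⟩ := hlift b hb
    have h1 : y * h ∈ riemannRochSpace D₀ := m18rr_mul_mem_rr hy0 hD hh
    obtain ⟨hI2, hred2⟩ := hmul y h hy hIh
    have h2 : red (y * h) ∈ riemannRochSpace E := hR1 D₀ hD₀_nonneg (y * h) hI2 h1
    rw [hred2] at h2
    have h3 : (red y)⁻¹ * (red y * red h) ∈ riemannRochSpace (E + Dt) := by
      refine m18rr_mul_mem_rr (E := E + Dt) (Df := -Dt) (inv_ne_zero hyt) (fun v => ?_) ?_
      · rw [Finsupp.neg_apply, hDt v, Place.ord_inv]
      · rwa [add_neg_cancel_right]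
    rwa [inv_mul_cancel_left₀ hyt] at h3
  have hdegE'' : Divisor.degree (E + Dt) = Divisor.degree D₀ := by
    rw [map_add Divisor.degree E Dt, hdegDt, add_zero, hdegE]
  have hEq := m37rr_eq_of_le xt hxt (E + Finsupp.mapDomain r D) (E + Dt)
    (by rw [hdegE', hdegE'']) (by rw [hdegE']; exact hdegD₀) hle
  have hfin : Finsupp.mapDomain r D = Dt := add_left_cancel hEq
  rw [hfin, hDt Q]

end main

end Fermat.Agent.M37
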