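import Fermat.Agent.M37.RhoEv
import Fermat.Agent.M18.SqInt2

/-!
# M37 / (E1), part 3: abstract Gauss reductions and the integrality of values

* `m37r_Red A I red` : the abstract properties of the Gauss-integral elements `I` of `F` and of
  the reduction map `red : F → Fk` (hypothesis list of `m18sq_sq3_abs`, plus `hscale`);
* `m37r_Chart A I red x` : a coordinate `x` (Gauss-integral, transcendental reduction, (SQ3) in
  the form "minimal polynomials have Gauss-integral coefficients", (SQ7) = lifting of integral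
  elements);
* `m37r_ker` : the kernel of `red` is `𝔪_A · I`;
* `m37r_val_le_one` : the value of an element of `B₀ = I ∩ (integral closure of K[x])` at a place
  `P` with `x(P) ∈ A` lies in `A`;
* `m37r_val_sub_lt_one` : elements of `B₀` with the same reduction have congruent values.

Owner helper3, prefix `m37r_`.
-/

set_option autoImplicit false
set_option linter.deprecated false
set_option linter.style.haveILetI false
set_option linter.unusedSectionVars false
set_option linter.unusedVariables false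

noncomputable section

namespace Fermat.Agent.M37

open AlgebraicCurve IntermediateField Polynomial Fermat.Agent.S24 Fermat.Agent.M18
open scoped IntermediateField.algebraAdjoinAdjoin

section defs

variable {K F Fk : Type*} [Field K] [Field F] [Algebra K F]
  (A : ValuationSubring K) [Field Fk] [Algebra (IsLocalRing.ResidueField A) Fk]

/-- abstract Gauss reduction. -/
structure m37r_Red (I : F → Prop) (red : F → Fk) : Prop where
  h1 : I 1 ∧ red 1 = 1
  h0 : I 0 ∧ red 0 = 0
  hadd : ∀ y y', I y → I y' → I (y + y') ∧ red (y + y') = red y + red y'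
  hmul : ∀ y y', I y → I y' → I (y * y') ∧ red (y * y') = red y * red y'
  hconst : ∀ a : A, I (algebraMap K F (a : K)) ∧
    red (algebraMap K F (a : K)) = algebraMap (IsLocalRing.ResidueField A) Fk
      (IsLocalRing.residue A a)
  hunit : ∀ y, I y → red y ≠ 0 → I y⁻¹
  hA : ∀ c : K, I (algebraMap K F c) → c ∈ A
  hcont : ∀ Q : Polynomial K, Q ≠ 0 → ∃ (c : K) (P : Polynomial A), c ≠ 0 ∧
    Q = Polynomial.C c * P.map A.subtype ∧ P.map (IsLocalRing.residue A) ≠ 0
  hscale : ∀ f : F, f ≠ 0 → ∃ c : K, c ≠ 0 ∧ ∃ u, I u ∧ red u ≠ 0 ∧ f = algebraMap K F c * u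

/-- a coordinate for an abstract Gauss reduction. -/
structure m37r_Chart (I : F → Prop) (red : F → Fk) (x : F) : Prop where
  hxI : I x
  hx : Transcendental K x
  hxt : Transcendental (IsLocalRing.ResidueField A) (red x)
  hcoef : ∀ f, I f → IsIntegral (Algebra.adjoin K ({x} : Set F)) f →
    ∀ n, I (((minpoly ↥(K⟮x⟯) f).coeff n : ↥(K⟮x⟯)) : F)
  hsq7 : ∀ b : Fk, IsIntegral (Algebra.adjoin (IsLocalRing.ResidueField A) ({red x} : Set Fk)) b →
    ∃ f, I f ∧ IsIntegral (Algebra.adjoin K ({x} : Set F)) f ∧ red f = b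

end defs

section basic

variable {K F Fk : Type*} [Field K] [Field F] [Algebra K F]
  {A : ValuationSubring K} [Field Fk] [Algebra (IsLocalRing.ResidueField A) Fk]
  {I : F → Prop} {red : F → Fk} (R : m37r_Red A I red)

include R

theorem m37r_neg {y : F} (hy : I y) : I (-y) ∧ red (-y) = -red y := by
  have h1 : -y = algebraMap K F ((-1 : A) : K) * y := by
    have : ((-1 : A) : K) = -1 := rfl
    rw [this, map_neg, map_one, neg_one_mul]
  have h2 := R.hmul _ _ (R.hconst (-1)).1 hy
  rw [← h1] at h2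
  refine ⟨h2.1, ?_⟩
  rw [h2.2, (R.hconst (-1)).2, map_neg, map_one, map_neg, map_one, neg_one_mul]

theorem m37r_sub {y y' : F} (hy : I y) (hy' : I y') :
    I (y - y') ∧ red (y - y') = red y - red y' := by
  have h := R.hadd _ _ hy (m37r_neg R hy').1
  rw [← sub_eq_add_neg] at h
  refine ⟨h.1, ?_⟩
  rw [h.2, (m37r_neg R hy').2, sub_eq_add_neg]

theorem m37r_pow {y : F} (hy : I y) (n : ℕ) : I (y ^ n) ∧ red (y ^ n) = red y ^ n :=
  m18sq_abs_pow I red R.h1 R.hmul y hy n

theorem m37r_prod {ι : Type*} (s : Finset ι) (f : ι → F) (hf : ∀ i ∈ s, I (f i)) :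
    I (∏ i ∈ s, f i) ∧ red (∏ i ∈ s, f i) = ∏ i ∈ s, red (f i) := by
  classical
  induction s using Finset.induction_on with
  | empty =>
    simp only [Finset.prod_empty]
    exact R.h1
  | insert a s ha ih =>
    rw [Finset.prod_insert ha, Finset.prod_insert ha]
    have h1 := hf a (Finset.mem_insert_self a s)
    have h2 := ih fun i hi => hf i (Finset.mem_insert_of_mem hi)
    have h3 := R.hmul _ _ h1 h2.1
    exact ⟨h3.1, by rw [h3.2, h2.2]⟩

theorem m37r_ne_zero {y : F} (hy : red y ≠ 0) : y ≠ 0 := by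
  rintro rfl
  exact hy R.h0.2

/-- the inverse of a Gauss unit. -/
theorem m37r_inv {y : F} (hy : I y) (hyt : red y ≠ 0) : I y⁻¹ ∧ red y⁻¹ = (red y)⁻¹ := by
  have h1 := R.hunit y hy hyt
  refine ⟨h1, ?_⟩
  have h2 := R.hmul _ _ hy h1
  rw [mul_inv_cancel₀ (m37r_ne_zero R hyt), R.h1.2] at h2
  exact eq_inv_of_mul_eq_one_right h2.2.symm

/-- the kernel of the reduction is `𝔪_A · I`. -/
theorem m37r_ker {f : F} (hf : I f) (hft : red f = 0) (hf0 : f ≠ 0) :
    ∃ c : A, IsLocalRing.residue A c = 0 ∧ (c : K) ≠ 0 ∧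
      ∃ g, I g ∧ f = algebraMap K F (c : K) * g := by
  obtain ⟨c, hc, u, hu, hut, hfu⟩ := R.hscale f hf0
  have hu0 : u ≠ 0 := m37r_ne_zero R hut
  have hcI : I (algebraMap K F c) := by
    have : algebraMap K F c = f * u⁻¹ := by
      rw [hfu, mul_assoc, mul_inv_cancel₀ hu0, mul_one]
    rw [this]
    exact (R.hmul _ _ hf (R.hunit u hu hut)).1
  have hcA := R.hA c hcI
  refine ⟨⟨c, hcA⟩, ?_, hc, u, hu, hfu⟩
  have h2 := (R.hmul _ _ (R.hconst ⟨c, hcA⟩).1 hu).2
  have h3 : red f = algebraMap (IsLocalRing.ResidueField A) Fk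
      (IsLocalRing.residue A ⟨c, hcA⟩) * red u := by
    rw [hfu]
    rw [← (R.hconst ⟨c, hcA⟩).2]
    exact h2
  rw [hft] at h3
  rcases mul_eq_zero.mp h3.symm with h | h
  · exact (map_eq_zero _).mp h
  · exact absurd h hut

end basic

end Fermat.Agent.M37

end
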