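import Fermat.Agent.M37.RhoPole

/-!
# M37 / (E1), part 7: the specialisation map (two charts) and (R1)

Two coordinates `x`, `x⁻¹` for an abstract Gauss reduction.

* `m37r_rho R C₀ Ci : Place K F → Place k Fk` : chart `x` where `x(P) ∈ A`, chart `x⁻¹` elsewhere;
* `m37r_rho_chart` (CH) : `red x` is regular at `rho P` iff `x(P) ∈ A`;
* `m37r_rho_fin_iff`, `m37r_rho_inf_iff` : the tubes;
* `m37r_R1` : **poles specialise to poles**: `f ∈ L(D) ∩ I`, `D ≥ 0` ⇒ `red f ∈ L(rho_* D)`;
* `m37r_ev0`, `m37r_evInf`, `m37r_chart`, `m37r_cover` : the interface for the descent.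

Owner helper3, prefix `m37r_`.
-/

set_option autoImplicit false
set_option linter.deprecated false
set_option linter.style.haveILetI false
set_option linter.unusedSectionVars false
set_option linter.unusedVariables false
set_option linter.overlappingInstances false

noncomputable section

namespace Fermat.Agent.M37

open AlgebraicCurve IntermediateField Polynomial IsDedekindDomain
open Fermat.Agent.S24 Fermat.Agent.M18
open scoped IntermediateField.algebraAdjoinAdjoin

section indep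

variable {K F : Type*} [Field K] [Field F] [Algebra K F] [IsAlgClosed K]

/-- the value does not depend on the auxiliary coordinate. -/
theorem m37r_ev_indep (x y : F) [FiniteDimensional K⟮x⟯ F] [FiniteDimensional K⟮y⟯ F]
    (P : Place K F) (f : F) : m37r_ev x P f = m37r_ev y P f := by
  by_cases hf : f ∈ P.toValuationSubring
  · rw [m37r_ev_eq_iff x P hf]
    exact m37r_ev_spec y P hf
  · unfold m37r_ev
    rw [dif_neg hf, dif_neg hf]

end indep

section two

variable {K F Fk : Type*} [Field K] [Field F] [Algebra K F] [IsAlgClosed K]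
  {A : ValuationSubring K} [Field Fk] [Algebra (IsLocalRing.ResidueField A) Fk]
  [IsAlgClosed (IsLocalRing.ResidueField A)]
  {I : F → Prop} {red : F → Fk} (R : m37r_Red A I red) {x : F}
  (C₀ : m37r_Chart A I red x) (Ci : m37r_Chart A I red x⁻¹)
  [FiniteDimensional K⟮x⟯ F] [Algebra.IsSeparable K⟮x⟯ F]
  [FiniteDimensional (IsLocalRing.ResidueField A)⟮red x⟯ Fk]
  [Algebra.IsSeparable (IsLocalRing.ResidueField A)⟮red x⟯ Fk]
  [FiniteDimensional K⟮x⁻¹⟯ F] [Algebra.IsSeparable K⟮x⁻¹⟯ F]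
  [FiniteDimensional (IsLocalRing.ResidueField A)⟮red x⁻¹⟯ Fk]
  [Algebra.IsSeparable (IsLocalRing.ResidueField A)⟮red x⁻¹⟯ Fk]

include C₀ in
theorem m37r_x_ne_zero : x ≠ 0 := by
  rintro rfl
  exact C₀.hx isAlgebraic_zero

include R C₀ in
theorem m37r_redx_ne_zero : red x ≠ 0 := by
  intro h
  exact C₀.hxt (h ▸ isAlgebraic_zero)

include R C₀ Ci in
theorem m37r_red_inv : red x⁻¹ = (red x)⁻¹ :=
  (m37r_inv R C₀.hxI (m37r_redx_ne_zero R C₀)).2

include C₀ in
/-- outside of the chart of `x`, `x⁻¹` is regular with value in `𝔪_A`. -/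
theorem m37r_inv_of_not_inChart (P : Place K F) (h : ¬ m37r_InChart A x P) :
    0 ≤ P.ord x⁻¹ ∧ A.valuation (m37r_ev x⁻¹ P x⁻¹) < 1 := by
  have hx0 : x ≠ 0 := m37r_x_ne_zero C₀
  by_cases hord : 0 ≤ P.ord x
  · have hxP : x ∈ P.toValuationSubring := alga_mem_of_ord_nonneg P hord
    have hv : 1 < A.valuation (m37r_ev x P x) := by
      by_contra h'
      exact h ⟨hord, not_lt.mp h'⟩
    have ha0 : m37r_ev x P x ≠ 0 := by
      intro h0
      rw [h0, map_zero] at hv
      exact not_lt_of_ge zero_le_one hv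
    have hiP : x⁻¹ ∈ P.toValuationSubring := m37r_inv_mem x P hxP ha0
    refine ⟨alga_ord_nonneg_of_mem P hiP, ?_⟩
    have h1 : m37r_ev x P x * m37r_ev x P x⁻¹ = 1 := by
      rw [← m37r_ev_mul x P hxP hiP, mul_inv_cancel₀ hx0, m37r_ev_one]
    have h2 : m37r_ev x⁻¹ P x⁻¹ = (m37r_ev x P x)⁻¹ := by
      rw [m37r_ev_indep x⁻¹ x]
      exact eq_inv_of_mul_eq_one_right h1
    rw [h2, map_inv₀]
    exact inv_lt_one_of_one_lt₀ hv
  · have hneg : P.ord x < 0 := not_le.mp hord
    have hpos : 0 < P.ord x⁻¹ := by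
      rw [Place.ord_inv]
      omega
    refine ⟨hpos.le, ?_⟩
    have hiP : x⁻¹ ∈ P.toValuationSubring := alga_mem_of_ord_nonneg P hpos.le
    have : m37r_ev x⁻¹ P x⁻¹ = 0 := (m37r_ev_eq_zero_iff x⁻¹ P hiP).2 (Or.inr hpos)
    rw [this, map_zero]
    exact zero_lt_one

include C₀ in
theorem m37r_inChart_inv (P : Place K F) (h : ¬ m37r_InChart A x P) :
    m37r_InChart A x⁻¹ P :=
  ⟨(m37r_inv_of_not_inChart C₀ P h).1, (m37r_inv_of_not_inChart C₀ P h).2.le⟩

include C₀ in
/-- in the chart of `x`, the value of `x⁻¹` is not in `𝔪_A`. -/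
theorem m37r_not_lt_of_inChart (P : Place K F) (h : m37r_InChart A x P)
    (h' : 0 ≤ P.ord x⁻¹) : ¬ A.valuation (m37r_ev x⁻¹ P x⁻¹) < 1 := by
  have hx0 : x ≠ 0 := m37r_x_ne_zero C₀
  have hxP : x ∈ P.toValuationSubring := alga_mem_of_ord_nonneg P h.1
  have hiP : x⁻¹ ∈ P.toValuationSubring := alga_mem_of_ord_nonneg P h'
  have h1 : m37r_ev x P x * m37r_ev x P x⁻¹ = 1 := by
    rw [← m37r_ev_mul x P hxP hiP, mul_inv_cancel₀ hx0, m37r_ev_one]
  intro hlt
  rw [m37r_ev_indep x⁻¹ x] at hlt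
  have h2 := congrArg A.valuation h1
  rw [map_mul, map_one] at h2
  have h3 : A.valuation (m37r_ev x P x) * A.valuation (m37r_ev x P x⁻¹) < 1 := by
    calc A.valuation (m37r_ev x P x) * A.valuation (m37r_ev x P x⁻¹)
        ≤ 1 * A.valuation (m37r_ev x P x⁻¹) := mul_le_mul_left h.2 _
      _ = A.valuation (m37r_ev x P x⁻¹) := one_mul _
      _ < 1 := hlt
  rw [h2] at h3
  exact lt_irrefl _ h3

open Classical in
/-- **the specialisation map.** -/
def m37r_rho (P : Place K F) : Place (IsLocalRing.ResidueField A) Fk :=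
  if h : m37r_InChart A x P then m37r_rho0 R C₀ P h
  else m37r_rho0 R Ci P (m37r_inChart_inv C₀ P h)

theorem m37r_rho_of_inChart (P : Place K F) (h : m37r_InChart A x P) :
    m37r_rho R C₀ Ci P = m37r_rho0 R C₀ P h := by
  unfold m37r_rho
  rw [dif_pos h]

theorem m37r_rho_of_not_inChart (P : Place K F) (h : ¬ m37r_InChart A x P) :
    m37r_rho R C₀ Ci P = m37r_rho0 R Ci P (m37r_inChart_inv C₀ P h) := by
  unfold m37r_rho
  rw [dif_neg h]

/-- **(CH)** `red x` is regular at the specialisation of `P` iff `P` lies in the chart of `x`. -/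
theorem m37r_rho_chart (P : Place K F) :
    0 ≤ (m37r_rho R C₀ Ci P).ord (red x) ↔ m37r_InChart A x P := by
  constructor
  · intro hreg
    by_contra h
    rw [m37r_rho_of_not_inChart R C₀ Ci P h] at hreg
    have h1 := (m37r_rho0_pos_iff R Ci P (m37r_inChart_inv C₀ P h) Ci.hxI
      (m37r_isIntegral_self x⁻¹)).2 (m37r_inv_of_not_inChart C₀ P h).2
    rw [m37r_red_inv R C₀ Ci] at h1
    rcases h1 with h1 | h1
    · exact m37r_redx_ne_zero R C₀ (inv_eq_zero.mp h1)
    · rw [Place.ord_inv] at h1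
      omega
  · intro h
    rw [m37r_rho_of_inChart R C₀ Ci P h]
    exact m37r_rho0_ord_nonneg R C₀ P h (m37r_isIntegral_self (red x))

/-- the tube of a finite place. -/
theorem m37r_rho_fin_iff (Q : Place (IsLocalRing.ResidueField A) Fk)
    (hQ : 0 ≤ Q.ord (red x)) (P : Place K F) :
    m37r_rho R C₀ Ci P = Q ↔ ∃ hP : m37r_InChart A x P, m37r_rho0 R C₀ P hP = Q := by
  constructor
  · intro h
    have hP : m37r_InChart A x P := (m37r_rho_chart R C₀ Ci P).1 (by rw [h]; exact hQ)
    exact ⟨hP, by rw [← m37r_rho_of_inChart R C₀ Ci P hP]; exact h⟩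
  · rintro ⟨hP, h⟩
    rw [m37r_rho_of_inChart R C₀ Ci P hP]
    exact h

/-- the tube of an infinite place. -/
theorem m37r_rho_inf_iff (Q : Place (IsLocalRing.ResidueField A) Fk)
    (hQ : Q.ord (red x) < 0) (P : Place K F) :
    m37r_rho R C₀ Ci P = Q ↔ ∃ hP : m37r_InChart A x⁻¹ P, m37r_rho0 R Ci P hP = Q := by
  constructor
  · intro h
    have hP : ¬ m37r_InChart A x P := fun hP => by
      have := (m37r_rho_chart R C₀ Ci P).2 hP
      rw [h] at this
      omega
    exact ⟨m37r_inChart_inv C₀ P hP, by rw [← m37r_rho_of_not_inChart R C₀ Ci P hP]; exact h⟩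
  · rintro ⟨hP, h⟩
    have hlt : A.valuation (m37r_ev x⁻¹ P x⁻¹) < 1 := by
      refine (m37r_rho0_pos_iff R Ci P hP Ci.hxI (m37r_isIntegral_self x⁻¹)).1 (Or.inr ?_)
      rw [h, m37r_red_inv R C₀ Ci, Place.ord_inv]
      omega
    have hnot : ¬ m37r_InChart A x P := fun hc =>
      m37r_not_lt_of_inChart C₀ P hc hP.1 hlt
    rw [m37r_rho_of_not_inChart R C₀ Ci P hnot]
    exact h

/-- **(R1) poles specialise to poles.** -/
theorem m37r_R1 (D : Divisor K F) (hD : ∀ P, 0 ≤ D P) (f : F) (hI : I f)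
    (hf : f ∈ riemannRochSpace D) :
    red f ∈ riemannRochSpace (Finsupp.mapDomain (m37r_rho R C₀ Ci) D) := by
  classical
  rw [mem_riemannRochSpace_iff]
  intro Q
  by_cases hft : red f = 0
  · exact Or.inl hft
  right
  rw [m18c_mapDomain_apply, ← Finset.sum_filter]
  by_cases hQ : 0 ≤ Q.ord (red x)
  · have key := m37r_pole R C₀ Q hQ hI hft D hD hf
      (D.support.filter fun P => m37r_rho R C₀ Ci P = Q) (fun P => by
        rw [Finset.mem_filter, m37r_rho_fin_iff R C₀ Ci Q hQ P])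
    omega
  · have hQ' : Q.ord (red x) < 0 := not_le.mp hQ
    have hQi : 0 ≤ Q.ord (red x⁻¹) := by
      rw [m37r_red_inv R C₀ Ci, Place.ord_inv]
      omega
    have key := m37r_pole R Ci Q hQi hI hft D hD hf
      (D.support.filter fun P => m37r_rho R C₀ Ci P = Q) (fun P => by
        rw [Finset.mem_filter, m37r_rho_inf_iff R C₀ Ci Q hQ' P])
    omega

/-! ### the interface for the descent -/

/-- a zero of `x - a`, `a ∈ A`, lies in the chart of `x`. -/
theorem m37r_inChart_of_zero (x : F) [FiniteDimensional K⟮x⟯ F] (P : Place K F) (a : A)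
    (h : 0 < P.ord (x - algebraMap K F (a : K))) : m37r_InChart A x P := by
  have h0 : 0 ≤ P.ord x := m18dif_ord_nonneg_of_zero x P (a : K) h
  have hxP : x ∈ P.toValuationSubring := alga_mem_of_ord_nonneg P h0
  refine ⟨h0, ?_⟩
  have : m37r_ev x P x = (a : K) := (m37r_ev_eq_iff x P hxP _).2 (Or.inr h)
  rw [this, A.valuation_le_one_iff]
  exact a.2

include C₀ in
/-- a place of the chart of `x` is a zero of `x - a` for some `a ∈ A`. -/
theorem m37r_exists_zero_of_inChart (P : Place K F) (h : m37r_InChart A x P) :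
    ∃ a : A, 0 < P.ord (x - algebraMap K F (a : K)) := by
  have hxP : x ∈ P.toValuationSubring := alga_mem_of_ord_nonneg P h.1
  refine ⟨⟨m37r_ev x P x, (A.valuation_le_one_iff _).1 h.2⟩, ?_⟩
  rcases m37r_ev_spec x P hxP with h1 | h1
  · exact absurd (h1 ▸ isAlgebraic_algebraMap _) C₀.hx
  · exact h1

/-- evaluation commutes with reduction, one chart, in terms of orders. -/
theorem m37r_ev_chart {y : F} (C : m37r_Chart A I red y) [FiniteDimensional K⟮y⟯ F]
    [Algebra.IsSeparable K⟮y⟯ F]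
    [FiniteDimensional (IsLocalRing.ResidueField A)⟮red y⟯ Fk]
    [Algebra.IsSeparable (IsLocalRing.ResidueField A)⟮red y⟯ Fk]
    (P : Place K F) (hP : m37r_InChart A y P) (f : F) (hI : I f)
    (hf : IsIntegral (Algebra.adjoin K ({y} : Set F)) f) :
    ∃ b : A, (f = algebraMap K F (b : K) ∨ 0 < P.ord (f - algebraMap K F (b : K))) ∧
      (red f = algebraMap (IsLocalRing.ResidueField A) Fk (IsLocalRing.residue A b) ∨
        0 < (m37r_rho0 R C P hP).ord
          (red f - algebraMap (IsLocalRing.ResidueField A) Fk (IsLocalRing.residue A b))) := by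
  have hfP := m37r_mem_of_integral C hf P hP.1
  have hb := m37r_val_le_one R C hI hf P hP.1 hP.2
  set b : A := ⟨m37r_ev y P f, (A.valuation_le_one_iff _).1 hb⟩ with hbdef
  refine ⟨b, m37r_ev_spec y P hfP, ?_⟩
  have hg := m37r_sub R hI (R.hconst b).1
  have hgint : IsIntegral (Algebra.adjoin K ({y} : Set F)) (f - algebraMap K F (b : K)) :=
    hf.sub (m37r_isIntegral_const y _)
  have hev : m37r_ev y P (f - algebraMap K F (b : K)) = 0 := by
    rw [m37r_ev_sub y P hfP (P.algebraMap_mem' _), m37r_ev_const]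
    exact sub_self _
  have h := (m37r_rho0_pos_iff R C P hP hg.1 hgint).2 (by
    rw [hev, map_zero]
    exact zero_lt_one)
  rw [hg.2, (R.hconst b).2] at h
  rcases h with h | h
  · exact Or.inl (sub_eq_zero.mp h)
  · exact Or.inr h

/-- **(EV0)** evaluation commutes with reduction on the chart of `x`. -/
theorem m37r_ev0 (P : Place K F) (a : A) (ha : 0 < P.ord (x - algebraMap K F (a : K)))
    (f : F) (hI : I f) (hf : IsIntegral (Algebra.adjoin K ({x} : Set F)) f) :
    ∃ b : A, (f = algebraMap K F (b : K) ∨ 0 < P.ord (f - algebraMap K F (b : K))) ∧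
      (red f = algebraMap (IsLocalRing.ResidueField A) Fk (IsLocalRing.residue A b) ∨
        0 < (m37r_rho R C₀ Ci P).ord
          (red f - algebraMap (IsLocalRing.ResidueField A) Fk (IsLocalRing.residue A b))) := by
  have hP := m37r_inChart_of_zero (A := A) x P a ha
  rw [m37r_rho_of_inChart R C₀ Ci P hP]
  exact m37r_ev_chart R C₀ P hP f hI hf

/-- **(EV∞)** evaluation commutes with reduction on the chart of `x⁻¹`, outside of the chart of
`x`. -/
theorem m37r_evInf (P : Place K F) (a : A) (hres : IsLocalRing.residue A a = 0)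
    (ha : x⁻¹ = algebraMap K F (a : K) ∨ 0 < P.ord (x⁻¹ - algebraMap K F (a : K)))
    (f : F) (hI : I f) (hf : IsIntegral (Algebra.adjoin K ({x⁻¹} : Set F)) f) :
    ∃ b : A, (f = algebraMap K F (b : K) ∨ 0 < P.ord (f - algebraMap K F (b : K))) ∧
      (red f = algebraMap (IsLocalRing.ResidueField A) Fk (IsLocalRing.residue A b) ∨
        0 < (m37r_rho R C₀ Ci P).ord
          (red f - algebraMap (IsLocalRing.ResidueField A) Fk (IsLocalRing.residue A b))) := by
  have ha' : 0 < P.ord (x⁻¹ - algebraMap K F (a : K)) := by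
    rcases ha with h | h
    · exact absurd (h ▸ isAlgebraic_algebraMap _) Ci.hx
    · exact h
  have hP := m37r_inChart_of_zero (A := A) x⁻¹ P a ha'
  have hiP : x⁻¹ ∈ P.toValuationSubring := alga_mem_of_ord_nonneg P hP.1
  have hval : m37r_ev x⁻¹ P x⁻¹ = (a : K) := (m37r_ev_eq_iff x⁻¹ P hiP _).2 (Or.inr ha')
  have hlt : A.valuation (m37r_ev x⁻¹ P x⁻¹) < 1 := by
    rw [hval, ← A.valuation_lt_one_iff]
    exact (IsLocalRing.residue_eq_zero_iff a).mp hres
  have hnot : ¬ m37r_InChart A x P := fun hc => m37r_not_lt_of_inChart C₀ P hc hP.1 hlt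
  rw [m37r_rho_of_not_inChart R C₀ Ci P hnot]
  exact m37r_ev_chart R Ci P _ f hI hf

/-- **(CH)** in terms of zeros. -/
theorem m37r_chart (P : Place K F) :
    0 ≤ (m37r_rho R C₀ Ci P).ord (red x) ↔
      ∃ a : A, 0 < P.ord (x - algebraMap K F (a : K)) := by
  rw [m37r_rho_chart]
  exact ⟨m37r_exists_zero_of_inChart C₀ P, fun ⟨a, ha⟩ => m37r_inChart_of_zero x P a ha⟩

include C₀ Ci in
/-- every place lies in the chart of `x` or is a zero of `x⁻¹ - a` with `a ∈ 𝔪_A`. -/
theorem m37r_cover (P : Place K F) :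
    (∃ a : A, 0 < P.ord (x - algebraMap K F (a : K))) ∨
      ∃ a : A, IsLocalRing.residue A a = 0 ∧ 0 < P.ord (x⁻¹ - algebraMap K F (a : K)) := by
  by_cases h : m37r_InChart A x P
  · exact Or.inl (m37r_exists_zero_of_inChart C₀ P h)
  · right
    have h1 := m37r_inv_of_not_inChart C₀ P h
    have hiP : x⁻¹ ∈ P.toValuationSubring := alga_mem_of_ord_nonneg P h1.1
    refine ⟨⟨m37r_ev x⁻¹ P x⁻¹, (A.valuation_le_one_iff _).1 h1.2.le⟩, ?_, ?_⟩
    · rw [IsLocalRing.residue_eq_zero_iff, A.valuation_lt_one_iff]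
      exact h1.2
    · rcases m37r_ev_spec x⁻¹ P hiP with h2 | h2
      · exact absurd (h2 ▸ isAlgebraic_algebraMap _) Ci.hx
      · exact h2

end two

end Fermat.Agent.M37

end
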