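import Fermat.Agent.M18.DifPlaceW

/-!
# M37 / (E1), part 1: the value homomorphism of a place

`K` algebraically closed, `F / K` a function field (`[F : K(x)] < ∞`).  The residue field of a
place `v` is `K`, hence there is a ring homomorphism `m37r_val x v : O_v →+* K`, "the value at
`v`".

Owner helper3, prefix `m37r_`.
-/

set_option autoImplicit false
set_option linter.deprecated false
set_option linter.style.haveILetI false
set_option linter.unusedSectionVars false
set_option linter.unusedVariables false

noncomputable section

namespace Fermat.Agent.M37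

open AlgebraicCurve IntermediateField Fermat.Agent.S24 Fermat.Agent.M18

section val

variable {K F : Type*} [Field K] [Field F] [Algebra K F] [IsAlgClosed K]

/-- the value ring homomorphism at a place. -/
def m37r_val (x : F) [FiniteDimensional K⟮x⟯ F] (v : Place K F) : v.toValuationSubring →+* K :=
  ((RingEquiv.ofBijective (algebraMap K v.ResidueField)
      ⟨(algebraMap K v.ResidueField).injective,
        alga_algebraMap_residueField_surjective x v⟩).symm :
    v.ResidueField →+* K).comp (IsLocalRing.residue v.toValuationSubring)

theorem m37r_val_spec (x : F) [FiniteDimensional K⟮x⟯ F] (v : Place K F)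
    (f : v.toValuationSubring) :
    algebraMap K v.ResidueField (m37r_val x v f) = IsLocalRing.residue v.toValuationSubring f := by
  unfold m37r_val
  rw [RingHom.comp_apply]
  exact (RingEquiv.ofBijective (algebraMap K v.ResidueField)
      ⟨(algebraMap K v.ResidueField).injective,
        alga_algebraMap_residueField_surjective x v⟩).apply_symm_apply _

/-- the value of `f` is `b` iff `f - b` lies in the maximal ideal. -/
theorem m37r_val_eq_iff (x : F) [FiniteDimensional K⟮x⟯ F] (v : Place K F)
    (f : v.toValuationSubring) (b : K) :
    m37r_val x v f = b ↔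
      (f : F) = algebraMap K F b ∨ 0 < v.ord ((f : F) - algebraMap K F b) := by
  have hinj : Function.Injective (algebraMap K v.ResidueField) :=
    (algebraMap K v.ResidueField).injective
  have hb : algebraMap K v.ResidueField b =
      IsLocalRing.residue v.toValuationSubring (algebraMap K v.toValuationSubring b) := by
    rw [IsScalarTower.algebraMap_apply K v.toValuationSubring v.ResidueField,
      IsLocalRing.ResidueField.algebraMap_eq]
  rw [← hinj.eq_iff, m37r_val_spec, hb, ← sub_eq_zero, ← map_sub,
    IsLocalRing.residue_eq_zero_iff, alga_mem_maximalIdeal_iff]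
  have hcoe : ((f - algebraMap K v.toValuationSubring b : v.toValuationSubring) : F)
      = (f : F) - algebraMap K F b := rfl
  rw [hcoe]
  constructor
  · rintro (h | h)
    · left
      have := congrArg Subtype.val h
      rw [hcoe] at this
      exact sub_eq_zero.mp this
    · exact Or.inr h
  · rintro (h | h)
    · left
      apply Subtype.ext
      rw [hcoe, h, sub_self]
      rfl
    · exact Or.inr h

theorem m37r_val_const (x : F) [FiniteDimensional K⟮x⟯ F] (v : Place K F) (a : K)
    (h : algebraMap K F a ∈ v.toValuationSubring) :
    m37r_val x v ⟨algebraMap K F a, h⟩ = a := by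
  rw [m37r_val_eq_iff]
  exact Or.inl rfl

/-- the value vanishes iff `f = 0` or `f` has a zero. -/
theorem m37r_val_eq_zero_iff (x : F) [FiniteDimensional K⟮x⟯ F] (v : Place K F)
    (f : v.toValuationSubring) :
    m37r_val x v f = 0 ↔ (f : F) = 0 ∨ 0 < v.ord (f : F) := by
  rw [m37r_val_eq_iff, map_zero, sub_zero]

/-- the value is nonzero iff the order is `0`. -/
theorem m37r_val_ne_zero_iff (x : F) [FiniteDimensional K⟮x⟯ F] (v : Place K F)
    (f : v.toValuationSubring) :
    m37r_val x v f ≠ 0 ↔ (f : F) ≠ 0 ∧ v.ord (f : F) = 0 := by
  rw [Ne, m37r_val_eq_zero_iff]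
  have h0 : 0 ≤ v.ord (f : F) := alga_ord_nonneg_of_mem v f.2
  constructor
  · intro h
    push Not at h
    exact ⟨h.1, by omega⟩
  · rintro ⟨h1, h2⟩ (h | h)
    · exact h1 h
    · omega

end val

end Fermat.Agent.M37

end
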